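import Fermat.Agent.MWJ0.MordellWeil
import Fermat.Agent.Reduction.Facts

/-!
# The modular function field of level `N` as Mordell–Weil data
-/

set_option autoImplicit false

noncomputable section

open AlgebraicCurve ModularCurve Module IntermediateField Fermat.Agent.FunctionFieldRR

namespace Fermat.Agent.MWJ0

variable (L : Type) [Field L] [Algebra ℚ L] (N : ℕ)

/-- The base change of the rational modular function field is generated by the `j(q^d)`. -/
theorem laurentBaseChange_full_eq :
    laurentBaseChange L (modularFunctionFieldFull N) = modularFunctionFieldFullC L N := by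
  refine le_antisymm ?_ ?_
  · rw [laurentBaseChange, IntermediateField.adjoin_le_iff]
    rintro _ ⟨x, hx, rfl⟩
    rw [SetLike.mem_coe]
    induction hx using IntermediateField.adjoin_induction with
    | mem x hx =>
      obtain ⟨d, hne, hd, rfl⟩ := hx
      rw [Reduction.coeffEmb_qExpand_jq]
      exact subset_adjoin _ _ ⟨d, hne, hd, rfl⟩
    | algebraMap x =>
      rw [algebraMap_laurentSeries_eq_single, coeffEmb, coeffMap_single,
        ← algebraMap_laurentSeries_eq_single]
      exact IntermediateField.algebraMap_mem _ _
    | add x y _ _ hx hy => rw [map_add]; exact add_mem hx hy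
    | inv x _ hx => rw [map_inv₀]; exact inv_mem hx
    | mul x y _ _ hx hy => rw [map_mul]; exact mul_mem hx hy
  · rw [modularFunctionFieldFullC, IntermediateField.adjoin_le_iff]
    rintro _ ⟨d, hne, hd, rfl⟩
    rw [← Reduction.coeffEmb_qExpand_jq]
    exact coeffEmb_mem_laurentBaseChange _ (jqd_mem_full N hd)

variable [IsAlgClosed L] [NeZero N]

theorem natCast_ne_zero_of_algebra : (N : L) ≠ 0 := by
  have : CharZero L := charZero_of_injective_algebraMap (algebraMap ℚ L).injective
  exact Nat.cast_ne_zero.mpr (NeZero.ne N)

/-- Riemann–Roch data of `L(j(q^d) : d ∣ N)`. -/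
def rrDataFullC : RRData L (modularFunctionFieldFullC L N) :=
  haveI hfin := Reduction.finiteDimensional_jC L N (natCast_ne_zero_of_algebra L N)
  haveI hsep := Reduction.isSeparable_jC L N (natCast_ne_zero_of_algebra L N)
  haveI : IsFunctionField L (modularFunctionFieldFullC L N) :=
    IsFunctionField.of_finiteDimensional _ (Reduction.transcendental_jC L N)
  { g := genusOf (Reduction.transcendental_jC L N)
    hasPrincipal := FunctionFieldRR.hasPrincipalDivisors
    deg_one := deg_eq_one
    finite := fun D => finiteDimensional_riemannRochSpace D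
    dim_eq := fun D hD => finrank_eq_of_degree_gt (Reduction.transcendental_jC L N) (by omega) }

/-- Riemann–Roch data of the base change. -/
def rrDataFull : RRData L (laurentBaseChange L (modularFunctionFieldFull N)) :=
  (laurentBaseChange_full_eq L N).symm ▸ rrDataFullC L N

variable {L}

omit [NeZero N] in
theorem jq_mem_full : jq ∈ modularFunctionFieldFull N := by
  simpa [qExpand_one_apply] using jqd_mem_full N (one_dvd N)

theorem order_jq : (jq : LaurentSeries ℚ).order = -1 := by
  have h1 : (jq : LaurentSeries ℚ).coeff (-1) = 1 := coeff_jqModC_neg_one ℚ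
  refine le_antisymm (HahnSeries.order_le_of_coeff_ne_zero (by rw [h1]; exact one_ne_zero)) ?_
  rw [HahnSeries.le_order_iff_forall (fun h => by simp [h] at h1)]
  intro j hj
  exact coeff_jqModC_of_lt ℚ hj

/-- The Mordell–Weil data of `X₀(N)`. -/
def modularSetup : Setup where
  F₀ := modularFunctionFieldFull N
  x₀ := jq
  x₀_mem := jq_mem_full N
  x₀_order := order_jq
  rr L _ _ _ := rrDataFull L N

/-- Mordell–Weil for `J₀(N)`. -/
theorem fg_fixedPoints_JZero :
    AddGroup.FG (FixedPoints.addSubgroup (AlgebraicClosure ℚ ≃ₐ[ℚ] AlgebraicClosure ℚ) (JZero N)) :=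
  (modularSetup N).fg_ratPts

end Fermat.Agent.MWJ0
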