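import Fermat.Agent.J0Torsion.Main

/-!
# The torsion of the Jacobian of `X₀(N)` over `ℂ` is finite

A torsion class is determined by the multiplier of a root.
-/

set_option autoImplicit false

noncomputable section

open AlgebraicCurve CongruenceSubgroup

namespace Fermat.Agent.MWJ0

open X0Analytic (FLevel)

variable {N : ℕ} [NeZero N]

/-- The `n`-torsion of the Jacobian of `X₀(N)` over `ℂ` is finite. -/
theorem finite_torsion_complex {n : ℕ} (hn : n ≠ 0) :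
    {x : Pic0 ℂ ↥(FLevel ℂ N) | n • x = 0}.Finite := by
  have := X0Analytic.isFunctionField (N := N) (RingHom.id ℂ)
  have : NeZero n := ⟨hn⟩
  have key : ∀ x : {x : Pic0 ℂ ↥(FLevel ℂ N) | n • x = 0},
      ∃ (D : Divisor.degZero (K := ℂ) (F := ↥(FLevel ℂ N))) (f : ↥(FLevel ℂ N))
        (χ : Gamma0 N →* ℂ), Pic0.mk D = x.1 ∧ f ≠ 0 ∧
        (∀ P : Place ℂ ↥(FLevel ℂ N), (n : ℤ) * (D : Divisor ℂ ↥(FLevel ℂ N)) P = P.ord f) ∧
        J0Torsion.HasChar N n (f : LaurentSeries ℂ) χ := by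
    rintro ⟨x, hx⟩
    obtain ⟨D, rfl⟩ := Pic0.mk_surjective x
    have h0 : Pic0.mk (n • D) = 0 := (QuotientAddGroup.mk_nsmul _ D n).trans hx
    obtain ⟨f, hf, hD⟩ := AddSubgroup.mem_addSubgroupOf.mp ((QuotientAddGroup.eq_zero_iff _).mp h0)
    have hdiv : ∀ P : Place ℂ ↥(FLevel ℂ N),
        (n : ℤ) * (D : Divisor ℂ ↥(FLevel ℂ N)) P = P.ord f := fun P => by
      rw [← hD P, AddSubgroup.coe_nsmul, Finsupp.smul_apply, nsmul_eq_mul]
    obtain ⟨χ, -, hχ⟩ := J0Torsion.exists_char_of_dvd_ord (RingHom.id ℂ) hn hf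
      fun P => ⟨_, (hdiv P).symm⟩
    rw [ModularCurve.coeffMap_id] at hχ
    exact ⟨D, f, χ, rfl, hf, hdiv, hχ⟩
  choose D f χ hD hf hdiv hχ using key
  have := (J0Torsion.finite_charPow N hn).to_subtype
  rw [← Set.finite_coe_iff]
  refine Finite.of_injective
    (fun x => (⟨χ x, (hχ x).pow_eq_one⟩ : {ψ : Gamma0 N →* ℂ | ψ ^ n = 1})) fun x y h => ?_
  have hxy : χ x = χ y := congrArg Subtype.val h
  have h1 : J0Torsion.HasChar N n ((f x * (f y)⁻¹ : ↥(FLevel ℂ N)) : LaurentSeries ℂ) 1 := by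
    have h2 := (hχ x).mul ((hχ y).inv hn)
    rw [← hxy, ← pow_succ', Nat.sub_add_cancel (Nat.one_le_iff_ne_zero.mpr hn),
      (hχ x).pow_eq_one] at h2
    simpa using h2
  obtain ⟨g, hg⟩ := J0Torsion.exists_pow_eq_of_hasChar_one h1
  have hne : f x * (f y)⁻¹ ≠ 0 := mul_ne_zero (hf x) (inv_ne_zero (hf y))
  have hg0 : g ≠ 0 := fun h0 => hne (by rw [← hg, h0, zero_pow hn])
  refine Subtype.ext ?_
  rw [← hD x, ← hD y]
  refine Eq.symm (QuotientAddGroup.eq.mpr (AddSubgroup.mem_addSubgroupOf.mpr ⟨g, hg0, fun P => ?_⟩))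
  refine mul_left_cancel₀ (Int.natCast_ne_zero.mpr hn) ?_
  rw [AddSubgroup.coe_add, NegMemClass.coe_neg, Finsupp.add_apply, Finsupp.neg_apply, mul_add,
    mul_neg, hdiv, hdiv, ← FunctionFieldRR.ord_pow, hg, P.ord_mul (hf x) (inv_ne_zero (hf y)),
    P.ord_inv]
  ring

end Fermat.Agent.MWJ0

end
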