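import Fermat.Agent.MWJ0.DivisibleMul
import Fermat.Agent.MWJ0.TorsionComplex
import Fermat.Agent.MWJ0.Instance

/-!
# `J₀(N)(ℚ̄)` is divisible
-/

set_option autoImplicit false

noncomputable section

open AlgebraicCurve ModularCurve

namespace Fermat.Agent.MWJ0

/-- **`J₀(N)(ℚ̄)` is divisible.** -/
theorem jZero_divisible (N : ℕ) [NeZero N] {n : ℕ} (hn : n ≠ 0) (x : JZero N) :
    ∃ y : JZero N, n • y = x := by
  obtain ⟨k, rfl⟩ := Nat.exists_eq_succ_of_ne_zero hn
  exact (modularSetup N).exists_nsmul_eq k (finite_torsion_complex k.succ_ne_zero) x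

end Fermat.Agent.MWJ0

end
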