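import Mathlib.FieldTheory.IsAlgClosed.Classification
import Mathlib.FieldTheory.AlgebraicClosure
import Mathlib.FieldTheory.Galois.Infinite
import Mathlib.RingTheory.AlgebraicIndependent.TranscendenceBasis

/-!
# Automorphisms of algebraically closed fields: fixed fields and finite orbits
-/

set_option autoImplicit false

noncomputable section

namespace Fermat.Agent.MWJ0

open MvPolynomial

variable {k L : Type*} [Field k] [Field L] [Algebra k L] [IsAlgClosed L]

lemma exists_ringEquiv_extend {ι : Type*} {v : ι → L} (hv : IsTranscendenceBasis k v)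
    (ψ : MvPolynomial ι k ≃+* MvPolynomial ι k) :
    ∃ σ : L ≃+* L, ∀ p, σ (aeval v p) = aeval v (ψ p) := by
  let : IsAlgClosure (Algebra.adjoin k (Set.range v)) L :=
    IsAlgClosed.isAlgClosure_of_transcendence_basis v hv
  let e : Algebra.adjoin k (Set.range v) ≃+* Algebra.adjoin k (Set.range v) :=
    (hv.1.aevalEquiv.symm.toRingEquiv.trans ψ).trans hv.1.aevalEquiv.toRingEquiv
  refine ⟨IsAlgClosure.equivOfEquiv L L e, fun p => ?_⟩
  have h := IsAlgClosure.equivOfEquiv_algebraMap L L e (hv.1.aevalEquiv p)
  rw [hv.1.algebraMap_aevalEquiv] at h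
  rw [h]
  simp [e, hv.1.algebraMap_aevalEquiv]

/-- A transcendental element can be translated by any element of the base. -/
lemma exists_algEquiv_add {x : L} (hx : Transcendental k x) (a : k) :
    ∃ σ : L ≃ₐ[k] L, σ x = x + algebraMap k L a := by
  classical
  obtain ⟨s, hxs, hs⟩ := exists_isTranscendenceBasis_superset
    (R := k) (s := ({x} : Set L))
    (algebraicIndependent_singleton_iff (R := k) (x := (fun i : ({x} : Set L) => (i : L))) ⟨x, rfl⟩
      |>.mpr hx)
  let i0 : s := ⟨x, hxs rfl⟩
  let f : MvPolynomial s k →ₐ[k] MvPolynomial s k :=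
    aeval fun i => if i = i0 then X i + C a else X i
  let g : MvPolynomial s k →ₐ[k] MvPolynomial s k :=
    aeval fun i => if i = i0 then X i - C a else X i
  let φ : MvPolynomial s k ≃ₐ[k] MvPolynomial s k := AlgEquiv.ofAlgHom f g
    (by ext i; by_cases h : i = i0 <;> simp [f, g, h])
    (by ext i; by_cases h : i = i0 <;> simp [f, g, h])
  obtain ⟨σ, hσ⟩ := exists_ringEquiv_extend hs φ.toRingEquiv
  refine ⟨AlgEquiv.ofRingEquiv (f := σ) fun c => ?_, ?_⟩
  · have := hσ (C c)
    simpa [φ, f] using this
  · have := hσ (X i0)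
    simpa [φ, f, i0] using this

/-- An element moved by no automorphism lies in the base field. -/
theorem mem_range_of_forall_algEquiv_fixed [CharZero k] {x : L}
    (hx : ∀ σ : L ≃ₐ[k] L, σ x = x) : x ∈ Set.range (algebraMap k L) := by
  by_cases halg : IsAlgebraic k x
  · let K := algebraicClosure k L
    have hxK : x ∈ K := mem_algebraicClosure_iff.mpr halg
    have : IsAlgClosure k K := algebraicClosure.isAlgClosure k L
    have : Algebra.IsAlgebraic k K := IsAlgClosure.isAlgebraic
    have : IsGalois k K :=
      haveI : Normal k K := IsAlgClosure.normal k K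
      haveI : Algebra.IsSeparable k K := Algebra.IsAlgebraic.isSeparable_of_perfectField
      IsGalois.mk
    have hmem : (⟨x, hxK⟩ : K) ∈ (⊥ : IntermediateField k K) := by
      rw [InfiniteGalois.mem_bot_iff_fixed]
      intro τ
      obtain ⟨s, hs⟩ := exists_isTranscendenceBasis K L
      obtain ⟨σ, hσ⟩ := exists_ringEquiv_extend hs (MvPolynomial.mapEquiv s τ.toRingEquiv)
      have hC : ∀ c : K, σ (c : L) = (τ c : L) := fun c => by
        have := hσ (C c)
        simpa using this
      let σ' : L ≃ₐ[k] L := AlgEquiv.ofRingEquiv (f := σ) fun c => by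
        have := hC (algebraMap k K c)
        rwa [τ.commutes] at this
      have h1 : σ x = x := hx σ'
      exact Subtype.ext ((hC ⟨x, hxK⟩).symm.trans h1)
    obtain ⟨c, hc⟩ := IntermediateField.mem_bot.mp hmem
    exact ⟨c, congrArg Subtype.val hc⟩
  · obtain ⟨σ, hσ⟩ := exists_algEquiv_add (k := k) halg 1
    rw [hx σ] at hσ
    simp at hσ

/-- An element with finite orbit is algebraic. -/
theorem isAlgebraic_of_finite_orbit [CharZero k] {x : L}
    (hx : (Set.range fun σ : L ≃ₐ[k] L => σ x).Finite) : IsAlgebraic k x := by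
  by_contra h
  have hinj : Function.Injective fun n : ℕ => x + algebraMap k L (n : k) := fun m n e => by
    have := (algebraMap k L).injective (add_left_cancel e)
    exact_mod_cast this
  refine (Set.infinite_range_of_injective hinj) (hx.subset ?_)
  rintro _ ⟨n, rfl⟩
  obtain ⟨σ, hσ⟩ := exists_algEquiv_add (k := k) h (n : k)
  exact ⟨σ, hσ⟩

end Fermat.Agent.MWJ0

end
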