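import Fermat.Agent.MWJ0.Regular

/-!
# `L(b·∞)` has the same rational structure over every algebraically closed field
-/

set_option autoImplicit false

noncomputable section

open AlgebraicCurve ModularCurve Module HahnSeries

namespace Fermat.Agent.MWJ0

/-- Functions with order at `w` bounded below. -/
def boundedSub {K F : Type*} [Field K] [Field F] [Algebra K F] (w : Place K F) (k : ℤ) :
    Submodule K F where
  carrier := {f | LowerBd w f k}
  zero_mem' := Or.inl rfl
  add_mem' := LowerBd.add
  smul_mem' c f hf := by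
    show LowerBd w (c • f) k
    rw [Algebra.smul_def]
    exact ((lowerBd_algebraMap w c).mul hf).mono (le_of_eq (zero_add k).symm)

lemma mem_boundedSub {K F : Type*} [Field K] [Field F] [Algebra K F] {w : Place K F} {k : ℤ}
    {f : F} : f ∈ boundedSub w k ↔ LowerBd w f k := Iff.rfl

namespace Setup

variable (S : Setup) (L : Type) [Field L] [Algebra ℚ L] [IsAlgClosed L]

local notation "Qb" => AlgebraicClosure ℚ
local notation "FQ" => laurentBaseChange (AlgebraicClosure ℚ) S.F₀

lemma g_le : (S.rr L).g ≤ S.g := by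
  set b : ℤ := 2 * (S.g : ℤ) + 2 * ((S.rr L).g : ℤ)
  have h1 := Submodule.finrank_mono (S.V_le_S0 L b)
  rw [V, finrank_S0, finrank_S0] at h1
  have h2 := S.finrank_Sb Qb (b := b) (by show 2 * (S.g : ℤ) ≤ b; omega)
  have h3 := S.finrank_Sb L (b := b) (by omega)
  have : (S.rr Qb).g = S.g := rfl
  omega

lemma pow_mem_Sb {b : ℤ} {s : LaurentSeries L} (hs : s ∈ S.Sb L b) (k : ℕ) :
    s ^ k ∈ S.Sb L (k * b) := by
  induction k with
  | zero => simpa using S.one_mem_Sb L le_rfl
  | succ k ih =>
      have := S.mul_mem_Sb L ih hs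
      rw [← pow_succ] at this
      simpa [add_mul] using this

lemma S0_le_V (b : ℤ) : S.S0 L b ≤ S.V b := by
  classical
  intro f hf
  rcases eq_or_ne f 0 with rfl | hf0
  · exact zero_mem _
  have hord : -b ≤ f.order :=
    order_coeffEmb L f ▸ S.neg_le_order_of_mem_Sb L hf
      ((map_ne_zero_iff _ (coeffEmb_injective L)).mpr hf0)
  let fF : S.F₀ := ⟨f, S.mem_F₀_of_mem_S0 L hf⟩
  set x : FQ := S.el Qb fF with hxdef
  have hx : x ≠ 0 := S.el_ne_zero (f := fF) hf0
  show ((x : FQ) : LaurentSeries Qb) ∈ S.Sb Qb b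
  rw [mem_Sb, mem_Lsp_of_ne_zero hx]
  intro w
  rcases eq_or_ne w (S.inf Qb) with rfl | hw
  · rw [binf, Finsupp.single_eq_same, ord_inf S Qb hx]
    show -b ≤ (coeffEmb Qb f).order
    rwa [order_coeffEmb]
  rw [binf, Finsupp.single_eq_of_ne hw, neg_zero]
  by_contra hneg
  push Not at hneg
  have hb0 : 0 ≤ b := by
    by_contra hb
    apply hf0
    apply coeffEmb_injective L
    rw [map_zero]
    exact S.eq_zero_of_window L hf fun k hk => by simp at hk; omega
  let h := S.rr Qb
  set J : ℕ := S.g + 1 with hJ
  set B : ℤ := (J : ℤ) * b + 2 * S.g + 1 with hB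
  have hJb : 0 ≤ (J : ℤ) * b := mul_nonneg (Int.natCast_nonneg _) hb0
  let W : Submodule Qb (LaurentSeries Qb) := Submodule.span Qb (coeffEmb Qb '' (S.S0 L B : Set _))
  have : Module.Finite Qb W := finite_span_coeffEmb Qb (S.S0 L B)
  have hsub : S.Sb Qb B ≤ W := by
    rw [S.Sb_eq_span Qb]
    exact Submodule.span_mono (Set.image_mono (S.V_le_S0 L B))
  have step : ∀ j : ℕ, j ≤ J → ∃ U : Submodule Qb (LaurentSeries Qb), U ≤ W ∧
      U ≤ (boundedSub w ((j : ℤ) * w.ord x)).map (S.val Qb) ∧
      (B + 1 - S.g + j : ℤ) ≤ finrank Qb U := by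
    intro j
    induction j with
    | zero =>
        intro _
        refine ⟨S.Sb Qb B, hsub, Submodule.map_mono fun q hq => ?_, ?_⟩
        · have hq' := mem_Lsp.mp hq w
          rw [binf, Finsupp.single_eq_of_ne hw, neg_zero] at hq'
          show LowerBd w q (((0 : ℕ) : ℤ) * w.ord x)
          rw [Nat.cast_zero, zero_mul]
          exact hq'
        · have := S.finrank_Sb Qb (b := B) (by show 2 * (S.g : ℤ) ≤ B; omega)
          have e : (S.rr Qb).g = S.g := rfl
          omega
    | succ j ih =>
        intro hj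
        obtain ⟨U, hUW, hUD, hUdim⟩ := ih (by omega)
        set n : ℤ := B - ((j + 1 : ℕ) : ℤ) * b with hn
        have hn1 : 2 * (S.g : ℤ) + 1 ≤ n := by
          have : ((j + 1 : ℕ) : ℤ) * b ≤ (J : ℤ) * b :=
            mul_le_mul_of_nonneg_right (by exact_mod_cast hj) hb0
          omega
        have hnot := h.Lsp_sub_single_ne (S.binf Qb n) w (by
          rw [degree_binf]; show 2 * (S.g : ℤ) < n; omega)
        obtain ⟨q, hq, hqn⟩ := SetLike.not_le_iff_exists.mp hnot
        have hq0 : q ≠ 0 := fun e => hqn (e ▸ zero_mem _)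
        have hqw : w.ord q = 0 := by
          have h1 := (mem_Lsp_of_ne_zero hq0).mp hq w
          rw [binf, Finsupp.single_eq_of_ne hw, neg_zero] at h1
          refine le_antisymm (not_lt.mp fun hlt => hqn ?_) h1
          rw [mem_Lsp_of_ne_zero hq0]
          intro u
          rcases eq_or_ne u w with rfl | hu
          · rw [Finsupp.sub_apply, Finsupp.single_eq_same, binf, Finsupp.single_eq_of_ne hw]
            omega
          · rw [Finsupp.sub_apply, Finsupp.single_eq_of_ne hu, sub_zero]
            exact (mem_Lsp_of_ne_zero hq0).mp hq u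
        have hxq0 : x ^ (j + 1) * q ≠ 0 := mul_ne_zero (pow_ne_zero _ hx) hq0
        have hoxq : w.ord (x ^ (j + 1) * q) = ((j + 1 : ℕ) : ℤ) * w.ord x := by
          rw [w.ord_mul (pow_ne_zero _ hx) hq0, hqw, add_zero, ord_pow]
        set s : LaurentSeries Qb := ((x ^ (j + 1) * q : FQ) : LaurentSeries Qb) with hs
        have hs' : s = coeffEmb Qb (f ^ (j + 1)) * (q : LaurentSeries Qb) := by
          rw [hs, MulMemClass.coe_mul, SubmonoidClass.coe_pow, map_pow]; rfl
        have hxqW : s ∈ W := by
          have hq' : (q : LaurentSeries Qb) ∈ Submodule.span Qb (coeffEmb Qb '' (S.V n : Set _)) := by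
            have := (S.mem_Sb Qb).mpr hq
            rwa [S.Sb_eq_span Qb] at this
          rw [hs']
          refine span_mul_mem Qb (A := {f ^ (j + 1)}) (fun a ha t ht => ?_)
            (Submodule.subset_span ⟨_, rfl, rfl⟩) hq'
          obtain rfl : a = f ^ (j + 1) := ha
          rw [SetLike.mem_coe, mem_S0, map_mul, map_pow]
          have := S.mul_mem_Sb L (S.pow_mem_Sb L hf (j + 1)) (S.coeffEmb_mem_Sb_of_mem_V L ht)
          rwa [show ((j + 1 : ℕ) : ℤ) * b + n = B by omega] at this
        have henot : s ∉ U := by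
          intro hmem
          obtain ⟨r, hr, hre⟩ := hUD hmem
          obtain rfl : r = x ^ (j + 1) * q := Subtype.ext hre
          have := (mem_boundedSub.mp hr).resolve_left hxq0
          rw [hoxq] at this
          push_cast at this
          linarith
        refine ⟨U ⊔ Qb ∙ s, sup_le hUW (Submodule.span_le.mpr (Set.singleton_subset_iff.mpr hxqW)),
          sup_le (hUD.trans (Submodule.map_mono fun r hr => ?_))
            (Submodule.span_le.mpr (Set.singleton_subset_iff.mpr
              ⟨x ^ (j + 1) * q, Or.inr hoxq.ge, rfl⟩)), ?_⟩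
        · refine (mem_boundedSub.mp hr).mono ?_
          push_cast
          linarith
        · have : Module.Finite Qb U := Submodule.finiteDimensional_of_le hUW
          have hlt : U < U ⊔ Qb ∙ s := lt_of_le_of_ne le_sup_left fun e =>
            henot (e ▸ Submodule.mem_sup_right (Submodule.mem_span_singleton_self s))
          have := Submodule.finrank_lt_finrank_of_lt hlt
          omega
  obtain ⟨U, hUW, -, hUdim⟩ := step J le_rfl
  have h1 := Submodule.finrank_mono hUW
  rw [finrank_span_coeffEmb, finrank_S0] at h1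
  have hg := S.g_le L
  have h2 := S.finrank_Sb L (b := B) (by omega)
  omega

/-- Independence of the base field. -/
theorem S0_eq (b : ℤ) : S.S0 L b = S.V b := le_antisymm (S.S0_le_V L b) (S.V_le_S0 L b)

/-- The genus does not depend on the algebraically closed field of constants. -/
theorem g_eq : (S.rr L).g = S.g := by
  refine le_antisymm (S.g_le L) ?_
  set b : ℤ := 2 * (S.g : ℤ) + 2 * ((S.rr L).g : ℤ)
  have h1 := finrank_S0 S L b
  rw [S0_eq, V, finrank_S0] at h1
  have h2 := S.finrank_Sb Qb (b := b) (by show 2 * (S.g : ℤ) ≤ b; omega)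
  have h3 := S.finrank_Sb L (b := b) (by omega)
  have : (S.rr Qb).g = S.g := rfl
  omega

/-- `L(b·∞)` over `L` is spanned by the rational functions in it. -/
theorem Sb_eq_span_V (b : ℤ) :
    S.Sb L b = Submodule.span L (coeffEmb L '' (S.V b : Set _)) := by
  rw [Sb_eq_span, S0_eq]

end Setup

end Fermat.Agent.MWJ0

end
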