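import Fermat.Agent.MWJ0.Rel

/-!
# Representatives of classes and their tensors
-/

set_option autoImplicit false

noncomputable section

open AlgebraicCurve ModularCurve Module Function

namespace Fermat.Agent.MWJ0

namespace Setup

variable (S : Setup) {L : Type} [Field L] [Algebra ℚ L] [IsAlgClosed L] [CharZero L]

local notation "FF" => laurentBaseChange L S.F₀

lemma eq_algebraMap_of_finrank_one {D : Divisor L FF} (hD : 0 ≤ D)
    (h1 : finrank L (riemannRochSpace D) = 1) {f : FF} (hf : f ∈ riemannRochSpace D) :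
    ∃ c : L, f = algebraMap L FF c := by
  have hone : (1 : FF) ∈ riemannRochSpace D := by
    rw [mem_Lsp]
    exact fun v => Or.inr (by rw [Place.ord_one]; have := hD v; simp at this; omega)
  obtain ⟨c, hc⟩ := exists_smul_eq_of_finrank_eq_one h1
    (x := (⟨1, hone⟩ : riemannRochSpace D)) (by simp [Subtype.ext_iff]) ⟨f, hf⟩
  refine ⟨c, ?_⟩
  rw [Algebra.algebraMap_eq_smul_one]
  exact (congrArg Subtype.val hc).symm

lemma eq_of_finrank_one {D D' : Divisor L FF} (hD : 0 ≤ D) (hD' : 0 ≤ D')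
    (h1 : finrank L (riemannRochSpace D) = 1)
    (hp : D' - D ∈ Divisor.principal (K := L) (F := FF)) : D' = D := by
  obtain ⟨f, hf0, hf⟩ := hp
  have hfD : f ∈ riemannRochSpace D := by
    rw [mem_Lsp_of_ne_zero hf0]
    intro v
    have := hf v
    have := hD' v
    simp only [Finsupp.coe_zero, Pi.zero_apply, Finsupp.sub_apply] at *
    omega
  obtain ⟨c, rfl⟩ := S.eq_algebraMap_of_finrank_one hD h1 hfD
  ext v
  have := hf v
  rw [ord_algebraMap v (by rintro rfl; simp at hf0), Finsupp.sub_apply] at this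
  omega

lemma finrank_Lsp_congr {D D' : Divisor L FF}
    (hp : D' - D ∈ Divisor.principal (K := L) (F := FF)) :
    finrank L (riemannRochSpace D') = finrank L (riemannRochSpace D) := by
  obtain ⟨f, hf0, hf⟩ := hp
  have key : ∀ {A B : Divisor L FF} {g : FF}, g ≠ 0 → (∀ v, B v - A v = v.ord g) →
      (riemannRochSpace B).map (LinearMap.mulLeft L g) ≤ riemannRochSpace A := by
    rintro A B g hg hAB _ ⟨y, hy, rfl⟩
    rcases eq_or_ne y 0 with rfl | hy0
    · simp
    rw [LinearMap.mulLeft_apply, mem_Lsp_of_ne_zero (mul_ne_zero hg hy0)]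
    intro v
    have := (mem_Lsp_of_ne_zero hy0).mp hy v
    rw [v.ord_mul hg hy0]
    have := hAB v
    omega
  have hinj : ∀ g : FF, g ≠ 0 → Injective (LinearMap.mulLeft L g) :=
    fun g hg x y e => mul_left_cancel₀ hg e
  have := (S.rr L).finite D
  have := (S.rr L).finite D'
  have h1 := Submodule.finrank_mono (key (A := D) (B := D') hf0 fun v => by
    rw [← hf v, Finsupp.sub_apply])
  have h2 := Submodule.finrank_mono (key (A := D') (B := D) (inv_ne_zero hf0) fun v => by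
    rw [v.ord_inv, ← hf v, Finsupp.sub_apply]; omega)
  rw [← (Submodule.equivMapOfInjective _ (hinj f hf0) _).finrank_eq] at h1
  rw [← (Submodule.equivMapOfInjective _ (hinj _ (inv_ne_zero hf0)) _).finrank_eq] at h2
  omega

lemma mk0_sub {D D' : Divisor L FF} (h : Divisor.degree D = 0) (h' : Divisor.degree D' = 0) :
    S.mk0 (D - D') = S.mk0 D - S.mk0 D' := by
  rw [eq_sub_iff_add_eq, ← mk0_add S (by rw [map_sub, h, h', sub_zero]) h', sub_add_cancel]

lemma mk0_eq_iff {D D' : Divisor L FF} (h : Divisor.degree D = 0) (h' : Divisor.degree D' = 0) :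
    S.mk0 D = S.mk0 D' ↔ D - D' ∈ Divisor.principal (K := L) (F := FF) := by
  rw [← sub_eq_zero, ← S.mk0_sub h h', S.mk0_eq_zero_iff (by rw [map_sub, h, h', sub_zero])]

lemma mk0_mk (D : Divisor.degZero (K := L) (F := FF)) : S.mk0 (D : Divisor L FF) = Pic0.mk D := by
  rw [mk0, dif_pos D.2]

/-- A reduced representative. -/
theorem exists_red (x : Pic0 L FF) : ∃ (d : ℕ) (D : Divisor L FF), d ≤ S.n ∧ 0 ≤ D ∧
    Divisor.degree D = d ∧ finrank L (riemannRochSpace D) = 1 ∧
    S.mk0 (D - S.binf L (d : ℤ)) = x := by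
  obtain ⟨D₀, rfl⟩ := Pic0.mk_surjective x
  have h0 : Divisor.degree (D₀ : Divisor L FF) = 0 := D₀.2
  obtain ⟨d, D, hd, hD, hdeg, hp, h1⟩ := (S.rr L).exists_reduced (S.inf L) h0
  rw [S.g_eq L] at hd
  refine ⟨d, D, hd, hD, hdeg, ?_, ?_⟩
  · rw [S.finrank_Lsp_congr (D := (D₀ : Divisor L FF) + Finsupp.single (S.inf L) (d : ℤ))]
    · exact h1
    · convert hp using 1; abel
  · rw [← S.mk0_mk, S.mk0_eq_iff (by rw [map_sub, degree_binf, hdeg, sub_self]) h0]
    exact hp

lemma degree_pad {d : ℕ} {D : Divisor L FF} (hd : d ≤ S.n) (hdeg : Divisor.degree D = d) :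
    Divisor.degree (D + S.binf L ((S.n - d : ℕ) : ℤ)) = S.n := by
  rw [map_add, degree_binf, hdeg]
  omega

lemma pad_nonneg {D : Divisor L FF} (hD : 0 ≤ D) (k : ℕ) : 0 ≤ D + S.binf L (k : ℤ) :=
  add_nonneg hD (Finsupp.single_nonneg.mpr (by omega))

lemma cls_pad {d : ℕ} (D : Divisor L FF) (hd : d ≤ S.n) :
    S.cls (D + S.binf L ((S.n - d : ℕ) : ℤ)) = S.mk0 (D - S.binf L (d : ℤ)) := by
  rw [cls]
  congr 1
  have : (S.n : ℤ) = ((S.n - d : ℕ) : ℤ) + d := by omega
  rw [binf, binf, binf, this, Finsupp.single_add]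
  abel

/-- Every class has a representative of degree `n`, fixed by the automorphisms fixing the class. -/
theorem exists_rep (x : Pic0 L FF) : ∃ D : Divisor L FF, 0 ≤ D ∧ Divisor.degree D = S.n ∧
    S.cls D = x ∧ ∀ σ : L ≃ₐ[ℚ] L, S.gal L σ • x = x → S.gal L σ • D = D := by
  obtain ⟨d, D, hd, hD, hdeg, h1, hx⟩ := S.exists_red x
  refine ⟨D + S.binf L ((S.n - d : ℕ) : ℤ), S.pad_nonneg hD _, S.degree_pad hd hdeg,
    (S.cls_pad D hd).trans hx, fun σ hσ => ?_⟩
  rw [smul_add, smul_binf]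
  congr 1
  refine S.eq_of_finrank_one hD (S.smul_nonneg_div σ hD) h1 ?_
  have hD0 : Divisor.degree (D - S.binf L (d : ℤ)) = 0 := by
    rw [map_sub, degree_binf, hdeg, sub_self]
  rw [← hx, smul_mk0, S.mk0_eq_iff (by rw [SemilinearAut.degree_smul, hD0]) hD0, smul_sub,
    smul_binf] at hσ
  simpa using hσ

lemma exists_rep' (x : Pic0 L FF) :
    ∃ D : Divisor L FF, 0 ≤ D ∧ Divisor.degree D = S.n ∧ S.cls D = x :=
  let ⟨D, h1, h2, h3, _⟩ := S.exists_rep x
  ⟨D, h1, h2, h3⟩

/-- The pair of tensors of a divisor. -/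
lemma exists_tens {D : Divisor L FF} (hD : 0 ≤ D) (hn : Divisor.degree D = S.n) :
    ∃ (e : S.Ten L S.la) (e' : S.Ten L (S.la + S.lc)),
      S.IsTen S.la e D ∧ S.IsTen (S.la + S.lc) e' D :=
  ⟨_, _, (S.exists_isTen hD hn (b := S.la) (by simp only [Setup.n, Setup.la]; omega)).choose_spec,
    (S.exists_isTen hD hn (b := S.la + S.lc) (by simp only [Setup.n, Setup.la]; omega)).choose_spec⟩

lemma IsPair.exists_divisor {e : S.Ten L S.la} {e' : S.Ten L (S.la + S.lc)}
    (h : S.IsPair S.la S.lc e e') :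
    ∃ D : Divisor L FF, 0 ≤ D ∧ Divisor.degree D = S.n ∧
      S.IsTen S.la e D ∧ S.IsTen (S.la + S.lc) e' D :=
  h.exists_div S (by simp only [Setup.n, Setup.la]; omega)
    (by simp only [Setup.la, Setup.lc]; omega)

lemma IsTen.smul {n b : ℕ} {e : (Fin n → S.Idx b) → L} {D : Divisor L FF} (h : S.IsTen b e D)
    {c : L} (hc : c ≠ 0) : S.IsTen b (fun I => c * e I) D where
  ne_zero h0 := h.ne_zero (funext fun I => (mul_eq_zero.mp (congrFun h0 I)).resolve_left hc)
  alt I t t' ht := by rw [← mul_add, h.alt I t t' ht, mul_zero]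
  le_ker w hw I t := by rw [slot_smul_left, h.le_ker hw I t, mul_zero]
  finrank_add := h.finrank_add

lemma exists_normalised {n b : ℕ} {e : (Fin n → S.Idx b) → L} {D : Divisor L FF}
    (h : S.IsTen b e D) : ∃ (e₁ : (Fin n → S.Idx b) → L) (I : Fin n → S.Idx b),
      S.IsTen b e₁ D ∧ e₁ I = 1 := by
  obtain ⟨I, hI⟩ := h.exists_ne_zero
  exact ⟨fun J => (e I)⁻¹ * e J, I, h.smul S (inv_ne_zero hI), inv_mul_cancel₀ hI⟩

lemma IsTen.eq_of_apply_eq {n b : ℕ} {e e₁ : (Fin n → S.Idx b) → L} {D : Divisor L FF}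
    (h : S.IsTen b e D) (h₁ : S.IsTen b e₁ D) {I : Fin n → S.Idx b} (hI : e I = 1)
    (hI₁ : e₁ I = 1) : e₁ = e := by
  obtain ⟨c, -, hc⟩ := h.unique h₁
  have : c = 1 := by have := hc I; rw [hI, hI₁, mul_one] at this; exact this.symm
  exact funext fun J => by rw [hc J, this, one_mul]

/-- A divisor with finite orbit has a normalised tensor with algebraic coordinates. -/
theorem exists_ten_algebraic {k : Type} [Field k] [Algebra k L] [Algebra ℚ k]
    [IsScalarTower ℚ k L] [CharZero k] {n b : ℕ} {D : Divisor L FF} (hD : 0 ≤ D)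
    (hn : Divisor.degree D = n) (hb : 2 * S.g + n ≤ b)
    (hfin : (Set.range fun σ : L ≃ₐ[k] L => S.gal L (σ.restrictScalars ℚ) • D).Finite) :
    ∃ e : (Fin n → S.Idx b) → L, S.IsTen b e D ∧ (∃ I, e I = 1) ∧ ∀ J, IsAlgebraic k (e J) := by
  classical
  obtain ⟨e₀, he₀⟩ := S.exists_isTen hD hn hb
  obtain ⟨e, I, he, hI⟩ := S.exists_normalised he₀
  refine ⟨e, he, ⟨I, hI⟩, fun J => isAlgebraic_of_finite_orbit ?_⟩
  set f := fun σ : L ≃ₐ[k] L => S.gal L (σ.restrictScalars ℚ) • D with hf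
  have hg : ∀ σ τ : L ≃ₐ[k] L, f σ = f τ → σ (e J) = τ (e J) := by
    intro σ τ hst
    have h1 := he.gal S (σ.restrictScalars ℚ) hD hn hb
    have h2 := he.gal S (τ.restrictScalars ℚ) hD hn hb
    simp only [hf] at hst
    rw [← hst] at h2
    have := h1.eq_of_apply_eq S h2 (I := I) (by simp [hI]) (by simp [hI])
    exact (congrFun this J).symm
  have := hfin.to_subtype
  let T : Set.range f → L := fun y => y.2.choose (e J)
  refine (Set.finite_range T).subset ?_
  rintro _ ⟨σ, rfl⟩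
  exact ⟨⟨f σ, σ, rfl⟩, hg _ σ (⟨f σ, σ, rfl⟩ : Set.range f).2.choose_spec⟩

/-- A divisor with finite orbit over `ℚ` comes from `ℚ̄`. -/
theorem exists_descend {D : Divisor L FF} (hD : 0 ≤ D) (hn : Divisor.degree D = S.n)
    (hfin : (Set.range fun σ : L ≃ₐ[ℚ] L => S.gal L σ • D).Finite)
    (φ : AlgebraicClosure ℚ →ₐ[ℚ] L) :
    ∃ (e : S.Ten (AlgebraicClosure ℚ) S.la) (e' : S.Ten (AlgebraicClosure ℚ) (S.la + S.lc)),
      S.IsTen S.la (fun I => φ (e I)) D ∧ S.IsTen (S.la + S.lc) (fun I => φ (e' I)) D := by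
  have hfin' : (Set.range fun σ : L ≃ₐ[ℚ] L => S.gal L (σ.restrictScalars ℚ) • D).Finite := by
    exact hfin
  have hmem : ∀ y : L, IsAlgebraic ℚ y → ∃ z, φ z = y := by
    intro y hy
    have hsub : (minpoly ℚ y).rootSet L ⊆ Set.range φ := by
      rw [← (IsAlgClosed.splits ((minpoly ℚ y).map (algebraMap ℚ (AlgebraicClosure ℚ)))).image_rootSet φ]
      exact Set.image_subset_range _ _
    exact hsub (by
      rw [Polynomial.mem_rootSet]
      exact ⟨minpoly.ne_zero hy.isIntegral, minpoly.aeval ℚ y⟩)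
  obtain ⟨e, he, -, hea⟩ := S.exists_ten_algebraic (k := ℚ) hD hn (b := S.la)
    (by simp only [Setup.n, Setup.la]; omega) hfin'
  obtain ⟨e', he', -, hea'⟩ := S.exists_ten_algebraic (k := ℚ) hD hn (b := S.la + S.lc)
    (by simp only [Setup.n, Setup.la]; omega) hfin'
  choose z hz using fun I => hmem _ (hea I)
  choose z' hz' using fun I => hmem _ (hea' I)
  refine ⟨z, z', ?_, ?_⟩
  · simp only [hz]; exact he
  · simp only [hz']; exact he'

end Setup

end Fermat.Agent.MWJ0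

end
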