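import Mathlib.LinearAlgebra.Matrix.Determinant.Basic
import Mathlib.LinearAlgebra.Matrix.Adjugate
import Mathlib.LinearAlgebra.Matrix.ToLin
import Mathlib.LinearAlgebra.Matrix.NonsingularInverse
import Mathlib.LinearAlgebra.Determinant
import Mathlib.Algebra.CharP.Invertible
import Mathlib.LinearAlgebra.Alternating.Basic
import Mathlib.LinearAlgebra.Multilinear.Basis
import Mathlib.LinearAlgebra.FiniteDimensional.Lemmas
import Mathlib.Tactic.LinearCombination

/-!
# Plücker tensors of subspaces of finite codimension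

A subspace `W ⊆ (ι → K)` of codimension `n` is encoded by a tensor `e : (Fin n → ι) → R`, the
coordinates of a determinant form killing `W`. Everything that later has to be expressed by
polynomial equations (`ev`, `slot`, `cram`) is defined over an arbitrary commutative ring.
-/

set_option autoImplicit false

noncomputable section

open Function Module Matrix

namespace Fermat.Agent.MWJ0

variable {ι : Type*} [Fintype ι] [DecidableEq ι] {n : ℕ}

section CommRing

variable {R R' : Type*} [CommRing R] [CommRing R']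

/-- Multilinear evaluation of a tensor. -/
def ev (e : (Fin n → ι) → R) (ys : Fin n → ι → R) : R := ∑ I, e I * ∏ t, ys t (I t)

/-- The linear form in one slot. -/
def slot (e : (Fin n → ι) → R) (I : Fin n → ι) (t : Fin n) (w : ι → R) : R :=
  ∑ j, w j * e (update I t j)

/-- Cramer's vector. -/
def cram (e : (Fin n → ι) → R) (I : Fin n → ι) (j : ι) : ι → R :=
  fun l => e I * (if l = j then 1 else 0) - ∑ i, e (update I i j) * (if l = I i then 1 else 0)

/-- Alternating tensors. -/
def AltEq (e : (Fin n → ι) → R) : Prop :=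
  ∀ I : Fin n → ι, ∀ t t', t ≠ t' → e (I ∘ Equiv.swap t t') + e I = 0

omit [DecidableEq ι] in
lemma map_ev (φ : R →+* R') (e : (Fin n → ι) → R) (ys : Fin n → ι → R) :
    φ (ev e ys) = ev (fun I => φ (e I)) (fun t j => φ (ys t j)) := by
  simp [ev, map_sum, map_prod]

omit [DecidableEq ι] in
lemma map_slot (φ : R →+* R') (e : (Fin n → ι) → R) (I : Fin n → ι) (t : Fin n) (w : ι → R) :
    φ (slot e I t w) = slot (fun I => φ (e I)) I t (fun j => φ (w j)) := by
  simp [slot, map_sum]

omit [Fintype ι] in
lemma map_cram (φ : R →+* R') (e : (Fin n → ι) → R) (I : Fin n → ι) (j l : ι) :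
    φ (cram e I j l) = cram (fun I => φ (e I)) I j l := by
  simp [cram, map_sum, apply_ite φ]

omit [DecidableEq ι] in
lemma ev_smul_left (c : R) (e : (Fin n → ι) → R) (ys : Fin n → ι → R) :
    ev (fun I => c * e I) ys = c * ev e ys := by
  simp [ev, Finset.mul_sum, mul_assoc]

omit [DecidableEq ι] in
lemma slot_smul_left (c : R) (e : (Fin n → ι) → R) (I : Fin n → ι) (t : Fin n) (w : ι → R) :
    slot (fun I => c * e I) I t w = c * slot e I t w := by
  simp [slot, Finset.mul_sum, mul_left_comm]

omit [DecidableEq ι] in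
lemma slot_smul (e : (Fin n → ι) → R) (I : Fin n → ι) (t : Fin n) (c : R) (w : ι → R) :
    slot e I t (fun j => c * w j) = c * slot e I t w := by
  simp [slot, Finset.mul_sum, mul_assoc]

omit [Fintype ι] in
lemma cram_smul_left (c : R) (e : (Fin n → ι) → R) (I : Fin n → ι) (j : ι) :
    cram (fun I => c * e I) I j = fun l => c * cram e I j l := by
  ext l
  simp [cram, mul_sub, Finset.mul_sum]

lemma sum_smul_cram (e : (Fin n → ι) → R) (I : Fin n → ι) (w : ι → R) (l : ι) :
    ∑ j, w j * cram e I j l = e I * w l - ∑ i, slot e I i w * (if l = I i then 1 else 0) := by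
  simp only [cram, mul_sub, Finset.sum_sub_distrib, Finset.mul_sum, slot, Finset.sum_mul]
  congr 1
  · rw [Finset.sum_eq_single l (fun j _ hj => by simp [Ne.symm hj])
      (fun h => absurd (Finset.mem_univ l) h)]
    simp [mul_comm]
  · rw [Finset.sum_comm]
    exact Finset.sum_congr rfl fun i _ => Finset.sum_congr rfl fun j _ => (mul_assoc _ _ _).symm

end CommRing

variable {K : Type*} [Field K]

/-- `ev` as a multilinear map. -/
def evM (e : (Fin n → ι) → K) : MultilinearMap K (fun _ : Fin n => ι → K) K :=
  ∑ I, e I • (MultilinearMap.mkPiAlgebra K (Fin n) K).compLinearMap fun t => LinearMap.proj (I t)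

omit [DecidableEq ι] in
@[simp] lemma evM_apply (e : (Fin n → ι) → K) (ys : Fin n → ι → K) : evM e ys = ev e ys := by
  simp [evM, ev]

lemma ev_single (e : (Fin n → ι) → K) (I : Fin n → ι) :
    ev e (fun t => Pi.single (I t) (1 : K)) = e I := by
  rw [ev, Finset.sum_eq_single I]
  · simp
  · intro J _ hJ
    obtain ⟨t, ht⟩ := Function.ne_iff.mp hJ
    rw [Finset.prod_eq_zero (Finset.mem_univ t) (by simp [ht]), mul_zero]
  · simp

/-- The common kernel of all slots. -/
def kerE (e : (Fin n → ι) → K) : Submodule K (ι → K) where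
  carrier := {w | ∀ I t, slot e I t w = 0}
  zero_mem' := by simp [slot]
  add_mem' {a b} ha hb I t := by
    have : slot e I t (a + b) = slot e I t a + slot e I t b := by
      simp [slot, add_mul, Finset.sum_add_distrib]
    rw [this, ha I t, hb I t, add_zero]
  smul_mem' c w hw I t := by
    show slot e I t (fun j => c * w j) = 0
    rw [slot_smul, hw I t, mul_zero]

variable [CharZero K]

omit [Fintype ι] [DecidableEq ι] in
lemma AltEq.eq_zero {e : (Fin n → ι) → K} (he : AltEq e) {I : Fin n → ι} {t t' : Fin n}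
    (hne : t ≠ t') (h : I t = I t') : e I = 0 := by
  have h1 := he I t t' hne
  have : I ∘ Equiv.swap t t' = I := by
    funext s
    rcases eq_or_ne s t with rfl | hs
    · simp [h]
    rcases eq_or_ne s t' with rfl | hs'
    · simp [h]
    simp [Equiv.swap_apply_of_ne_of_ne hs hs']
  rw [this, ← two_mul] at h1
  simpa using h1

omit [DecidableEq ι] in
lemma ev_eq_zero_of_mem_kerE {e : (Fin n → ι) → K} {ys : Fin n → ι → K} {t : Fin n}
    (h : ys t ∈ kerE e) : ev e ys = 0 := by
  let c : (Fin n → ι) → K := fun J => ∏ s ∈ Finset.univ.erase t, ys s (J s)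
  have hc : ∀ J j, c (update J t j) = c J := fun J j => Finset.prod_congr rfl fun s hs => by
    rw [update_of_ne (Finset.ne_of_mem_erase hs)]
  have h0 : ∑ p : (Fin n → ι) × ι, c p.1 * (ys t p.2 * e (update p.1 t p.2)) = 0 := by
    rw [Fintype.sum_prod_type]
    refine Finset.sum_eq_zero fun J _ => ?_
    dsimp only
    rw [← Finset.mul_sum]
    have hs : ∑ j, ys t j * e (update J t j) = 0 := h J t
    rw [hs, mul_zero]
  let σ : (Fin n → ι) × ι ≃ (Fin n → ι) × ι :=
    { toFun := fun p => (update p.1 t p.2, p.1 t)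
      invFun := fun p => (update p.1 t p.2, p.1 t)
      left_inv := fun p => by simp [update_idem]
      right_inv := fun p => by simp [update_idem] }
  have h1 : ∑ p : (Fin n → ι) × ι, c p.1 * (ys t p.2 * e (update p.1 t p.2))
      = (Fintype.card ι : K) * ev e ys := by
    rw [← σ.sum_comp, Fintype.sum_prod_type, ev, Finset.mul_sum]
    refine Finset.sum_congr rfl fun I _ => ?_
    have : ∀ k : ι, c (σ (I, k)).1 * (ys t (σ (I, k)).2 * e (update (σ (I, k)).1 t (σ (I, k)).2))
        = e I * ∏ s, ys s (I s) := by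
      intro k
      simp only [σ, Equiv.coe_fn_mk, update_idem, update_eq_self, hc]
      rw [← Finset.mul_prod_erase _ _ (Finset.mem_univ t)]
      ring
    simp only [this, Finset.sum_const, Finset.card_univ, nsmul_eq_mul]
  rw [h1] at h0
  rcases mul_eq_zero.mp h0 with h2 | h2
  · have : IsEmpty (Fin n → ι) := by
      have : IsEmpty ι := Fintype.card_eq_zero_iff.mp (by exact_mod_cast h2)
      exact ⟨fun I => this.false (I t)⟩
    simp [ev]
  · exact h2

/-- The determinant of the rows `Λ (ys t)`. -/
def dform {V : Type*} [AddCommGroup V] [Module K V] (Λ : V →ₗ[K] (Fin n → K)) (ys : Fin n → V) :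
    K :=
  Matrix.det (Matrix.of fun t => Λ (ys t))

omit [CharZero K] in
lemma dform_comp {V : Type*} [AddCommGroup V] [Module K V] (A : (Fin n → K) →ₗ[K] (Fin n → K))
    (Λ : V →ₗ[K] (Fin n → K)) (ys : Fin n → V) :
    dform (A ∘ₗ Λ) ys = LinearMap.det A * dform Λ ys := by
  rw [dform, dform, ← LinearMap.det_toMatrix', ← Matrix.det_transpose (LinearMap.toMatrix' A),
    mul_comm, ← Matrix.det_mul]
  congr 1
  ext t r
  have h := (LinearMap.toMatrix'_mulVec A (Λ (ys t)))
  simp only [Matrix.mul_apply, Matrix.transpose_apply, Matrix.of_apply, LinearMap.comp_apply]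
  rw [← h, Matrix.mulVec, dotProduct]
  exact Finset.sum_congr rfl fun s _ => mul_comm _ _

omit [CharZero K] in
/-- A form factoring through a coarser quotient is a multiple of the finer one. -/
lemma exists_dform_eq_mul {V : Type*} [AddCommGroup V] [Module K V]
    {f g : V →ₗ[K] (Fin n → K)} (hg : Surjective g) (h : LinearMap.ker g ≤ LinearMap.ker f) :
    ∃ a : K, (a ≠ 0 ↔ Surjective f) ∧ ∀ ys, dform f ys = a * dform g ys := by
  obtain ⟨s, hs⟩ := g.exists_rightInverse_of_surjective (LinearMap.range_eq_top.mpr hg)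
  have hf : f = (f ∘ₗ s) ∘ₗ g := by
    refine LinearMap.ext fun v => ?_
    have h1 : g (v - s (g v)) = 0 := by
      have : g (s (g v)) = g v := LinearMap.congr_fun hs (g v)
      rw [map_sub, this, sub_self]
    have h2 := h h1
    rw [LinearMap.mem_ker, map_sub, sub_eq_zero] at h2
    exact h2
  refine ⟨LinearMap.det (f ∘ₗ s), ?_, fun ys => by conv_lhs => rw [hf]; exact dform_comp _ _ _⟩
  constructor
  · intro h0
    have hb : Surjective (f ∘ₗ s) :=
      ((LinearMap.equivOfDetNeZero (𝕜 := K) (f ∘ₗ s) h0).surjective)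
    exact fun y => by obtain ⟨x, hx⟩ := hb y; exact ⟨s x, hx⟩
  · intro hsur h0
    have hb : Surjective (f ∘ₗ s) := by
      intro y
      obtain ⟨v, hv⟩ := hsur y
      exact ⟨g v, by rw [← hv]; exact (LinearMap.congr_fun hf v).symm⟩
    exact (LinearMap.range_lt_top_of_det_eq_zero h0).ne (LinearMap.range_eq_top.mpr hb)

omit [CharZero K] in
lemma dform_ne_zero_iff {V : Type*} [AddCommGroup V] [Module K V] (Λ : V →ₗ[K] (Fin n → K))
    (ys : Fin n → V) : dform Λ ys ≠ 0 ↔ LinearIndependent K fun t => Λ (ys t) := by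
  rw [dform, ← isUnit_iff_ne_zero, ← Matrix.isUnit_iff_isUnit_det,
    ← Matrix.linearIndependent_rows_iff_isUnit]
  rfl

/-- `dform` as a multilinear map. -/
def dformM {V : Type*} [AddCommGroup V] [Module K V] (Λ : V →ₗ[K] (Fin n → K)) :
    MultilinearMap K (fun _ : Fin n => V) K :=
  (Matrix.detRowAlternating (R := K) (n := Fin n)).toMultilinearMap.compLinearMap fun _ => Λ

omit [CharZero K] in
@[simp] lemma dformM_apply {V : Type*} [AddCommGroup V] [Module K V] (Λ : V →ₗ[K] (Fin n → K))
    (ys : Fin n → V) : dformM Λ ys = dform Λ ys := rfl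

/-- `e` is a Plücker tensor of `W`. -/
structure IsPl (e : (Fin n → ι) → K) (W : Submodule K (ι → K)) : Prop where
  ne_zero : e ≠ 0
  alt : AltEq e
  le_ker : W ≤ kerE e
  finrank_add : finrank K W + n = Fintype.card ι

omit [CharZero K] [DecidableEq ι] in
lemma exists_surjective_ker_eq {W : Submodule K (ι → K)}
    (h : finrank K W + n = Fintype.card ι) :
    ∃ Λ : (ι → K) →ₗ[K] (Fin n → K), Surjective Λ ∧ LinearMap.ker Λ = W := by
  have hq : finrank K ((ι → K) ⧸ W) = n := by
    have := W.finrank_quotient_add_finrank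
    rw [Module.finrank_fintype_fun_eq_card] at this
    omega
  let b := Module.finBasisOfFinrankEq K _ hq
  refine ⟨b.equivFun.toLinearMap ∘ₗ W.mkQ,
    b.equivFun.surjective.comp W.mkQ_surjective, ?_⟩
  rw [LinearMap.ker_comp, LinearEquiv.ker, Submodule.comap_bot, Submodule.ker_mkQ]

omit [CharZero K] in
lemma evM_eq_of_single {e : (Fin n → ι) → K} {f : MultilinearMap K (fun _ : Fin n => ι → K) K}
    (h : ∀ I, f (fun t => Pi.single (I t) (1 : K)) = e I) : f = evM e := by
  refine Module.Basis.ext_multilinear (fun _ => Pi.basisFun K ι) fun I => ?_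
  simp only [Pi.basisFun_apply]
  rw [h I, evM_apply, ev_single]

lemma IsPl.ev_eq {e : (Fin n → ι) → K} {W : Submodule K (ι → K)} (h : IsPl e W)
    {Λ : (ι → K) →ₗ[K] (Fin n → K)} (hs : Surjective Λ) (hk : LinearMap.ker Λ = W) :
    ∃ c : K, c ≠ 0 ∧ ∀ ys, ev e ys = c * dform Λ ys := by
  obtain ⟨s, hs'⟩ := Λ.exists_rightInverse_of_surjective (LinearMap.range_eq_top.mpr hs)
  have hinv : ∀ y, Λ (s y) = y := fun y => LinearMap.congr_fun hs' y
  have hcongr : ∀ (T : Finset (Fin n)) (ys : Fin n → ι → K),
      ev e (fun t => if t ∈ T then s (Λ (ys t)) else ys t) = ev e ys := by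
    intro T
    induction T using Finset.induction with
    | empty => intro ys; simp
    | insert t T ht ih =>
        intro ys
        set zs := fun u => if u ∈ T then s (Λ (ys u)) else ys u with hzs
        have e1 : (fun u => if u ∈ insert t T then s (Λ (ys u)) else ys u)
            = update zs t (zs t + (s (Λ (ys t)) - ys t)) := by
          funext u
          rcases eq_or_ne u t with rfl | hu
          · simp [hzs, ht]
          · simp [hzs, hu]
        rw [e1, ← evM_apply, MultilinearMap.map_update_add, evM_apply, evM_apply, update_eq_self,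
          ev_eq_zero_of_mem_kerE (ys := update zs t (s (Λ (ys t)) - ys t)) (t := t) (by
            rw [update_self]
            exact h.le_ker (by rw [← hk, LinearMap.mem_ker, map_sub, hinv, sub_self])),
          add_zero, hzs, ih]
  let g : (Fin n → K) [⋀^Fin n]→ₗ[K] K :=
    { (evM e).compLinearMap fun _ => s with
      map_eq_zero_of_eq' := by
        intro v t t' hv hne
        show (evM e) (fun u => s (v u)) = 0
        rw [evM_apply, ev]
        have hswap : ∀ I : Fin n → ι, ∏ u, s (v u) ((I ∘ Equiv.swap t t') u) = ∏ u, s (v u) (I u) := by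
          intro I
          rw [← Equiv.prod_comp (Equiv.swap t t')]
          refine Finset.prod_congr rfl fun u _ => ?_
          simp only [Function.comp_apply, Equiv.swap_apply_self]
          rcases eq_or_ne u t with rfl | hu
          · rw [Equiv.swap_apply_left, hv]
          rcases eq_or_ne u t' with rfl | hu'
          · rw [Equiv.swap_apply_right, hv]
          rw [Equiv.swap_apply_of_ne_of_ne hu hu']
        set S := ∑ I : Fin n → ι, e I * ∏ u, s (v u) (I u)
        have hS : S = -S := by
          calc S = ∑ I : Fin n → ι, e (I ∘ Equiv.swap t t') * ∏ u, s (v u) ((I ∘ Equiv.swap t t') u) := by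
                exact (Fintype.sum_equiv (Equiv.arrowCongr (Equiv.swap t t') (Equiv.refl ι))
                  _ _ (fun I => by simp [Equiv.arrowCongr, Function.comp_def])).symm
            _ = ∑ I : Fin n → ι, -(e I * ∏ u, s (v u) (I u)) := by
                refine Finset.sum_congr rfl fun I _ => ?_
                rw [hswap, ← neg_mul, eq_neg_of_add_eq_zero_left (h.alt I t t' hne)]
            _ = -S := Finset.sum_neg_distrib _
        show S = 0
        linear_combination hS / 2 }
  have key : ∀ ys, ev e ys = g (Pi.basisFun K (Fin n)) * dform Λ ys := by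
    intro ys
    have h1 := hcongr Finset.univ ys
    simp only [Finset.mem_univ, if_true] at h1
    rw [← h1, show ev e (fun t => s (Λ (ys t))) = g (fun t => Λ (ys t)) from (evM_apply e _).symm]
    conv_lhs => rw [AlternatingMap.eq_smul_basis_det (Pi.basisFun K (Fin n)) g]
    simp only [AlternatingMap.smul_apply, smul_eq_mul, Module.Basis.det_apply, dform]
    congr 1
    rw [← Matrix.det_transpose]
    congr 1
  refine ⟨_, fun h0 => h.ne_zero (funext fun I => ?_), key⟩
  rw [← ev_single e I, key, h0, zero_mul]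
  rfl

lemma IsPl.exists_dform {e : (Fin n → ι) → K} {W : Submodule K (ι → K)} (h : IsPl e W) :
    ∃ (Λ : (ι → K) →ₗ[K] (Fin n → K)) (c : K), Surjective Λ ∧ LinearMap.ker Λ = W ∧ c ≠ 0 ∧
      ∀ ys, ev e ys = c * dform Λ ys := by
  obtain ⟨Λ, hs, hk⟩ := exists_surjective_ker_eq h.finrank_add
  obtain ⟨c, hc, he⟩ := h.ev_eq hs hk
  exact ⟨Λ, c, hs, hk, hc, he⟩

omit [CharZero K] in
lemma isPl_of_dform {Λ : (ι → K) →ₗ[K] (Fin n → K)} (hs : Surjective Λ) {c : K} (hc : c ≠ 0)
    {e : (Fin n → ι) → K} (he : ∀ I, e I = c * dform Λ fun t => Pi.single (I t) 1) :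
    IsPl e (LinearMap.ker Λ) ∧ ∀ ys, ev e ys = c * dform Λ ys := by
  have hev : ∀ ys, ev e ys = c * dform Λ ys := by
    intro ys
    have := evM_eq_of_single (e := e) (f := c • dformM Λ) fun I => by simp [he I]
    rw [← evM_apply, ← this]
    simp
  refine ⟨⟨fun h0 => ?_, fun I t t' hne => ?_, fun w hw I t => ?_, ?_⟩, hev⟩
  · choose r hr using fun t : Fin n => hs (Pi.single t 1)
    have h1 := hev r
    rw [h0] at h1
    have h2 : dform Λ r = 1 := by
      rw [dform, show (Matrix.of fun t => Λ (r t)) = (1 : Matrix (Fin n) (Fin n) K) from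
        Matrix.ext fun t u => by rw [Matrix.of_apply, hr, Pi.single_apply, Matrix.one_apply]; simp [eq_comm],
        Matrix.det_one]
    simp [h2, ev] at h1
    exact hc h1.symm
  · rw [he, he, ← mul_add]
    have : dform Λ (fun u => (Pi.single ((I ∘ Equiv.swap t t') u) (1 : K) : ι → K))
        = -dform Λ (fun u => (Pi.single (I u) (1 : K) : ι → K)) := by
      rw [dform, dform]
      have := Matrix.det_permute (Equiv.swap t t') (Matrix.of fun u => Λ (Pi.single (I u) (1 : K) : ι → K))
      rw [Equiv.Perm.sign_swap hne] at this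
      simpa [Matrix.submatrix, Function.comp_def] using this
    rw [this, neg_add_cancel, mul_zero]
  · have hsl : slot e I t w = ev e (update (fun u => (Pi.single (I u) (1 : K) : ι → K)) t w) := by
      rw [← evM_apply, show w = ∑ j, w j • (Pi.single j (1 : K) : ι → K) from pi_eq_sum_univ' w,
        MultilinearMap.map_update_sum]
      simp only [MultilinearMap.map_update_smul, evM_apply, smul_eq_mul, slot]
      refine Finset.sum_congr rfl fun j _ => ?_
      rw [← ev_single e (update I t j)]
      have : (fun u => (Pi.single (update I t j u) (1 : K) : ι → K))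
          = update (fun u => (Pi.single (I u) (1 : K) : ι → K)) t (Pi.single j 1) := by
        funext u; rcases eq_or_ne u t with rfl | hu <;> simp_all [update_of_ne]
      rw [← this]
      congr 1
      simp [Finset.sum_apply, Pi.single_apply]
    rw [hsl, hev, dform, Matrix.det_eq_zero_of_row_eq_zero t fun r => by
      simp [update_self, LinearMap.mem_ker.mp hw], mul_zero]
  · have := LinearMap.finrank_range_add_finrank_ker Λ
    rw [LinearMap.range_eq_top.mpr hs, finrank_top, Module.finrank_fintype_fun_eq_card,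
      Module.finrank_fintype_fun_eq_card, Fintype.card_fin] at this
    omega

lemma exists_isPl {W : Submodule K (ι → K)} (h : finrank K W + n = Fintype.card ι) :
    ∃ e : (Fin n → ι) → K, IsPl e W := by
  obtain ⟨Λ, hs, rfl⟩ := exists_surjective_ker_eq h
  exact ⟨_, (isPl_of_dform hs one_ne_zero fun I => rfl).1⟩

variable {e : (Fin n → ι) → K} {W : Submodule K (ι → K)}

lemma IsPl.kerE_eq (h : IsPl e W) : kerE e = W := by
  refine le_antisymm (fun w hw => ?_) h.le_ker
  obtain ⟨Λ, c, hs, hk, hc, hev⟩ := h.exists_dform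
  rw [← hk, LinearMap.mem_ker]
  choose r hr using fun t : Fin n => hs (Pi.single t 1)
  funext t
  have h1 : ev e (update r t w) = 0 := ev_eq_zero_of_mem_kerE (t := t) (by simpa using hw)
  rw [hev] at h1
  have h2 : dform Λ (update r t w) = Λ w t := by
    have : (Matrix.of fun u => Λ (update r t w u)) = Matrix.updateRow (1 : Matrix (Fin n) (Fin n) K) t (Λ w) := by
      ext u v
      rcases eq_or_ne u t with rfl | hu
      · simp [Matrix.updateRow_self]
      · simp [Matrix.updateRow_ne hu, update_of_ne hu, hr, Pi.single_apply, Matrix.one_apply, eq_comm]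
    rw [dform, this, ← Matrix.det_transpose, ← Matrix.updateCol_transpose, Matrix.transpose_one,
      ← Matrix.cramer_apply, Matrix.cramer_one]
    rfl
  rw [h2] at h1
  exact (mul_eq_zero.mp h1).resolve_left hc

lemma IsPl.cram_mem (h : IsPl e W) (I : Fin n → ι) (j : ι) : cram e I j ∈ W := by
  obtain ⟨Λ, c, hs, hk, hc, hev⟩ := h.exists_dform
  rw [← hk, LinearMap.mem_ker]
  have he : ∀ J, e J = c * dform Λ fun t => Pi.single (J t) 1 := fun J => by
    rw [← hev, ev_single]
  have hv : cram e I j = e I • (Pi.single j 1 : ι → K)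
      - ∑ i, e (update I i j) • (Pi.single (I i) 1 : ι → K) := by
    ext l; simp [cram, Finset.sum_apply, Pi.single_apply]
  rw [hv, map_sub, map_sum, map_smul]
  simp only [map_smul]
  set A := (Matrix.of fun t => Λ (Pi.single (I t) 1))ᵀ with hA
  have h1 := Matrix.mulVec_cramer A (Λ (Pi.single j 1))
  have h2 : ∀ i, e (update I i j) = c * A.cramer (Λ (Pi.single j 1)) i := by
    intro i
    rw [he, Matrix.cramer_apply, hA, Matrix.updateCol_transpose, Matrix.det_transpose, dform]
    congr 2
    ext u v
    rcases eq_or_ne u i with rfl | hu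
    · simp [Matrix.updateRow_self]
    · simp [Matrix.updateRow_ne hu, update_of_ne hu]
  rw [sub_eq_zero, he I, show dform Λ (fun t => Pi.single (I t) 1) = A.det by
    rw [hA, Matrix.det_transpose]; rfl, mul_smul, ← h1]
  funext r
  simp only [Finset.sum_apply, Pi.smul_apply, smul_eq_mul, h2, Matrix.mulVec, dotProduct,
    Finset.mul_sum]
  refine Finset.sum_congr rfl fun i _ => ?_
  simp only [hA, Matrix.transpose_apply, Matrix.of_apply]
  ring

omit [CharZero K] in
lemma eq_of_slot_eq_zero (e : (Fin n → ι) → K) {I : Fin n → ι} (hI : e I ≠ 0) {w : ι → K}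
    (hw : ∀ i, slot e I i w = 0) : w = ∑ j, ((e I)⁻¹ * w j) • cram e I j := by
  funext l
  have h1 := sum_smul_cram e I w l
  simp only [hw, zero_mul, Finset.sum_const_zero, sub_zero] at h1
  simp only [Finset.sum_apply, Pi.smul_apply, smul_eq_mul, mul_assoc, ← Finset.mul_sum, h1]
  rw [inv_mul_cancel_left₀ hI]

lemma IsPl.span_cram (h : IsPl e W) {I : Fin n → ι} (hI : e I ≠ 0) :
    Submodule.span K (Set.range (cram e I)) = W := by
  refine le_antisymm (Submodule.span_le.mpr ?_) fun w hw => ?_
  · rintro _ ⟨j, rfl⟩; exact h.cram_mem I j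
  · rw [eq_of_slot_eq_zero e hI fun i => h.le_ker hw I i]
    exact Submodule.sum_mem _ fun j _ => Submodule.smul_mem _ _ (Submodule.subset_span ⟨j, rfl⟩)

omit [CharZero K] [DecidableEq ι] in
lemma IsPl.exists_ne_zero (h : IsPl e W) : ∃ I, e I ≠ 0 := Function.ne_iff.mp h.ne_zero

lemma isPl_kerE (hne : e ≠ 0) (halt : AltEq e)
    (hdec : ∀ I j J t, slot e J t (cram e I j) = 0) : IsPl e (kerE e) := by
  refine ⟨hne, halt, le_rfl, ?_⟩
  obtain ⟨I, hI⟩ := Function.ne_iff.mp hne
  replace hI : e I ≠ 0 := by simpa using hI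
  let L : (ι → K) →ₗ[K] (Fin n → K) :=
    { toFun := fun w i => slot e I i w
      map_add' := fun a b => by ext i; simp [slot, add_mul, Finset.sum_add_distrib]
      map_smul' := fun c a => by ext i; simp [slot, Finset.mul_sum, mul_assoc] }
  have hsing : ∀ k : Fin n, L (Pi.single (I k) 1) = e I • Pi.single k 1 := by
    intro k
    funext i
    show slot e I i _ = _
    rw [slot, Finset.sum_eq_single (I k) (fun j _ hj => by simp [hj]) (by simp)]
    rcases eq_or_ne i k with rfl | hik
    · simp
    · have := halt.eq_zero (I := update I i (I k)) hik (by simp [update_of_ne (Ne.symm hik)])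
      simp [this, hik]
  have hs : Surjective L := fun y => ⟨∑ k, ((e I)⁻¹ * y k) • Pi.single (I k) 1, by
    rw [map_sum]
    simp only [map_smul, hsing, smul_smul]
    funext i
    simp [Finset.sum_apply, Pi.single_apply]
    field_simp⟩
  have hk : LinearMap.ker L = kerE e := by
    refine le_antisymm (fun w hw => ?_) fun w hw => funext fun i => hw I i
    rw [eq_of_slot_eq_zero e hI fun i => congrFun (LinearMap.mem_ker.mp hw) i]
    exact Submodule.sum_mem _ fun j _ => Submodule.smul_mem _ _ fun J t => hdec I j J t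
  have := LinearMap.finrank_range_add_finrank_ker L
  rw [LinearMap.range_eq_top.mpr hs, finrank_top, Module.finrank_fintype_fun_eq_card,
    Module.finrank_fintype_fun_eq_card, Fintype.card_fin, hk] at this
  omega

lemma IsPl.dec (h : IsPl e W) (I : Fin n → ι) (j : ι) (J : Fin n → ι) (t : Fin n) :
    slot e J t (cram e I j) = 0 :=
  h.le_ker (h.cram_mem I j) J t

lemma IsPl.unique {e' : (Fin n → ι) → K} (h : IsPl e W) (h' : IsPl e' W) :
    ∃ c : K, c ≠ 0 ∧ ∀ I, e' I = c * e I := by
  obtain ⟨Λ, c, hs, hk, hc, hev⟩ := h.exists_dform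
  obtain ⟨c', hc', hev'⟩ := h'.ev_eq hs hk
  refine ⟨c' / c, div_ne_zero hc' hc, fun I => ?_⟩
  rw [← ev_single e I, ← ev_single e' I, hev, hev']
  field_simp

end Fermat.Agent.MWJ0

end
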