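import Fermat.Agent.MWJ0.BaseChange
import Fermat.Agent.MWJ0.Plucker

/-!
# Coordinates on effective divisors

`L(b·∞)` gets coordinates from a basis of the rational space `V b`; an effective divisor `D` of
degree `n` becomes the subspace `W b D`, hence a Plücker tensor. A pair of tensors in two levels
comes from a divisor as soon as it satisfies the polynomial equations `pairEq`.
-/

set_option autoImplicit false

noncomputable section

open AlgebraicCurve ModularCurve Module Function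

namespace Fermat.Agent.MWJ0

namespace Setup

variable (S : Setup)

instance finite_V (b : ℤ) : Module.Finite ℚ (S.V b) := S.finite_S0 (AlgebraicClosure ℚ) b

/-- Coordinates of level `b`. -/
abbrev Idx (b : ℕ) : Type := Fin (finrank ℚ (S.V (b : ℤ)))

/-- The basis of `V b`. -/
def bas (b : ℕ) : Basis (S.Idx b) ℚ (S.V (b : ℤ)) := Module.finBasis ℚ _

/-- The basis functions. -/
def bF (b : ℕ) (i : S.Idx b) : S.F₀ :=
  ⟨(S.bas b i : LaurentSeries ℚ), S.mem_F₀_of_mem_V (S.bas b i).2⟩

open Classical in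
/-- Structure constants of multiplication. -/
def sc (a b c : ℕ) (i : S.Idx a) (j : S.Idx b) : S.Idx c → ℚ := fun l =>
  if h : (S.bas a i : LaurentSeries ℚ) * (S.bas b j : LaurentSeries ℚ) ∈ S.V (c : ℤ)
  then (S.bas c).repr ⟨_, h⟩ l else 0

section Ring

variable {R R' : Type*} [CommRing R] [Algebra ℚ R] [CommRing R'] [Algebra ℚ R']

/-- Multiplication in coordinates. -/
def mulv (a b c : ℕ) (x : S.Idx a → R) (y : S.Idx b → R) : S.Idx c → R :=
  fun l => ∑ i, ∑ j, S.sc a b c i j l • (x i * y j)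

lemma map_mulv (φ : R →ₐ[ℚ] R') (a b c : ℕ) (x : S.Idx a → R) (y : S.Idx b → R) (l : S.Idx c) :
    φ (S.mulv a b c x y l) = S.mulv a b c (fun i => φ (x i)) (fun j => φ (y j)) l := by
  simp [mulv, map_sum]

/-- The `j`-th coordinate vector. -/
def unitv {b : ℕ} (j : S.Idx b) : S.Idx b → R := fun l => if l = j then 1 else 0

/-- Indices of the equations of pairs of tensors. -/
abbrev PairIdx (n a c : ℕ) : Type :=
  ((Fin n → S.Idx a) × Fin n × Fin n) ⊕ ((Fin n → S.Idx (a + c)) × Fin n × Fin n) ⊕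
  ((Fin n → S.Idx a) × S.Idx a × (Fin n → S.Idx a) × Fin n) ⊕
  ((Fin n → S.Idx (a + c)) × S.Idx (a + c) × (Fin n → S.Idx (a + c)) × Fin n) ⊕
  ((Fin n → S.Idx a) × S.Idx a × S.Idx c × (Fin n → S.Idx (a + c)) × Fin n)

/-- The equations of pairs of tensors. -/
def pairEq {n : ℕ} (a c : ℕ) (e : (Fin n → S.Idx a) → R) (e' : (Fin n → S.Idx (a + c)) → R) :
    S.PairIdx n a c → R
  | .inl (I, t, t') => if t = t' then 0 else e (I ∘ Equiv.swap t t') + e I
  | .inr (.inl (I, t, t')) => if t = t' then 0 else e' (I ∘ Equiv.swap t t') + e' I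
  | .inr (.inr (.inl (I, j, J, t))) => slot e J t (cram e I j)
  | .inr (.inr (.inr (.inl (I, j, J, t)))) => slot e' J t (cram e' I j)
  | .inr (.inr (.inr (.inr (I, j, l, J, t)))) =>
      slot e' J t (S.mulv a c (a + c) (cram e I j) (S.unitv l))

lemma map_pairEq {n : ℕ} (φ : R →ₐ[ℚ] R') (a c : ℕ) (e : (Fin n → S.Idx a) → R)
    (e' : (Fin n → S.Idx (a + c)) → R) (i : S.PairIdx n a c) :
    φ (S.pairEq a c e e' i) = S.pairEq a c (fun I => φ (e I)) (fun I => φ (e' I)) i := by
  have h1 : ∀ {k : ℕ} (x : (Fin n → S.Idx k) → R) (J : Fin n → S.Idx k) (t : Fin n)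
      (w : S.Idx k → R), φ (slot x J t w) = slot (fun I => φ (x I)) J t (fun j => φ (w j)) :=
    fun x J t w => map_slot (φ : R →+* R') x J t w
  have h2 : ∀ {k : ℕ} (x : (Fin n → S.Idx k) → R) (I : Fin n → S.Idx k) (j l : S.Idx k),
      φ (cram x I j l) = cram (fun I => φ (x I)) I j l :=
    fun x I j l => map_cram (φ : R →+* R') x I j l
  rcases i with ⟨I, t, t'⟩ | ⟨I, t, t'⟩ | ⟨I, j, J, t⟩ | ⟨I, j, J, t⟩ | ⟨I, j, l, J, t⟩ <;>
    simp [pairEq, apply_ite φ, h1, h2, map_mulv, unitv]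
  rfl

end Ring

variable (L : Type) [Field L] [Algebra ℚ L] [IsAlgClosed L] [CharZero L]

local notation "FF" => laurentBaseChange L S.F₀

/-- The function with given coordinates. -/
def realF (b : ℕ) : (S.Idx b → L) →ₗ[L] FF := Fintype.linearCombination L fun i => S.el L (S.bF b i)

lemma realF_apply (b : ℕ) (x : S.Idx b → L) : S.realF L b x = ∑ i, x i • S.el L (S.bF b i) := rfl

lemma linearIndependent_el (b : ℕ) : LinearIndependent L fun i => S.el L (S.bF b i) := by
  refine LinearIndependent.of_comp (S.val L) ?_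
  exact linearIndependent_coeffEmb L
    ((S.bas b).linearIndependent.map' (S.V (b : ℤ)).subtype (Submodule.ker_subtype _))

lemma realF_injective (b : ℕ) : Injective (S.realF L b) :=
  linearIndependent_iff_injective_fintypeLinearCombination.mp (S.linearIndependent_el L b)

lemma range_realF (b : ℕ) :
    LinearMap.range (S.realF L b) = riemannRochSpace (S.binf L (b : ℤ)) := by
  refine Submodule.map_injective_of_injective (S.val_injective L) ?_
  change _ = S.Sb L (b : ℤ)
  rw [Sb_eq_span_V, ← span_coeffEmb_eq_range L (S.V (b : ℤ)) (S.bas b), realF,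
    Fintype.range_linearCombination, Submodule.map_span, ← Set.range_comp]
  rfl

lemma realF_mem (b : ℕ) (x : S.Idx b → L) :
    S.realF L b x ∈ riemannRochSpace (S.binf L (b : ℤ)) :=
  S.range_realF L b ▸ LinearMap.mem_range_self _ x

lemma exists_realF {b : ℕ} {f : FF} (hf : f ∈ riemannRochSpace (S.binf L (b : ℤ))) :
    ∃ x, S.realF L b x = f :=
  LinearMap.mem_range.mp (by rw [S.range_realF L b]; exact hf)

lemma realF_unitv {b : ℕ} (j : S.Idx b) : S.realF L b (S.unitv j) = S.el L (S.bF b j) := by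
  simp [realF_apply, unitv, ite_smul]

lemma el_bF_mul {a b c : ℕ} (h : a + b ≤ c) (i : S.Idx a) (j : S.Idx b) :
    S.el L (S.bF a i) * S.el L (S.bF b j)
      = ∑ l, algebraMap ℚ L (S.sc a b c i j l) • S.el L (S.bF c l) := by
  have hm : (S.bas a i : LaurentSeries ℚ) * (S.bas b j : LaurentSeries ℚ) ∈ S.V (c : ℤ) :=
    S.V_mono (by omega) (S.mul_mem_V (S.bas a i).2 (S.bas b j).2)
  refine S.val_injective L ?_
  rw [map_sum]
  simp only [map_smul]
  show coeffEmb L _ * coeffEmb L _ = ∑ l, _ • coeffEmb L _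
  simp only [← coeffEmb_smul, ← map_mul, ← map_sum]
  congr 1
  have h2 := congrArg (S.V (c : ℤ)).subtype ((S.bas c).sum_repr ⟨_, hm⟩)
  rw [map_sum] at h2
  refine h2.symm.trans (Finset.sum_congr rfl fun l _ => ?_)
  rw [map_smul, sc, dif_pos hm]
  rfl

lemma realF_mulv {a b c : ℕ} (h : a + b ≤ c) (x : S.Idx a → L) (y : S.Idx b → L) :
    S.realF L c (S.mulv a b c x y) = S.realF L a x * S.realF L b y := by
  simp only [realF_apply, mulv, Finset.sum_smul]
  rw [Finset.sum_mul_sum, Finset.sum_comm]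
  refine Finset.sum_congr rfl fun i _ => ?_
  rw [Finset.sum_comm]
  refine Finset.sum_congr rfl fun j _ => ?_
  rw [smul_mul_smul_comm, S.el_bF_mul L h, Finset.smul_sum]
  refine Finset.sum_congr rfl fun l _ => ?_
  rw [smul_smul, Algebra.smul_def (S.sc a b c i j l), mul_comm]

/-- The functions of level `b` vanishing on `D`. -/
def W (b : ℕ) (D : Divisor L FF) : Submodule L (S.Idx b → L) :=
  (riemannRochSpace (S.binf L (b : ℤ) - D)).comap (S.realF L b)

variable {L}

lemma mem_W {b : ℕ} {D : Divisor L FF} {x : S.Idx b → L} :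
    x ∈ S.W L b D ↔ S.realF L b x ∈ riemannRochSpace (S.binf L (b : ℤ) - D) := Iff.rfl

lemma map_W {b : ℕ} {D : Divisor L FF} (hD : 0 ≤ D) :
    (S.W L b D).map (S.realF L b) = riemannRochSpace (S.binf L (b : ℤ) - D) :=
  Submodule.map_comap_eq_self (by rw [S.range_realF L b]; exact Lsp_mono (sub_le_self _ hD))

lemma finrank_W {b : ℕ} {D : Divisor L FF} (hD : 0 ≤ D)
    (hb : 2 * (S.g : ℤ) + Divisor.degree D ≤ b) :
    (finrank L (S.W L b D) : ℤ) = b + 1 - S.g - Divisor.degree D := by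
  rw [(Submodule.equivMapOfInjective _ (S.realF_injective L b) _).finrank_eq, S.map_W hD]
  have := (S.rr L).dim_eq (S.binf L (b : ℤ) - D) (by
    rw [map_sub, degree_binf, S.g_eq L]; omega)
  rw [map_sub, degree_binf, S.g_eq L] at this
  omega

lemma card_Idx {b : ℕ} (hb : 2 * S.g ≤ b) : (Fintype.card (S.Idx b) : ℤ) = b + 1 - S.g := by
  rw [Fintype.card_fin]
  have h := S.finrank_Sb (AlgebraicClosure ℚ) (b := (b : ℤ)) (by rw [S.g_eq]; omega)
  rw [← finrank_S0, S.g_eq] at h
  exact h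

lemma finrank_W_add {n b : ℕ} {D : Divisor L FF} (hD : 0 ≤ D) (hn : Divisor.degree D = n)
    (hb : 2 * S.g + n ≤ b) : finrank L (S.W L b D) + n = Fintype.card (S.Idx b) := by
  have h1 := S.finrank_W hD (b := b) (by omega)
  have h2 := S.card_Idx (b := b) (by omega)
  omega

/-- `e` is the tensor of `D` at level `b`. -/
def IsTen {n : ℕ} (b : ℕ) (e : (Fin n → S.Idx b) → L) (D : Divisor L FF) : Prop :=
  IsPl e (S.W L b D)

lemma exists_isTen {n b : ℕ} {D : Divisor L FF} (hD : 0 ≤ D) (hn : Divisor.degree D = n)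
    (hb : 2 * S.g + n ≤ b) : ∃ e : (Fin n → S.Idx b) → L, S.IsTen b e D :=
  exists_isPl (S.finrank_W_add hD hn hb)

/-- Effective divisors of small degree are determined by their subspace. -/
lemma le_of_W_le {b : ℕ} {D D' : Divisor L FF} (hD : 0 ≤ D)
    (hb : 2 * (S.g : ℤ) + Divisor.degree D < b) (h : S.W L b D ≤ S.W L b D') : D' ≤ D := by
  intro v
  have hnot := (S.rr L).Lsp_sub_single_ne (S.binf L (b : ℤ) - D) v (by
    rw [map_sub, degree_binf, S.g_eq L]; omega)
  obtain ⟨f, hf, hfn⟩ := SetLike.not_le_iff_exists.mp hnot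
  obtain ⟨x, rfl⟩ := S.exists_realF L (Lsp_mono (sub_le_self _ hD) hf)
  have hf0 : S.realF L b x ≠ 0 := fun e => hfn (e ▸ zero_mem _)
  have h1 := (mem_Lsp_of_ne_zero hf0).mp hf
  have h2 := (mem_Lsp_of_ne_zero hf0).mp (h hf) v
  by_contra hlt
  refine hfn ?_
  rw [mem_Lsp_of_ne_zero hf0]
  intro u
  have h1u := h1 u
  rcases eq_or_ne u v with rfl | hu
  · simp only [Finsupp.sub_apply, Finsupp.single_eq_same] at *
    omega
  · simp only [Finsupp.sub_apply, Finsupp.single_eq_of_ne hu, sub_zero] at *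
    exact h1u

lemma eq_of_W_eq {b : ℕ} {D D' : Divisor L FF} (hD : 0 ≤ D) (hD' : 0 ≤ D')
    (hdeg : Divisor.degree D = Divisor.degree D') (hb : 2 * (S.g : ℤ) + Divisor.degree D < b)
    (h : S.W L b D = S.W L b D') : D = D' :=
  le_antisymm (S.le_of_W_le hD' (hdeg ▸ hb) h.ge) (S.le_of_W_le hD hb h.le)

lemma IsTen.eq {n b : ℕ} {e : (Fin n → S.Idx b) → L} {D D' : Divisor L FF}
    (h : S.IsTen b e D) (h' : S.IsTen b e D') (hD : 0 ≤ D) (hD' : 0 ≤ D')
    (hn : Divisor.degree D = n) (hn' : Divisor.degree D' = n) (hb : 2 * S.g + n < b) : D = D' :=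
  S.eq_of_W_eq hD hD' (by omega) (by omega) (h.kerE_eq.symm.trans h'.kerE_eq)

lemma mulv_mem_W {a b c : ℕ} (h : a + b = c) {D D' : Divisor L FF} {x : S.Idx a → L}
    {y : S.Idx b → L} (hx : x ∈ S.W L a D) (hy : y ∈ S.W L b D') :
    S.mulv a b c x y ∈ S.W L c (D + D') := by
  rw [mem_W, S.realF_mulv L h.le]
  have h2 := mul_mem_Lsp (S.mem_W.mp hx) (S.mem_W.mp hy)
  have e : S.binf L (a : ℤ) - D + (S.binf L (b : ℤ) - D') = S.binf L (c : ℤ) - (D + D') := by
    rw [← h, binf, binf, binf, Nat.cast_add, Finsupp.single_add]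
    abel
  rwa [e] at h2

lemma mem_W_zero {b : ℕ} (x : S.Idx b → L) : x ∈ S.W L b 0 := by
  rw [mem_W, sub_zero]
  exact S.realF_mem L b x

/-- A pair of tensors satisfying all equations. -/
structure IsPair {n : ℕ} (a c : ℕ) (e : (Fin n → S.Idx a) → L)
    (e' : (Fin n → S.Idx (a + c)) → L) : Prop where
  eqs : ∀ i, S.pairEq a c e e' i = 0
  ne : e ≠ 0
  ne' : e' ≠ 0

/-- The tensors of a divisor in two levels satisfy the pair equations. -/
theorem IsTen.isPair {n a c : ℕ} {e : (Fin n → S.Idx a) → L}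
    {e' : (Fin n → S.Idx (a + c)) → L} {D : Divisor L FF}
    (h : S.IsTen a e D) (h' : S.IsTen (a + c) e' D) : S.IsPair a c e e' where
  ne := h.ne_zero
  ne' := h'.ne_zero
  eqs i := by
    rcases i with ⟨I, t, t'⟩ | ⟨I, t, t'⟩ | ⟨I, j, J, t⟩ | ⟨I, j, J, t⟩ | ⟨I, j, l, J, t⟩
    · simp only [pairEq]
      split_ifs with ht
      · rfl
      · exact h.alt I t t' ht
    · simp only [pairEq]
      split_ifs with ht
      · rfl
      · exact h'.alt I t t' ht
    · exact h.dec I j J t
    · exact h'.dec I j J t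
    · refine h'.le_ker ?_ J t
      have := S.mulv_mem_W rfl (h.cram_mem I j) (S.mem_W_zero (S.unitv l))
      rwa [add_zero] at this

/-- Conversely, a solution of the pair equations comes from an effective divisor. -/
theorem IsPair.exists_div {n a c : ℕ} {e : (Fin n → S.Idx a) → L}
    {e' : (Fin n → S.Idx (a + c)) → L} (h : S.IsPair a c e e') (ha : 2 * S.g + n < a)
    (hc : a + 2 * S.g ≤ c) :
    ∃ D : Divisor L FF, 0 ≤ D ∧ Divisor.degree D = n ∧ S.IsTen a e D ∧ S.IsTen (a + c) e' D := by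
  have hp : IsPl e (kerE e) := isPl_kerE h.ne
    (fun I t t' ht => by simpa [pairEq, ht] using h.eqs (.inl (I, t, t')))
    (fun I j J t => h.eqs (.inr (.inr (.inl (I, j, J, t)))))
  have hp' : IsPl e' (kerE e') := isPl_kerE h.ne'
    (fun I t t' ht => by simpa [pairEq, ht] using h.eqs (.inr (.inl (I, t, t'))))
    (fun I j J t => h.eqs (.inr (.inr (.inr (.inl (I, j, J, t))))))
  obtain ⟨I, hI⟩ := hp.exists_ne_zero
  have hmul : (kerE e).map (S.realF L a) * riemannRochSpace (S.binf L (c : ℤ))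
      ≤ (kerE e').map (S.realF L (a + c)) := by
    rw [← hp.span_cram hI, ← S.range_realF L c, Submodule.map_span,
      show LinearMap.range (S.realF L c) = Submodule.span L (Set.range fun l => S.el L (S.bF c l))
        from Fintype.range_linearCombination _ _, Submodule.span_mul_span]
    refine Submodule.span_le.mpr ?_
    rintro _ ⟨_, ⟨_, ⟨j, rfl⟩, rfl⟩, _, ⟨l, rfl⟩, rfl⟩
    refine ⟨S.mulv a c (a + c) (cram e I j) (S.unitv l),
      fun J t => h.eqs (.inr (.inr (.inr (.inr (I, j, l, J, t))))), ?_⟩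
    rw [S.realF_mulv L le_rfl, S.realF_unitv L l]
  have hr : ∀ b, ∀ K : Submodule L (S.Idx b → L),
      finrank L (K.map (S.realF L b)) = finrank L K := fun b K =>
    (Submodule.equivMapOfInjective _ (S.realF_injective L b) _).finrank_eq.symm
  have hle : ∀ b, ∀ K : Submodule L (S.Idx b → L),
      K.map (S.realF L b) ≤ riemannRochSpace (S.binf L (b : ℤ)) := fun b K =>
    S.range_realF L b ▸ LinearMap.map_le_range
  have hAC : S.binf L (a : ℤ) + S.binf L (c : ℤ) = S.binf L ((a + c : ℕ) : ℤ) := by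
    rw [binf, binf, binf, Nat.cast_add, Finsupp.single_add]
  have e1 := S.card_Idx (b := a) (by omega)
  have e2 := S.card_Idx (b := a + c) (by omega)
  have f1 := hp.finrank_add
  have f2 := hp'.finrank_add
  obtain ⟨D, hD0, hDn, hW, hW'⟩ := (S.rr L).exists_divisor_of_mul_le (n := n) (hle a (kerE e))
    (hAC.symm ▸ hle (a + c) (kerE e')) hmul
    (by rw [degree_binf, S.g_eq L]; omega)
    (by rw [degree_binf, degree_binf, S.g_eq L]; omega)
    (by rw [hr, degree_binf, S.g_eq L]; omega)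
    (by rw [hr, degree_binf, degree_binf, S.g_eq L]; omega)
  rw [hAC] at hW'
  refine ⟨D, hD0, hDn, ?_, ?_⟩
  · have : S.W L a D = kerE e := by
      rw [W, ← hW, Submodule.comap_map_eq_of_injective (S.realF_injective L a)]
    rw [IsTen, this]; exact hp
  · have : S.W L (a + c) D = kerE e' := by
      rw [W, ← hW', Submodule.comap_map_eq_of_injective (S.realF_injective L (a + c))]
    rw [IsTen, this]; exact hp'

/-- Pairs descend and ascend along embeddings of fields. -/
theorem IsPair.map {L' : Type} [Field L'] [Algebra ℚ L'] {n a c : ℕ}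
    {e : (Fin n → S.Idx a) → L} {e' : (Fin n → S.Idx (a + c)) → L} (φ : L →ₐ[ℚ] L')
    (h : S.IsPair a c e e') :
    (∀ i, S.pairEq a c (fun I => φ (e I)) (fun I => φ (e' I)) i = 0) ∧
      (fun I => φ (e I)) ≠ 0 ∧ (fun I => φ (e' I)) ≠ 0 := by
  refine ⟨fun i => by rw [← S.map_pairEq, h.eqs, map_zero], fun h0 => h.ne ?_, fun h0 => h.ne' ?_⟩
    <;> exact funext fun I => φ.toRingHom.injective (by simpa using congrFun h0 I)

end Setup

end Fermat.Agent.MWJ0

end
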