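import Fermat.Agent.MWJ0.CubeForms

/-!
# The theorem of the cube for heights of tensors
-/

set_option autoImplicit false

noncomputable section

open AlgebraicCurve ModularCurve Module Function

namespace Fermat.Agent.MWJ0

namespace Setup

variable (S : Setup)

local notation "Qb" => AlgebraicClosure ℚ

local notation "FQ" => laurentBaseChange Qb S.F₀

/-- Multiplication by `w` on the sections vanishing on `E'`. -/
def mulW {p q r : ℕ} (hr : p + q = r) {A : Divisor Qb FQ} {w : S.Idx p → Qb}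
    (hw : w ∈ S.W Qb p A) (E' : Divisor Qb FQ) {D : Divisor Qb FQ} (hD : A + E' = D) :
    S.W Qb q E' →ₗ[Qb] S.W Qb r D :=
  ((S.mulL w) ∘ₗ (S.W Qb q E').subtype).codRestrict _ fun z => hD ▸ S.mulv_mem_W hr hw z.2

@[simp] lemma coe_mulW {p q r : ℕ} (hr : p + q = r) {A : Divisor Qb FQ} {w : S.Idx p → Qb}
    (hw : w ∈ S.W Qb p A) (E' : Divisor Qb FQ) {D : Divisor Qb FQ} (hD : A + E' = D)
    (z : S.W Qb q E') :
    (S.mulW hr hw E' hD z : S.Idx r → Qb) = S.mulv p q r w (z : S.Idx q → Qb) := rfl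

/-- Multiplication by `w` on all sections. -/
def mulW0 {p q r : ℕ} (hr : p + q = r) {A : Divisor Qb FQ} {w : S.Idx p → Qb}
    (hw : w ∈ S.W Qb p A) : (S.Idx q → Qb) →ₗ[Qb] S.W Qb r A :=
  (S.mulL w).codRestrict _ fun z => by
    show S.mulv p q r w z ∈ _
    simpa [add_zero] using (S.mulv_mem_W hr hw (S.mem_W_zero z) : _ ∈ S.W Qb r (A + 0))

@[simp] lemma coe_mulW0 {p q r : ℕ} (hr : p + q = r) {A : Divisor Qb FQ} {w : S.Idx p → Qb}
    (hw : w ∈ S.W Qb p A) (z : S.Idx q → Qb) :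
    (S.mulW0 hr hw z : S.Idx r → Qb) = S.mulv p q r w z := rfl

/-- The factorisation of the tensor of `A + C`. -/
theorem vec2_eq {A C : Divisor Qb FQ} (hA : 0 ≤ A) (hAn : Divisor.degree A = S.n) (hC : 0 ≤ C)
    (hCn : Divisor.degree C = S.n) {eA : S.Ten Qb S.la} (tA : S.IsTen S.la eA A)
    {e : (Fin (S.n + S.n) → S.Idx S.l2) → Qb} (te : S.IsTen S.l2 e (A + C))
    {eA₂ : S.Ten Qb S.l2} (tA₂ : S.IsTen S.l2 eA₂ A)
    {Λ₀ : (S.Idx (S.la + S.lc) → Qb) →ₗ[Qb] (Fin S.n → Qb)} (hs₀ : Surjective Λ₀)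
    (hk₀ : LinearMap.ker Λ₀ = S.W Qb (S.la + S.lc) C) :
    ∃ (φ : S.W Qb S.l2 A →ₗ[Qb] (Fin S.n → Qb)) (κ : Qb) (γ : Fin S.tn → Qb),
      Surjective φ ∧ (∀ z, φ z = 0 ↔ (z : S.Idx S.l2 → Qb) ∈ S.W Qb S.l2 (A + C)) ∧ κ ≠ 0 ∧
      (∀ t us, dform φ (fun s => S.mulW0 (q := S.la + S.lc) (r := S.l2) rfl (S.wv_mem_W tA t)
          (us s)) = γ t * dform Λ₀ us) ∧
      (∀ a : S.V2Idx, S.vec2 e eA a
        = κ * eA₂ a.1 * γ a.2.1 * dform Λ₀ fun s => S.unitv (a.2.2 s)) ∧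
      (A + C ≠ 0 → ∃ a : S.V2Idx, S.vec2 e eA a ≠ 0) := by
  obtain ⟨φ, hsφ, hkφ, κ, hκ, hev⟩ := S.exists_slot_form te tA₂ (le_add_of_nonneg_right hC)
  have hγ : ∀ t, ∃ γ : Qb, ∀ us, dform φ (fun s => S.mulW0 (q := S.la + S.lc) (r := S.l2) rfl
      (S.wv_mem_W tA t) (us s)) = γ * dform Λ₀ us := fun t =>
    exists_dform_comp hs₀ _ fun u hu => by
      rw [hkφ, coe_mulW0]
      exact S.mulv_mem_W rfl (S.wv_mem_W tA t)
        (hk₀ ▸ (LinearMap.mem_ker.mpr hu : u ∈ LinearMap.ker Λ₀))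
  choose γ hγ using hγ
  have hval : ∀ a : S.V2Idx, S.vec2 e eA a
      = κ * eA₂ a.1 * γ a.2.1 * dform Λ₀ fun s => S.unitv (a.2.2 s) := by
    intro a
    rw [mul_assoc (κ * eA₂ a.1), ← hγ, ← hev]
    rfl
  refine ⟨φ, κ, γ, hsφ, hkφ, hκ, hγ, hval, fun hne => ?_⟩
  obtain ⟨t, hw⟩ := S.exists_exact_wv hA hAn tA (add_nonneg hA hC)
    (by rw [map_add, hAn, hCn]; omega) hne
  obtain ⟨v, hv⟩ := tA₂.exists_ne_zero
  obtain ⟨u, hu⟩ := S.exists_units_ne_zero (ψ := φ ∘ₗ S.mulW0 (q := S.la + S.lc) (r := S.l2) rfl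
      (S.wv_mem_W tA t)) hs₀ fun u => by
    rw [LinearMap.comp_apply, hkφ, coe_mulW0,
      S.mem_W_mul_iff rfl hA hC hw (fun w h => by simpa using h) u, ← hk₀, LinearMap.mem_ker]
  refine ⟨(v, t, u), ?_⟩
  rw [hval, mul_assoc (κ * eA₂ v), ← hγ]
  exact mul_ne_zero (mul_ne_zero hκ hv) hu

/-- `w₂ (w₁ u)` does not depend on the order. -/
lemma mulv_mulv_comm {p q s r : ℕ} (hs : p + q = s) (hr : p + s = r)
    (w w' : S.Idx p → Qb) (u : S.Idx q → Qb) :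
    S.mulv p s r w' (S.mulv p q s w u) = S.mulv p s r w (S.mulv p q s w' u) := by
  refine S.realF_injective Qb r ?_
  rw [S.realF_mulv Qb hr.le, S.realF_mulv Qb hs.le, S.realF_mulv Qb hr.le, S.realF_mulv Qb hs.le]
  ring

/-- The factorisation of the tensor of `A + B + C`. -/
theorem vec3_eq (hg : 0 < S.g) {A B C : Divisor Qb FQ} (hA : 0 ≤ A)
    (hAn : Divisor.degree A = S.n) (hB : 0 ≤ B) (hBn : Divisor.degree B = S.n) (hC : 0 ≤ C)
    (hCn : Divisor.degree C = S.n)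
    {eA eB : S.Ten Qb S.la} (tA : S.IsTen S.la eA A) (tB : S.IsTen S.la eB B)
    {eA₂ eB₂ : S.Ten Qb S.l2} (tA₂ : S.IsTen S.l2 eA₂ A) (tB₂ : S.IsTen S.l2 eB₂ B)
    {e13 e23 : (Fin (S.n + S.n) → S.Idx S.l2) → Qb} (t13 : S.IsTen S.l2 e13 (A + C))
    (t23 : S.IsTen S.l2 e23 (B + C)) {eC : S.Ten Qb (S.la + S.lc)}
    (tC : S.IsTen (S.la + S.lc) eC C)
    {e12 : (Fin (S.n + S.n) → S.Idx S.l3) → Qb} (t12 : S.IsTen S.l3 e12 (B + A))
    {e : (Fin (S.n + S.n + S.n) → S.Idx S.l3) → Qb} (te : S.IsTen S.l3 e (B + (A + C))) :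
    (∃ a : S.V3Idx, S.vec3 e eA eB a ≠ 0) ∧
    ∃ K : Qb, K ≠ 0 ∧ ∀ (v : Fin (S.n + S.n) → S.Idx S.l3) (t t' : Fin S.tn)
      (u u' : Fin S.n → S.Idx (S.la + S.lc)) (v₁ v₂ : Fin S.n → S.Idx S.l2),
      S.vec3 e eA eB (v, (t, t'), u) * (eA₂ v₁ * eB₂ v₂ * eC u') =
        K * (e12 v * S.vec2 e13 eA (v₁, t, u) * S.vec2 e23 eB (v₂, t', u')) := by
  obtain ⟨Λ₀, c₀, hs₀, hk₀, hc₀, hev₀⟩ := IsPl.exists_dform tC
  have heC : ∀ u : Fin S.n → S.Idx (S.la + S.lc),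
      eC u = c₀ * dform Λ₀ fun s => S.unitv (u s) := fun u => by
    rw [← hev₀, ← ev_unit eC u]; rfl
  obtain ⟨φA, κA, γA, hsA, hkA, hκA, hγA, hvA, -⟩ := S.vec2_eq hA hAn hC hCn tA t13 tA₂ hs₀ hk₀
  obtain ⟨φB, κB, γB, hsB, hkB, hκB, hγB, hvB, -⟩ := S.vec2_eq hB hBn hC hCn tB t23 tB₂ hs₀ hk₀
  obtain ⟨φ, hsφ, hkφ, κ, hκ, hev⟩ := S.exists_slot_form te t12
    (add_le_add le_rfl (le_add_of_nonneg_right hC))
  let MA : ∀ t, S.W Qb S.l2 B →ₗ[Qb] S.W Qb S.l3 (B + A) := fun t =>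
    S.mulW rfl (S.wv_mem_W tA t) B (add_comm A B)
  let MB : ∀ t, S.W Qb S.l2 A →ₗ[Qb] S.W Qb S.l3 (B + A) := fun t =>
    S.mulW rfl (S.wv_mem_W tB t) A rfl
  have ha : ∀ t, ∃ a : Qb, ∀ zs, dform φ (fun s => MB t (zs s)) = a * dform φA zs := fun t =>
    exists_dform_comp hsA _ fun z hz => by
      rw [hkφ]
      exact S.mulv_mem_W rfl (S.wv_mem_W tB t) ((hkA z).mp hz)
  have ha' : ∀ t, ∃ a : Qb, ∀ zs, dform φ (fun s => MA t (zs s)) = a * dform φB zs := fun t =>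
    exists_dform_comp hsB _ fun z hz => by
      rw [hkφ, show B + (A + C) = A + (B + C) by abel]
      exact S.mulv_mem_W rfl (S.wv_mem_W tA t) ((hkB z).mp hz)
  choose a ha using ha
  choose a' ha' using ha'
  let M : ∀ (_t _t' : Fin S.tn), (S.Idx (S.la + S.lc) → Qb) →ₗ[Qb] S.W Qb S.l3 (B + A) := fun t t' =>
    MB t' ∘ₗ S.mulW0 (q := S.la + S.lc) (r := S.l2) rfl (S.wv_mem_W tA t)
  have hM1 : ∀ t t' us, dform φ (fun s => M t t' (us s)) = a t' * γA t * dform Λ₀ us := by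
    intro t t' us
    rw [mul_assoc, ← hγA, ← ha]
    simp only [M, LinearMap.comp_apply]
  have hM2 : ∀ t t' us, dform φ (fun s => M t t' (us s)) = a' t * γB t' * dform Λ₀ us := by
    intro t t' us
    rw [mul_assoc, ← hγB, ← ha']
    refine congrArg (dform φ) (funext fun s => Subtype.ext ?_)
    simp only [M, MA, MB, LinearMap.comp_apply, coe_mulW, coe_mulW0]
    exact S.mulv_mulv_comm rfl rfl (S.wv eA t) (S.wv eB t') (us s)
  have hv3 : ∀ (v : Fin (S.n + S.n) → S.Idx S.l3) (t t' : Fin S.tn)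
      (u : Fin S.n → S.Idx (S.la + S.lc)), S.vec3 e eA eB (v, (t, t'), u) =
      κ * e12 v * dform φ (fun s => M t t' (S.unitv (u s))) := by
    intro v t t' u
    rw [← hev, vec3]
    simp only [M, MB, LinearMap.comp_apply, coe_mulW, coe_mulW0]
  -- a good pair of parameters
  have hsum : B + (A + C) ≠ 0 := fun h => by
    have := congrArg Divisor.degree h
    rw [map_add, map_add, hAn, hBn, hCn, map_zero] at this
    simp only [Setup.n] at this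
    omega
  obtain ⟨t₀, hwA⟩ := S.exists_exact_wv hA hAn tA (add_nonneg hB (add_nonneg hA hC))
    (by rw [map_add, map_add, hAn, hBn, hCn]; omega) hsum
  obtain ⟨t₀', hwB⟩ := S.exists_exact_wv hB hBn tB (add_nonneg hB (add_nonneg hA hC))
    (by rw [map_add, map_add, hAn, hBn, hCn]; omega) hsum
  have hpos : ∀ w, 0 ≤ B w ∧ 0 ≤ A w ∧ 0 ≤ C w := fun w => ⟨hB w, hA w, hC w⟩
  obtain ⟨u₀, hu₀⟩ := S.exists_units_ne_zero (ψ := φ ∘ₗ M t₀ t₀') hs₀ fun u => by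
    rw [LinearMap.comp_apply, hkφ]
    show S.mulv S.la S.l2 S.l3 (S.wv eB t₀')
      (S.mulv S.la (S.la + S.lc) S.l2 (S.wv eA t₀) u) ∈ _ ↔ _
    rw [S.mem_W_mul_iff rfl hB (add_nonneg hA hC) hwB (fun w h => h),
      S.mem_W_mul_iff rfl hA hC hwA (fun w h => by
        obtain ⟨h1, h2, h3⟩ := hpos w
        simp only [Finsupp.add_apply]
        omega), ← hk₀, LinearMap.mem_ker]
  have hu0' : dform φ (fun s => M t₀ t₀' (S.unitv (u₀ s))) ≠ 0 := hu₀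
  have hD0 : dform Λ₀ (fun s => (S.unitv (u₀ s) : S.Idx (S.la + S.lc) → Qb)) ≠ 0 := fun h => by
    rw [hM1, h, mul_zero] at hu0'; exact hu0' rfl
  have hcomm : ∀ t t', a t' * γA t = a' t * γB t' := fun t t' =>
    mul_right_cancel₀ hD0 ((hM1 t t' _).symm.trans (hM2 t t' _))
  rw [hM1] at hu0'
  have hγ0 : γA t₀ ≠ 0 := fun h => hu0' (by rw [h]; ring)
  have ha0 : a t₀' ≠ 0 := fun h => hu0' (by rw [h]; ring)
  set κ₀ := a' t₀ / γA t₀ with hκ₀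
  have hat : ∀ t', a t' = κ₀ * γB t' := fun t' => by
    rw [hκ₀, div_mul_eq_mul_div, eq_div_iff hγ0]
    exact hcomm t₀ t'
  have hκ₀0 : κ₀ ≠ 0 := fun h => ha0 (by rw [hat, h, zero_mul])
  refine ⟨?_, κ * κ₀ * c₀ / (κA * κB),
    div_ne_zero (mul_ne_zero (mul_ne_zero hκ hκ₀0) hc₀) (mul_ne_zero hκA hκB),
    fun v t t' u u' v₁ v₂ => ?_⟩
  · obtain ⟨v, hv⟩ := t12.exists_ne_zero
    exact ⟨(v, (t₀, t₀'), u₀), by rw [hv3]; exact mul_ne_zero (mul_ne_zero hκ hv) hu₀⟩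
  · rw [hv3, hM1, hat, hvA, hvB, heC]
    field_simp

end Setup

end Fermat.Agent.MWJ0

end
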