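import Mathlib.RingTheory.Etale.Field
import Mathlib.RingTheory.AlgebraicIndependent.AlgebraicClosure
import Mathlib.RingTheory.AlgebraicIndependent.TranscendenceBasis
import Mathlib.RingTheory.AlgebraicIndependent.Transcendental
import Mathlib.Algebra.DualNumber
import Mathlib.FieldTheory.IsAlgClosed.Basic

/-!
# A derivation not killing a given transcendental element
-/

set_option autoImplicit false

noncomputable section

namespace Fermat.Agent.MWJ0

open MvPolynomial

variable {k L : Type} [Field k] [Field L] [Algebra k L] [CharZero k]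

/-- A transcendental element has a derivation over `k` with value `1` at it. -/
theorem exists_additive_derivation {c : L} (hc : Transcendental k c) :
    ∃ δ : L →+ L, (∀ a b, δ (a * b) = a * δ b + δ a * b) ∧ (∀ a : k, δ (algebraMap k L a) = 0) ∧
      δ c = 1 := by
  classical
  have : CharZero L := charZero_of_injective_algebraMap (algebraMap k L).injective
  obtain ⟨s, hcs, hs⟩ := exists_isTranscendenceBasis_superset
    (R := k) (s := ({c} : Set L))
    (algebraicIndependent_singleton_iff (R := k) (x := (fun i : ({c} : Set L) => (i : L))) ⟨c, rfl⟩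
      |>.mpr hc)
  let i0 : s := ⟨c, hcs rfl⟩
  let : Algebra (MvPolynomial s k) L := (aeval (fun i : s => (i : L)) : (MvPolynomial s k) →ₐ[k] L).toRingHom.toAlgebra
  have hinj : Function.Injective (algebraMap (MvPolynomial s k) L) := hs.1
  have : FaithfulSMul (MvPolynomial s k) L := (faithfulSMul_iff_algebraMap_injective (MvPolynomial s k) L).mpr hinj
  let : Algebra (FractionRing (MvPolynomial s k)) L := FractionRing.liftAlgebra (MvPolynomial s k) L
  have : Algebra.IsAlgebraic (MvPolynomial s k) L := by
    refine ⟨fun x => ?_⟩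
    have hx := hs.isAlgebraic.isAlgebraic x
    refine IsAlgebraic.of_ringHom_of_comp_eq (a := x) (g := RingHom.id L)
      (f := (hs.1.aevalEquiv : (MvPolynomial s k) →+* Algebra.adjoin k (Set.range fun i : s => (i : L))))
      hx ?_ Function.injective_id ?_
    · exact hs.1.aevalEquiv.surjective
    · ext p
      · simp [RingHom.algebraMap_toAlgebra]
      · simp [RingHom.algebraMap_toAlgebra]
  have : Algebra.IsAlgebraic (FractionRing (MvPolynomial s k)) L :=
    (IsFractionRing.comap_isAlgebraic_iff (A := MvPolynomial s k) (K := FractionRing (MvPolynomial s k))).mp inferInstance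
  have : CharZero (FractionRing (MvPolynomial s k)) := inferInstance
  have : Algebra.IsSeparable (FractionRing (MvPolynomial s k)) L :=
    Algebra.IsAlgebraic.isSeparable_of_perfectField
  have : Algebra.FormallyEtale (FractionRing (MvPolynomial s k)) L := Algebra.FormallyEtale.of_isSeparable _ L
  have : Algebra.FormallySmooth (MvPolynomial s k) (FractionRing (MvPolynomial s k)) :=
    Algebra.FormallySmooth.of_isLocalization (nonZeroDivisors (MvPolynomial s k))
  have : Algebra.FormallySmooth (MvPolynomial s k) L := Algebra.FormallySmooth.comp (MvPolynomial s k) (FractionRing (MvPolynomial s k)) L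
  let g : (MvPolynomial s k) →ₐ[k] DualNumber L := aeval fun i : s =>
    TrivSqZeroExt.inl (i : L) + TrivSqZeroExt.inr (if i = i0 then 1 else 0)
  let : Algebra (MvPolynomial s k) (DualNumber L) := g.toRingHom.toAlgebra
  have hfst : ∀ p : (MvPolynomial s k), TrivSqZeroExt.fst (g p) = aeval (fun i : s => (i : L)) p := by
    intro p
    have h : ((TrivSqZeroExt.fstHom k L L).comp g) = aeval (fun i : s => (i : L)) := by
      refine MvPolynomial.algHom_ext fun i => ?_
      show TrivSqZeroExt.fst (g (X i)) = aeval (fun i : s => (i : L)) (X i)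
      simp only [g, aeval_X]
      by_cases h : i = i0
      · rw [if_pos h, TrivSqZeroExt.fst_add, TrivSqZeroExt.fst_inl, TrivSqZeroExt.fst_inr, add_zero]
      · rw [if_neg h, TrivSqZeroExt.fst_add, TrivSqZeroExt.fst_inl, TrivSqZeroExt.fst_inr, add_zero]
    exact DFunLike.congr_fun h p
  let π : DualNumber L →ₐ[(MvPolynomial s k)] L :=
    { toFun := TrivSqZeroExt.fst
      map_one' := TrivSqZeroExt.fst_one
      map_mul' := TrivSqZeroExt.fst_mul
      map_zero' := TrivSqZeroExt.fst_zero
      map_add' := TrivSqZeroExt.fst_add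
      commutes' := fun p => hfst p }
  have hπ : Function.Surjective π := fun x => ⟨TrivSqZeroExt.inl x, TrivSqZeroExt.fst_inl L x⟩
  have hnil : IsNilpotent (RingHom.ker (π : DualNumber L →+* L)) := by
    refine ⟨2, ?_⟩
    rw [Submodule.pow_succ, Submodule.pow_one]
    rw [Ideal.zero_eq_bot, eq_bot_iff, Ideal.mul_le]
    intro x hx y hy
    have hx' : TrivSqZeroExt.fst x = 0 := hx
    have hy' : TrivSqZeroExt.fst y = 0 := hy
    rw [Ideal.mem_bot]
    ext <;> simp [hx', hy']
  let τ : L →ₐ[(MvPolynomial s k)] DualNumber L :=
    Algebra.FormallySmooth.liftOfSurjective (AlgHom.id (MvPolynomial s k) L) π hπ hnil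
  have hτ : ∀ x, TrivSqZeroExt.fst (τ x) = x := fun x =>
    Algebra.FormallySmooth.liftOfSurjective_apply (AlgHom.id (MvPolynomial s k) L) π hπ hnil x
  refine ⟨AddMonoidHom.mk' (fun x => TrivSqZeroExt.snd (τ x)) (fun a b => by simp), ?_, ?_, ?_⟩
  · intro a b
    simp [hτ, mul_comm]
  · intro a
    have h1 := τ.commutes (C a : (MvPolynomial s k))
    have h2 : algebraMap (MvPolynomial s k) L (C a) = algebraMap k L a := by
      simp [RingHom.algebraMap_toAlgebra]
    rw [h2] at h1
    simp [h1, RingHom.algebraMap_toAlgebra, g, TrivSqZeroExt.algebraMap_eq_inl']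
  · have h1 := τ.commutes (X i0 : (MvPolynomial s k))
    have h2 : algebraMap (MvPolynomial s k) L (X i0) = c := by
      simp [RingHom.algebraMap_toAlgebra, i0]
    rw [h2] at h1
    simp [h1, RingHom.algebraMap_toAlgebra, g]

end Fermat.Agent.MWJ0

end
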