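import Fermat.Agent.MWJ0.Classes
import Fermat.Agent.MWJ0.Deriv

/-!
# Two-torsion classes are algebraic

A function `F` with divisor `2D - 2d·∞`, `l(D) = 1`, normalised in rational coordinates, is killed
by every derivation, so `D` has finite orbit under the automorphisms of the constant field.
-/

set_option autoImplicit false

noncomputable section

open AlgebraicCurve ModularCurve Module Function

namespace Fermat.Agent.MWJ0

namespace Setup

variable (S : Setup) {L : Type} [Field L] [Algebra ℚ L] [IsAlgClosed L] [CharZero L]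

local notation "FF" => laurentBaseChange L S.F₀

lemma mem_of_mul_mem {s : ℕ} (hs : 2 * S.g < s) {A : Divisor L FF} {f : FF}
    (h : ∀ l : S.Idx s, f * S.el L (S.bF s l) ∈ riemannRochSpace (A + S.binf L (s : ℤ))) :
    f ∈ riemannRochSpace A := by
  rcases eq_or_ne f 0 with rfl | hf0
  · simp
  rw [mem_Lsp_of_ne_zero hf0]
  intro v
  obtain ⟨u, hu, hun⟩ := SetLike.not_le_iff_exists.mp
    ((S.rr L).Lsp_sub_single_ne (S.binf L (s : ℤ)) v (by rw [degree_binf, S.g_eq L]; omega))
  obtain ⟨y, rfl⟩ := S.exists_realF L hu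
  have hy0 : S.realF L s y ≠ 0 := fun e => hun (e ▸ zero_mem _)
  have hprod : f * S.realF L s y ∈ riemannRochSpace (A + S.binf L (s : ℤ)) := by
    rw [realF_apply, Finset.mul_sum]
    refine Submodule.sum_mem _ fun l _ => ?_
    rw [mul_smul_comm]
    exact Submodule.smul_mem _ _ (h l)
  have h1 := (mem_Lsp_of_ne_zero (mul_ne_zero hf0 hy0)).mp hprod v
  rw [v.ord_mul hf0 hy0, Finsupp.add_apply] at h1
  by_contra hlt
  refine hun ((mem_Lsp_of_ne_zero hy0).mpr fun u' => ?_)
  have h2 := (mem_Lsp_of_ne_zero hy0).mp hu u'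
  rcases eq_or_ne u' v with rfl | hne
  · simp only [Finsupp.sub_apply, Finsupp.single_eq_same] at *
    omega
  · simp only [Finsupp.sub_apply, Finsupp.single_eq_of_ne hne, sub_zero]
    exact h2

lemma W_mono {b : ℕ} {D D' : Divisor L FF} (h : D' ≤ D) : S.W L b D ≤ S.W L b D' :=
  fun _ hw => Lsp_mono (sub_le_sub_left h _) (S.mem_W.mp hw)

lemma span_sq {d : ℕ} {D : Divisor L FF} (hd : d ≤ S.n) (hD : 0 ≤ D)
    (hdeg : Divisor.degree D = d) :
    Submodule.span L (Set.range fun k : S.W L S.la D × S.W L (S.la + S.lc) D =>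
      S.mulv S.la (S.la + S.lc) S.l2 (k.1 : S.Idx S.la → L) (k.2 : S.Idx (S.la + S.lc) → L))
      = S.W L S.l2 (D + D) := by
  have hl : 2 * S.g + d < S.la ∧ S.la + 2 * S.g ≤ S.la + S.lc := by
    simp only [Setup.n, Setup.la, Setup.lc] at *; omega
  have hu : Submodule.span L (Set.range (Subtype.val : S.W L S.la D → S.Idx S.la → L))
      = S.W L S.la D := by
    simp
  have hv : Submodule.span L (Set.range
      (Subtype.val : S.W L (S.la + S.lc) D → S.Idx (S.la + S.lc) → L))
      = S.W L (S.la + S.lc) D := by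
    simp
  exact S.span_range_mulv rfl hD hD hu hv (by rw [hdeg]; omega) (by rw [hdeg]; omega)

/-- Derivations of the coefficients lose at most half of `2D`. -/
lemma deriv_mem_W {d : ℕ} {D : Divisor L FF} (hd : d ≤ S.n) (hD : 0 ≤ D)
    (hdeg : Divisor.degree D = d) (δ : L →+ L) (hδ : ∀ a b, δ (a * b) = a * δ b + δ a * b)
    (hδ0 : ∀ a : ℚ, δ (algebraMap ℚ L a) = 0) {w : S.Idx S.l2 → L}
    (hw : w ∈ S.W L S.l2 (D + D)) : (fun i => δ (w i)) ∈ S.W L S.l2 D := by
  have hl : 2 * S.g + d < S.la ∧ S.la + 2 * S.g ≤ S.la + S.lc := by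
    simp only [Setup.n, Setup.la, Setup.lc] at *; omega
  have hsm : ∀ (q : ℚ) (a : L), δ (q • a) = q • δ a := fun q a => by
    rw [Algebra.smul_def, Algebra.smul_def, hδ, hδ0, zero_mul, add_zero]
  rw [← S.span_sq hd hD hdeg] at hw
  induction hw using Submodule.span_induction with
  | mem w hw =>
      obtain ⟨⟨u, v⟩, rfl⟩ := hw
      have e : (fun i => δ (S.mulv S.la (S.la + S.lc) S.l2 (u : S.Idx S.la → L) v i))
          = S.mulv S.la (S.la + S.lc) S.l2 (fun j => δ (u.1 j)) v.1
            + S.mulv S.la (S.la + S.lc) S.l2 u.1 (fun j => δ (v.1 j)) := by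
        funext i
        simp only [mulv, map_sum, hsm, hδ, Pi.add_apply, ← Finset.sum_add_distrib]
        refine Finset.sum_congr rfl fun i' _ => Finset.sum_congr rfl fun j' _ => ?_
        simp only [Algebra.smul_def]
        ring
      rw [e]
      exact add_mem (by simpa using S.mulv_mem_W rfl (S.mem_W_zero fun j => δ (u.1 j)) v.2)
        (by simpa using S.mulv_mem_W rfl u.2 (S.mem_W_zero fun j => δ (v.1 j)))
  | zero => simp only [Pi.zero_apply, map_zero]; exact zero_mem _
  | add x y _ _ hx hy =>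
      convert add_mem hx hy using 1
      funext i; simp
  | smul c x hx' hx =>
      have hxD : x ∈ S.W L S.l2 D := by
        refine S.W_mono (le_add_of_nonneg_right hD) ?_
        rw [← S.span_sq hd hD hdeg]
        exact hx'
      convert add_mem (Submodule.smul_mem _ c hx) (Submodule.smul_mem _ (δ c) hxD) using 1
      funext i
      simp [hδ]

/-- A divisor read off from a function with algebraic coordinates has finite orbit. -/
lemma finite_orbit_of_ord {d : ℕ} {D : Divisor L FF} {z : S.Idx (2 * d) → L}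
    (halg : ∀ i, IsAlgebraic ℚ (z i))
    (hord : ∀ v : Place L FF,
      v.ord (S.realF L (2 * d) z) = 2 * D v - S.binf L ((2 * d : ℕ) : ℤ) v) :
    (Set.range fun σ : L ≃ₐ[ℚ] L => S.gal L σ • D).Finite := by
  classical
  let g : (L ≃ₐ[ℚ] L) → (S.Idx (2 * d) → L) := fun σ i => σ (z i)
  have hg : (Set.range g).Finite := by
    refine (Set.Finite.pi (t := fun i => (minpoly ℚ (z i)).rootSet L)
      fun i => Polynomial.rootSet_finite _ _).subset ?_
    rintro _ ⟨σ, rfl⟩ i -
    rw [Polynomial.mem_rootSet]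
    refine ⟨minpoly.ne_zero (halg i).isIntegral, ?_⟩
    show Polynomial.aeval ((σ : L →ₐ[ℚ] L) (z i)) _ = 0
    rw [Polynomial.aeval_algHom_apply, minpoly.aeval, map_zero]
  have h2 : ∀ (σ : L ≃ₐ[ℚ] L) (v : Place L FF), 2 * (S.gal L σ • D) v
      = v.ord (S.realF L (2 * d) (g σ)) + S.binf L ((2 * d : ℕ) : ℤ) v := by
    intro σ v
    have h3 := SemilinearAut.ord_smul (S.gal L σ) ((S.gal L σ)⁻¹ • v) (S.realF L (2 * d) z)
    rw [smul_inv_smul, gal_realF, hord] at h3
    have h4 : S.binf L ((2 * d : ℕ) : ℤ) ((S.gal L σ)⁻¹ • v)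
        = S.binf L ((2 * d : ℕ) : ℤ) v := by
      rw [← SemilinearAut.divisor_smul_apply, smul_binf]
    rw [h4] at h3
    rw [SemilinearAut.divisor_smul_apply, h3]
    ring
  have key : ∀ σ τ : L ≃ₐ[ℚ] L, g σ = g τ → S.gal L σ • D = S.gal L τ • D := by
    intro σ τ hστ
    ext v
    have a := h2 σ v
    have b := h2 τ v
    rw [hστ] at a
    omega
  have := hg.to_subtype
  refine (Set.finite_range fun y : Set.range g => S.gal L y.2.choose • D).subset ?_
  rintro _ ⟨σ, rfl⟩
  exact ⟨⟨g σ, σ, rfl⟩, key _ σ (⟨g σ, σ, rfl⟩ : Set.range g).2.choose_spec⟩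

/-- A two-torsion class has a representative with finite orbit over `ℚ`. -/
theorem exists_finite_orbit {x : Pic0 L FF} (hx : x + x = 0) :
    ∃ D : Divisor L FF, 0 ≤ D ∧ Divisor.degree D = S.n ∧ S.cls D = x ∧
      (Set.range fun σ : L ≃ₐ[ℚ] L => S.gal L σ • D).Finite := by
  classical
  obtain ⟨d, D, hd, hD, hdeg, h1, hcls⟩ := S.exists_red x
  have h0 : Divisor.degree (D - S.binf L (d : ℤ)) = 0 := by
    rw [map_sub, degree_binf, hdeg, sub_self]
  have hp : D + D - S.binf L ((2 * d : ℕ) : ℤ) ∈ Divisor.principal (K := L) (F := FF) := by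
    rw [← hcls, ← S.mk0_add h0 h0, S.mk0_eq_zero_iff (by rw [map_add, h0, add_zero])] at hx
    convert hx using 1
    rw [Nat.cast_mul, Nat.cast_ofNat, two_mul, binf, binf, Finsupp.single_add]
    abel
  obtain ⟨F, hF0, hF⟩ := hp
  have hFm : F ∈ riemannRochSpace (S.binf L ((2 * d : ℕ) : ℤ)) := by
    rw [mem_Lsp_of_ne_zero hF0]
    intro v
    have := hF v
    have := hD v
    simp only [Finsupp.coe_zero, Pi.zero_apply, Finsupp.sub_apply, Finsupp.add_apply] at *
    omega
  obtain ⟨y, hy⟩ := S.exists_realF L hFm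
  have hy0 : y ≠ 0 := fun e => hF0 (by rw [← hy, e, map_zero])
  obtain ⟨j0, hj0⟩ := Function.ne_iff.mp hy0
  replace hj0 : y j0 ≠ 0 := by simpa using hj0
  set c := (y j0)⁻¹ with hc
  set z := c • y with hz
  set F' := S.realF L (2 * d) z with hF'
  have hF'0 : F' ≠ 0 := by
    rw [hF', hz, map_smul, hy]
    exact smul_ne_zero (inv_ne_zero hj0) hF0
  have hord : ∀ v : Place L FF, v.ord F' = 2 * D v - S.binf L ((2 * d : ℕ) : ℤ) v := by
    intro v
    rw [hF', hz, map_smul, hy, Algebra.smul_def,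
      v.ord_mul ((map_ne_zero_iff _ (algebraMap L FF).injective).mpr (inv_ne_zero hj0)) hF0,
      ord_algebraMap v (inv_ne_zero hj0), ← hF v,
      Finsupp.sub_apply, Finsupp.add_apply]
    ring
  have hzj : z j0 = 1 := by simp [hz, hc, inv_mul_cancel₀ hj0]
  -- every derivation kills `z`
  have hkill : ∀ δ : L →+ L, (∀ a b, δ (a * b) = a * δ b + δ a * b) →
      (∀ a : ℚ, δ (algebraMap ℚ L a) = 0) → ∀ i, δ (z i) = 0 := by
    intro δ hδ hδ0 i
    set dz : S.Idx (2 * d) → L := fun i => δ (z i) with hdz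
    have hs : 2 * S.g < S.l2 - 2 * d := by
      simp only [Setup.n, Setup.la, Setup.lc, Setup.l2] at *; omega
    have hsum : 2 * d + (S.l2 - 2 * d) = S.l2 := by omega
    have hbinf : S.binf L ((2 * d : ℕ) : ℤ) + S.binf L ((S.l2 - 2 * d : ℕ) : ℤ)
        = S.binf L ((S.l2 : ℕ) : ℤ) := by
      rw [binf, binf, binf, ← Finsupp.single_add, ← Nat.cast_add, hsum]
    have hG : S.realF L (2 * d) dz ∈ riemannRochSpace (S.binf L ((2 * d : ℕ) : ℤ) - D) := by
      refine S.mem_of_mul_mem hs fun l => ?_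
      have hw : S.mulv (2 * d) (S.l2 - 2 * d) S.l2 z (S.unitv l) ∈ S.W L S.l2 (D + D) := by
        rw [mem_W, S.realF_mulv L hsum.le, S.realF_unitv L l, ← hF', ← hbinf]
        rw [show S.binf L ((2 * d : ℕ) : ℤ) + S.binf L ((S.l2 - 2 * d : ℕ) : ℤ) - (D + D)
          = S.binf L ((2 * d : ℕ) : ℤ) - (D + D) + S.binf L ((S.l2 - 2 * d : ℕ) : ℤ) by abel]
        refine mul_mem_Lsp ?_ (S.realF_unitv L l ▸ S.realF_mem L _ _)
        rw [mem_Lsp_of_ne_zero hF'0]
        intro v
        rw [hord v, Finsupp.sub_apply, Finsupp.add_apply]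
        omega
      have := S.deriv_mem_W hd hD hdeg δ hδ hδ0 hw
      have e : (fun k => δ (S.mulv (2 * d) (S.l2 - 2 * d) S.l2 z (S.unitv l) k))
          = S.mulv (2 * d) (S.l2 - 2 * d) S.l2 dz (S.unitv l) := by
        funext k
        simp only [mulv, map_sum]
        refine Finset.sum_congr rfl fun i _ => Finset.sum_congr rfl fun j _ => ?_
        rw [Algebra.smul_def, hδ, hδ0, zero_mul, add_zero, Algebra.smul_def]
        congr 1
        simp only [hdz, unitv]
        split_ifs <;> simp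
      rw [e, mem_W, S.realF_mulv L hsum.le, S.realF_unitv L l, ← hbinf] at this
      convert this using 3
      abel
    have hq : S.realF L (2 * d) dz / F' ∈ riemannRochSpace D := by
      rcases eq_or_ne (S.realF L (2 * d) dz) 0 with h | h
      · rw [h, zero_div]; exact zero_mem _
      rw [mem_Lsp_of_ne_zero (div_ne_zero h hF'0)]
      intro v
      rw [div_eq_mul_inv, v.ord_mul h (inv_ne_zero hF'0), v.ord_inv, hord v]
      have := (mem_Lsp_of_ne_zero h).mp hG v
      rw [Finsupp.sub_apply] at this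
      omega
    obtain ⟨κ, hκ⟩ := S.eq_algebraMap_of_finrank_one hD h1 hq
    rw [div_eq_iff hF'0, ← Algebra.smul_def, hF', ← map_smul] at hκ
    have heq := S.realF_injective L (2 * d) hκ
    have hκ0 : κ = 0 := by
      have := congrFun heq j0
      have h1δ : δ 1 = 0 := by simpa using hδ0 1
      simp only [hdz, hzj, h1δ, Pi.smul_apply, smul_eq_mul, mul_one] at this
      exact this.symm
    simpa [hdz, hκ0] using congrFun heq i
  have halg : ∀ i, IsAlgebraic ℚ (z i) := by
    intro i
    by_contra ht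
    obtain ⟨δ, h1, h2, h3⟩ := exists_additive_derivation (k := ℚ) (c := z i) ht
    have := hkill δ h1 h2 i
    rw [h3] at this
    exact one_ne_zero this
  -- finitely many conjugates
  refine ⟨D + S.binf L ((S.n - d : ℕ) : ℤ), S.pad_nonneg hD _, S.degree_pad hd hdeg,
    (S.cls_pad D hd).trans hcls, ?_⟩
  have hfinD := S.finite_orbit_of_ord halg hord
  refine (hfinD.image fun E => E + S.binf L ((S.n - d : ℕ) : ℤ)).subset ?_
  rintro _ ⟨σ, rfl⟩
  exact ⟨_, ⟨σ, rfl⟩, by simp [smul_add, smul_binf]⟩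

end Setup

end Fermat.Agent.MWJ0

end
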