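import Fermat.Agent.MWJ0.Shift
import Fermat.Agent.MWJ0.Torsion
import Mathlib.Algebra.Polynomial.Roots

/-!
# The cube identity

For effective divisors `A`, `B`, `C` of degree `n` the tensor of `A + B + C`, evaluated on
products `w₁ w₂ u` with `w₁` vanishing on `A` and `w₂` on `B`, factors through the tensors of
`A + C`, `B + C`, `A + B` and the single divisors.
-/

set_option autoImplicit false

noncomputable section

open AlgebraicCurve ModularCurve Module Function

namespace Fermat.Agent.MWJ0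

lemma ev_mul_args {R : Type*} [CommRing R] {ι : Type*} [Fintype ι] [DecidableEq ι] {m : ℕ}
    (e : (Fin m → ι) → R) (c : Fin m → R) (ys : Fin m → ι → R) :
    ev e (fun t i => c t * ys t i) = (∏ t, c t) * ev e ys := by
  simp only [ev, Finset.prod_mul_distrib, Finset.mul_sum]
  exact Finset.sum_congr rfl fun I _ => by ring

lemma card_support_le_degree {K F : Type*} [Field K] [Field F] [Algebra K F] (h : RRData K F)
    {E : Divisor K F} (hE : 0 ≤ E) : (E.support.card : ℤ) ≤ Divisor.degree E := by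
  rw [h.degree_eq_sum, Finsupp.sum]
  calc (E.support.card : ℤ) = ∑ _v ∈ E.support, (1 : ℤ) := by simp
    _ ≤ _ := Finset.sum_le_sum fun v hv => by
        have h1 := hE v
        have h2 := Finsupp.mem_support_iff.mp hv
        simp only [Finsupp.coe_zero, Pi.zero_apply] at h1
        omega

namespace Setup

variable (S : Setup)

local notation "Qb" => AlgebraicClosure ℚ

local notation "FQ" => laurentBaseChange Qb S.F₀

/-- The number of parameters for combinations of Cramer vectors. -/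
abbrev tn : ℕ := 3 * S.n * Fintype.card (S.CIdx S.la) + 1

section Vec

variable {R R' : Type*} [CommRing R] [Algebra ℚ R] [CommRing R'] [Algebra ℚ R']

/-- A combination of Cramer vectors. -/
def wv (e : S.Ten R S.la) (t : Fin S.tn) : S.Idx S.la → R :=
  fun l => ∑ k, ((t : ℕ) : R) ^ (Fintype.equivFin (S.CIdx S.la) k : ℕ) * S.crams e k l

lemma map_wv (φ : R →ₐ[ℚ] R') (e : S.Ten R S.la) (t : Fin S.tn) (l : S.Idx S.la) :
    φ (S.wv e t l) = S.wv (fun I => φ (e I)) t l := by
  simp only [wv, map_sum, map_mul, map_pow, map_natCast, map_crams]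

omit [Algebra ℚ R] in
lemma wv_smul (s : R) (e : S.Ten R S.la) (t : Fin S.tn) :
    S.wv (fun I => s * e I) t = fun l => s * S.wv e t l := by
  funext l
  simp only [wv, crams, cram_smul_left, Finset.mul_sum]
  exact Finset.sum_congr rfl fun k _ => by ring

lemma mulv_mul_left {p q r : ℕ} (s : R) (x : S.Idx p → R) (y : S.Idx q → R) :
    S.mulv p q r (fun i => s * x i) y = fun l => s * S.mulv p q r x y l := by
  funext l
  simp only [mulv, Finset.mul_sum, Algebra.smul_def]
  exact Finset.sum_congr rfl fun i _ => Finset.sum_congr rfl fun j _ => by ring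

lemma mulv_mul_right {p q r : ℕ} (s : R) (x : S.Idx p → R) (y : S.Idx q → R) :
    S.mulv p q r x (fun j => s * y j) = fun l => s * S.mulv p q r x y l := by
  funext l
  simp only [mulv, Finset.mul_sum, Algebra.smul_def]
  exact Finset.sum_congr rfl fun i _ => Finset.sum_congr rfl fun j _ => by ring

/-- Indices of `vec2`. -/
abbrev V2Idx : Type := (Fin S.n → S.Idx S.l2) × Fin S.tn × (Fin S.n → S.Idx (S.la + S.lc))

/-- Indices of `vec3`. -/
abbrev V3Idx : Type :=
  (Fin (S.n + S.n) → S.Idx S.l3) × (Fin S.tn × Fin S.tn) × (Fin S.n → S.Idx (S.la + S.lc))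

/-- The tensor of `A + C` on products with sections vanishing on `A`. -/
def vec2 (e : (Fin (S.n + S.n) → S.Idx S.l2) → R) (eA : S.Ten R S.la) (a : S.V2Idx) : R :=
  ev e (Fin.append (fun t => (S.unitv (a.1 t) : S.Idx S.l2 → R)) fun s =>
    S.mulv S.la (S.la + S.lc) S.l2 (S.wv eA a.2.1) (S.unitv (a.2.2 s)))

/-- The tensor of `A + B + C` on products with sections vanishing on `A` and `B`. -/
def vec3 (e : (Fin (S.n + S.n + S.n) → S.Idx S.l3) → R) (eA eB : S.Ten R S.la) (a : S.V3Idx) : R :=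
  ev e (Fin.append (fun t => (S.unitv (a.1 t) : S.Idx S.l3 → R)) fun s =>
    S.mulv S.la S.l2 S.l3 (S.wv eB a.2.1.2)
      (S.mulv S.la (S.la + S.lc) S.l2 (S.wv eA a.2.1.1) (S.unitv (a.2.2 s))))

lemma map_vec2 (φ : R →ₐ[ℚ] R') (e : (Fin (S.n + S.n) → S.Idx S.l2) → R) (eA : S.Ten R S.la)
    (a : S.V2Idx) : φ (S.vec2 e eA a) = S.vec2 (fun I => φ (e I)) (fun I => φ (eA I)) a := by
  rw [vec2, vec2, show φ (ev e _) = _ from map_ev (φ : R →+* R') e _]
  congr 1
  funext i
  induction i using Fin.addCases with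
  | left t => funext j; simp [unitv]
  | right s =>
      funext j
      simp only [Fin.append_right, RingHom.coe_coe, map_mulv]
      simp [map_wv, unitv, apply_ite φ]
      rfl

lemma map_vec3 (φ : R →ₐ[ℚ] R') (e : (Fin (S.n + S.n + S.n) → S.Idx S.l3) → R)
    (eA eB : S.Ten R S.la) (a : S.V3Idx) : φ (S.vec3 e eA eB a) =
      S.vec3 (fun I => φ (e I)) (fun I => φ (eA I)) (fun I => φ (eB I)) a := by
  rw [vec3, vec3, show φ (ev e _) = _ from map_ev (φ : R →+* R') e _]
  congr 1
  funext i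
  induction i using Fin.addCases with
  | left t => funext j; simp [unitv]
  | right s =>
      funext j
      simp only [Fin.append_right, RingHom.coe_coe, map_mulv]
      simp [map_wv, unitv, apply_ite φ]
      rfl

lemma vec2_smul (u s : R) (e : (Fin (S.n + S.n) → S.Idx S.l2) → R) (eA : S.Ten R S.la)
    (a : S.V2Idx) :
    S.vec2 (fun I => u * e I) (fun I => s * eA I) a = u * s ^ S.n * S.vec2 e eA a := by
  have h : s ^ S.n = ∏ i : Fin (S.n + S.n),
      Fin.append (fun _ : Fin S.n => (1 : R)) (fun _ : Fin S.n => s) i := by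
    simp only [Fin.prod_univ_add, Fin.append_left, Fin.append_right]; simp
  rw [vec2, vec2, ev_smul_left, h, mul_assoc, ← ev_mul_args]
  congr 2
  funext i j
  induction i using Fin.addCases with
  | left t => simp only [Fin.append_left, one_mul]
  | right t => simp only [Fin.append_right, wv_smul, mulv_mul_left]

lemma vec3_smul (u s s' : R) (e : (Fin (S.n + S.n + S.n) → S.Idx S.l3) → R)
    (eA eB : S.Ten R S.la) (a : S.V3Idx) :
    S.vec3 (fun I => u * e I) (fun I => s * eA I) (fun I => s' * eB I) a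
      = u * (s * s') ^ S.n * S.vec3 e eA eB a := by
  have h : (s * s') ^ S.n = ∏ i : Fin (S.n + S.n + S.n),
      Fin.append (fun _ : Fin (S.n + S.n) => (1 : R)) (fun _ : Fin S.n => s * s') i := by
    simp only [Fin.prod_univ_add, Fin.append_left, Fin.append_right]; simp
  rw [vec3, vec3, ev_smul_left, h, mul_assoc, ← ev_mul_args]
  congr 2
  funext i j
  induction i using Fin.addCases with
  | left t => simp
  | right t =>
      simp only [Fin.append_right, wv_smul, mulv_mul_left, mulv_mul_right]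
      ring

end Vec

lemma wv_mem_W {A : Divisor Qb FQ} {eA : S.Ten Qb S.la} (tA : S.IsTen S.la eA A) (t : Fin S.tn) :
    S.wv eA t ∈ S.W Qb S.la A := by
  have e : S.wv eA t = ∑ k, ((t : ℕ) : Qb) ^ (Fintype.equivFin (S.CIdx S.la) k : ℕ) •
      S.crams eA k := by
    funext l; simp [wv, Finset.sum_apply]
  rw [e]
  exact Submodule.sum_mem _ fun k _ => Submodule.smul_mem _ _ (tA.cram_mem _ _)

/-- `f` has no other zeros on the support of `E` than prescribed by `A`. -/
def ExactOn (a : ℕ) (A E : Divisor Qb FQ) (w : S.Idx a → Qb) : Prop :=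
  w ∈ S.W Qb a A ∧ w ≠ 0 ∧
    ∀ v, E v ≠ 0 → v.ord (S.realF Qb a w) = A v - S.binf Qb (a : ℤ) v

/-- Some vector `wv eA t` is exact for `A` and `E`. -/
theorem exists_exact_wv {A E : Divisor Qb FQ} {eA : S.Ten Qb S.la} (hA : 0 ≤ A)
    (hAn : Divisor.degree A = S.n) (tA : S.IsTen S.la eA A) (hE : 0 ≤ E)
    (hEn : Divisor.degree E ≤ 3 * (S.n : ℤ)) (hEne : E ≠ 0) :
    ∃ t, S.ExactOn S.la A E (S.wv eA t) := by
  classical
  have hb : 2 * (S.g : ℤ) + Divisor.degree A < (S.la : ℕ) := by
    rw [hAn]; simp only [Setup.n, Setup.la] at *; omega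
  let κN := Fintype.card (S.CIdx S.la)
  have hbad : ∀ v : Place Qb FQ, (Finset.univ.filter fun t : Fin S.tn =>
      S.wv eA t ∈ S.W Qb S.la (A + Finsupp.single v 1)).card ≤ κN := by
    intro v
    set W' := S.W Qb S.la (A + Finsupp.single v 1)
    obtain ⟨k₀, hk₀⟩ : ∃ k, S.crams eA k ∉ W' := by
      by_contra hcon
      push Not at hcon
      have h1 : S.W Qb S.la A ≤ W' := by
        rw [← S.span_crams tA]
        exact Submodule.span_le.mpr (by rintro _ ⟨k, rfl⟩; exact hcon k)
      have h2 := S.le_of_W_le hA hb h1 v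
      simp at h2
    obtain ⟨φ, hφ, hφW⟩ := Submodule.exists_le_ker_of_notMem hk₀
    let P : Polynomial Qb := ∑ k, Polynomial.monomial
      (Fintype.equivFin (S.CIdx S.la) k : ℕ) (φ (S.crams eA k))
    have hP : P.coeff (Fintype.equivFin (S.CIdx S.la) k₀ : ℕ) = φ (S.crams eA k₀) := by
      simp only [P, Polynomial.finsetSum_coeff, Polynomial.coeff_monomial]
      rw [Finset.sum_eq_single k₀]
      · simp
      · intro k _ hk
        rw [if_neg fun h => hk ((Fintype.equivFin _).injective (Fin.ext h))]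
      · simp
    have hP0 : P ≠ 0 := fun h => hφ (by rw [← hP, h, Polynomial.coeff_zero])
    have hdeg : P.natDegree ≤ κN := by
      refine Polynomial.natDegree_sum_le_of_forall_le _ _ fun k _ => ?_
      exact (Polynomial.natDegree_monomial_le _).trans (Fin.is_lt _).le
    refine le_trans ?_ ((Multiset.toFinset_card_le _).trans (P.card_roots'.trans hdeg))
    refine Finset.card_le_card_of_injOn (fun t : Fin S.tn => ((t : ℕ) : Qb)) (fun t ht => ?_)
      (fun t _ t' _ h => Fin.ext (Nat.cast_injective h))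
    rw [Finset.mem_coe, Finset.mem_filter] at ht
    rw [Finset.mem_coe, Multiset.mem_toFinset, Polynomial.mem_roots hP0, Polynomial.IsRoot.def]
    have h0 : φ (S.wv eA t) = 0 := by
      exact LinearMap.mem_ker.mp (hφW ht.2)
    have e : S.wv eA t = ∑ k, ((t : ℕ) : Qb) ^ (Fintype.equivFin (S.CIdx S.la) k : ℕ) •
        S.crams eA k := by
      funext l; simp [wv, Finset.sum_apply]
    rw [e, map_sum] at h0
    simp only [map_smul, smul_eq_mul] at h0
    simp only [P, Polynomial.eval_finsetSum, Polynomial.eval_monomial]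
    rw [← h0]
    exact Finset.sum_congr rfl fun k _ => mul_comm _ _
  set Bad := E.support.biUnion fun v => Finset.univ.filter fun t : Fin S.tn =>
      S.wv eA t ∈ S.W Qb S.la (A + Finsupp.single v 1)
  have hcard : Bad.card < S.tn := by
    refine lt_of_le_of_lt (Finset.card_biUnion_le.trans (Finset.sum_le_card_nsmul _ _ _
      fun v _ => hbad v)) ?_
    rw [smul_eq_mul]
    have h1 := card_support_le_degree (S.rr Qb) hE
    have h2 : E.support.card ≤ 3 * S.n := by omega
    exact Nat.lt_succ_of_le (Nat.mul_le_mul_right _ h2)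
  obtain ⟨t, ht⟩ : ∃ t, t ∉ Bad := by
    by_contra hcon
    push Not at hcon
    have := Finset.card_le_card (fun t _ => hcon t : Finset.univ ⊆ Bad)
    rw [Finset.card_univ, Fintype.card_fin] at this
    omega
  simp only [Bad, Finset.mem_biUnion, Finset.mem_filter, Finset.mem_univ, true_and, not_exists,
    not_and, Finsupp.mem_support_iff] at ht
  obtain ⟨v₀, hv₀⟩ := Finsupp.support_nonempty_iff.mpr hEne
  have hne : S.wv eA t ≠ 0 := fun h =>
    ht v₀ (Finsupp.mem_support_iff.mp hv₀) (h ▸ zero_mem _)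
  refine ⟨t, S.wv_mem_W tA t, hne, fun v hv => ?_⟩
  have hf0 : S.realF Qb S.la (S.wv eA t) ≠ 0 := fun h =>
    hne (S.realF_injective Qb S.la (h.trans (map_zero _).symm))
  have h1 := (mem_Lsp_of_ne_zero hf0).mp (S.mem_W.mp (S.wv_mem_W tA t))
  by_contra hlt
  refine ht v hv ?_
  rw [mem_W, mem_Lsp_of_ne_zero hf0]
  intro u
  have h1u := h1 u
  rcases eq_or_ne u v with rfl | hu
  · simp only [Finsupp.sub_apply, Finsupp.add_apply, Finsupp.single_eq_same] at *
    omega
  · simp only [Finsupp.sub_apply, Finsupp.add_apply, Finsupp.single_eq_of_ne hu, add_zero] at *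
    exact h1u

/-- Multiplication by an exact element detects vanishing. -/
lemma mem_W_mul_iff {p q r : ℕ} (hr : p + q = r) {A E' : Divisor Qb FQ} (hA : 0 ≤ A)
    (hE' : 0 ≤ E') {w : S.Idx p → Qb} {E : Divisor Qb FQ}
    (hw : S.ExactOn p A E w) (hE : ∀ v, A v + E' v ≠ 0 → E v ≠ 0) (u : S.Idx q → Qb) :
    S.mulv p q r w u ∈ S.W Qb r (A + E') ↔ u ∈ S.W Qb q E' := by
  refine ⟨fun h => ?_, fun h => S.mulv_mem_W hr hw.1 h⟩
  rcases eq_or_ne u 0 with rfl | hu
  · exact zero_mem _
  have hu0 : S.realF Qb q u ≠ 0 := fun e => hu (S.realF_injective Qb q (e.trans (map_zero _).symm))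
  have hw0 : S.realF Qb p w ≠ 0 :=
    fun e => hw.2.1 (S.realF_injective Qb p (e.trans (map_zero _).symm))
  rw [mem_W, S.realF_mulv Qb hr.le] at h
  have h1 := (mem_Lsp_of_ne_zero (mul_ne_zero hw0 hu0)).mp h
  have h2 := (mem_Lsp_of_ne_zero hu0).mp (S.realF_mem Qb q u)
  rw [mem_W, mem_Lsp_of_ne_zero hu0]
  intro v
  have h1v := h1 v
  have h2v := h2 v
  rw [v.ord_mul hw0 hu0] at h1v
  simp only [Finsupp.sub_apply, Finsupp.add_apply] at *
  by_cases hv : A v + E' v = 0
  · have := hA v; have := hE' v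
    simp only [Finsupp.coe_zero, Pi.zero_apply] at *
    omega
  · rw [hw.2.2 v (hE v hv)] at h1v
    rw [← hr] at h1v
    simp only [binf, Nat.cast_add, Finsupp.single_add, Finsupp.add_apply] at h1v ⊢
    omega

/-- A tensor along a finer one. -/
theorem exists_slot_form {m k b : ℕ} {D D' : Divisor Qb FQ}
    {e' : (Fin (m + k) → S.Idx b) → Qb} {e : (Fin m → S.Idx b) → Qb}
    (h' : S.IsTen b e' D') (h : S.IsTen b e D) (hle : D ≤ D') :
    ∃ φ : S.W Qb b D →ₗ[Qb] (Fin k → Qb), Surjective φ ∧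
      (∀ z, φ z = 0 ↔ (z : S.Idx b → Qb) ∈ S.W Qb b D') ∧
      ∃ κ : Qb, κ ≠ 0 ∧ ∀ (v : Fin m → S.Idx b) (z : Fin k → S.W Qb b D),
        ev e' (Fin.append (fun t => (S.unitv (v t) : S.Idx b → Qb)) fun s => (z s : S.Idx b → Qb))
          = κ * e v * dform φ z := by
  obtain ⟨Λ', c', hs', hk', hc', hev'⟩ := IsPl.exists_dform h'
  obtain ⟨Λ₁, c, hs₁, hk₁, hc, hev⟩ := IsPl.exists_dform h
  obtain ⟨Λ₂, hs₂, hk₂, κ, hκ, hdet⟩ := exists_factor hs' hs₁
    (by rw [hk', hk₁]; exact S.W_mono hle)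
  let i : S.W Qb b D →ₗ[Qb] LinearMap.ker Λ₁ :=
    Submodule.inclusion (le_of_eq hk₁.symm)
  refine ⟨Λ₂ ∘ₗ i, ?_, fun z => ?_, c' * κ / c, div_ne_zero (mul_ne_zero hc' hκ) hc, fun v z => ?_⟩
  · intro y
    obtain ⟨⟨w, hw⟩, rfl⟩ := hs₂ y
    exact ⟨⟨w, hk₁ ▸ hw⟩, rfl⟩
  · rw [LinearMap.comp_apply, hk₂, ← LinearMap.mem_ker, hk']
    rfl
  · rw [hev', show e v = c * dform Λ₁ (fun t => S.unitv (v t)) by
      rw [← hev, ← ev_unit e v]; rfl]
    have h1 := hdet (fun t => S.unitv (v t)) (fun s => i (z s))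
    rw [show (fun s => ((z s : S.Idx b → Qb))) = fun s => ((i (z s)) : S.Idx b → Qb) from rfl, h1]
    rw [show dform (Λ₂ ∘ₗ i) z = dform Λ₂ (fun s => i (z s)) from rfl]
    field_simp

/-- A map with the kernel of a surjective form is nonzero on unit vectors. -/
lemma exists_units_ne_zero {q k : ℕ} {Λ₀ ψ : (S.Idx q → Qb) →ₗ[Qb] (Fin k → Qb)}
    (hs : Surjective Λ₀) (h : ∀ u, ψ u = 0 ↔ Λ₀ u = 0) :
    ∃ u : Fin k → S.Idx q, dform ψ (fun s => S.unitv (u s)) ≠ 0 := by
  refine exists_dform_ne_zero_of_span (fun j => S.unitv j) ?_ (S.span_unitv q)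
  have hk : LinearMap.ker ψ = LinearMap.ker Λ₀ := by ext u; exact h u
  have h1 := LinearMap.finrank_range_add_finrank_ker ψ
  have h2 := LinearMap.finrank_range_add_finrank_ker Λ₀
  rw [hk] at h1
  rw [LinearMap.range_eq_top.mpr hs, finrank_top] at h2
  rw [← LinearMap.range_eq_top]
  exact Submodule.eq_top_of_finrank_eq (by omega)

end Setup

end Fermat.Agent.MWJ0

end
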