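import Fermat.Agent.MWJ0.Cube

/-!
# The theorem of the cube for heights
-/

set_option autoImplicit false

noncomputable section

open AlgebraicCurve ModularCurve Module Function

namespace Fermat.Agent.MWJ0

namespace Setup

variable (S : Setup)

local notation "Qb" => AlgebraicClosure ℚ

local notation "FQ" => laurentBaseChange Qb S.F₀

/-- Equations saying that `e` is alternating and kills the family `p`. -/
def killEq {R : Type*} [CommRing R] {m b : ℕ} {κ : Type} (e : (Fin m → S.Idx b) → R)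
    (p : κ → S.Idx b → R) :
    ((Fin m → S.Idx b) × Fin m × Fin m) ⊕ ((Fin m → S.Idx b) × Fin m × κ) → R
  | .inl (I, t, t') => if t = t' then 0 else e (I ∘ Equiv.swap t t') + e I
  | .inr (J, t, k) => slot e J t (p k)

lemma map_killEq {R R' : Type*} [CommRing R] [CommRing R'] (φ : R →+* R') {m b : ℕ} {κ : Type}
    (e : (Fin m → S.Idx b) → R) (p : κ → S.Idx b → R)
    (i : ((Fin m → S.Idx b) × Fin m × Fin m) ⊕ ((Fin m → S.Idx b) × Fin m × κ)) :
    φ (S.killEq e p i) = S.killEq (fun I => φ (e I)) (fun k l => φ (p k l)) i := by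
  rcases i with ⟨I, t, t'⟩ | ⟨J, t, k⟩
  · simp [killEq, apply_ite φ]
  · exact map_slot φ e J t (p k)

lemma killEq_smul_eq_zero {R : Type*} [CommRing R] {m b : ℕ} {κ : Type}
    {e : (Fin m → S.Idx b) → R} {p : κ → S.Idx b → R} (h : ∀ i, S.killEq e p i = 0) (u w : R)
    {p' : κ → S.Idx b → R} (hp : ∀ k, p' k = fun l => w * p k l)
    (i : ((Fin m → S.Idx b) × Fin m × Fin m) ⊕ ((Fin m → S.Idx b) × Fin m × κ)) :
    S.killEq (fun I => u * e I) p' i = 0 := by
  have hi := h i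
  rcases i with ⟨I, t, t'⟩ | ⟨J, t, k⟩ <;> simp only [killEq] at hi ⊢
  · split_ifs at hi ⊢ with ht
    · rfl
    · rw [← mul_add, hi, mul_zero]
  · rw [hp, slot_smul, slot_smul_left, hi, mul_zero, mul_zero]

lemma isTen_of_killEq {m b : ℕ} {κ : Type} {e : (Fin m → S.Idx b) → Qb} {p : κ → S.Idx b → Qb}
    {D : Divisor Qb FQ} (hD : 0 ≤ D) (hn : Divisor.degree D = m) (hb : 2 * S.g + m ≤ b)
    (hp : Submodule.span Qb (Set.range p) = S.W Qb b D) (he : e ≠ 0)
    (h : ∀ i, S.killEq e p i = 0) : S.IsTen b e D where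
  ne_zero := he
  alt I t t' ht := by simpa [killEq, ht] using h (.inl (I, t, t'))
  le_ker := by
    rw [← hp, Submodule.span_le]
    rintro _ ⟨k, rfl⟩ J t
    exact h (.inr (J, t, k))
  finrank_add := S.finrank_W_add hD hn hb

lemma killEq_of_isTen {m b : ℕ} {κ : Type} {e : (Fin m → S.Idx b) → Qb} {p : κ → S.Idx b → Qb}
    {D : Divisor Qb FQ} (hp : Submodule.span Qb (Set.range p) = S.W Qb b D)
    (te : S.IsTen b e D)
    (i : ((Fin m → S.Idx b) × Fin m × Fin m) ⊕ ((Fin m → S.Idx b) × Fin m × κ)) :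
    S.killEq e p i = 0 := by
  rcases i with ⟨I, t, t'⟩ | ⟨J, t, k⟩ <;> simp only [killEq]
  · split_ifs with ht
    · rfl
    · exact te.alt I t t' ht
  · exact te.le_ker (hp ▸ Submodule.subset_span ⟨k, rfl⟩) J t

lemma prod2_smul {R : Type*} [CommRing R] [Algebra ℚ R] (u w : R) (eA : S.Ten R S.la)
    (eB : S.Ten R (S.la + S.lc)) (k : S.CIdx S.la × S.CIdx (S.la + S.lc)) :
    S.prod2 (fun I => u * eA I) (fun I => w * eB I) k = fun l => u * w * S.prod2 eA eB k l := by
  simp only [prod2, crams, cram_smul_left, mulv_mul_left, mulv_mul_right]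
  funext l; ring

lemma prod3_smul {R : Type*} [CommRing R] [Algebra ℚ R] (u w z : R) (eA : S.Ten R S.la)
    (eB : S.Ten R (S.la + S.lc)) (eC : S.Ten R S.la)
    (k : S.CIdx S.la × (S.CIdx S.la × S.CIdx (S.la + S.lc))) :
    S.prod3 (fun I => u * eA I) (fun I => w * eB I) (fun I => z * eC I) k
      = fun l => u * w * z * S.prod3 eA eB eC k l := by
  simp only [prod3, prod2_smul]
  simp only [crams, cram_smul_left, mulv_mul_left, mulv_mul_right]
  funext l; ring

/-- The blocks: `r` pairs and a composite tensor. -/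
abbrev CubeBlk (r m b : ℕ) : Option (Fin r × Bool) → Type
  | none => Fin m → S.Idx b
  | some (_, false) => Fin S.n → S.Idx S.la
  | some (_, true) => Fin S.n → S.Idx (S.la + S.lc)

instance cubeFintype (r m b : ℕ) : ∀ k, Fintype (S.CubeBlk r m b k)
  | none => (inferInstance : Fintype (Fin m → S.Idx b))
  | some (_, false) => (inferInstance : Fintype (Fin S.n → S.Idx S.la))
  | some (_, true) => (inferInstance : Fintype (Fin S.n → S.Idx (S.la + S.lc)))

section Pieces

variable {A : Type} {r m b : ℕ} (z : (Σ k, S.CubeBlk r m b k) → A)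

/-- The composite block. -/
def blkE : (Fin m → S.Idx b) → A := fun I => z ⟨none, I⟩

/-- A small block. -/
def blkA (i : Fin r) : S.Ten A S.la := fun I => z ⟨some (i, false), I⟩

/-- A large block. -/
def blkB (i : Fin r) : S.Ten A (S.la + S.lc) := fun I => z ⟨some (i, true), I⟩

end Pieces

lemma pair_blocks {r m b : ℕ} (x : (Σ k, S.CubeBlk r m b k) → Qb)
    (hx : ∀ k, ∃ i, x ⟨k, i⟩ ≠ 0) (i : Fin r)
    (hz : ∀ j, S.pairEq S.la S.lc (S.blkA x i) (S.blkB x i) j = 0) :
    ∃ D : Divisor Qb FQ, 0 ≤ D ∧ Divisor.degree D = S.n ∧ S.IsTen S.la (S.blkA x i) D ∧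
      S.IsTen (S.la + S.lc) (S.blkB x i) D :=
  IsPair.exists_divisor S
    ⟨hz, fun h => by obtain ⟨j, hj⟩ := hx (some (i, false)); exact hj (congrFun h j),
      fun h => by obtain ⟨j, hj⟩ := hx (some (i, true)); exact hj (congrFun h j)⟩

/-- The height of `vec2`. -/
theorem exists_vec2_estimate (hg : 0 < S.g) :
    ∃ K : ℝ, ∀ (A C : Divisor Qb FQ) (qA : S.Ten ℚ S.la)
      (q : (Fin (S.n + S.n) → S.Idx S.l2) → ℚ), 0 ≤ A → Divisor.degree A = S.n → S.Fixed A →
      0 ≤ C → Divisor.degree C = S.n → S.Fixed C → S.IsTen S.la (ratC qA) A →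
      S.IsTen S.l2 (ratC q) (A + C) →
      |Height.logHeight (S.vec2 q qA) - (Height.logHeight q + S.n * Height.logHeight qA)| ≤ K := by
  classical
  let ι := S.CubeBlk 2 (S.n + S.n) S.l2
  let val : ∀ {R : Type} [CommRing R] [Algebra ℚ R], ((Σ k, ι k) → R) →
      (Fin 2 × S.PairIdx S.n S.la S.lc) ⊕ (((Fin (S.n + S.n) → S.Idx S.l2) × _ × _) ⊕
        ((Fin (S.n + S.n) → S.Idx S.l2) × _ × (S.CIdx S.la × S.CIdx (S.la + S.lc)))) → R :=
    fun z => Sum.elim (fun i => S.pairEq S.la S.lc (S.blkA z i.1) (S.blkB z i.1) i.2)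
      (S.killEq (S.blkE z) (S.prod2 (S.blkA z 0) (S.blkB z 1)))
  let P := fun i => val (R := MvPolynomial (Σ k, ι k) ℚ) (fun v => MvPolynomial.X v) i
  let F : S.V2Idx → MvPolynomial (Σ k, ι k) ℚ := fun a =>
    S.vec2 (fun I => MvPolynomial.X ⟨none, I⟩) (fun I => MvPolynomial.X ⟨some (0, false), I⟩) a
  have hP : ∀ {R : Type} [CommRing R] [Algebra ℚ R] (z : (Σ k, ι k) → R) i,
      MvPolynomial.aeval z (P i) = val z i := by
    intro R _ _ z i
    rcases i with i | i
    · simp only [P, val, Sum.elim_inl, map_pairEq, blkA, blkB, MvPolynomial.aeval_X]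
      rfl
    · simp only [P, val, Sum.elim_inr]
      rw [← AlgHom.coe_toRingHom, map_killEq]
      simp only [AlgHom.coe_toRingHom, map_prod2, blkE, blkA, blkB, MvPolynomial.aeval_X]
      rfl
  have hF : ∀ {R : Type} [CommRing R] [Algebra ℚ R] (z : (Σ k, ι k) → R) a,
      MvPolynomial.aeval z (F a) = S.vec2 (S.blkE z) (S.blkA z 0) a := by
    intro R _ _ z a
    simp only [F, map_vec2, MvPolynomial.aeval_X]
    rfl
  obtain ⟨K, hK⟩ := height_estimate P F
    (fun k => match k with | none => 1 | some (i, false) => if i = 0 then S.n else 0 | some _ => 0)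
    (fun x hx s i => by
      rw [hP]
      have h0 : ∀ i, val x i = 0 := fun i => by rw [← hP]; exact hx i
      rcases i with i | i
      · exact S.pairEq_smul_eq_zero (e := S.blkA x i.1) (e' := S.blkB x i.1)
          (fun j => h0 (.inl (i.1, j))) (s (some (i.1, false))) (s (some (i.1, true))) i.2
      · exact S.killEq_smul_eq_zero (e := S.blkE x) (fun j => h0 (.inr j)) (s none)
          (s (some (0, false)) * s (some (1, true))) (fun k => S.prod2_smul _ _ _ _ k) i)
    (fun x s a => by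
      rw [hF, hF]
      refine (S.vec2_smul (s none) (s (some (0, false))) (S.blkE x) (S.blkA x 0) a).trans ?_
      congr 1
      simp [Fintype.prod_option, Fintype.prod_prod_type])
    (fun x hz hx => by
      have h0 : ∀ i, val x i = 0 := fun i => by rw [← hP]; exact hz i
      obtain ⟨A, hA, hAn, tA, -⟩ := S.pair_blocks x hx 0 fun j => h0 (.inl (0, j))
      obtain ⟨C, hC, hCn, -, tC⟩ := S.pair_blocks x hx 1 fun j => h0 (.inl (1, j))
      have te := S.isTen_of_killEq (add_nonneg hA hC)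
        (by rw [map_add, hAn, hCn]; push_cast; ring)
        (by simp only [Setup.n, Setup.la, Setup.lc, Setup.l2] at *; omega)
        (S.span_prod2 hA hAn hC hCn tA tC)
        (fun h => by obtain ⟨j, hj⟩ := hx none; exact hj (congrFun h j)) fun i => h0 (.inr i)
      obtain ⟨eA₂, tA₂⟩ := S.exists_isTen hA hAn (b := S.l2)
        (by simp only [Setup.n, Setup.la, Setup.lc, Setup.l2] at *; omega)
      obtain ⟨Λ₀, c₀, hs₀, hk₀, -, -⟩ := IsPl.exists_dform tC
      obtain ⟨φ, κ, γ, -, -, -, -, -, hne⟩ := S.vec2_eq hA hAn hC hCn tA te tA₂ hs₀ hk₀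
      obtain ⟨a, ha⟩ := hne fun h => by
        have := congrArg Divisor.degree h
        rw [map_add, hAn, hCn, map_zero] at this
        simp only [Setup.n] at this; omega
      exact ⟨a, by rw [hF]; exact ha⟩)
  refine ⟨K, fun A C qA q hA hAn hAf hC hCn hCf tA te => ?_⟩
  obtain ⟨qA', tA'⟩ := S.exists_rat_ten (b := S.la + S.lc) hA hAn
    (by simp only [Setup.n, Setup.la] at *; omega) hAf
  obtain ⟨qC, tC⟩ := S.exists_rat_ten (b := S.la) hC hCn
    (by simp only [Setup.n, Setup.la] at *; omega) hCf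
  obtain ⟨qC', tC'⟩ := S.exists_rat_ten (b := S.la + S.lc) hC hCn
    (by simp only [Setup.n, Setup.la] at *; omega) hCf
  let z : (k : Option (Fin 2 × Bool)) → ι k → ℚ := fun k => match k with
    | none => q
    | some (i, false) => if i = 0 then qA else qC
    | some (i, true) => if i = 0 then qA' else qC'
  have h := hK z (fun i => by
      rw [hP]
      refine (algebraMap ℚ Qb).injective ?_
      rw [map_zero]
      rcases i with ⟨i, j⟩ | i
      · refine (S.map_pairEq (Algebra.ofId ℚ Qb) S.la S.lc _ _ j).trans ?_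
        fin_cases i
        · exact (tA.isPair S tA').eqs j
        · exact (tC.isPair S tC').eqs j
      · refine (S.map_killEq (algebraMap ℚ Qb) _ _ i).trans ?_
        have e : (fun (k : S.CIdx S.la × S.CIdx (S.la + S.lc)) (l : S.Idx S.l2) =>
            algebraMap ℚ Qb (S.prod2 qA qC' k l)) = S.prod2 (ratC qA) (ratC qC') :=
          funext fun k => funext fun l => S.map_prod2 (Algebra.ofId ℚ Qb) qA qC' k l
        exact (congrArg (fun p => S.killEq (ratC q) p i) e).trans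
          (S.killEq_of_isTen (S.span_prod2 hA hAn hC hCn tA tC') te i))
    (fun k => by
      rcases k with _ | ⟨i, _ | _⟩
      · exact ratC_ne_zero.mp te.ne_zero
      · fin_cases i
        exacts [ratC_ne_zero.mp tA.ne_zero, ratC_ne_zero.mp tC.ne_zero]
      · fin_cases i
        exacts [ratC_ne_zero.mp tA'.ne_zero, ratC_ne_zero.mp tC'.ne_zero])
  simp only [hF] at h
  change |Height.logHeight (S.vec2 q qA) - _| ≤ K at h
  simpa [z, Fintype.sum_option, Fintype.sum_prod_type, Fin.sum_univ_two] using h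

/-- The height of `vec3`. -/
theorem exists_vec3_estimate (hg : 0 < S.g) :
    ∃ K : ℝ, ∀ (A B C : Divisor Qb FQ) (qA qB : S.Ten ℚ S.la)
      (q : (Fin (S.n + S.n + S.n) → S.Idx S.l3) → ℚ),
      0 ≤ A → Divisor.degree A = S.n → S.Fixed A →
      0 ≤ B → Divisor.degree B = S.n → S.Fixed B →
      0 ≤ C → Divisor.degree C = S.n → S.Fixed C →
      S.IsTen S.la (ratC qA) A → S.IsTen S.la (ratC qB) B →
      S.IsTen S.l3 (ratC q) (B + (A + C)) →
      |Height.logHeight (S.vec3 q qA qB) - (Height.logHeight q + S.n * Height.logHeight qA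
        + S.n * Height.logHeight qB)| ≤ K := by
  classical
  let ι := S.CubeBlk 3 (S.n + S.n + S.n) S.l3
  let val : ∀ {R : Type} [CommRing R] [Algebra ℚ R], ((Σ k, ι k) → R) →
      (Fin 3 × S.PairIdx S.n S.la S.lc) ⊕ (((Fin (S.n + S.n + S.n) → S.Idx S.l3) × _ × _) ⊕
        ((Fin (S.n + S.n + S.n) → S.Idx S.l3) × _ ×
          (S.CIdx S.la × (S.CIdx S.la × S.CIdx (S.la + S.lc))))) → R :=
    fun z => Sum.elim (fun i => S.pairEq S.la S.lc (S.blkA z i.1) (S.blkB z i.1) i.2)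
      (S.killEq (S.blkE z) (S.prod3 (S.blkA z 0) (S.blkB z 2) (S.blkA z 1)))
  let P := fun i => val (R := MvPolynomial (Σ k, ι k) ℚ) (fun v => MvPolynomial.X v) i
  let F : S.V3Idx → MvPolynomial (Σ k, ι k) ℚ := fun a =>
    S.vec3 (fun I => MvPolynomial.X ⟨none, I⟩) (fun I => MvPolynomial.X ⟨some (0, false), I⟩)
      (fun I => MvPolynomial.X ⟨some (1, false), I⟩) a
  have hP : ∀ {R : Type} [CommRing R] [Algebra ℚ R] (z : (Σ k, ι k) → R) i,
      MvPolynomial.aeval z (P i) = val z i := by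
    intro R _ _ z i
    rcases i with i | i
    · simp only [P, val, Sum.elim_inl, map_pairEq, blkA, blkB, MvPolynomial.aeval_X]
      rfl
    · simp only [P, val, Sum.elim_inr]
      rw [← AlgHom.coe_toRingHom, map_killEq]
      simp only [AlgHom.coe_toRingHom, map_prod3, blkE, blkA, blkB, MvPolynomial.aeval_X]
      rfl
  have hF : ∀ {R : Type} [CommRing R] [Algebra ℚ R] (z : (Σ k, ι k) → R) a,
      MvPolynomial.aeval z (F a) = S.vec3 (S.blkE z) (S.blkA z 0) (S.blkA z 1) a := by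
    intro R _ _ z a
    simp only [F, map_vec3, MvPolynomial.aeval_X]
    rfl
  obtain ⟨K, hK⟩ := height_estimate P F
    (fun k => match k with | none => 1 | some (i, false) => if i = 2 then 0 else S.n | some _ => 0)
    (fun x hx s i => by
      rw [hP]
      have h0 : ∀ i, val x i = 0 := fun i => by rw [← hP]; exact hx i
      rcases i with i | i
      · exact S.pairEq_smul_eq_zero (e := S.blkA x i.1) (e' := S.blkB x i.1)
          (fun j => h0 (.inl (i.1, j))) (s (some (i.1, false))) (s (some (i.1, true))) i.2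
      · exact S.killEq_smul_eq_zero (e := S.blkE x) (fun j => h0 (.inr j)) (s none)
          (s (some (0, false)) * s (some (2, true)) * s (some (1, false)))
          (fun k => S.prod3_smul _ _ _ _ _ _ k) i)
    (fun x s a => by
      rw [hF, hF]
      refine (S.vec3_smul (s none) (s (some (0, false))) (s (some (1, false))) (S.blkE x)
        (S.blkA x 0) (S.blkA x 1) a).trans ?_
      congr 1
      simp [Fintype.prod_option, Fintype.prod_prod_type, Fin.prod_univ_three, mul_pow])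
    (fun x hz hx => by
      have h0 : ∀ i, val x i = 0 := fun i => by rw [← hP]; exact hz i
      obtain ⟨A, hA, hAn, tA, -⟩ := S.pair_blocks x hx 0 fun j => h0 (.inl (0, j))
      obtain ⟨B, hB, hBn, tB, -⟩ := S.pair_blocks x hx 1 fun j => h0 (.inl (1, j))
      obtain ⟨C, hC, hCn, -, tC⟩ := S.pair_blocks x hx 2 fun j => h0 (.inl (2, j))
      have te := S.isTen_of_killEq (add_nonneg hB (add_nonneg hA hC))
        (by rw [map_add, map_add, hAn, hBn, hCn]; push_cast; ring)
        (by simp only [Setup.n, Setup.la, Setup.lc, Setup.l2, Setup.l3] at *; omega)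
        (S.span_prod3 hA hAn hC hCn hB hBn tA tC tB)
        (fun h => by obtain ⟨j, hj⟩ := hx none; exact hj (congrFun h j)) fun i => h0 (.inr i)
      obtain ⟨eA₂, tA₂⟩ := S.exists_isTen hA hAn (b := S.l2)
        (by simp only [Setup.n, Setup.la, Setup.lc, Setup.l2] at *; omega)
      obtain ⟨eB₂, tB₂⟩ := S.exists_isTen hB hBn (b := S.l2)
        (by simp only [Setup.n, Setup.la, Setup.lc, Setup.l2] at *; omega)
      obtain ⟨e13, t13⟩ := S.exists_isTen (n := S.n + S.n) (add_nonneg hA hC) (b := S.l2)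
        (by rw [map_add, hAn, hCn]; push_cast; ring)
        (by simp only [Setup.n, Setup.la, Setup.lc, Setup.l2] at *; omega)
      obtain ⟨e23, t23⟩ := S.exists_isTen (n := S.n + S.n) (add_nonneg hB hC) (b := S.l2)
        (by rw [map_add, hBn, hCn]; push_cast; ring)
        (by simp only [Setup.n, Setup.la, Setup.lc, Setup.l2] at *; omega)
      obtain ⟨e12, t12⟩ := S.exists_isTen (n := S.n + S.n) (add_nonneg hB hA) (b := S.l3)
        (by rw [map_add, hBn, hAn]; push_cast; ring)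
        (by simp only [Setup.n, Setup.la, Setup.lc, Setup.l2, Setup.l3] at *; omega)
      obtain ⟨⟨a, ha⟩, -⟩ := S.vec3_eq hg hA hAn hB hBn hC hCn tA tB tA₂ tB₂ t13 t23 tC t12 te
      exact ⟨a, by rw [hF]; exact ha⟩)
  refine ⟨K, fun A B C qA qB q hA hAn hAf hB hBn hBf hC hCn hCf tA tB te => ?_⟩
  obtain ⟨qA', tA'⟩ := S.exists_rat_ten (b := S.la + S.lc) hA hAn
    (by simp only [Setup.n, Setup.la] at *; omega) hAf
  obtain ⟨qB', tB'⟩ := S.exists_rat_ten (b := S.la + S.lc) hB hBn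
    (by simp only [Setup.n, Setup.la] at *; omega) hBf
  obtain ⟨qC, tC⟩ := S.exists_rat_ten (b := S.la) hC hCn
    (by simp only [Setup.n, Setup.la] at *; omega) hCf
  obtain ⟨qC', tC'⟩ := S.exists_rat_ten (b := S.la + S.lc) hC hCn
    (by simp only [Setup.n, Setup.la] at *; omega) hCf
  let z : (k : Option (Fin 3 × Bool)) → ι k → ℚ := fun k => match k with
    | none => q
    | some (i, false) => ![qA, qB, qC] i
    | some (i, true) => ![qA', qB', qC'] i
  have h := hK z (fun i => by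
      rw [hP]
      refine (algebraMap ℚ Qb).injective ?_
      rw [map_zero]
      rcases i with ⟨i, j⟩ | i
      · refine (S.map_pairEq (Algebra.ofId ℚ Qb) S.la S.lc _ _ j).trans ?_
        fin_cases i
        · exact (tA.isPair S tA').eqs j
        · exact (tB.isPair S tB').eqs j
        · exact (tC.isPair S tC').eqs j
      · refine (S.map_killEq (algebraMap ℚ Qb) _ _ i).trans ?_
        have e : (fun (k : S.CIdx S.la × (S.CIdx S.la × S.CIdx (S.la + S.lc))) (l : S.Idx S.l3) =>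
            algebraMap ℚ Qb (S.prod3 qA qC' qB k l)) = S.prod3 (ratC qA) (ratC qC') (ratC qB) :=
          funext fun k => funext fun l => S.map_prod3 (Algebra.ofId ℚ Qb) qA qC' qB k l
        exact (congrArg (fun p => S.killEq (ratC q) p i) e).trans
          (S.killEq_of_isTen (S.span_prod3 hA hAn hC hCn hB hBn tA tC' tB) te i))
    (fun k => by
      rcases k with _ | ⟨i, _ | _⟩
      · exact ratC_ne_zero.mp te.ne_zero
      · fin_cases i
        exacts [ratC_ne_zero.mp tA.ne_zero, ratC_ne_zero.mp tB.ne_zero, ratC_ne_zero.mp tC.ne_zero]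
      · fin_cases i
        exacts [ratC_ne_zero.mp tA'.ne_zero, ratC_ne_zero.mp tB'.ne_zero,
          ratC_ne_zero.mp tC'.ne_zero])
  simp only [hF] at h
  change |Height.logHeight (S.vec3 q qA qB) - _| ≤ K at h
  simpa [z, Fintype.sum_option, Fintype.sum_prod_type, Fin.sum_univ_three, add_assoc] using h

lemma ratC_vec3 (q : (Fin (S.n + S.n + S.n) → S.Idx S.l3) → ℚ) (qA qB : S.Ten ℚ S.la)
    (a : S.V3Idx) :
    algebraMap ℚ Qb (S.vec3 q qA qB a) = S.vec3 (ratC q) (ratC qA) (ratC qB) a :=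
  S.map_vec3 (Algebra.ofId ℚ Qb) q qA qB a

lemma ratC_vec2 (q : (Fin (S.n + S.n) → S.Idx S.l2) → ℚ) (qA : S.Ten ℚ S.la) (a : S.V2Idx) :
    algebraMap ℚ Qb (S.vec2 q qA a) = S.vec2 (ratC q) (ratC qA) a :=
  S.map_vec2 (Algebra.ofId ℚ Qb) q qA a

/-- **Theorem of the cube** for heights. -/
theorem exists_cube (hg : 0 < S.g) :
    ∃ K : ℝ, ∀ A B C : Divisor Qb FQ, 0 ≤ A → Divisor.degree A = S.n → S.Fixed A →
      0 ≤ B → Divisor.degree B = S.n → S.Fixed B → 0 ≤ C → Divisor.degree C = S.n → S.Fixed C →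
      |S.ht (S.n + S.n + S.n) S.l3 (A + B + C) + S.ht S.n S.l2 A + S.ht S.n S.l2 B
        + S.ht S.n (S.la + S.lc) C
        - (S.ht (S.n + S.n) S.l3 (A + B) + S.ht (S.n + S.n) S.l2 (A + C)
          + S.ht (S.n + S.n) S.l2 (B + C))| ≤ K := by
  classical
  obtain ⟨K₂, hK₂⟩ := S.exists_vec2_estimate hg
  obtain ⟨K₃, hK₃⟩ := S.exists_vec3_estimate hg
  refine ⟨K₃ + 2 * K₂, fun A B C hA hAn hAf hB hBn hBf hC hCn hCf => ?_⟩
  obtain ⟨qA, tA⟩ := S.exists_rat_ten (b := S.la) hA hAn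
    (by simp only [Setup.n, Setup.la] at *; omega) hAf
  obtain ⟨qB, tB⟩ := S.exists_rat_ten (b := S.la) hB hBn
    (by simp only [Setup.n, Setup.la] at *; omega) hBf
  obtain ⟨qC, tC⟩ := S.exists_rat_ten (b := S.la + S.lc) hC hCn
    (by simp only [Setup.n, Setup.la] at *; omega) hCf
  obtain ⟨qA₂, tA₂⟩ := S.exists_rat_ten (b := S.l2) hA hAn
    (by simp only [Setup.n, Setup.la, Setup.l2] at *; omega) hAf
  obtain ⟨qB₂, tB₂⟩ := S.exists_rat_ten (b := S.l2) hB hBn
    (by simp only [Setup.n, Setup.la, Setup.l2] at *; omega) hBf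
  obtain ⟨q13, t13⟩ := S.exists_rat_ten (d := S.n + S.n) (b := S.l2) (add_nonneg hA hC)
    (by rw [map_add, hAn, hCn]; push_cast; ring)
    (by simp only [Setup.n, Setup.la, Setup.lc, Setup.l2] at *; omega) (hAf.add S hCf)
  obtain ⟨q23, t23⟩ := S.exists_rat_ten (d := S.n + S.n) (b := S.l2) (add_nonneg hB hC)
    (by rw [map_add, hBn, hCn]; push_cast; ring)
    (by simp only [Setup.n, Setup.la, Setup.lc, Setup.l2] at *; omega) (hBf.add S hCf)
  obtain ⟨q12, t12⟩ := S.exists_rat_ten (d := S.n + S.n) (b := S.l3) (add_nonneg hB hA)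
    (by rw [map_add, hBn, hAn]; push_cast; ring)
    (by simp only [Setup.n, Setup.la, Setup.lc, Setup.l2, Setup.l3] at *; omega) (hBf.add S hAf)
  obtain ⟨q, te⟩ := S.exists_rat_ten (d := S.n + S.n + S.n) (b := S.l3)
    (add_nonneg hB (add_nonneg hA hC))
    (by rw [map_add, map_add, hAn, hBn, hCn]; push_cast; ring)
    (by simp only [Setup.n, Setup.la, Setup.lc, Setup.l2, Setup.l3] at *; omega)
    (hBf.add S (hAf.add S hCf))
  obtain ⟨⟨a₀, ha₀⟩, Kc, hKc0, hid⟩ :=
    S.vec3_eq hg hA hAn hB hBn hC hCn tA tB tA₂ tB₂ t13 t23 tC t12 te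
  have hF3 : S.vec3 q qA qB ≠ 0 := fun h =>
    ha₀ (by rw [← ratC_vec3, h, Pi.zero_apply, map_zero])
  obtain ⟨Λ₀, c₀, hs₀, hk₀, -, -⟩ := IsPl.exists_dform tC
  have hdeg : ∀ {X Y : Divisor Qb FQ}, Divisor.degree X = S.n → Divisor.degree Y = S.n →
      X + Y ≠ 0 := fun hX hY h => by
    have := congrArg Divisor.degree h
    rw [map_add, hX, hY, map_zero] at this
    simp only [Setup.n] at this; omega
  have hFA : S.vec2 q13 qA ≠ 0 := by
    obtain ⟨φ, κ, γ, -, -, -, -, -, hne⟩ := S.vec2_eq hA hAn hC hCn tA t13 tA₂ hs₀ hk₀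
    obtain ⟨a, ha⟩ := hne (hdeg hAn hCn)
    exact fun h => ha (by rw [← ratC_vec2, h, Pi.zero_apply, map_zero])
  have hFB : S.vec2 q23 qB ≠ 0 := by
    obtain ⟨φ, κ, γ, -, -, -, -, -, hne⟩ := S.vec2_eq hB hBn hC hCn tB t23 tB₂ hs₀ hk₀
    obtain ⟨a, ha⟩ := hne (hdeg hBn hCn)
    exact fun h => ha (by rw [← ratC_vec2, h, Pi.zero_apply, map_zero])
  have hA₂0 := ratC_ne_zero.mp tA₂.ne_zero
  have hB₂0 := ratC_ne_zero.mp tB₂.ne_zero
  have hC0 := ratC_ne_zero.mp tC.ne_zero
  have h120 := ratC_ne_zero.mp t12.ne_zero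
  let L₁ : (Fin S.n → S.Idx S.l2) × (Fin S.n → S.Idx S.l2) → ℚ := fun z => qA₂ z.1 * qB₂ z.2
  let R₁ : S.V2Idx × S.V2Idx → ℚ := fun z => S.vec2 q13 qA z.1 * S.vec2 q23 qB z.2
  have hmul : ∀ {ι ι' : Type} {f : ι → ℚ} {g : ι' → ℚ}, f ≠ 0 → g ≠ 0 →
      (fun z : ι × ι' => f z.1 * g z.2) ≠ 0 := fun hf hg' => by
    obtain ⟨i, hi⟩ := Function.ne_iff.mp hf
    obtain ⟨j, hj⟩ := Function.ne_iff.mp hg'
    exact Function.ne_iff.mpr ⟨(i, j), mul_ne_zero hi hj⟩
  let L₂ : ((Fin S.n → S.Idx S.l2) × (Fin S.n → S.Idx S.l2)) × (Fin S.n → S.Idx (S.la + S.lc)) → ℚ :=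
    fun z => L₁ z.1 * qC z.2
  let Lv := fun z : S.V3Idx ×
      (((Fin S.n → S.Idx S.l2) × (Fin S.n → S.Idx S.l2)) × (Fin S.n → S.Idx (S.la + S.lc))) =>
    S.vec3 q qA qB z.1 * L₂ z.2
  let Rv := fun z : (Fin (S.n + S.n) → S.Idx S.l3) × (S.V2Idx × S.V2Idx) => q12 z.1 * R₁ z.2
  let σ : S.V3Idx ×
      (((Fin S.n → S.Idx S.l2) × (Fin S.n → S.Idx S.l2)) × (Fin S.n → S.Idx (S.la + S.lc))) ≃
      (Fin (S.n + S.n) → S.Idx S.l3) × (S.V2Idx × S.V2Idx) :=
    ⟨fun z => (z.1.1, ((z.2.1.1, z.1.2.1.1, z.1.2.2), (z.2.1.2, z.1.2.1.2, z.2.2))),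
      fun z => ((z.1, (z.2.1.2.1, z.2.2.2.1), z.2.1.2.2), ((z.2.1.1, z.2.2.1), z.2.2.2.2)),
      fun _ => rfl, fun _ => rfl⟩
  have hL : Lv ≠ 0 := hmul hF3 (hmul (hmul hA₂0 hB₂0) hC0)
  obtain ⟨r, hr, hLR⟩ := eq_rat_smul (q := Lv) (q' := Rv ∘ σ) (c := Kc⁻¹) hL (fun z => by
    simp only [ratC, Lv, Rv, L₁, L₂, R₁, σ, comp_apply, Equiv.coe_fn_mk, map_mul, ratC_vec2,
      ratC_vec3]
    have h1 := hid z.1.1 z.1.2.1.1 z.1.2.1.2 z.1.2.2 z.2.2 z.2.1.1 z.2.1.2
    rw [eq_inv_mul_iff_mul_eq₀ hKc0]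
    refine Eq.trans ?_ h1.symm
    show Kc * (ratC q12 z.1.1 * (_ * _)) = _
    ring) (inv_ne_zero hKc0)
  have hh := congrArg Height.logHeight hLR
  rw [Height.logHeight_smul_eq_logHeight _ hr, show Height.logHeight (Rv ∘ σ) = Height.logHeight Rv
    from Height.logHeight_comp_equiv σ Rv] at hh
  rw [Height.logHeight_fun_mul_eq h120 (hmul hFA hFB), Height.logHeight_fun_mul_eq hFA hFB,
    Height.logHeight_fun_mul_eq hF3 (hmul (hmul hA₂0 hB₂0) hC0),
    Height.logHeight_fun_mul_eq (hmul hA₂0 hB₂0) hC0, Height.logHeight_fun_mul_eq hA₂0 hB₂0] at hh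
  have e1 := hK₃ A B C qA qB q hA hAn hAf hB hBn hBf hC hCn hCf tA tB te
  have e2 := hK₂ A C qA q13 hA hAn hAf hC hCn hCf tA t13
  have e3 := hK₂ B C qB q23 hB hBn hBf hC hCn hCf tB t23
  rw [show A + B + C = B + (A + C) by abel, S.ht_eq te, S.ht_eq tA₂, S.ht_eq tB₂, S.ht_eq tC,
    add_comm A B, S.ht_eq t12, S.ht_eq t13, S.ht_eq t23]
  rw [abs_le] at e1 e2 e3 ⊢
  constructor <;> linarith

end Setup

end Fermat.Agent.MWJ0

end
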