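import Fermat.Agent.MWJ0.DoublingSystem
import Mathlib.RingTheory.AlgebraicIndependent.Basic
import Mathlib.RingTheory.Localization.FractionRing

/-!
# Every class over `ℚ̄` is divisible by two

An eliminant of the doubling system that is nonzero at given points stays nonzero at points with
algebraically independent values of `z`, where the system does have a solution.
-/

set_option autoImplicit false

noncomputable section

open AlgebraicCurve ModularCurve Module Function
open scoped IntermediateField.algebraAdjoinAdjoin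

namespace Fermat.Agent.MWJ0

namespace Setup

variable (S : Setup)

section OneStep

variable {L : Type} [Field L] [Algebra ℚ L] [IsAlgClosed L] [CharZero L]

local notation "FF" => laurentBaseChange L S.F₀

lemma ptv_mem_of_zv_mem {k : IntermediateField ℚ L}
    (hk : ∀ c : L, IsAlgebraic k c → c ∈ k) {v : Place L FF} (hv : v ≠ S.inf L)
    (h : S.zv v ∈ k) (b : ℕ) (j : S.Idx b) : S.ptv v hv b j ∈ k := by
  classical
  refine hk _ (isAlgebraic_of_finite_orbit ?_)
  have hfin := S.finite_orbit_of_zv (k := k) (v := v) (isAlgebraic_algebraMap (⟨_, h⟩ : k))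
  refine (hfin.image fun u => if hu : u = S.inf L then 0 else S.ptv u hu b j).subset ?_
  rintro _ ⟨σ, rfl⟩
  refine ⟨_, ⟨σ, rfl⟩, ?_⟩
  dsimp only
  rw [dif_neg (S.smul_ne_inf _ hv), S.ptv_gal (σ.restrictScalars ℚ) hv b]
  rfl

/-- The values at the points of a tuple, one of them left variable. -/
def hybrid (m : MvPolynomial S.PtVar ℚ) (c : S.PtVar → L) (i : Fin S.n) : FF :=
  MvPolynomial.aeval (R := ℚ) (fun p : S.PtVar => if p.1 = i
    then p.2.elim (fun j => S.el L (S.bF S.la j)) (fun j => S.el L (S.bF (S.la + S.lc) j))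
    else algebraMap L FF (c p)) m

lemma hybrid_mem {m : MvPolynomial S.PtVar ℚ} (c : S.PtVar → L) (i : Fin S.n) {v : Place L FF}
    (hv : v ≠ S.inf L) : ∃ h : S.hybrid m c i ∈ v.toValuationSubring,
      S.evalAt v ⟨_, h⟩ = MvPolynomial.aeval (fun p : S.PtVar => if p.1 = i
        then p.2.elim (S.ptv v hv S.la) (S.ptv v hv (S.la + S.lc)) else c p) m := by
  let g : S.PtVar → v.toValuationSubring := fun p => if p.1 = i
    then p.2.elim (fun j => ⟨_, S.realF_mem_valuationSubring hv S.la (S.unitv j)⟩)
      (fun j => ⟨_, S.realF_mem_valuationSubring hv (S.la + S.lc) (S.unitv j)⟩)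
    else algebraMap L v.toValuationSubring (c p)
  let f : ℚ →+* v.toValuationSubring :=
    (algebraMap L v.toValuationSubring).comp (algebraMap ℚ L)
  have h1 : ((MvPolynomial.eval₂ f g m : v.toValuationSubring) : FF) = S.hybrid m c i := by
    show v.toValuationSubring.subtype _ = _
    rw [MvPolynomial.eval₂_comp_left, hybrid, MvPolynomial.aeval_def]
    congr 1
    · exact Subsingleton.elim _ _
    · funext p
      simp only [Function.comp_apply, g]
      rcases p with ⟨t, j | j⟩ <;> split_ifs <;>
        simp [S.realF_unitv, Sum.elim_inl, Sum.elim_inr]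
  refine ⟨h1 ▸ Subtype.mem _, ?_⟩
  rw [show (⟨S.hybrid m c i, h1 ▸ Subtype.mem _⟩ : v.toValuationSubring)
    = MvPolynomial.eval₂ f g m from Subtype.ext h1.symm, MvPolynomial.eval₂_comp_left,
    MvPolynomial.aeval_def]
  congr 1
  · exact Subsingleton.elim _ _
  · funext p
    simp only [Function.comp_apply, g]
    rcases p with ⟨t, j | j⟩ <;> split_ifs <;>
      simp [evalAt_algebraMap, ptv, vl, Sum.elim_inl, Sum.elim_inr]

/-- A polynomial nonzero at one point is nonzero at a point whose `z` is transcendental. -/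
lemma aeval_ne_zero_step {k : IntermediateField ℚ L} (m : MvPolynomial S.PtVar ℚ)
    (c : S.PtVar → L) (i : Fin S.n) (hc : ∀ p : S.PtVar, p.1 ≠ i → c p ∈ k) {R Q : Place L FF}
    (hR : R ≠ S.inf L) (hQ : Q ≠ S.inf L) (hQt : ¬ IsAlgebraic k (S.zv Q))
    (h0 : MvPolynomial.aeval (fun p : S.PtVar => if p.1 = i
        then p.2.elim (S.ptv R hR S.la) (S.ptv R hR (S.la + S.lc)) else c p) m ≠ 0) :
    MvPolynomial.aeval (fun p : S.PtVar => if p.1 = i
        then p.2.elim (S.ptv Q hQ S.la) (S.ptv Q hQ (S.la + S.lc)) else c p) m ≠ 0 := by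
  classical
  set H := S.hybrid m c i with hH
  have hne : H ≠ 0 := by
    intro h
    obtain ⟨hm, he⟩ := S.hybrid_mem (m := m) c i hR
    refine h0 ?_
    rw [← he, ← map_zero (S.evalAt R)]
    exact congrArg _ (Subtype.ext h)
  have hfix : ∀ σ : L ≃ₐ[k] L, S.galK k σ • H = H := by
    intro σ
    let F : FF →+* FF := MulSemiringAction.toRingHom (SemilinearAut L FF) FF (S.galK k σ)
    show F (S.hybrid m c i) = _
    rw [hH, hybrid, MvPolynomial.aeval_def, MvPolynomial.eval₂_comp_left]
    congr 1
    · exact Subsingleton.elim _ _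
    · funext p
      simp only [Function.comp_apply, F, MulSemiringAction.toRingHom_apply]
      split_ifs with hp
      · rcases p with ⟨t, j | j⟩ <;>
          simp only [Sum.elim_inl, Sum.elim_inr, galK, S.gal_el]
      · rw [Algebra.algebraMap_eq_smul_one, galK, S.gal_algebraMap_smul, smul_one]
        congr 1
        exact σ.commutes ⟨c p, hc p hp⟩
  intro hcon
  obtain ⟨hm, he⟩ := S.hybrid_mem (m := m) c i hQ
  rw [hcon, evalAt_eq_zero_iff] at he
  have hord : 1 ≤ Q.ord H := he.resolve_left hne
  refine hQt (S.isAlgebraic_zv_of_finite_orbit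
    (((S.rr L).divisor hne).support.finite_toSet.subset ?_))
  rintro _ ⟨σ, rfl⟩
  rw [Finset.mem_coe, Finsupp.mem_support_iff, (S.rr L).divisor_apply hne, ← hfix σ,
    SemilinearAut.ord_smul]
  omega

/-- A polynomial nonzero at some tuple is nonzero at a tuple with independent values of `z`. -/
theorem aeval_ne_zero_generic (m : MvPolynomial S.PtVar ℚ) {R Q : Fin S.n → Place L FF}
    (hR : ∀ t, R t ≠ S.inf L) (hQ : ∀ t, Q t ≠ S.inf L)
    (hRa : ∀ t, IsAlgebraic ℚ (S.zv (R t))) (hQi : AlgebraicIndependent ℚ fun t => S.zv (Q t))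
    (h0 : MvPolynomial.aeval (S.ptsVal R hR) m ≠ 0) :
    MvPolynomial.aeval (S.ptsVal Q hQ) m ≠ 0 := by
  classical
  let hyb : ℕ → Fin S.n → Place L FF := fun i t => if (t : ℕ) < i then Q t else R t
  have hh : ∀ i t, hyb i t ≠ S.inf L := fun i t => by
    simp only [hyb]; split_ifs
    exacts [hQ t, hR t]
  suffices H : ∀ i ≤ S.n, MvPolynomial.aeval (S.ptsVal (hyb i) (hh i)) m ≠ 0 by
    convert H S.n le_rfl using 4
    funext t
    simp [hyb]
  intro i
  induction i with
  | zero =>
      intro _
      convert h0 using 4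
      funext t
      simp [hyb]
  | succ i ih =>
      intro hi
      let i' : Fin S.n := ⟨i, hi⟩
      set k₀ := IntermediateField.adjoin ℚ ((fun t => S.zv (Q t)) '' {t | t ≠ i'})
      set k := IntermediateField.restrictScalars ℚ (algebraicClosure k₀ L) with hk
      have hkc : ∀ c : L, IsAlgebraic k c → c ∈ k := by
        intro c hc
        rw [hk, IntermediateField.mem_restrictScalars, mem_algebraicClosure_iff]
        have hint : IsIntegral (algebraicClosure k₀ L) c := hc.isIntegral
        exact (isIntegral_trans c hint).isAlgebraic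
      have hzmem : ∀ t, t ≠ i' → S.zv (hyb i t) ∈ k := by
        intro t ht
        rw [hk, IntermediateField.mem_restrictScalars, mem_algebraicClosure_iff]
        simp only [hyb]
        split_ifs
        · exact isAlgebraic_algebraMap
            (⟨_, IntermediateField.subset_adjoin ℚ _ ⟨t, ht, rfl⟩⟩ : k₀)
        · exact (hRa t).tower_top k₀
      have hQt : ¬ IsAlgebraic k (S.zv (Q i')) := by
        intro h
        have h1 : IsAlgebraic k₀ (S.zv (Q i')) := by
          have := hkc _ h
          rwa [hk, IntermediateField.mem_restrictScalars, mem_algebraicClosure_iff] at this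
        exact hQi.transcendental_adjoin (s := {t | t ≠ i'}) (i := i') (by simp)
          ((IsFractionRing.isAlgebraic_iff _ k₀ L).mpr h1)
      have hstep := S.aeval_ne_zero_step (k := k) m (S.ptsVal (hyb i) (hh i)) i'
        (fun p hp => by
          rcases p with ⟨t, j | j⟩ <;>
            exact S.ptv_mem_of_zv_mem hkc _ (hzmem t hp) _ j)
        (hR i') (hQ i') hQt (by
          convert ih (by omega) using 4
          rename_i p
          rcases p with ⟨t, j | j⟩ <;> split_ifs with hp <;>
            first
              | rfl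
              | (obtain rfl : t = i' := hp
                 simp only [ptsVal, Sum.elim_inl, Sum.elim_inr]
                 congr 1
                 simp [hyb, i']))
      convert hstep using 4
      rename_i p
      rcases p with ⟨t, j | j⟩ <;> split_ifs with hp <;>
        simp only [ptsVal, Sum.elim_inl, Sum.elim_inr] <;> congr 1 <;>
        simp only [hyb]
      all_goals first
        | (obtain rfl : t = i' := hp
           simp [i'])
        | (have : (t : ℕ) ≠ i := fun e => hp (Fin.ext e)
           have hiff : ((t : ℕ) < i + 1) ↔ ((t : ℕ) < i) := by omega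
           simp only [hiff])

end OneStep

local notation "Qb" => AlgebraicClosure ℚ

local notation "FQ" => laurentBaseChange Qb S.F₀

/-- The class of distinct affine points over `ℚ̄` is twice a class. -/
theorem exists_double_tuple (hg : 0 < S.g) {R : Fin S.n → Place Qb FQ} (hi : Injective R)
    (hR : ∀ t, R t ≠ S.inf Qb) : ∃ y : Pic0 Qb FQ, S.cls (S.tupDiv R) = y + y := by
  by_contra hno
  obtain ⟨m, hm, hgen⟩ := exists_eliminant S.sysPoly (S.ptsVal R hR) (fun x hx => by
    by_contra hdeg
    push Not at hdeg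
    obtain ⟨D, -, -, hD⟩ := S.sysVal_sound hi hR (fun k => hdeg k) fun e => by
      rw [← eval_sysPoly]; exact hx e
    exact hno ⟨_, hD⟩)
  let K := FractionRing (MvPolynomial (Fin S.n) Qb)
  let L := AlgebraicClosure K
  let ψ : MvPolynomial (Fin S.n) Qb →+* L := (algebraMap K L).comp (algebraMap _ K)
  have hψ : Injective ψ := (algebraMap K L).injective.comp (IsFractionRing.injective _ K)
  have : CharZero L := charZero_of_injective_ringHom (ψ.comp MvPolynomial.C).injective
  let φ : Qb →ₐ[ℚ] L := (ψ.comp MvPolynomial.C).toRatAlgHom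
  have hti : AlgebraicIndependent ℚ fun i : Fin S.n => ψ (MvPolynomial.X i) := by
    rw [algebraicIndependent_iff_injective_aeval]
    have e : ⇑(MvPolynomial.aeval (R := ℚ) fun i : Fin S.n => ψ (MvPolynomial.X i))
        = ψ ∘ MvPolynomial.map (algebraMap ℚ Qb) := by
      funext p
      induction p using MvPolynomial.induction_on with
      | C a =>
          have h := (map_ratCast (ψ.comp MvPolynomial.C) a).symm
          rw [RingHom.comp_apply] at h
          simpa using h
      | add p q hp hq => simp [map_add, hp, hq]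
      | mul_X p i hp => simp [map_mul, hp]
    rw [e]
    exact hψ.comp (MvPolynomial.map_injective _ (algebraMap ℚ Qb).injective)
  choose P hP hPz using fun i => S.exists_zval (L := L) (ψ (MvPolynomial.X i))
  have htP : AlgebraicIndependent ℚ fun i => S.zv (P i) := by
    convert hti using 1
    funext i
    rw [S.zv_eq (hP i), hPz]
  obtain ⟨D', hD', hD'n, hD'c⟩ :=
    S.exists_rep' (S.cls (S.tupDiv P) + S.cls (S.tupDiv P))
  obtain ⟨Q, rfl⟩ := S.exists_tuple hD' hD'n
  have hQi := S.generic_double htP hD'c
  have hQ : ∀ t, Q t ≠ S.inf L := by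
    intro t e
    have h1 := hQi.ne_zero t
    rw [e, zv, dif_pos rfl] at h1
    exact h1 rfl
  have hQinj : Injective Q := fun a b e => hQi.injective (congrArg S.zv e)
  choose R' hR' hR1 hR2 using fun t => S.exists_place_map hg φ (hR t)
  have hval : S.ptsVal R' hR' = fun p => φ (S.ptsVal R hR p) := by
    funext p
    rcases p with ⟨t, j | j⟩
    · exact hR1 t j
    · exact hR2 t j
  have hRa : ∀ t, IsAlgebraic ℚ (S.zv (R' t)) := by
    intro t
    have : Algebra.IsAlgebraic ℚ Qb := AlgebraicClosure.isAlgebraic ℚ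
    have e : S.zv (R' t) = φ (S.zval (R t) (hR t)) := by
      rw [S.zv_eq (hR' t), zval, zval, vl_eq_sum, vl_eq_sum, map_sum]
      exact Finset.sum_congr rfl fun j _ => by simp [hR1 t j, ratV]
    rw [e]
    exact (Algebra.IsAlgebraic.isAlgebraic (S.zval (R t) (hR t))).algHom φ
  have h1 := S.aeval_ne_zero_generic m hR' hQ hRa hQi (by
    rw [hval, ← MvPolynomial.comp_aeval, AlgHom.comp_apply,
      map_ne_zero_iff φ φ.toRingHom.injective]
    exact hm)
  obtain ⟨x, hx, hz⟩ := S.sysVal_complete hQinj hQ hD'c
  exact hgen L _ h1 x hx fun s e hs => by rw [eval_sysPoly]; exact hz s e hs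

section PointClass

variable {L : Type} [Field L] [Algebra ℚ L] [IsAlgClosed L] [CharZero L]

local notation "FF" => laurentBaseChange L S.F₀

/-- The class of a place minus the place at infinity. -/
def ptCls (v : Place L FF) : Pic0 L FF := S.mk0 (Finsupp.single v 1 - S.binf L 1)

lemma mk0_zero : S.mk0 (0 : Divisor L FF) = 0 :=
  (S.mk0_eq_zero_iff (map_zero _)).mpr (zero_mem _)

lemma ptCls_inf : S.ptCls (S.inf L) = 0 := by
  rw [ptCls, binf, sub_self, mk0_zero]

lemma degree_sub_binf (D : Divisor L FF) :
    Divisor.degree (D - S.binf L (Divisor.degree D)) = 0 := by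
  rw [map_sub, degree_binf, sub_self]

lemma mk0_zsmul {D : Divisor L FF} (h : Divisor.degree D = 0) (k : ℤ) :
    S.mk0 (k • D) = k • S.mk0 D := by
  have hk : ∀ j : ℤ, Divisor.degree (j • D) = 0 := fun j => by
    rw [map_zsmul, h, smul_zero]
  induction k using Int.induction_on with
  | zero => rw [zero_smul, mk0_zero, zero_zsmul]
  | succ i ih => rw [add_smul, one_smul, S.mk0_add (hk _) h, ih, add_zsmul, one_zsmul]
  | pred i ih =>
      rw [sub_smul, one_smul, S.mk0_sub (hk _) h, ih, sub_zsmul, one_zsmul, sub_eq_add_neg]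

/-- The additive extension of `ptCls`. -/
def ptHom : Divisor L FF →+ Pic0 L FF :=
  Finsupp.liftAddHom fun v => zmultiplesHom (Pic0 L FF) (S.ptCls v)

lemma ptHom_single (v : Place L FF) (k : ℤ) :
    S.ptHom (Finsupp.single v k) = k • S.ptCls v := by
  rw [ptHom, Finsupp.liftAddHom_apply_single, zmultiplesHom_apply]

/-- Every degree zero shift is a sum of classes of places. -/
theorem mk0_eq_sum_ptCls (D : Divisor L FF) :
    S.mk0 (D - S.binf L (Divisor.degree D)) =
      S.ptHom D := by
  induction D using Finsupp.induction_linear with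
  | zero => simp [binf, mk0_zero]
  | add f g hf hg =>
      have he : f + g - S.binf L (Divisor.degree (f + g)) =
          (f - S.binf L (Divisor.degree f)) + (g - S.binf L (Divisor.degree g)) := by
        rw [Divisor.degree.map_add, binf, binf, binf, Finsupp.single_add]
        abel
      rw [he, S.mk0_add (S.degree_sub_binf f) (S.degree_sub_binf g), hf, hg, (S.ptHom (L := L)).map_add]
  | single v k =>
      rw [S.ptHom_single, (S.rr L).degree_single, ptCls]
      rw [← S.mk0_zsmul (by rw [map_sub, degree_binf, (S.rr L).degree_single, sub_self]), binf,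
        binf, smul_sub, Finsupp.smul_single', Finsupp.smul_single', mul_one]

lemma cls_eq_sum_ptCls {D : Divisor L FF} (hn : Divisor.degree D = S.n) :
    S.cls D = S.ptHom D := by
  rw [← mk0_eq_sum_ptCls, hn, cls]

lemma cls_tupDiv (Q : Fin S.n → Place L FF) : S.cls (S.tupDiv Q) = ∑ t, S.ptCls (Q t) := by
  rw [S.cls_eq_sum_ptCls (S.degree_tupDiv Q), tupDiv, map_sum]
  simp [ptHom_single]

/-- Modulo a subgroup identifying all affine places, only the affine degree matters. -/
theorem mem_of_diff (T : AddSubgroup (Pic0 L FF)) {R₀ : Place L FF} (_h₀ : R₀ ≠ S.inf L)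
    (h : ∀ v, v ≠ S.inf L → S.ptCls v - S.ptCls R₀ ∈ T) (E : Divisor L FF) :
    S.ptHom E - (Divisor.degree E - E (S.inf L)) • S.ptCls R₀ ∈ T := by
  induction E using Finsupp.induction_linear with
  | zero => simp
  | add f g hf hg =>
      have := T.add_mem hf hg
      rw [map_add, map_add, Finsupp.add_apply]
      convert this using 1
      rw [show Divisor.degree f + Divisor.degree g - (f (S.inf L) + g (S.inf L)) =
        (Divisor.degree f - f (S.inf L)) + (Divisor.degree g - g (S.inf L)) by ring, add_zsmul]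
      abel
  | single v k =>
      rw [S.ptHom_single, (S.rr L).degree_single]
      by_cases hv : v = S.inf L
      · simp [hv, ptCls_inf]
      · rw [Finsupp.single_eq_of_ne (Ne.symm hv), sub_zero, ← zsmul_sub]
        exact T.zsmul_mem (h v hv) k

end PointClass

open Finset in
/-- Every class over `ℚ̄` is twice a class. -/
theorem exists_half (x : Pic0 Qb FQ) : ∃ y : Pic0 Qb FQ, x = y + y := by
  classical
  rcases Nat.eq_zero_or_pos S.g with hg | hg
  · obtain ⟨D, hD, hn, rfl⟩ := S.exists_rep' x
    refine ⟨0, ?_⟩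
    obtain rfl := (S.rr Qb).eq_zero_of_nonneg_of_degree_le hD (by simp [hn, hg])
    rw [S.cls_eq_sum_ptCls hn]
    simp
  let T : AddSubgroup (Pic0 Qb FQ) := (nsmulAddMonoidHom 2).range
  have hT : ∀ u, u ∈ T ↔ ∃ y : Pic0 Qb FQ, u = y + y := fun u => by
    simp only [T, AddMonoidHom.mem_range, nsmulAddMonoidHom_apply, two_nsmul, eq_comm]
  have hinf : {v : Place Qb FQ | v ≠ S.inf Qb}.Infinite := by
    refine Set.Infinite.of_image S.zv ?_
    refine Set.infinite_univ.mono fun c _ => ?_
    obtain ⟨v, hv, rfl⟩ := S.exists_zval (L := Qb) c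
    exact ⟨v, hv, S.zv_eq hv⟩
  have hdiff : ∀ R R' : Place Qb FQ, R ≠ S.inf Qb → R' ≠ S.inf Qb →
      S.ptCls R - S.ptCls R' ∈ T := by
    intro R R' hR hR'
    obtain ⟨k, hk⟩ : ∃ k, S.n = k + 1 := ⟨S.n - 1, by simp only [n] at *; omega⟩
    let o : ℕ ↪ _ := (hinf.sdiff (Set.toFinite ({R, R'} : Set _))).natEmbedding
    have key : ∀ P : Place Qb FQ, P ≠ S.inf Qb → (P = R ∨ P = R') →
        S.ptCls P + ∑ t : Fin k, S.ptCls (o t).1 ∈ T := by
      intro P hP hPR
      let Q : Fin S.n → Place Qb FQ :=
        (Fin.cons P fun t : Fin k => (o t).1 : Fin (k + 1) → _) ∘ Fin.cast hk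
      have hi : Injective Q := by
        refine Injective.comp (Fin.cons_injective_iff.mpr ⟨?_, fun a b e => ?_⟩)
          (Fin.cast_injective _)
        · rintro ⟨t, ht⟩
          have h2 := (o t).2.2
          simp only at ht
          rw [ht] at h2
          rcases hPR with e | e <;> simp [e] at h2
        · exact Fin.ext (o.injective (Subtype.ext e))
      have hQ : ∀ t, Q t ≠ S.inf Qb := by
        intro t
        simp only [Q, comp_apply]
        refine Fin.cases ?_ (fun j => ?_) (Fin.cast hk t)
        · simpa using hP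
        · simpa using (o j).2.1
      obtain ⟨y, hy⟩ := S.exists_double_tuple hg hi hQ
      rw [hT]
      refine ⟨y, ?_⟩
      rw [← hy, cls_tupDiv]
      rw [Fintype.sum_equiv (finCongr hk) (fun t => S.ptCls (Q t))
        (fun t => S.ptCls ((Fin.cons P fun t : Fin k => (o t).1 : Fin (k + 1) → _) t))
        (fun t => rfl), Fin.sum_univ_succ]
      simp
    have h1 := key R hR (Or.inl rfl)
    have h2 := key R' hR' (Or.inr rfl)
    simpa using T.sub_mem h1 h2
  have hz : S.el Qb S.zF ≠ 0 := S.el_ne_zero (f := S.zF) S.z_ne_zero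
  set D := (S.rr Qb).divisor hz with hDdef
  obtain ⟨R₀, hR₀⟩ := hinf.nonempty
  have hres := S.mem_of_diff T hR₀ (fun v hv => hdiff v R₀ hv hR₀)
  have h2 : ((2 : ℤ) • S.ptCls R₀) ∈ T := (hT _).mpr ⟨_, two_zsmul _⟩
  have hm : ((S.m : ℤ) • S.ptCls R₀) ∈ T := by
    have h := hres D
    have hpr : S.ptHom D = 0 := by
      rw [← mk0_eq_sum_ptCls, hDdef, (S.rr Qb).degree_divisor hz, binf, Finsupp.single_zero,
        sub_zero]
      exact (S.mk0_eq_zero_iff ((S.rr Qb).degree_divisor hz)).mpr
        ((S.rr Qb).divisor_mem_principal hz)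
    have ho : S.oinf Qb (S.el Qb S.zF) = -(S.m : ℤ) := by
      simp only [oinf, el]
      rw [order_coeffEmb]
      exact S.z_order
    have hd : Divisor.degree D - D (S.inf Qb) = (S.m : ℤ) := by
      rw [hDdef, (S.rr Qb).degree_divisor hz, (S.rr Qb).divisor_apply hz, ord_inf S Qb hz, ho,
        zero_sub, neg_neg]
    rw [hpr, zero_sub, hd, neg_mem_iff] at h
    exact h
  have h1 : S.ptCls R₀ ∈ T := by
    have := T.sub_mem hm (T.zsmul_mem h2 (S.g : ℤ))
    rwa [← mul_zsmul, sub_eq_add_neg, ← sub_zsmul, show (S.m : ℤ) - (S.g : ℤ) * 2 = 1 by simp [m]; ring,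
      one_zsmul] at this
  obtain ⟨E, hE, hn, rfl⟩ := S.exists_rep' x
  rw [← hT, S.cls_eq_sum_ptCls hn]
  simpa using T.add_mem (hres E) (T.zsmul_mem h1 (Divisor.degree E - E (S.inf Qb)))

end Setup

end Fermat.Agent.MWJ0

end
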