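import Fermat.Agent.MWJ0.MulSystem
import Fermat.Agent.MWJ0.Divisible
import Mathlib.FieldTheory.IsAlgClosed.Classification
import Mathlib.Analysis.Complex.Cardinality
import Mathlib.Analysis.Complex.Polynomial.Basic

/-!
# Every class over `ℚ̄` is divisible by `n` when the `n`-torsion over `ℂ` is finite

The generic tuple of the argument for two is taken in `ℂ`.
-/

set_option autoImplicit false

noncomputable section

open AlgebraicCurve ModularCurve Module Function

namespace Fermat.Agent.MWJ0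

/-- Complex numbers algebraically independent over `ℚ`. -/
theorem exists_algebraicIndependent_complex (m : ℕ) :
    ∃ u : Fin m → ℂ, AlgebraicIndependent ℚ u := by
  obtain ⟨s, hs⟩ := exists_isTranscendenceBasis ℚ ℂ
  have h := IsAlgClosed.cardinal_eq_cardinal_transcendence_basis_of_aleph0_lt'
    (Subtype.val : s → ℂ) hs Cardinal.mk_le_aleph0
    (by rw [Cardinal.mk_complex]; exact Cardinal.aleph0_lt_continuum)
  have : Infinite s := by
    rw [Cardinal.infinite_iff, ← h, Cardinal.mk_complex]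
    exact Cardinal.aleph0_le_continuum
  let e : Fin m ↪ s := Fin.valEmbedding.trans (Infinite.natEmbedding s)
  exact ⟨_, hs.1.comp e e.injective⟩

namespace Setup

variable (S : Setup)

local notation "Qb" => AlgebraicClosure ℚ

local notation "FQ" => laurentBaseChange Qb S.F₀

/-- The class of distinct affine points over `ℚ̄` is a multiple of a class. -/
theorem exists_mul_tuple (hg : 0 < S.g) (k : ℕ)
    (hfin : {t : Pic0 ℂ (laurentBaseChange ℂ S.F₀) | (k + 1) • t = 0}.Finite)
    {R : Fin S.n → Place Qb FQ} (hi : Injective R) (hR : ∀ t, R t ≠ S.inf Qb) :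
    ∃ y : Pic0 Qb FQ, S.cls (S.tupDiv R) = (k + 1) • y := by
  classical
  by_contra hno
  obtain ⟨m, hm, hgen⟩ := exists_eliminant (S.mulPoly k) (S.ptsVal R hR) (fun x hx => by
    by_contra hdeg
    push Not at hdeg
    exact hno (S.mulVal_sound k hi hR (fun c => hdeg c) fun e => by
      rw [← eval_mulPoly]; exact hx e))
  have : Algebra.IsAlgebraic ℚ Qb := AlgebraicClosure.isAlgebraic ℚ
  let φ : Qb →ₐ[ℚ] ℂ := IsAlgClosed.lift
  obtain ⟨u, hu⟩ := exists_algebraicIndependent_complex S.n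
  choose P hP hPz using fun i => S.exists_zval (L := ℂ) (u i)
  have htP : AlgebraicIndependent ℚ fun i => S.zv (P i) := by
    convert hu using 1
    funext i
    rw [S.zv_eq (hP i), hPz]
  obtain ⟨D', hD', hD'n, hD'c⟩ := S.exists_rep' ((k + 1) • S.cls (S.tupDiv P))
  obtain ⟨Q, rfl⟩ := S.exists_tuple hD' hD'n
  have hQi := S.generic_mul hfin htP hD'c
  have hQ : ∀ t, Q t ≠ S.inf ℂ := by
    intro t e
    have h1 := hQi.ne_zero t
    rw [e, zv, dif_pos rfl] at h1
    exact h1 rfl
  have hQinj : Injective Q := fun a b e => hQi.injective (congrArg S.zv e)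
  choose R' hR' hR1 hR2 using fun t => S.exists_place_map hg φ (hR t)
  have hval : S.ptsVal R' hR' = fun p => φ (S.ptsVal R hR p) := by
    funext p
    rcases p with ⟨t, j | j⟩
    · exact hR1 t j
    · exact hR2 t j
  have hRa : ∀ t, IsAlgebraic ℚ (S.zv (R' t)) := by
    intro t
    have e : S.zv (R' t) = φ (S.zval (R t) (hR t)) := by
      rw [S.zv_eq (hR' t), zval, zval, vl_eq_sum, vl_eq_sum, map_sum]
      exact Finset.sum_congr rfl fun j _ => by simp [hR1 t j, ratV]
    rw [e]
    exact (Algebra.IsAlgebraic.isAlgebraic (S.zval (R t) (hR t))).algHom φ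
  have h1 := S.aeval_ne_zero_generic m hR' hQ hRa hQi (by
    rw [hval, ← MvPolynomial.comp_aeval, AlgHom.comp_apply,
      map_ne_zero_iff φ φ.toRingHom.injective]
    exact hm)
  obtain ⟨x, hx, hz⟩ := S.mulVal_complete k hQinj hQ hD'c
  exact hgen ℂ _ h1 x hx fun s e hs => by rw [eval_mulPoly]; exact hz s e hs

/-- A function with exact pole order `b` at infinity and no other pole. -/
theorem exists_pole_order {b : ℕ} (hb : 2 * S.g + 1 ≤ b) :
    ∃ f : FQ, f ≠ 0 ∧ f ∈ riemannRochSpace (S.binf Qb b) ∧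
      (S.inf Qb).ord f = -(b : ℤ) := by
  have h1 := (S.rr Qb).dim_eq (S.binf Qb (b : ℤ)) (by rw [degree_binf, S.g_eq Qb]; omega)
  have h2 := (S.rr Qb).dim_eq (S.binf Qb ((b : ℤ) - 1)) (by rw [degree_binf, S.g_eq Qb]; omega)
  rw [degree_binf] at h1 h2
  have hnot : ¬ riemannRochSpace (S.binf Qb (b : ℤ)) ≤ riemannRochSpace (S.binf Qb ((b : ℤ) - 1)) :=
    fun hle => by
      have := (S.rr Qb).finite (S.binf Qb ((b : ℤ) - 1))
      have := Submodule.finrank_mono hle
      omega
  obtain ⟨f, hf, hf'⟩ := SetLike.not_le_iff_exists.mp hnot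
  have hf0 : f ≠ 0 := fun h => hf' (h ▸ zero_mem _)
  refine ⟨f, hf0, hf, ?_⟩
  have hb' := (mem_Lsp_of_ne_zero hf0).mp hf
  have h3 := hb' (S.inf Qb)
  rw [binf, Finsupp.single_eq_same] at h3
  refine le_antisymm ?_ h3
  by_contra hlt
  refine hf' ((mem_Lsp_of_ne_zero hf0).mpr fun v => ?_)
  rcases eq_or_ne v (S.inf Qb) with rfl | hv
  · rw [binf, Finsupp.single_eq_same]; omega
  · have := hb' v
    rw [binf, Finsupp.single_eq_of_ne hv] at this ⊢
    exact this

/-- Every class over `ℚ̄` is a multiple by `k + 1`. -/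
theorem exists_nsmul_eq (k : ℕ)
    (hfin : {t : Pic0 ℂ (laurentBaseChange ℂ S.F₀) | (k + 1) • t = 0}.Finite)
    (x : Pic0 Qb FQ) : ∃ y : Pic0 Qb FQ, (k + 1) • y = x := by
  classical
  rcases Nat.eq_zero_or_pos S.g with hg | hg
  · obtain ⟨D, hD, hn, rfl⟩ := S.exists_rep' x
    refine ⟨0, ?_⟩
    obtain rfl := (S.rr Qb).eq_zero_of_nonneg_of_degree_le hD (by simp [hn, hg])
    rw [S.cls_eq_sum_ptCls hn]
    simp
  let T : AddSubgroup (Pic0 Qb FQ) := (nsmulAddMonoidHom (k + 1)).range
  have hinf : {v : Place Qb FQ | v ≠ S.inf Qb}.Infinite := by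
    refine Set.Infinite.of_image S.zv ?_
    refine Set.infinite_univ.mono fun c _ => ?_
    obtain ⟨v, hv, rfl⟩ := S.exists_zval (L := Qb) c
    exact ⟨v, hv, S.zv_eq hv⟩
  have hdiff : ∀ R R' : Place Qb FQ, R ≠ S.inf Qb → R' ≠ S.inf Qb →
      S.ptCls R - S.ptCls R' ∈ T := by
    intro R R' hR hR'
    obtain ⟨j, hj⟩ : ∃ j, S.n = j + 1 := ⟨S.n - 1, by simp only [n] at *; omega⟩
    let o : ℕ ↪ _ := (hinf.sdiff (Set.toFinite ({R, R'} : Set _))).natEmbedding
    have key : ∀ P : Place Qb FQ, P ≠ S.inf Qb → (P = R ∨ P = R') →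
        S.ptCls P + ∑ t : Fin j, S.ptCls (o t).1 ∈ T := by
      intro P hP hPR
      let Q : Fin S.n → Place Qb FQ :=
        (Fin.cons P fun t : Fin j => (o t).1 : Fin (j + 1) → _) ∘ Fin.cast hj
      have hi : Injective Q := by
        refine Injective.comp (Fin.cons_injective_iff.mpr ⟨?_, fun a b e => ?_⟩)
          (Fin.cast_injective _)
        · rintro ⟨t, ht⟩
          have h2 := (o t).2.2
          simp only at ht
          rw [ht] at h2
          rcases hPR with e | e <;> simp [e] at h2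
        · exact Fin.ext (o.injective (Subtype.ext e))
      have hQ : ∀ t, Q t ≠ S.inf Qb := by
        intro t
        simp only [Q, comp_apply]
        refine Fin.cases ?_ (fun i => ?_) (Fin.cast hj t)
        · simpa using hP
        · simpa using (o i).2.1
      obtain ⟨y, hy⟩ := S.exists_mul_tuple hg k hfin hi hQ
      refine ⟨y, ?_⟩
      rw [nsmulAddMonoidHom_apply, ← hy, cls_tupDiv]
      rw [Fintype.sum_equiv (finCongr hj) (fun t => S.ptCls (Q t))
        (fun t => S.ptCls ((Fin.cons P fun t : Fin j => (o t).1 : Fin (j + 1) → _) t))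
        (fun t => rfl), Fin.sum_univ_succ]
      simp
    have h1 := key R hR (Or.inl rfl)
    have h2 := key R' hR' (Or.inr rfl)
    simpa using T.sub_mem h1 h2
  obtain ⟨R₀, hR₀⟩ := hinf.nonempty
  have hres := S.mem_of_diff T hR₀ (fun v hv => hdiff v R₀ hv hR₀)
  have hpole : ∀ b : ℕ, 2 * S.g + 1 ≤ b → (b : ℤ) • S.ptCls R₀ ∈ T := by
    intro b hb
    obtain ⟨f, hf, -, ho⟩ := S.exists_pole_order hb
    set D := (S.rr Qb).divisor hf with hD
    have h := hres D
    have hpr : S.ptHom D = 0 := by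
      rw [← mk0_eq_sum_ptCls, hD, (S.rr Qb).degree_divisor hf, binf, Finsupp.single_zero, sub_zero]
      exact (S.mk0_eq_zero_iff ((S.rr Qb).degree_divisor hf)).mpr
        ((S.rr Qb).divisor_mem_principal hf)
    have hd : Divisor.degree D - D (S.inf Qb) = (b : ℤ) := by
      rw [hD, (S.rr Qb).degree_divisor hf, (S.rr Qb).divisor_apply hf, ho, zero_sub, neg_neg]
    rw [hpr, zero_sub, hd, neg_mem_iff] at h
    exact h
  have h1 : S.ptCls R₀ ∈ T := by
    have := T.sub_mem (hpole (2 * S.g + 2) (by omega)) (hpole (2 * S.g + 1) le_rfl)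
    rwa [sub_eq_add_neg, ← sub_zsmul, show ((2 * S.g + 2 : ℕ) : ℤ) - ((2 * S.g + 1 : ℕ) : ℤ) = 1 by
      push_cast; ring, one_zsmul] at this
  obtain ⟨E, hE, hn, rfl⟩ := S.exists_rep' x
  have hmem : S.cls E ∈ T := by
    rw [S.cls_eq_sum_ptCls hn]
    simpa using T.add_mem (hres E) (T.zsmul_mem h1 (Divisor.degree E - E (S.inf Qb)))
  exact hmem

end Setup

end Fermat.Agent.MWJ0

end
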