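import Fermat.Agent.MWJ0.Rank
import Mathlib.RingTheory.Nullstellensatz
import Mathlib.Algebra.MvPolynomial.Funext
import Mathlib.FieldTheory.IsAlgClosed.Basic
import Mathlib.Data.Finsupp.Interval
import Mathlib.Algebra.CharP.Algebra
import Mathlib.Algebra.CharZero.Infinite

/-!
# Elimination for systems in a product of projective spaces

If a system with polynomial coefficients has no nondegenerate zero at one parameter value over an
algebraically closed field, a polynomial in the parameters that is nonzero there rules out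
nondegenerate zeros at every parameter value, over every field, where it does not vanish.
-/

set_option autoImplicit false

noncomputable section

open MvPolynomial Module

namespace Fermat.Agent.MWJ0

variable {κ : Type} [Fintype κ] [DecidableEq κ] {ι : κ → Type} [∀ k, Fintype (ι k)] {T : Type}

local notation "σv" => (Σ k, ι k)

/-- Monomials with all block degrees equal to `D`. -/
abbrev MonoIdx (ι : κ → Type) [∀ k, Fintype (ι k)] (D : ℕ) : Type :=
  {μ : (Σ k, ι k) →₀ ℕ // ∀ k, ∑ i, μ ⟨k, i⟩ = D}

instance (D : ℕ) : Finite (MonoIdx ι D) := by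
  classical
  let b : (Σ k, ι k) →₀ ℕ := Finsupp.equivFunOnFinite.symm fun _ => D
  refine Finite.of_injective (β := Set.Iic b) (fun μ => ⟨μ.1, fun v => ?_⟩) fun μ ν h => ?_
  · show μ.1 v ≤ D
    exact (Finset.single_le_sum (f := fun i => μ.1 ⟨v.1, i⟩) (fun _ _ => Nat.zero_le _)
      (Finset.mem_univ v.2)).trans_eq (μ.2 v.1)
  · have h' : μ.1 = ν.1 := congrArg (fun y : Set.Iic b => y.1) h
    exact Subtype.ext h'

instance (D : ℕ) : Fintype (MonoIdx ι D) := Fintype.ofFinite _

/-- The equation `e` at a parameter value. -/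
def specialise {L : Type} [CommRing L] [Algebra ℚ L] {E : Type}
    (P : E → MvPolynomial σv (MvPolynomial T ℚ)) (r : T → L) (e : E) : MvPolynomial σv L :=
  MvPolynomial.map (aeval r : MvPolynomial T ℚ →ₐ[ℚ] L).toRingHom (P e)

/-- A nonvanishing eliminant: where it does not vanish, the system has no multi-projective zero. -/
theorem exists_eliminant {K : Type} [Field K] [IsAlgClosed K] [Algebra ℚ K] {E : Type}
    (P : E → MvPolynomial σv (MvPolynomial T ℚ)) (r : T → K)
    (hne : ∀ x : σv → K, (∀ e, eval x (specialise P r e) = 0) → ∃ k, ∀ i, x ⟨k, i⟩ = 0) :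
    ∃ m : MvPolynomial T ℚ, aeval r m ≠ 0 ∧ ∀ (L : Type) [Field L] [Algebra ℚ L] (r' : T → L),
      aeval r' m ≠ 0 → ∀ x : σv → L, (∀ k, ∃ i, x ⟨k, i⟩ ≠ 0) →
        (∀ (s : κ → L) (e : E), (∀ k, s k ≠ 0) →
          eval (fun v => s v.1 * x v) (specialise P r' e) = 0) → False := by
  classical
  set I : Ideal (MvPolynomial σv K) := Ideal.span (Set.range (specialise P r)) with hI
  have hrad : ∀ l : (k : κ) → ι k, ∃ N : ℕ, (∏ k, X (⟨k, l k⟩ : σv)) ^ N ∈ I := by
    intro l
    have hmem : (∏ k, X (⟨k, l k⟩ : σv)) ∈ vanishingIdeal K (zeroLocus K I) := by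
      rw [mem_vanishingIdeal_iff]
      intro x hx
      rw [map_prod]
      obtain ⟨k, hk⟩ := hne x fun e => by
        have := hx _ (Ideal.subset_span ⟨e, rfl⟩)
        rwa [← MvPolynomial.aeval_eq_eval]
      exact Finset.prod_eq_zero (Finset.mem_univ k) (by simp [hk])
    rw [vanishingIdeal_zeroLocus_eq_radical] at hmem
    exact hmem
  choose N hN using hrad
  set M := ∑ l, N l with hM
  set D : ℕ := (M + 1) * (∑ k, Fintype.card (ι k) + 1) with hD
  let v : E × (σv →₀ ℕ) → MonoIdx ι D → MvPolynomial T ℚ := fun em μ =>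
    coeff μ.1 (monomial em.2 (1 : MvPolynomial T ℚ) * P em.1)
  let vK : E × (σv →₀ ℕ) → MonoIdx ι D → K := fun em μ =>
    coeff μ.1 (monomial em.2 (1 : K) * specialise P r em.1)
  have hcoe : ∀ {L : Type} [CommRing L] [Algebra ℚ L] (r' : T → L) (em : E × (σv →₀ ℕ))
      (μ : MonoIdx ι D), aeval r' (v em μ)
        = coeff μ.1 (monomial em.2 (1 : L) * specialise P r' em.1) := by
    intro L _ _ r' em μ
    simp only [v, specialise]
    rw [show monomial em.2 (1 : L) = MvPolynomial.map (aeval r' : MvPolynomial T ℚ →ₐ[ℚ] L).toRingHom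
      (monomial em.2 1) by simp, ← map_mul, coeff_map]
    rfl
  -- every monomial is hit
  let ρ : MvPolynomial σv K →ₗ[K] (MonoIdx ι D → K) :=
    { toFun := fun f μ => coeff μ.1 f
      map_add' := fun f g => funext fun μ => coeff_add _ _ _
      map_smul' := fun c f => funext fun μ => coeff_smul _ _ _ }
  have hIρ : ∀ f ∈ I, ρ f ∈ Submodule.span K (Set.range vK) := by
    intro f hf
    obtain ⟨B, hB⟩ := Finsupp.mem_span_range_iff_exists_finsupp.mp hf
    rw [← hB, Finsupp.sum, map_sum]
    refine Submodule.sum_mem _ fun e _ => ?_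
    rw [smul_eq_mul, (B e).as_sum, Finset.sum_mul, map_sum]
    refine Submodule.sum_mem _ fun m _ => ?_
    rw [show monomial m (coeff m (B e)) = coeff m (B e) • monomial m (1 : K) by
      rw [smul_monomial, smul_eq_mul, mul_one], smul_mul_assoc, map_smul]
    exact Submodule.smul_mem _ _ (Submodule.subset_span ⟨(e, m), rfl⟩)
  have htop : Submodule.span K (Set.range vK) = ⊤ := by
    refine Submodule.eq_top_iff'.mpr fun f => ?_
    rw [pi_eq_sum_univ f]
    refine Submodule.sum_mem _ fun μ _ => Submodule.smul_mem _ _ ?_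
    have hbig : ∀ k, ∃ i, M ≤ μ.1 ⟨k, i⟩ := by
      intro k
      by_contra hlt
      push Not at hlt
      have h1 := Finset.sum_le_sum (s := Finset.univ) (fun i _ => (hlt i).le)
      rw [μ.2 k, Finset.sum_const, Finset.card_univ, smul_eq_mul] at h1
      have h2 : Fintype.card (ι k) ≤ ∑ k, Fintype.card (ι k) :=
        Finset.single_le_sum (f := fun k => Fintype.card (ι k)) (fun _ _ => Nat.zero_le _)
          (Finset.mem_univ k)
      rw [hD] at h1
      nlinarith
    choose l hl using hbig
    set m0 : σv →₀ ℕ := ∑ k, Finsupp.single (⟨k, l k⟩ : σv) (N l) with hm0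
    have hle : m0 ≤ μ.1 := fun v => by
      rw [hm0, Finsupp.finsetSum_apply]
      calc ∑ k, Finsupp.single (⟨k, l k⟩ : σv) (N l) v
          = Finsupp.single (⟨v.1, l v.1⟩ : σv) (N l) v := by
            refine Finset.sum_eq_single v.1 (fun k _ hk => ?_)
              (fun h => absurd (Finset.mem_univ _) h)
            exact Finsupp.single_eq_of_ne fun e => hk (congrArg Sigma.fst e).symm
        _ ≤ μ.1 v := by
            obtain ⟨k, i⟩ := v
            rcases eq_or_ne (l k) i with rfl | hne
            · rw [Finsupp.single_eq_same]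
              exact ((Finset.single_le_sum (fun l _ => Nat.zero_le (N l))
                (Finset.mem_univ l)).trans le_rfl).trans (hl k)
            · rw [Finsupp.single_eq_of_ne
                (fun e => hne (eq_of_heq (Sigma.mk.inj_iff.mp e).2).symm)]
              exact Nat.zero_le _
    have hmem : monomial μ.1 (1 : K) ∈ I := by
      have hX : (∏ k, X (⟨k, l k⟩ : σv)) ^ N l = monomial m0 (1 : K) := by
        rw [hm0, monomial_sum_one, ← Finset.prod_pow]
        exact Finset.prod_congr rfl fun k _ => X_pow_eq_monomial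
      rw [show monomial μ.1 (1 : K) = monomial (μ.1 - m0) 1 * monomial m0 1 by
        rw [monomial_mul, one_mul, tsub_add_cancel_of_le hle], ← hX]
      exact I.mul_mem_left _ (hN l)
    convert hIρ _ hmem using 1
    funext ν
    show _ = coeff ν.1 (monomial μ.1 (1 : K))
    rw [coeff_monomial]
    rcases eq_or_ne μ ν with h | h
    · simp [h]
    · rw [if_neg h, if_neg fun e => h (Subtype.ext e)]
  have hfull := finrank_top K (MonoIdx ι D → K)
  rw [Module.finrank_fintype_fun_eq_card, ← htop] at hfull
  obtain ⟨i, hi⟩ : ∃ i : (Fin (Fintype.card (MonoIdx ι D)) → MonoIdx ι D) ×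
      (Fin (Fintype.card (MonoIdx ι D)) → E × (σv →₀ ℕ)), minor vK i ≠ 0 := by
    by_contra hcon
    push Not at hcon
    have := (forall_minor_eq_zero_iff vK).mp hcon
    omega
  have hminor : ∀ {L : Type} [CommRing L] [Algebra ℚ L] (r' : T → L), aeval r' (minor v i)
      = minor (fun em μ => coeff μ.1 (monomial em.2 (1 : L) * specialise P r' em.1)) i := by
    intro L _ _ r'
    rw [← AlgHom.coe_toRingHom, map_minor]
    congr 1
    funext em μ
    exact hcoe r' em μ
  refine ⟨minor v i, by rw [hminor]; exact hi, fun L _ _ r' hr' x hx hz => ?_⟩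
  rw [hminor] at hr'
  have : CharZero L := charZero_of_injective_algebraMap (algebraMap ℚ L).injective
  have hvan : ∀ em : E × (σv →₀ ℕ), (∑ μ : MonoIdx ι D,
      coeff μ.1 (monomial em.2 (1 : L) * specialise P r' em.1) * ∏ v, x v ^ μ.1 v) = 0 := by
    intro em
    set f := monomial em.2 (1 : L) * specialise P r' em.1 with hf
    let bd : (σv →₀ ℕ) → (κ →₀ ℕ) := fun μ =>
      Finsupp.equivFunOnFinite.symm fun k => ∑ i, μ ⟨k, i⟩
    set g : MvPolynomial κ L := ∑ μ ∈ f.support, monomial (bd μ) (coeff μ f * ∏ v, x v ^ μ v)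
      with hg
    have hgs : ∀ s : κ → L, eval s g = eval (fun v => s v.1 * x v) f := by
      intro s
      rw [hg, map_sum, eval_eq']
      refine Finset.sum_congr rfl fun μ _ => ?_
      rw [eval_monomial, Finsupp.prod_fintype _ _ (fun k => pow_zero _)]
      simp only [bd, Finsupp.coe_equivFunOnFinite_symm, mul_pow, Finset.prod_mul_distrib,
        ← Finset.prod_pow_eq_pow_sum]
      rw [← Finset.univ_sigma_univ, Finset.prod_sigma, Finset.prod_sigma]
      ring
    have hgx : g * ∏ k, X k = 0 := by
      refine MvPolynomial.funext fun s => ?_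
      rw [map_zero, map_mul, map_prod, hgs]
      simp only [eval_X]
      by_cases hs : ∀ k, s k ≠ 0
      · rw [hf, map_mul, hz s em.1 hs, mul_zero, zero_mul]
      · push Not at hs
        obtain ⟨k, hk⟩ := hs
        rw [Finset.prod_eq_zero (Finset.mem_univ k) hk, mul_zero]
    have hg0 : g = 0 := (mul_eq_zero.mp hgx).resolve_right
      (Finset.prod_ne_zero_iff.mpr fun k _ => X_ne_zero k)
    let D' : κ →₀ ℕ := Finsupp.equivFunOnFinite.symm fun _ => D
    have hc := congrArg (coeff D') hg0
    rw [coeff_zero, hg, coeff_sum] at hc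
    rw [← hc]
    simp only [coeff_monomial]
    rw [← Finset.sum_filter]
    symm
    refine Finset.sum_bij_ne_zero (fun μ hμ _ => ⟨μ, fun k => ?_⟩)
      (fun μ _ _ => Finset.mem_univ _) (fun a _ _ b _ _ h => congrArg Subtype.val h)
      (fun b _ hb => ?_) (fun μ _ _ => rfl)
    · have h := DFunLike.congr_fun (Finset.mem_filter.mp hμ).2 k
      simpa [bd, D'] using h
    · refine ⟨b.1, Finset.mem_filter.mpr ⟨?_, ?_⟩, hb, rfl⟩
      · rw [mem_support_iff]
        exact fun h => hb (by rw [h, zero_mul])
      · ext k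
        simp [bd, D', b.2 k]
  have hspan : Submodule.span L (Set.range fun (em : E × (σv →₀ ℕ)) (μ : MonoIdx ι D) =>
      coeff μ.1 (monomial em.2 (1 : L) * specialise P r' em.1)) = ⊤ := by
    refine Submodule.eq_top_of_finrank_eq (le_antisymm (Submodule.finrank_le _) (not_lt.mp ?_))
    rw [Module.finrank_fintype_fun_eq_card]
    exact fun hlt => hr' ((forall_minor_eq_zero_iff _).mpr hlt i)
  let φ : (MonoIdx ι D → L) →ₗ[L] L :=
    Fintype.linearCombination L fun μ => ∏ v, x v ^ μ.1 v
  have hφ : φ = 0 := by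
    refine LinearMap.ext_on hspan ?_
    rintro _ ⟨em, rfl⟩
    simp [φ, Fintype.linearCombination_apply, hvan em]
  choose j hj using hx
  let μ0 : σv →₀ ℕ := ∑ k, Finsupp.single (⟨k, j k⟩ : σv) D
  have hμ0 : ∀ k i, μ0 ⟨k, i⟩ = if i = j k then D else 0 := by
    intro k i
    rw [Finsupp.finsetSum_apply, Finset.sum_eq_single k]
    · rcases eq_or_ne i (j k) with rfl | h
      · simp
      · rw [if_neg h,
          Finsupp.single_eq_of_ne (fun e => h (eq_of_heq (Sigma.mk.inj_iff.mp e).2))]
    · intro k' _ hk'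
      exact Finsupp.single_eq_of_ne fun e => hk' (congrArg Sigma.fst e).symm
    · exact fun h => absurd (Finset.mem_univ _) h
  have hμD : ∀ k, ∑ i, μ0 ⟨k, i⟩ = D := fun k => by simp [hμ0]
  have := LinearMap.congr_fun hφ (Pi.single (⟨μ0, hμD⟩ : MonoIdx ι D) 1)
  simp only [φ] at this
  rw [Fintype.linearCombination_apply_single, one_smul, LinearMap.zero_apply,
    Finset.prod_eq_zero_iff] at this
  obtain ⟨⟨k, i⟩, -, hki⟩ := this
  rw [pow_eq_zero_iff', hμ0] at hki
  obtain ⟨h0, hne'⟩ := hki
  split_ifs at hne' with h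
  · exact hj k (h ▸ h0)
  · exact hne' rfl

end Fermat.Agent.MWJ0

end
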