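import Fermat.Agent.MWJ0.Generic
import Fermat.Agent.MWJ0.Elim

/-!
# The polynomial system "twice the class is the class of given points"
-/

set_option autoImplicit false

noncomputable section

open AlgebraicCurve ModularCurve Module Function

namespace Fermat.Agent.MWJ0

namespace Setup

variable (S : Setup)

/-- The parameters: coordinates of `n` points in two levels. -/
abbrev PtVar : Type := Fin S.n × (S.Idx S.la ⊕ S.Idx (S.la + S.lc))

/-- The blocks of unknowns: two tensors for each of two divisors. -/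
abbrev BlkIdx : (Bool × Bool) → Type
  | (_, false) => Fin S.n → S.Idx S.la
  | (_, true) => Fin S.n → S.Idx (S.la + S.lc)

instance blkFintype : ∀ k, Fintype (S.BlkIdx k)
  | (_, false) => (inferInstance : Fintype (Fin S.n → S.Idx S.la))
  | (_, true) => (inferInstance : Fintype (Fin S.n → S.Idx (S.la + S.lc)))

/-- All unknowns. -/
abbrev DVar : Type := Σ k, S.BlkIdx k

/-- The equations. -/
abbrev DEq : Type :=
  S.PairIdx S.n S.la S.lc ⊕ S.PairIdx S.n S.la S.lc ⊕
  S.RelIdx (S.CIdx S.la × (S.CIdx S.la × S.CIdx (S.la + S.lc))) S.l3 (3 * S.n) ⊕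
  S.RelIdx (S.CIdx S.la × S.CIdx (S.la + S.lc)) S.l2 (2 * S.n)

section Ring

variable {R R' : Type*} [CommRing R] [Algebra ℚ R] [CommRing R'] [Algebra ℚ R']

/-- Small tensor of one of the two divisors. -/
def tenA (x : S.DVar → R) (b : Bool) : S.Ten R S.la := fun I => x ⟨(b, false), I⟩

/-- Large tensor of one of the two divisors. -/
def tenB (x : S.DVar → R) (b : Bool) : S.Ten R (S.la + S.lc) := fun I => x ⟨(b, true), I⟩

/-- The tensor of the given points. -/
def parTen (r : S.PtVar → R) : S.Ten R (S.la + S.lc) := S.tupTen fun t j => r (t, .inr j)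

/-- The values of the equations. -/
def sysVal (r : S.PtVar → R) (x : S.DVar → R) : S.DEq → R
  | .inl i => S.pairEq S.la S.lc (S.tenA x false) (S.tenB x false) i
  | .inr (.inl i) => S.pairEq S.la S.lc (S.tenA x true) (S.tenB x true) i
  | .inr (.inr (.inl i)) =>
      S.relEq S.l3 (3 * S.n) (S.prod3 (S.tenA x false) (S.tenB x false) (S.tenA x true)) i
  | .inr (.inr (.inr i)) => S.relEq S.l2 (2 * S.n) (S.prod2 (S.tenA x true) (S.parTen r)) i

lemma map_sysVal (φ : R →ₐ[ℚ] R') (r : S.PtVar → R) (x : S.DVar → R) (e : S.DEq) :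
    φ (S.sysVal r x e) = S.sysVal (fun p => φ (r p)) (fun v => φ (x v)) e := by
  have hpar : (fun I => φ (S.parTen r I)) = S.parTen (fun p => φ (r p)) := by
    funext I
    exact S.map_tupTen (φ : R →+* R') _ I
  rcases e with i | i | i | i <;>
    simp only [sysVal, map_pairEq, map_relEq, map_prod2, map_prod3, hpar] <;> rfl

end Ring

/-- The system as polynomials with polynomial coefficients. -/
def sysPoly (e : S.DEq) : MvPolynomial S.DVar (MvPolynomial S.PtVar ℚ) :=
  S.sysVal (fun p => MvPolynomial.C (MvPolynomial.X p)) MvPolynomial.X e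

lemma eval_sysPoly {L : Type} [Field L] [Algebra ℚ L] (r : S.PtVar → L) (x : S.DVar → L)
    (e : S.DEq) : MvPolynomial.eval x (specialise S.sysPoly r e) = S.sysVal r x e := by
  let ψ : MvPolynomial S.DVar (MvPolynomial S.PtVar ℚ) →ₐ[ℚ] L :=
    { (MvPolynomial.eval x).comp (MvPolynomial.map
        (MvPolynomial.aeval r : MvPolynomial S.PtVar ℚ →ₐ[ℚ] L).toRingHom) with
      commutes' := fun q => by simp }
  show ψ (S.sysPoly e) = _
  rw [sysPoly, map_sysVal]
  congr 1 <;> funext p <;> simp [ψ]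

variable {L : Type} [Field L] [Algebra ℚ L] [IsAlgClosed L] [CharZero L]

local notation "FF" => laurentBaseChange L S.F₀

/-- The coordinates of a tuple of affine points. -/
def ptsVal (Q : Fin S.n → Place L FF) (hQ : ∀ t, Q t ≠ S.inf L) : S.PtVar → L
  | (t, .inl j) => S.ptv (Q t) (hQ t) S.la j
  | (t, .inr j) => S.ptv (Q t) (hQ t) (S.la + S.lc) j

lemma isTen_parTen {Q : Fin S.n → Place L FF} (hi : Injective Q) (hQ : ∀ t, Q t ≠ S.inf L) :
    S.IsTen (S.la + S.lc) (S.parTen (S.ptsVal Q hQ)) (S.tupDiv Q) :=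
  S.isTen_tupTen hi hQ (by simp only [Setup.n, Setup.la]; omega)

lemma sysVal_sound {Q : Fin S.n → Place L FF} (hi : Injective Q) (hQ : ∀ t, Q t ≠ S.inf L)
    {x : S.DVar → L} (hx : ∀ k, ∃ i, x ⟨k, i⟩ ≠ 0)
    (hz : ∀ e, S.sysVal (S.ptsVal Q hQ) x e = 0) :
    ∃ D : Divisor L FF, 0 ≤ D ∧ Divisor.degree D = S.n ∧
      S.cls (S.tupDiv Q) = S.cls D + S.cls D := by
  have hne : ∀ b, S.tenA x b ≠ 0 ∧ S.tenB x b ≠ 0 := fun b =>
    ⟨fun h => by obtain ⟨i, hi'⟩ := hx (b, false); exact hi' (congrFun h i),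
      fun h => by obtain ⟨i, hi'⟩ := hx (b, true); exact hi' (congrFun h i)⟩
  obtain ⟨D, hD, hDn, tA, tB⟩ := IsPair.exists_divisor S
    (⟨fun i => hz (.inl i), (hne false).1, (hne false).2⟩ :
      S.IsPair S.la S.lc (S.tenA x false) (S.tenB x false))
  obtain ⟨E, hE, hEn, uA, uB⟩ := IsPair.exists_divisor S
    (⟨fun i => hz (.inr (.inl i)), (hne true).1, (hne true).2⟩ :
      S.IsPair S.la S.lc (S.tenA x true) (S.tenB x true))
  have h3 := (S.rel3_iff hD hDn hD hDn hE hEn tA tB uA).mp fun i => hz (.inr (.inr (.inl i)))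
  have h2 := (S.rel2_iff hE hEn (S.tupDiv_nonneg Q) (S.degree_tupDiv Q) uA
    (S.isTen_parTen hi hQ)).mp fun i => hz (.inr (.inr (.inr i)))
  refine ⟨D, hD, hDn, ?_⟩
  rw [eq_neg_of_add_eq_zero_right h2, eq_neg_of_add_eq_zero_left h3]

lemma sysVal_complete {Q : Fin S.n → Place L FF} (hi : Injective Q) (hQ : ∀ t, Q t ≠ S.inf L)
    {y : Pic0 L FF} (hy : S.cls (S.tupDiv Q) = y + y) :
    ∃ x : S.DVar → L, (∀ k, ∃ i, x ⟨k, i⟩ ≠ 0) ∧
      ∀ (s : Bool × Bool → L) (e : S.DEq), (∀ k, s k ≠ 0) →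
        S.sysVal (S.ptsVal Q hQ) (fun v => s v.1 * x v) e = 0 := by
  obtain ⟨D, hD, hDn, hDc⟩ := S.exists_rep' y
  obtain ⟨E, hE, hEn, hEc⟩ := S.exists_rep' (-(y + y))
  obtain ⟨a, a', ta, ta'⟩ := S.exists_tens hD hDn
  obtain ⟨b, b', tb, tb'⟩ := S.exists_tens hE hEn
  refine ⟨fun v => match v with
    | ⟨(false, false), I⟩ => a I
    | ⟨(false, true), I⟩ => a' I
    | ⟨(true, false), I⟩ => b I
    | ⟨(true, true), I⟩ => b' I, ?_, fun s e hs => ?_⟩
  · rintro ⟨_ | _, _ | _⟩
    · exact Function.ne_iff.mp ta.ne_zero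
    · exact Function.ne_iff.mp ta'.ne_zero
    · exact Function.ne_iff.mp tb.ne_zero
    · exact Function.ne_iff.mp tb'.ne_zero
  · have A := ta.smul S (hs (false, false))
    have A' := ta'.smul S (hs (false, true))
    have B := tb.smul S (hs (true, false))
    have B' := tb'.smul S (hs (true, true))
    rcases e with i | i | i | i
    · exact (A.isPair S A').eqs i
    · exact (B.isPair S B').eqs i
    · exact (S.rel3_iff hD hDn hD hDn hE hEn A A' B).mpr (by rw [hDc, hEc]; abel) i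
    · exact (S.rel2_iff hE hEn (S.tupDiv_nonneg Q) (S.degree_tupDiv Q) B
        (S.isTen_parTen hi hQ)).mpr (by rw [hy, hEc]; abel) i

end Setup

end Fermat.Agent.MWJ0

end
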