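import Fermat.Agent.MWJ0.Plucker
import Mathlib.LinearAlgebra.Matrix.Block
import Mathlib.Data.Fin.Tuple.Basic

/-!
# Determinant forms along a flag

For `ker Λ ≤ ker Λ₁` the form `det Λ` is the product of `det Λ₁` and a form on `ker Λ₁`.
-/

set_option autoImplicit false

noncomputable section

open Function Module Matrix

namespace Fermat.Agent.MWJ0

variable {K : Type*} [Field K] {V : Type*} [AddCommGroup V] [Module K V] {m n : ℕ}

lemma det_append_zero (M : Fin (m + n) → Fin (m + n) → K)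
    (h : ∀ s r, M (Fin.natAdd m s) (Fin.castAdd n r) = 0) :
    (Matrix.of M).det = (Matrix.of fun t r => M (Fin.castAdd n t) (Fin.castAdd n r)).det
      * (Matrix.of fun s r => M (Fin.natAdd m s) (Fin.natAdd m r)).det := by
  rw [← Matrix.det_submatrix_equiv_self finSumFinEquiv (Matrix.of M), ← det_fromBlocks_zero₂₁
    (Matrix.of fun t r => M (Fin.castAdd n t) (Fin.castAdd n r))
    (Matrix.of fun t r => M (Fin.castAdd n t) (Fin.natAdd m r))
    (Matrix.of fun s r => M (Fin.natAdd m s) (Fin.natAdd m r))]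
  congr 1
  ext (i | i) (j | j) <;> simp [h]

/-- A determinant form factors along a coarser one. -/
theorem exists_factor {Λ : V →ₗ[K] (Fin (m + n) → K)} (hs : Surjective Λ)
    {Λ₁ : V →ₗ[K] (Fin m → K)} (hs₁ : Surjective Λ₁)
    (hle : LinearMap.ker Λ ≤ LinearMap.ker Λ₁) :
    ∃ Λ₂ : LinearMap.ker Λ₁ →ₗ[K] (Fin n → K), Surjective Λ₂ ∧
      (∀ z, Λ₂ z = 0 ↔ Λ (z : V) = 0) ∧
      ∃ κ : K, κ ≠ 0 ∧ ∀ (v : Fin m → V) (z : Fin n → LinearMap.ker Λ₁),
        dform Λ (Fin.append v fun s => (z s : V)) = κ * dform Λ₁ v * dform Λ₂ z := by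
  classical
  obtain ⟨sΛ, hsΛ⟩ := Λ.exists_rightInverse_of_surjective (LinearMap.range_eq_top.mpr hs)
  have hinv : ∀ y, Λ (sΛ y) = y := fun y => LinearMap.congr_fun hsΛ y
  set A := Λ₁ ∘ₗ sΛ with hA
  have hA1 : ∀ v, A (Λ v) = Λ₁ v := by
    intro v
    have : sΛ (Λ v) - v ∈ LinearMap.ker Λ₁ :=
      hle (by rw [LinearMap.mem_ker, map_sub, hinv, sub_self])
    rw [LinearMap.mem_ker, map_sub, sub_eq_zero] at this
    exact this
  have hAs : Surjective A := fun y => by
    obtain ⟨v, hv⟩ := hs₁ y; exact ⟨Λ v, (hA1 v).trans hv⟩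
  obtain ⟨s₁, hs₁'⟩ := A.exists_rightInverse_of_surjective (LinearMap.range_eq_top.mpr hAs)
  have hinv₁ : ∀ y, A (s₁ y) = y := fun y => LinearMap.congr_fun hs₁' y
  have hker : finrank K (LinearMap.ker A) = n := by
    have := LinearMap.finrank_range_add_finrank_ker A
    rw [LinearMap.range_eq_top.mpr hAs, finrank_top, Module.finrank_fintype_fun_eq_card,
      Module.finrank_fintype_fun_eq_card, Fintype.card_fin, Fintype.card_fin] at this
    omega
  let b := (Module.finBasisOfFinrankEq K (LinearMap.ker A) hker).equivFun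
  let Λ₂ : LinearMap.ker Λ₁ →ₗ[K] (Fin n → K) := b.toLinearMap ∘ₗ
    (Λ ∘ₗ (LinearMap.ker Λ₁).subtype).codRestrict (LinearMap.ker A) fun z => by
      rw [LinearMap.mem_ker]
      exact (hA1 _).trans (LinearMap.mem_ker.mp z.2)
  let π : (Fin (m + n) → K) →ₗ[K] LinearMap.ker A :=
    (LinearMap.id - s₁ ∘ₗ A).codRestrict (LinearMap.ker A) fun y => by
      simp [hinv₁]
  let Ψ : (Fin (m + n) → K) →ₗ[K] (Fin (m + n) → K) :=
    { toFun := fun y => Fin.append (A y) (b (π y))
      map_add' := fun x y => by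
        funext i
        induction i using Fin.addCases <;> simp
      map_smul' := fun c x => by
        funext i
        induction i using Fin.addCases <;> simp }
  have hΨ : Injective Ψ := by
    refine (injective_iff_map_eq_zero Ψ).mpr fun y hy => ?_
    have h1 : A y = 0 := funext fun t => by
      have := congrFun hy (Fin.castAdd n t); simpa [Ψ] using this
    have h2 : π y = 0 := b.injective <| funext fun t => by
      have := congrFun hy (Fin.natAdd m t); simpa [Ψ] using this
    have := congrArg Subtype.val h2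
    simpa [π, h1] using this
  have hdet : LinearMap.det Ψ ≠ 0 := fun h0 =>
    (LinearMap.bot_lt_ker_of_det_eq_zero h0).ne' (LinearMap.ker_eq_bot.mpr hΨ)
  have hΛ₂ : ∀ z : LinearMap.ker Λ₁, Λ₂ z = b (π (Λ (z : V))) := fun z => by
    simp only [Λ₂, LinearMap.comp_apply, LinearEquiv.coe_coe]
    congr 1
    refine Subtype.ext ?_
    simp [π, hA1, LinearMap.mem_ker.mp z.2]
  refine ⟨Λ₂, ?_, fun z => ?_, (LinearMap.det Ψ)⁻¹, inv_ne_zero hdet, fun v z => ?_⟩
  · intro y
    obtain ⟨v, hv⟩ := hs (b.symm y : Fin (m + n) → K)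
    have hv1 : v ∈ LinearMap.ker Λ₁ := by
      rw [LinearMap.mem_ker, ← hA1, hv]
      exact LinearMap.mem_ker.mp (b.symm y).2
    refine ⟨⟨v, hv1⟩, ?_⟩
    simp only [Λ₂, LinearMap.comp_apply, LinearEquiv.coe_coe]
    refine (congrArg b ?_).trans (b.apply_symm_apply y)
    exact Subtype.ext hv
  · simp [Λ₂, LinearMap.codRestrict, Subtype.ext_iff]
  · rw [mul_assoc, eq_inv_mul_iff_mul_eq₀ hdet, ← dform_comp, dform]
    rw [det_append_zero _ fun s r => by simp [Ψ, hA1, LinearMap.mem_ker.mp (z s).2]]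
    congr 1
    · simp [dform, Ψ, hA1]
    · simp [dform, Ψ, hΛ₂]

/-- A surjective form is nonzero on some tuple from a spanning family. -/
lemma exists_dform_ne_zero {κ : Type*} (g : κ → V) {Λ : V →ₗ[K] (Fin n → K)} (hs : Surjective Λ)
    (hg : ∀ v, Λ v ∈ Submodule.span K (Set.range fun k => Λ (g k))) :
    ∃ u : Fin n → κ, dform Λ (fun t => g (u t)) ≠ 0 := by
  obtain ⟨u, a, hu, hspan, hli⟩ := exists_linearIndependent' K (fun k => Λ (g k))
  have htop : Submodule.span K (Set.range fun k => Λ (g k)) = ⊤ :=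
    eq_top_iff.mpr fun y _ => by obtain ⟨v, rfl⟩ := hs y; exact hg v
  have : Finite u := hli.finite
  have : Fintype u := Fintype.ofFinite _
  rw [htop] at hspan
  have hcard : Fintype.card u = n := by
    have := finrank_span_eq_card hli
    rw [hspan, finrank_top, Module.finrank_fintype_fun_eq_card, Fintype.card_fin] at this
    exact this.symm
  let e := (Fintype.equivFinOfCardEq hcard).symm
  refine ⟨fun t => a (e t), (dform_ne_zero_iff Λ _).mpr ?_⟩
  exact hli.comp e e.injective

/-- A spanning family for the source suffices. -/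
lemma exists_dform_ne_zero_of_span {κ : Type*} (g : κ → V) {Λ : V →ₗ[K] (Fin n → K)}
    (hs : Surjective Λ) (hg : Submodule.span K (Set.range g) = ⊤) :
    ∃ u : Fin n → κ, dform Λ (fun t => g (u t)) ≠ 0 := by
  refine exists_dform_ne_zero g hs fun v => ?_
  have : Λ v ∈ (Submodule.span K (Set.range g)).map Λ := ⟨v, hg ▸ Submodule.mem_top, rfl⟩
  rwa [Submodule.map_span, ← Set.range_comp] at this

/-- Two forms with the same small kernel are proportional on a composite. -/
lemma exists_dform_comp {U : Type*} [AddCommGroup U] [Module K U] {Λ₀ : U →ₗ[K] (Fin n → K)}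
    (hs₀ : Surjective Λ₀) {Λ : V →ₗ[K] (Fin n → K)} (M : U →ₗ[K] V)
    (h : ∀ u, Λ₀ u = 0 → Λ (M u) = 0) :
    ∃ γ : K, ∀ us : Fin n → U, dform Λ (fun t => M (us t)) = γ * dform Λ₀ us := by
  obtain ⟨γ, -, hγ⟩ := exists_dform_eq_mul (f := Λ ∘ₗ M) hs₀ fun u hu => h u hu
  exact ⟨γ, fun us => hγ us⟩

end Fermat.Agent.MWJ0

end
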