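import Fermat.Agent.MWJ0.Coord
import Fermat.Agent.MWJ0.Aut

/-!
# Field automorphisms and coordinates
-/

set_option autoImplicit false

noncomputable section

open AlgebraicCurve ModularCurve Module Function

namespace Fermat.Agent.MWJ0

namespace Setup

variable (S : Setup) {L : Type} [Field L] [Algebra ℚ L] [IsAlgClosed L] [CharZero L]

local notation "FF" => laurentBaseChange L S.F₀

lemma gal_algebraMap_smul (σ : L ≃ₐ[ℚ] L) (c : L) (f : FF) :
    S.gal L σ • (c • f) = σ c • (S.gal L σ • f) := by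
  refine Subtype.ext ?_
  rw [coe_arithmeticGalois_smul]
  show coeffMap (σ : L →+* L) (S.val L (c • f)) = S.val L (σ c • (S.gal L σ • f))
  rw [show S.val L (c • f) = c • S.val L f from map_smul _ _ _,
    show S.val L (σ c • (S.gal L σ • f)) = σ c • S.val L (S.gal L σ • f) from map_smul _ _ _]
  show coeffMap (σ : L →+* L) (c • (f : LaurentSeries L)) =
    σ c • coeffMap (σ : L →+* L) (f : LaurentSeries L)
  ext k
  simp [coeffMap_coeff]

lemma gal_el (σ : L ≃ₐ[ℚ] L) (f : S.F₀) : S.gal L σ • S.el L f = S.el L f := by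
  refine Subtype.ext ?_
  rw [coe_arithmeticGalois_smul]
  show coeffMap (σ : L →+* L) (coeffEmb L (f : LaurentSeries ℚ)) = coeffEmb L (f : LaurentSeries ℚ)
  ext k
  simp [coeffMap_coeff, coeffEmb_coeff]

lemma gal_realF (σ : L ≃ₐ[ℚ] L) (b : ℕ) (x : S.Idx b → L) :
    S.gal L σ • S.realF L b x = S.realF L b (fun i => σ (x i)) := by
  rw [realF_apply, realF_apply, Finset.smul_sum]
  exact Finset.sum_congr rfl fun i _ => by rw [gal_algebraMap_smul, gal_el]

lemma smul_binf (σ : L ≃ₐ[ℚ] L) (b : ℤ) : S.gal L σ • S.binf L b = S.binf L b := by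
  rw [binf, SemilinearAut.smul_single, gal_smul_inf]

lemma gal_mem_Lsp (σ : L ≃ₐ[ℚ] L) {D : Divisor L FF} {f : FF} (hf : f ∈ riemannRochSpace D) :
    S.gal L σ • f ∈ riemannRochSpace (S.gal L σ • D) := by
  rw [mem_Lsp] at hf ⊢
  intro v
  rcases hf ((S.gal L σ)⁻¹ • v) with h | h
  · exact Or.inl (by rw [h, smul_zero])
  · refine Or.inr ?_
    rw [SemilinearAut.divisor_smul_apply]
    have h2 := SemilinearAut.ord_smul (S.gal L σ) ((S.gal L σ)⁻¹ • v) f
    rw [smul_inv_smul] at h2
    omega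

lemma smul_nonneg_div {D : Divisor L FF} (σ : L ≃ₐ[ℚ] L) (hD : 0 ≤ D) : 0 ≤ S.gal L σ • D :=
  fun v => by rw [SemilinearAut.divisor_smul_apply]; exact hD _

lemma apply_mem_W (σ : L ≃ₐ[ℚ] L) {b : ℕ} {D : Divisor L FF} {x : S.Idx b → L}
    (hx : x ∈ S.W L b D) : (fun i => σ (x i)) ∈ S.W L b (S.gal L σ • D) := by
  rw [mem_W, ← gal_realF]
  have h := S.gal_mem_Lsp σ (S.mem_W.mp hx)
  rwa [smul_sub, smul_binf] at h

/-- Tensors of conjugate divisors are conjugate. -/
theorem IsTen.gal {n b : ℕ} {e : (Fin n → S.Idx b) → L} {D : Divisor L FF} (h : S.IsTen b e D)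
    (σ : L ≃ₐ[ℚ] L) (hD : 0 ≤ D) (hn : Divisor.degree D = n) (hb : 2 * S.g + n ≤ b) :
    S.IsTen b (fun I => σ (e I)) (S.gal L σ • D) where
  ne_zero h0 := h.ne_zero (funext fun I => σ.injective (by simpa using congrFun h0 I))
  alt I t t' ht := by rw [← map_add, h.alt I t t' ht, map_zero]
  finrank_add := S.finrank_W_add (S.smul_nonneg_div σ hD)
    (by rw [SemilinearAut.degree_smul]; exact hn) hb
  le_ker w hw := by
    intro I t
    have hg : S.gal L σ.symm • (S.gal L σ • D) = D := by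
      rw [show S.gal L σ.symm = (S.gal L σ)⁻¹ from map_inv (arithmeticGalois S.F₀) σ, inv_smul_smul]
    have h1 := S.apply_mem_W σ.symm hw
    rw [hg] at h1
    have h2 := congrArg σ (h.le_ker h1 I t)
    rw [map_zero] at h2
    rw [← h2, show σ (slot e I t fun i => σ.symm (w i))
      = slot (fun I => σ (e I)) I t (fun i => σ (σ.symm (w i))) from map_slot (σ : L →+* L) e I t _]
    simp only [AlgEquiv.apply_symm_apply]

end Setup

end Fermat.Agent.MWJ0

end
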