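import Fermat.Agent.MWJ0.Torsion
import Mathlib.RingTheory.Ideal.MinimalPrime.Noetherian
import Mathlib.RingTheory.Polynomial.Basic
import Mathlib.FieldTheory.IsAlgClosed.AlgebraicClosure
import Mathlib.Algebra.Algebra.Hom.Rat

/-!
# Finiteness of the two-torsion

At the generic point of every component of the zero set of the equations of a two-torsion
representative the class comes from `ℚ̄`, so it is constant on the component.
-/

set_option autoImplicit false

noncomputable section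

open AlgebraicCurve ModularCurve Module Function

namespace Fermat.Agent.MWJ0

namespace Setup

variable (S : Setup)

local notation "Qb" => AlgebraicClosure ℚ

section Transfer

variable {L L' : Type} [Field L] [Algebra ℚ L] [IsAlgClosed L] [CharZero L] [Field L']
  [Algebra ℚ L'] [IsAlgClosed L'] [CharZero L']

lemma IsPair.of_map {e : S.Ten L S.la} {e' : S.Ten L (S.la + S.lc)} (φ : L →ₐ[ℚ] L')
    {D : Divisor L' (laurentBaseChange L' S.F₀)} (h : S.IsTen S.la (fun I => φ (e I)) D)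
    (h' : S.IsTen (S.la + S.lc) (fun I => φ (e' I)) D) : S.IsPair S.la S.lc e e' where
  eqs i := φ.toRingHom.injective (by
    show φ (S.pairEq S.la S.lc e e' i) = φ 0
    rw [S.map_pairEq, map_zero, (h.isPair S h').eqs])
  ne h0 := h.ne_zero (funext fun I => by simp [h0])
  ne' h0 := h'.ne_zero (funext fun I => by simp [h0])

lemma rel2_map {eA : S.Ten L S.la} {eB : S.Ten L (S.la + S.lc)} (φ : L →ₐ[ℚ] L') :
    (∀ i, S.relEq S.l2 (2 * S.n) (S.prod2 eA eB) i = 0) ↔
      ∀ i, S.relEq S.l2 (2 * S.n) (S.prod2 (fun I => φ (eA I)) (fun I => φ (eB I))) i = 0 := by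
  refine forall_congr' fun i => ?_
  have : φ (S.relEq S.l2 (2 * S.n) (S.prod2 eA eB) i)
      = S.relEq S.l2 (2 * S.n) (S.prod2 (fun I => φ (eA I)) (fun I => φ (eB I))) i := by
    rw [S.map_relEq]
    simp only [map_prod2]
  rw [← this, map_eq_zero_iff φ φ.toRingHom.injective]

/-- A two-torsion class comes from a two-torsion class over a smaller algebraically closed
field. -/
lemma cls_add_self_of_map {e : S.Ten L S.la} {e' : S.Ten L (S.la + S.lc)} (φ : L →ₐ[ℚ] L')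
    {D : Divisor L' (laurentBaseChange L' S.F₀)} {D₀ : Divisor L (laurentBaseChange L S.F₀)}
    (hD : 0 ≤ D) (hn : Divisor.degree D = S.n) (hD₀ : 0 ≤ D₀) (hn₀ : Divisor.degree D₀ = S.n)
    (h : S.IsTen S.la (fun I => φ (e I)) D) (h' : S.IsTen (S.la + S.lc) (fun I => φ (e' I)) D)
    (t : S.IsTen S.la e D₀) (t' : S.IsTen (S.la + S.lc) e' D₀) :
    S.cls D₀ + S.cls D₀ = 0 ↔ S.cls D + S.cls D = 0 := by
  rw [← S.rel2_iff hD₀ hn₀ hD₀ hn₀ t t', S.rel2_map φ, S.rel2_iff hD hn hD hn h h']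

end Transfer

/-- The coordinates of a pair of tensors. -/
abbrev PVar : Type := (Fin S.n → S.Idx S.la) ⊕ (Fin S.n → S.Idx (S.la + S.lc))

/-- The equations of a two-torsion representative in a chart. -/
def torEq (I₀ : Fin S.n → S.Idx S.la) (I₁ : Fin S.n → S.Idx (S.la + S.lc)) :
    S.PairIdx S.n S.la S.lc ⊕
      S.RelIdx (S.CIdx S.la × S.CIdx (S.la + S.lc)) S.l2 (2 * S.n) ⊕ Bool →
        MvPolynomial S.PVar Qb
  | .inl i => S.pairEq S.la S.lc (fun I => MvPolynomial.X (.inl I))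
      (fun I => MvPolynomial.X (.inr I)) i
  | .inr (.inl i) => S.relEq S.l2 (2 * S.n)
      (S.prod2 (fun I => MvPolynomial.X (.inl I)) (fun I => MvPolynomial.X (.inr I))) i
  | .inr (.inr b) => if b then MvPolynomial.X (.inl I₀) - 1 else MvPolynomial.X (.inr I₁) - 1

lemma map_torEq {L : Type} [Field L] [Algebra ℚ L] [IsAlgClosed L] [CharZero L]
    (I₀ : Fin S.n → S.Idx S.la) (I₁ : Fin S.n → S.Idx (S.la + S.lc))
    (ψ : MvPolynomial S.PVar Qb →ₐ[ℚ] L) :
    (∀ j, ψ (S.torEq I₀ I₁ j) = 0) ↔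
      (∀ i, S.pairEq S.la S.lc (fun I => ψ (MvPolynomial.X (.inl I)))
          (fun I => ψ (MvPolynomial.X (.inr I))) i = 0) ∧
        (∀ i, S.relEq S.l2 (2 * S.n) (S.prod2 (fun I => ψ (MvPolynomial.X (.inl I)))
          (fun I => ψ (MvPolynomial.X (.inr I)))) i = 0) ∧
        ψ (MvPolynomial.X (.inl I₀)) = 1 ∧ ψ (MvPolynomial.X (.inr I₁)) = 1 := by
  simp only [torEq, Sum.forall, Bool.forall_bool, Bool.false_eq_true, if_true, if_false, map_pairEq,
    map_relEq, map_prod2, map_sub, map_one, sub_eq_zero]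
  exact ⟨fun ⟨a, b, c, d⟩ => ⟨a, b, d, c⟩, fun ⟨a, b, c, d⟩ => ⟨a, b, d, c⟩⟩

/-- Over `ℚ̄` the two-torsion in one chart is finite. -/
lemma finite_torsion_chart (I₀ : Fin S.n → S.Idx S.la) (I₁ : Fin S.n → S.Idx (S.la + S.lc)) :
    {x : Pic0 Qb (laurentBaseChange Qb S.F₀) | ∃ (e : S.Ten Qb S.la)
      (e' : S.Ten Qb (S.la + S.lc)) (D : Divisor Qb (laurentBaseChange Qb S.F₀)),
      0 ≤ D ∧ Divisor.degree D = S.n ∧ S.cls D = x ∧ x + x = 0 ∧ S.IsTen S.la e D ∧
        S.IsTen (S.la + S.lc) e' D ∧ e I₀ = 1 ∧ e' I₁ = 1}.Finite := by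
  classical
  set R := MvPolynomial S.PVar Qb
  let J : Ideal R := Ideal.span (Set.range (S.torEq I₀ I₁))
  have hmin : J.minimalPrimes.Finite := Ideal.finite_minimalPrimes_of_isNoetherianRing R J
  have key : ∀ P : Ideal R, P ∈ J.minimalPrimes → ∃ t : Pic0 Qb (laurentBaseChange Qb S.F₀),
      ∀ (e : S.Ten Qb S.la) (e' : S.Ten Qb (S.la + S.lc))
        (D : Divisor Qb (laurentBaseChange Qb S.F₀)), 0 ≤ D → Divisor.degree D = S.n →
        S.IsTen S.la e D → S.IsTen (S.la + S.lc) e' D →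
        P ≤ RingHom.ker (MvPolynomial.aeval (Sum.elim e e') : R →ₐ[Qb] Qb) →
        S.cls D + t = 0 ∧ t + t = 0 := by
    intro P hP
    have : P.IsPrime := hP.1.1
    let L := AlgebraicClosure (FractionRing (R ⧸ P))
    let ψ0 : R →+* L := (algebraMap (FractionRing (R ⧸ P)) L).comp
      ((algebraMap (R ⧸ P) (FractionRing (R ⧸ P))).comp (Ideal.Quotient.mk P))
    have hker : ∀ f, ψ0 f = 0 ↔ f ∈ P := by
      intro f
      simp only [ψ0, RingHom.comp_apply]
      rw [map_eq_zero_iff _ (RingHom.injective _),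
        map_eq_zero_iff _ (IsFractionRing.injective (R ⧸ P) _), Ideal.Quotient.eq_zero_iff_mem]
    have : CharZero L := charZero_of_injective_ringHom (ψ0.comp MvPolynomial.C).injective
    let ψ : R →ₐ[ℚ] L := ψ0.toRatAlgHom
    let φ : Qb →ₐ[ℚ] L := (ψ0.comp MvPolynomial.C).toRatAlgHom
    obtain ⟨hp, hr, h1, h2⟩ := (S.map_torEq I₀ I₁ ψ).mp fun j => (hker _).mpr
      (hP.1.2 (Ideal.subset_span ⟨j, rfl⟩))
    have hpair : S.IsPair S.la S.lc (fun I => ψ (MvPolynomial.X (.inl I)))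
        (fun I => ψ (MvPolynomial.X (.inr I))) :=
      ⟨hp, fun h => one_ne_zero (h1.symm.trans (congrFun h I₀)),
        fun h => one_ne_zero (h2.symm.trans (congrFun h I₁))⟩
    obtain ⟨DP, hDP, hDPn, tP, tP'⟩ := hpair.exists_divisor S
    have hx := (S.rel2_iff hDP hDPn hDP hDPn tP tP').mp hr
    obtain ⟨D', hD', hD'n, hcls, hfin⟩ := S.exists_finite_orbit hx
    obtain ⟨f, f', tf, tf'⟩ := S.exists_descend hD' hD'n hfin φ
    obtain ⟨Dt, hDt, hDtn, tt, tt'⟩ := (IsPair.of_map S φ tf tf').exists_divisor S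
    have h2t : S.cls Dt + S.cls Dt = 0 := by
      rw [S.cls_add_self_of_map φ hD' hD'n hDt hDtn tf tf' tt tt', hcls]
      exact hx
    refine ⟨S.cls Dt, fun e e' D hD hDn te te' hle => ⟨?_, h2t⟩⟩
    rw [← S.rel2_iff hD hDn hDt hDtn te tt']
    intro i
    have hmem : S.relEq S.l2 (2 * S.n) (S.prod2 (fun I => (MvPolynomial.X (.inl I) : R))
        (fun I => MvPolynomial.C (f' I))) i ∈ P := by
      rw [← hker]
      show ψ _ = 0
      rw [S.map_relEq]
      simp only [map_prod2]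
      exact (S.rel2_iff hDP hDPn hD' hD'n tP tf').mpr (by rw [hcls]; exact hx) i
    have h := RingHom.mem_ker.mp (hle hmem)
    change ((MvPolynomial.aeval (Sum.elim e e') : R →ₐ[Qb] Qb).restrictScalars ℚ) _ = 0 at h
    rw [S.map_relEq] at h
    simpa [map_prod2] using h
  choose t ht using key
  have := hmin.to_subtype
  refine (Set.finite_range fun P : J.minimalPrimes => t P.1 P.2).subset ?_
  rintro x ⟨e, e', D, hD, hDn, rfl, hxx, te, te', he, he'⟩
  have hJ : J ≤ RingHom.ker (MvPolynomial.aeval (Sum.elim e e') : R →ₐ[Qb] Qb) := by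
    rw [Ideal.span_le]
    rintro _ ⟨j, rfl⟩
    exact (S.map_torEq I₀ I₁ ((MvPolynomial.aeval (Sum.elim e e')).restrictScalars ℚ)).mpr
      (by
        simp only [AlgHom.restrictScalars_apply, MvPolynomial.aeval_X, Sum.elim_inl, Sum.elim_inr]
        exact ⟨(te.isPair S te').eqs, (S.rel2_iff hD hDn hD hDn te te').mpr hxx, he, he'⟩) j
  have : (RingHom.ker (MvPolynomial.aeval (Sum.elim e e') : R →ₐ[Qb] Qb)).IsPrime :=
    RingHom.ker_isPrime _
  obtain ⟨P, hP, hPle⟩ := Ideal.exists_minimalPrimes_le hJ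
  obtain ⟨h1, h2⟩ := ht P hP e e' D hD hDn te te' hPle
  refine ⟨⟨P, hP⟩, ?_⟩
  show t P hP = S.cls D
  rw [eq_neg_of_add_eq_zero_left h1]
  exact eq_neg_of_add_eq_zero_left h2

/-- The two-torsion over `ℚ̄` is finite. -/
theorem finite_torsion_Qb : {x : Pic0 Qb (laurentBaseChange Qb S.F₀) | x + x = 0}.Finite := by
  refine (Set.finite_iUnion fun I₀ => Set.finite_iUnion fun I₁ =>
    S.finite_torsion_chart I₀ I₁).subset fun x hx => ?_
  obtain ⟨D, hD, hDn, hcls⟩ := S.exists_rep' x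
  obtain ⟨e, e', te, te'⟩ := S.exists_tens hD hDn
  obtain ⟨e₁, I₀, t1, h1⟩ := S.exists_normalised te
  obtain ⟨e₁', I₁, t1', h1'⟩ := S.exists_normalised te'
  exact Set.mem_iUnion.mpr ⟨I₀, Set.mem_iUnion.mpr
    ⟨I₁, e₁, e₁', D, hD, hDn, hcls, hx, t1, t1', h1, h1'⟩⟩

/-- The two-torsion over any algebraically closed field is finite. -/
theorem finite_torsion {L : Type} [Field L] [Algebra ℚ L] [IsAlgClosed L] [CharZero L] :
    {x : Pic0 L (laurentBaseChange L S.F₀) | x + x = 0}.Finite := by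
  have : Algebra.IsAlgebraic ℚ Qb := AlgebraicClosure.isAlgebraic ℚ
  let φ : Qb →ₐ[ℚ] L := IsAlgClosed.lift
  have key : ∀ x : {x : Pic0 L (laurentBaseChange L S.F₀) | x + x = 0},
      ∃ (e : S.Ten Qb S.la) (e' : S.Ten Qb (S.la + S.lc))
        (D : Divisor L (laurentBaseChange L S.F₀)) (D₀ : Divisor Qb (laurentBaseChange Qb S.F₀)),
        0 ≤ D ∧ Divisor.degree D = S.n ∧ S.cls D = x.1 ∧
        S.IsTen S.la (fun I => φ (e I)) D ∧ S.IsTen (S.la + S.lc) (fun I => φ (e' I)) D ∧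
        0 ≤ D₀ ∧ Divisor.degree D₀ = S.n ∧ S.IsTen S.la e D₀ ∧ S.IsTen (S.la + S.lc) e' D₀ ∧
        S.cls D₀ + S.cls D₀ = 0 := by
    rintro ⟨x, hx⟩
    obtain ⟨D, hD, hDn, hcls, hfin⟩ := S.exists_finite_orbit hx
    obtain ⟨e, e', te, te'⟩ := S.exists_descend hD hDn hfin φ
    obtain ⟨D₀, hD₀, hD₀n, t, t'⟩ := (IsPair.of_map S φ te te').exists_divisor S
    refine ⟨e, e', D, D₀, hD, hDn, hcls, te, te', hD₀, hD₀n, t, t', ?_⟩
    rw [S.cls_add_self_of_map φ hD hDn hD₀ hD₀n te te' t t', hcls]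
    exact hx
  choose e e' D D₀ hD hDn hcls te te' hD₀ hD₀n t t' htwo using key
  have := (S.finite_torsion_Qb).to_subtype
  rw [← Set.finite_coe_iff]
  refine Finite.of_injective
    (fun x => (⟨S.cls (D₀ x), htwo x⟩ : {x : Pic0 Qb (laurentBaseChange Qb S.F₀) | x + x = 0}))
    fun x y h => ?_
  have hxy : S.cls (D₀ x) + S.cls (D₀ y) = 0 := by
    rw [show S.cls (D₀ x) = S.cls (D₀ y) from congrArg Subtype.val h]; exact htwo y
  rw [← S.rel2_iff (hD₀ x) (hD₀n x) (hD₀ y) (hD₀n y) (t x) (t' y), S.rel2_map φ,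
    S.rel2_iff (hD x) (hDn x) (hD y) (hDn y) (te x) (te' y), hcls, hcls] at hxy
  exact Subtype.ext ((eq_neg_of_add_eq_zero_left hxy).trans
    (eq_neg_of_add_eq_zero_left y.2).symm)

end Setup

end Fermat.Agent.MWJ0

end
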