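import Mathlib.RingTheory.AlgebraicIndependent.TranscendenceBasis
import Mathlib.RingTheory.AlgebraicIndependent.Adjoin
import Mathlib.Combinatorics.Matroid.Rank.ENat
import Mathlib.RingTheory.Localization.Integral

/-!
# As many algebraically dependent elements cannot dominate independent ones
-/

set_option autoImplicit false

open Function
open scoped IntermediateField.algebraAdjoinAdjoin

namespace Fermat.Agent.MWJ0

variable {K L : Type} [Field K] [Field L] [Algebra K L] {g : ℕ}

/-- If independent `t` are algebraic over `K(y)`, then `y` is independent. -/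
theorem algebraicIndependent_of_isAlgebraic {t y : Fin g → L} (ht : AlgebraicIndependent K t)
    (h : ∀ i, IsAlgebraic (IntermediateField.adjoin K (Set.range y)) (t i)) :
    AlgebraicIndependent K y := by
  set M := AlgebraicIndependent.matroid K L
  have hti : M.Indep (Set.range t) := by
    rw [AlgebraicIndependent.matroid_indep_iff]
    exact (algebraicIndependent_subtype_range ht.injective).mpr ht
  have hsub : Set.range t ⊆ M.closure (Set.range y) := by
    rintro _ ⟨i, rfl⟩
    rw [AlgebraicIndependent.matroid_closure_eq, SetLike.mem_coe, Subalgebra.mem_algebraicClosure]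
    exact (IsFractionRing.isAlgebraic_iff (Algebra.adjoin K (Set.range y))
      (IntermediateField.adjoin K (Set.range y)) L).mpr (h i)
  have h1 : (g : ℕ∞) ≤ M.eRk (Set.range y) := by
    rw [← Matroid.eRk_closure_eq]
    refine le_trans ?_ (M.eRk_mono hsub)
    rw [hti.eRk_eq_encard, ← Set.image_univ, ht.injective.encard_image, Set.encard_univ]
    simp
  have h2 : (Set.range y).encard ≤ (g : ℕ∞) := by
    rw [← Set.image_univ]
    refine (Set.encard_image_le y Set.univ).trans ?_
    rw [Set.encard_univ]
    simp
  have h3 : M.eRk (Set.range y) = (Set.range y).encard :=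
    le_antisymm (M.eRk_le_encard _) (h2.trans h1)
  have hyi : M.Indep (Set.range y) := by
    rw [Matroid.indep_iff_eRk_eq_encard_of_finite (Set.finite_range y)]
    exact h3
  have hinj : Injective y := by
    have hcard : (Set.range y).encard = (g : ℕ∞) := le_antisymm h2 (h1.trans (M.eRk_le_encard _))
    rw [← Set.injOn_univ]
    refine Set.InjOn.mono (Set.subset_univ _) ?_
    refine (Set.finite_univ.injOn_of_encard_image_eq ?_)
    rw [Set.image_univ, hcard, Set.encard_univ]
    simp
  rw [AlgebraicIndependent.matroid_indep_iff] at hyi
  exact (algebraicIndependent_subtype_range hinj).mp hyi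

end Fermat.Agent.MWJ0
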