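import Fermat.Agent.MWJ0.Points
import Fermat.Agent.MWJ0.TorsionFinite
import Fermat.Agent.MWJ0.Trdeg

/-!
# Generic tuples of points

`g` points with algebraically independent values of `z` form a non-special divisor, and twice
their class is represented by `g` points with again algebraically independent values.
-/

set_option autoImplicit false

noncomputable section

open AlgebraicCurve ModularCurve Module Function
open scoped IntermediateField.algebraAdjoinAdjoin

namespace Fermat.Agent.MWJ0

namespace Setup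

variable (S : Setup) {L : Type} [Field L] [Algebra ℚ L] [IsAlgClosed L] [CharZero L]

local notation "FF" => laurentBaseChange L S.F₀

/-- The action of an automorphism over a subfield. -/
abbrev galK (k : IntermediateField ℚ L) (σ : L ≃ₐ[k] L) : SemilinearAut L FF :=
  S.gal L (σ.restrictScalars ℚ)

open Classical in
/-- The value of `z`, extended by zero to the place at infinity. -/
def zv (v : Place L FF) : L := if h : v = S.inf L then 0 else S.zval v h

lemma zv_eq {v : Place L FF} (hv : v ≠ S.inf L) : S.zv v = S.zval v hv := dif_neg hv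

lemma zv_gal (σ : L ≃ₐ[ℚ] L) (v : Place L FF) : S.zv (S.gal L σ • v) = σ (S.zv v) := by
  by_cases hv : v = S.inf L
  · rw [hv, gal_smul_inf, zv, dif_pos rfl, map_zero]
  · rw [S.zv_eq hv, S.zv_eq (S.smul_ne_inf σ hv), S.zval_gal σ hv]

lemma finite_conj {k : IntermediateField ℚ L} {y : L} (hy : IsAlgebraic k y) :
    (Set.range fun σ : L ≃ₐ[k] L => σ y).Finite := by
  refine ((minpoly k y).rootSet_finite L).subset ?_
  rintro _ ⟨σ, rfl⟩
  rw [Polynomial.mem_rootSet]
  refine ⟨minpoly.ne_zero hy.isIntegral, ?_⟩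
  show Polynomial.aeval ((σ : L →ₐ[k] L) y) _ = 0
  rw [Polynomial.aeval_algHom_apply, minpoly.aeval, map_zero]

lemma finite_orbit_of_zv {k : IntermediateField ℚ L} {v : Place L FF}
    (h : IsAlgebraic k (S.zv v)) :
    (Set.range fun σ : L ≃ₐ[k] L => S.galK k σ • v).Finite := by
  refine (((finite_conj h).biUnion fun c _ => S.finite_zval c).union
    (Set.finite_singleton (S.inf L))).subset ?_
  rintro _ ⟨σ, rfl⟩
  dsimp only
  by_cases hv : S.galK k σ • v = S.inf L
  · exact Or.inr hv
  · refine Or.inl (Set.mem_biUnion ⟨σ, rfl⟩ ⟨hv, ?_⟩)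
    rw [← S.zv_eq hv, galK, S.zv_gal]
    rfl

lemma isAlgebraic_zv_of_finite_orbit {k : IntermediateField ℚ L} {v : Place L FF}
    (h : (Set.range fun σ : L ≃ₐ[k] L => S.galK k σ • v).Finite) : IsAlgebraic k (S.zv v) := by
  refine isAlgebraic_of_finite_orbit ((h.image S.zv).subset ?_)
  rintro _ ⟨σ, rfl⟩
  exact ⟨_, ⟨σ, rfl⟩, S.zv_gal (σ.restrictScalars ℚ) v⟩

lemma finite_orbit_tupDiv {k : IntermediateField ℚ L} {m : ℕ} {Q : Fin m → Place L FF}
    (h : ∀ t, IsAlgebraic k (S.zv (Q t))) :
    (Set.range fun σ : L ≃ₐ[k] L => S.galK k σ • S.tupDiv Q).Finite := by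
  refine ((Set.Finite.pi fun t => S.finite_orbit_of_zv (h t)).image S.tupDiv).subset ?_
  rintro _ ⟨σ, rfl⟩
  refine ⟨fun t => S.galK k σ • Q t, fun t _ => ⟨σ, rfl⟩, ?_⟩
  simp [tupDiv, Finset.smul_sum]

lemma isAlgebraic_zv_of_finite_orbit_div {k : IntermediateField ℚ L} {D : Divisor L FF}
    (h : (Set.range fun σ : L ≃ₐ[k] L => S.galK k σ • D).Finite) {v : Place L FF}
    (hv : D v ≠ 0) : IsAlgebraic k (S.zv v) := by
  classical
  refine S.isAlgebraic_zv_of_finite_orbit
    ((h.biUnion fun E _ => E.support.finite_toSet).subset ?_)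
  rintro _ ⟨σ, rfl⟩
  refine Set.mem_biUnion ⟨σ, rfl⟩ ?_
  rw [Finset.mem_coe, Finsupp.mem_support_iff, SemilinearAut.divisor_smul_apply_smul]
  exact hv

/-- `L(D)` consists of constants. -/
def OnlyConst (D : Divisor L FF) : Prop :=
  ∀ f ∈ riemannRochSpace D, ∃ c : L, f = algebraMap L FF c

lemma OnlyConst.gal {D : Divisor L FF} (h : S.OnlyConst D) (σ : L ≃ₐ[ℚ] L) :
    S.OnlyConst (S.gal L σ • D) := by
  intro f hf
  have h1 := S.gal_mem_Lsp σ.symm hf
  rw [show S.gal L σ.symm = (S.gal L σ)⁻¹ from map_inv (arithmeticGalois S.F₀) σ,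
    inv_smul_smul] at h1
  obtain ⟨c, hc⟩ := h _ h1
  refine ⟨σ c, ?_⟩
  have h2 := congrArg (fun y : FF => S.gal L σ • y) hc
  simp only [smul_inv_smul] at h2
  rw [h2, Algebra.algebraMap_eq_smul_one, gal_algebraMap_smul, smul_one,
    Algebra.algebraMap_eq_smul_one]

lemma OnlyConst.finrank_eq_one {D : Divisor L FF} (h : S.OnlyConst D) (hD : 0 ≤ D) :
    finrank L (riemannRochSpace D) = 1 := by
  have hone : (1 : FF) ∈ riemannRochSpace D := by
    rw [mem_Lsp]
    exact fun v => Or.inr (by rw [Place.ord_one]; have := hD v; simp at this; omega)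
  refine _root_.finrank_eq_one ⟨1, hone⟩ (by simp [Subtype.ext_iff]) fun w => ?_
  obtain ⟨c, hc⟩ := h w.1 w.2
  exact ⟨c, Subtype.ext (by rw [hc, Algebra.algebraMap_eq_smul_one]; rfl)⟩

lemma exists_pole_of_not_const {E : Divisor L FF} (hE : S.OnlyConst E) (v : Place L FF)
    (hn : ¬ S.OnlyConst (E + Finsupp.single v 1)) :
    ∃ f ∈ riemannRochSpace (E + Finsupp.single v 1), f ≠ 0 ∧ v.ord f = -(E v + 1) := by
  rw [OnlyConst] at hn
  push Not at hn
  obtain ⟨f, hf, hfc⟩ := hn
  have hf0 : f ≠ 0 := fun e => hfc 0 (by rw [e, map_zero])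
  refine ⟨f, hf, hf0, ?_⟩
  have h1 := (mem_Lsp_of_ne_zero hf0).mp hf
  by_contra hne
  obtain ⟨c, hc⟩ := hE f ((mem_Lsp_of_ne_zero hf0).mpr fun u => by
    have := h1 u
    rcases eq_or_ne u v with rfl | hu
    · simp only [Finsupp.add_apply, Finsupp.single_eq_same] at this
      omega
    · simpa [Finsupp.single_eq_of_ne hu] using this)
  exact hfc c hc

/-- Functions with simple poles at distinct points are independent. -/
lemma card_lt_finrank_of_poles {E : Divisor L FF} (hE : 0 ≤ E) (s : Finset (Place L FF))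
    (hs : ∀ v ∈ s, E v = 0) (f : ∀ v ∈ s, FF)
    (hf : ∀ v hv, f v hv ∈ riemannRochSpace (E + Finsupp.single v 1))
    (hf0 : ∀ v hv, f v hv ≠ 0) (hford : ∀ (v : Place L FF) (hv : v ∈ s), v.ord (f v hv) = -1) :
    s.card + 1 ≤ finrank L (riemannRochSpace (E + ∑ v ∈ s, Finsupp.single v 1)) := by
  classical
  set A : Divisor L FF := E + ∑ v ∈ s, Finsupp.single v 1 with hA
  have hsum0 : 0 ≤ A := add_nonneg hE
    (Finset.sum_nonneg fun u _ => Finsupp.single_nonneg.mpr zero_le_one)
  have hA0 : ∀ v ∈ s, E + Finsupp.single v 1 ≤ A := fun v hv => by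
    refine add_le_add le_rfl ?_
    exact Finset.single_le_sum (f := fun v => Finsupp.single v (1 : ℤ))
      (fun u _ => Finsupp.single_nonneg.mpr zero_le_one) hv
  have hone : (1 : FF) ∈ riemannRochSpace A := by
    rw [mem_Lsp]
    refine fun v => Or.inr ?_
    rw [Place.ord_one]
    have := hsum0 v
    rw [Finsupp.coe_zero, Pi.zero_apply] at this
    omega
  let w : Option ↥s → FF := fun o => o.elim 1 fun v => f v.1 v.2
  have hli : LinearIndependent L w := by
    rw [Fintype.linearIndependent_iff]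
    intro c hc
    rw [Fintype.sum_option] at hc
    have hsum : c none • (1 : FF) + ∑ v : ↥s, c (some v) • f v.1 v.2 = 0 := hc
    have hzero : ∀ v : ↥s, c (some v) = 0 := by
      intro v
      by_contra hne
      have hreg : ∀ u : ↥s, u ≠ v → c (some u) • f u.1 u.2 ∈ (v.1).toValuationSubring := by
        intro u hu
        rw [Algebra.smul_def]
        refine mul_mem ((v.1).algebraMap_mem' _) ?_
        rw [mem_valuationSubring_iff_ord]
        refine Or.inr ?_
        have h1 := (mem_Lsp_of_ne_zero (hf0 u.1 u.2)).mp (hf u.1 u.2) v.1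
        rw [Finsupp.add_apply, hs v.1 v.2, Finsupp.single_eq_of_ne
          (fun e => hu (Subtype.ext e).symm)] at h1
        omega
      have h2 : c (some v) • f v.1 v.2 ∈ (v.1).toValuationSubring := by
        rw [← Finset.add_sum_erase _ _ (Finset.mem_univ v), ← add_assoc,
          add_comm (c none • (1 : FF)), add_assoc, add_eq_zero_iff_eq_neg] at hsum
        rw [hsum]
        refine neg_mem (add_mem ?_ (sum_mem fun u hu => hreg u (Finset.ne_of_mem_erase hu)))
        rw [Algebra.smul_def, mul_one]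
        exact (v.1).algebraMap_mem' _
      rw [mem_valuationSubring_iff_ord, or_iff_right (smul_ne_zero hne (hf0 v.1 v.2)),
        Algebra.smul_def, Place.ord_mul _
          ((map_ne_zero_iff _ (algebraMap L FF).injective).mpr hne) (hf0 v.1 v.2),
        ord_algebraMap v.1 hne, hford v.1 v.2] at h2
      omega
    rintro (_ | v)
    · simp only [hzero, zero_smul, Finset.sum_const_zero, add_zero] at hsum
      exact (smul_eq_zero.mp hsum).resolve_right one_ne_zero
    · exact hzero v
  have := (S.rr L).finite A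
  have h1 := finrank_span_eq_card hli
  have h2 : Submodule.span L (Set.range w) ≤ riemannRochSpace A := by
    rw [Submodule.span_le]
    rintro _ ⟨_ | v, rfl⟩
    · exact hone
    · exact Lsp_mono (hA0 v.1 v.2) (hf v.1 v.2)
  have h3 := Submodule.finrank_mono h2
  rw [h1, Fintype.card_option, Fintype.card_coe] at h3
  exact h3

/-- Adding a generic point to a small non-special divisor keeps it non-special. -/
lemma onlyConst_add_generic {k : IntermediateField ℚ L} {i : ℕ} (hi : i < S.g)
    {E : Divisor L FF} (hE0 : 0 ≤ E) (hEd : Divisor.degree E = i) (hE : S.OnlyConst E)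
    (hfin : (Set.range fun σ : L ≃ₐ[k] L => S.galK k σ • E).Finite) {P : Place L FF}
    (hP : ¬ IsAlgebraic k (S.zv P)) : S.OnlyConst (E + Finsupp.single P 1) := by
  classical
  by_contra hcon
  have hinf : (Set.range fun σ : L ≃ₐ[k] L => S.galK k σ • P).Infinite :=
    fun h => hP (S.isAlgebraic_zv_of_finite_orbit h)
  obtain ⟨E', ⟨σ₀, hσ₀⟩, hinf'⟩ : ∃ E' ∈ Set.range (fun σ : L ≃ₐ[k] L => S.galK k σ • E),
      ((fun σ : L ≃ₐ[k] L => S.galK k σ • P) '' {σ | S.galK k σ • E = E'}).Infinite := by
    by_contra hall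
    push Not at hall
    refine hinf ((hfin.biUnion fun E' hE' => hall E' hE').subset ?_)
    rintro _ ⟨σ, rfl⟩
    exact Set.mem_biUnion ⟨σ, rfl⟩ ⟨σ, rfl, rfl⟩
  obtain ⟨s, hs, hcard⟩ :=
    (hinf'.sdiff E'.support.finite_toSet).exists_subset_card_eq (2 * S.g + 1)
  have hE'0 : 0 ≤ E' := hσ₀ ▸ S.smul_nonneg_div _ hE0
  have hE'd : Divisor.degree E' = i := by rw [← hσ₀, SemilinearAut.degree_smul, hEd]
  have hE'c : S.OnlyConst E' := hσ₀ ▸ hE.gal S _
  have hpole : ∀ v ∈ s, ∃ f ∈ riemannRochSpace (E' + Finsupp.single v 1),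
      f ≠ 0 ∧ v.ord f = -1 := by
    intro v hv
    obtain ⟨⟨σ, hσE, hσP⟩, hv0⟩ := hs hv
    have hE'v : E' v = 0 := by simpa [Finsupp.mem_support_iff] using hv0
    obtain ⟨f, hf, hf0, hord⟩ := S.exists_pole_of_not_const hE'c v fun hc => hcon (by
      have := hc.gal S (σ.restrictScalars ℚ).symm
      rw [show S.gal L (σ.restrictScalars ℚ).symm = (S.galK k σ)⁻¹ from
        map_inv (arithmeticGalois (L := L) S.F₀) (σ.restrictScalars ℚ), smul_add, ← hσE, ← hσP, SemilinearAut.smul_single,
        inv_smul_smul, inv_smul_smul] at this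
      exact this)
    exact ⟨f, hf, hf0, by rw [hord, hE'v]; norm_num⟩
  choose f hf hf0 hford using hpole
  set A : Divisor L FF := E' + ∑ v ∈ s, Finsupp.single v 1 with hA
  have h1 := S.card_lt_finrank_of_poles hE'0 s
    (fun v hv => by simpa [Finsupp.mem_support_iff] using (hs hv).2) f hf hf0 hford
  rw [← hA, hcard] at h1
  have hdeg : Divisor.degree A = i + (2 * S.g + 1 : ℕ) := by
    rw [hA, map_add, hE'd, map_sum,
      Finset.sum_congr rfl fun v _ => (S.rr L).degree_single v 1, Finset.sum_const, hcard]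
    simp
  have h2 := (S.rr L).dim_eq A (by rw [hdeg, S.g_eq L]; push_cast; omega)
  rw [hdeg, S.g_eq L] at h2
  omega

/-- Points with independent values of `z` form a non-special divisor. -/
lemma onlyConst_tupDiv {m : ℕ} (hm : m ≤ S.g) {P : Fin m → Place L FF}
    (ht : AlgebraicIndependent ℚ fun i => S.zv (P i)) : S.OnlyConst (S.tupDiv P) := by
  induction m with
  | zero =>
      intro f hf
      have h0 : (0 : Divisor L FF) = S.binf L 0 := by simp [binf]
      rw [show S.tupDiv P = 0 by simp [tupDiv]] at hf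
      obtain ⟨x, hx⟩ := S.exists_realF L (b := 0) (by simpa [binf] using hf)
      have := S.eq_C_of_mem_Sb_zero L (s := (f : LaurentSeries L))
        ((S.mem_Sb L).mpr (h0 ▸ hf))
      exact ⟨_, Subtype.ext (this.trans (by rw [← algebraMap_laurentSeries_eq_single]; rfl))⟩
  | succ m ih =>
      have hsplit : S.tupDiv P
          = S.tupDiv (fun i : Fin m => P i.castSucc) + Finsupp.single (P (Fin.last m)) 1 := by
        simp [tupDiv, Fin.sum_univ_castSucc]
      rw [hsplit]
      let k := IntermediateField.adjoin ℚ (Set.range fun i : Fin m => S.zv (P i.castSucc))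
      refine S.onlyConst_add_generic (k := k) (i := m) (by omega) (S.tupDiv_nonneg _)
        (S.degree_tupDiv _)
        (ih (by omega) (ht.comp _ (Fin.castSucc_injective m))) (S.finite_orbit_tupDiv fun t => ?_) ?_
      · exact isAlgebraic_algebraMap
          (⟨_, IntermediateField.subset_adjoin ℚ _ ⟨t, rfl⟩⟩ : k)
      · have htr := ht.transcendental_adjoin
          (s := Set.range (Fin.castSucc : Fin m → Fin (m + 1))) (i := Fin.last m)
          (by rintro ⟨j, hj⟩; exact (Fin.castSucc_lt_last j).ne hj)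
        rw [← Set.range_comp] at htr
        change Transcendental (Algebra.adjoin ℚ (Set.range fun i : Fin m => S.zv (P i.castSucc))) _ at htr
        intro halg
        exact htr ((IsFractionRing.isAlgebraic_iff _ k L).mpr halg)

lemma exists_tuple {m : ℕ} {D : Divisor L FF} (hD : 0 ≤ D) (hn : Divisor.degree D = m) :
    ∃ Q : Fin m → Place L FF, D = S.tupDiv Q := by
  induction m generalizing D with
  | zero => exact ⟨Fin.elim0, by
      rw [(S.rr L).eq_zero_of_nonneg_of_degree_le hD (by simp [hn])]; simp [tupDiv]⟩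
  | succ m ih =>
      have hne : D ≠ 0 := by rintro rfl; simp at hn; omega
      obtain ⟨v, hv⟩ := Finsupp.support_nonempty_iff.mpr hne
      rw [Finsupp.mem_support_iff] at hv
      obtain ⟨Q, hQ⟩ := ih (D := D - Finsupp.single v 1) (fun u => by
        have := hD u
        rcases eq_or_ne u v with rfl | hu
        · simp only [Finsupp.sub_apply, Finsupp.single_eq_same, Finsupp.coe_zero,
            Pi.zero_apply] at *
          omega
        · simpa [Finsupp.single_eq_of_ne hu] using this)
        (by rw [map_sub, hn, (S.rr L).degree_single]; push_cast; ring)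
      refine ⟨Fin.snoc Q v, ?_⟩
      rw [tupDiv, Fin.sum_univ_castSucc]
      simp only [Fin.snoc_castSucc, Fin.snoc_last]
      rw [show (∑ t, Finsupp.single (Q t) 1) = S.tupDiv Q from rfl, ← hQ, sub_add_cancel]

/-- Twice a generic class is generic. -/
theorem generic_double {P Q : Fin S.n → Place L FF}
    (ht : AlgebraicIndependent ℚ fun i => S.zv (P i))
    (hrel : S.cls (S.tupDiv Q) = S.cls (S.tupDiv P) + S.cls (S.tupDiv P)) :
    AlgebraicIndependent ℚ fun i => S.zv (Q i) := by
  classical
  set k := IntermediateField.adjoin ℚ (Set.range fun i => S.zv (Q i))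
  set x := S.cls (S.tupDiv P)
  have hQfin := S.finite_orbit_tupDiv (k := k) (Q := Q) fun t =>
    isAlgebraic_algebraMap (⟨_, IntermediateField.subset_adjoin ℚ _ ⟨t, rfl⟩⟩ : k)
  have hxfin : (Set.range fun σ : L ≃ₐ[k] L => S.galK k σ • x).Finite := by
    have h2 : (Set.range fun σ : L ≃ₐ[k] L => S.galK k σ • x + S.galK k σ • x).Finite := by
      refine (hQfin.image S.cls).subset ?_
      rintro _ ⟨σ, rfl⟩
      refine ⟨_, ⟨σ, rfl⟩, ?_⟩
      show S.cls _ = _
      rw [← smul_cls, hrel, smul_add]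
    refine (h2.biUnion (t := fun c : Pic0 L FF => {y | y + y = c}) fun c _ => ?_).subset ?_
    · rcases Set.eq_empty_or_nonempty {y : Pic0 L FF | y + y = c} with h | ⟨y0, hy0⟩
      · rw [h]; exact Set.finite_empty
      refine ((S.finite_torsion (L := L)).image fun t => y0 + t).subset fun y hy => ?_
      refine ⟨y - y0, ?_, by simp⟩
      show y - y0 + (y - y0) = 0
      rw [show y - y0 + (y - y0) = (y + y) - (y0 + y0) by abel, hy, hy0, sub_self]
    · rintro _ ⟨σ, rfl⟩
      exact Set.mem_biUnion ⟨σ, rfl⟩ rfl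
  have hc := S.onlyConst_tupDiv le_rfl ht
  have hPfin : (Set.range fun σ : L ≃ₐ[k] L => S.galK k σ • S.tupDiv P).Finite := by
    have := hxfin.to_subtype
    refine (Set.finite_range fun y : Set.range (fun σ : L ≃ₐ[k] L => S.galK k σ • x) =>
      S.galK k y.2.choose • S.tupDiv P).subset ?_
    rintro _ ⟨σ, rfl⟩
    refine ⟨⟨_, σ, rfl⟩, ?_⟩
    have h := (⟨_, σ, rfl⟩ :
      Set.range (fun σ : L ≃ₐ[k] L => S.galK k σ • x)).2.choose_spec
    simp only [x, galK, smul_cls] at h ⊢
    have h0 : ∀ τ : L ≃ₐ[ℚ] L, Divisor.degree (S.gal L τ • S.tupDiv P - S.binf L (S.n : ℤ)) = 0 :=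
      fun τ => by rw [map_sub, SemilinearAut.degree_smul, S.degree_tupDiv, degree_binf, sub_self]
    simp only [cls] at h
    rw [S.mk0_eq_iff (h0 _) (h0 _), sub_sub_sub_cancel_right] at h
    exact S.eq_of_finrank_one (S.smul_nonneg_div _ (S.tupDiv_nonneg P))
      (S.smul_nonneg_div _ (S.tupDiv_nonneg P))
      ((hc.gal S _).finrank_eq_one S (S.smul_nonneg_div _ (S.tupDiv_nonneg P))) h
  refine algebraicIndependent_of_isAlgebraic ht fun i => ?_
  refine S.isAlgebraic_zv_of_finite_orbit_div hPfin ?_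
  have hle : Finsupp.single (P i) (1 : ℤ) ≤ S.tupDiv P :=
    Finset.single_le_sum (f := fun t => Finsupp.single (P t) (1 : ℤ))
      (fun u _ => Finsupp.single_nonneg.mpr zero_le_one) (Finset.mem_univ i)
  have := hle (P i)
  rw [Finsupp.single_eq_same] at this
  omega

end Setup

end Fermat.Agent.MWJ0

end
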