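import Mathlib.NumberTheory.Height.NumberField
import Mathlib.RingTheory.Nullstellensatz
import Mathlib.Algebra.MvPolynomial.Funext
import Mathlib.FieldTheory.IsAlgClosed.AlgebraicClosure
import Mathlib.RingTheory.Valuation.ValuationSubring
import Mathlib.RingTheory.Bezout
import Mathlib.Algebra.GCDMonoid.IntegrallyClosed
import Mathlib.RingTheory.IntegralClosure.IntegrallyClosed
import Mathlib.RingTheory.Localization.Integral

/-!
# Heights of morphisms by the Nullstellensatz

Two consequences of the Nullstellensatz for multi-projective sets cut out by polynomials: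
a two-sided height estimate for multihomogeneous maps without common zero, and a finite set of
bad primes outside which a system without solution has no solution modulo any place.
-/

set_option autoImplicit false

noncomputable section

open MvPolynomial

namespace Fermat.Agent.MWJ0

variable {κ : Type} [Fintype κ] [DecidableEq κ] {ι : κ → Type} [∀ k, Fintype (ι k)]

local notation "σv" => (Σ k, ι k)
local notation "Qb" => AlgebraicClosure ℚ

/-- Block degree of a monomial. -/
def blockDeg (m : σv →₀ ℕ) : κ →₀ ℕ :=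
  Finsupp.equivFunOnFinite.symm fun k => ∑ i, m ⟨k, i⟩

omit [DecidableEq κ] in
lemma blockDeg_apply (m : σv →₀ ℕ) (k : κ) : blockDeg m k = ∑ i, m ⟨k, i⟩ := rfl

/-- Substitute `z v * X_k` for the variables of block `k`. -/
def blockSubst (z : σv → ℚ) : MvPolynomial σv ℚ →ₐ[ℚ] MvPolynomial κ ℚ :=
  aeval fun v => C (z v) * X v.1

omit [Fintype κ] [DecidableEq κ] [(k : κ) → Fintype (ι k)] in
lemma eval_blockSubst (z : σv → ℚ) (B : MvPolynomial σv ℚ) (s : κ → ℚ) :
    eval s (blockSubst z B) = aeval (fun v => s v.1 * z v) B := by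
  induction B using MvPolynomial.induction_on with
  | C a => simp [blockSubst]
  | add p q hp hq => simp [map_add, hp, hq]
  | mul_X p v hp => simp only [map_mul, hp]; simp [blockSubst, mul_comm (z v)]

omit [DecidableEq κ] in
lemma blockSubst_monomial (z : σv → ℚ) (m : σv →₀ ℕ) (c : ℚ) :
    blockSubst z (monomial m c) = monomial (blockDeg m) (c * ∏ v, z v ^ m v) := by
  rw [blockSubst, aeval_monomial, Finsupp.prod_fintype _ _ (fun v => pow_zero _)]
  simp only [mul_pow, Finset.prod_mul_distrib, ← map_pow, ← map_prod]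
  rw [monomial_eq (s := blockDeg m), Finsupp.prod_fintype _ _ (fun k => pow_zero _)]
  simp only [MvPolynomial.algebraMap_eq, map_mul]
  rw [mul_assoc]
  congr 2
  rw [Fintype.prod_sigma]
  refine Finset.prod_congr rfl fun k _ => ?_
  rw [blockDeg_apply, ← Finset.prod_pow_eq_pow_sum]

/-- The component of block degree `e`, evaluated at `z`. -/
def comp (e : κ →₀ ℕ) (B : MvPolynomial σv ℚ) (z : σv → ℚ) : ℚ := coeff e (blockSubst z B)

lemma exists_comp_bound (e : κ →₀ ℕ) (B : MvPolynomial σv ℚ) :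
    ∃ (D : ℕ) (C : ℝ), 0 < D ∧ 0 ≤ C ∧ ∀ (z : σv → ℤ) (H : κ → ℝ), (∀ k, 0 ≤ H k) →
      (∀ v, |(z v : ℝ)| ≤ H v.1) →
      ∃ n : ℤ, (n : ℚ) = D * comp e B (fun v => (z v : ℚ)) ∧
        |(n : ℝ)| ≤ C * ∏ k, H k ^ e k := by
  induction B using MvPolynomial.induction_on' with
  | monomial m c =>
      refine ⟨c.den, |(c.num : ℝ)|, c.den_pos, abs_nonneg _, fun z H hH hz => ?_⟩
      by_cases he : blockDeg m = e
      · refine ⟨c.num * ∏ v, z v ^ m v, ?_, ?_⟩
        · rw [comp, blockSubst_monomial, coeff_monomial, if_pos he, ← mul_assoc,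
            mul_comm (c.den : ℚ) c, Rat.mul_den_eq_num]
          push_cast; ring
        · push_cast
          rw [abs_mul, Finset.abs_prod]
          refine mul_le_mul_of_nonneg_left ?_ (abs_nonneg _)
          rw [← he, Fintype.prod_sigma]
          refine Finset.prod_le_prod (fun k _ => Finset.prod_nonneg fun i _ => abs_nonneg _)
            fun k _ => ?_
          rw [blockDeg_apply, ← Finset.prod_pow_eq_pow_sum]
          refine Finset.prod_le_prod (fun i _ => abs_nonneg _) fun i _ => ?_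
          rw [abs_pow]
          exact pow_le_pow_left₀ (abs_nonneg _) (hz ⟨k, i⟩) _
      · refine ⟨0, ?_, ?_⟩
        · rw [comp, blockSubst_monomial, coeff_monomial, if_neg he]; simp
        · simp only [Int.cast_zero, abs_zero]
          exact mul_nonneg (abs_nonneg _) (Finset.prod_nonneg fun k _ => pow_nonneg (hH k) _)
  | add p q hp hq =>
      obtain ⟨D, C, hD, hC, hp⟩ := hp
      obtain ⟨D', C', hD', hC', hq⟩ := hq
      refine ⟨D * D', D' * C + D * C', Nat.mul_pos hD hD', by positivity, fun z H hH hz => ?_⟩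
      obtain ⟨n, hn, hn'⟩ := hp z H hH hz
      obtain ⟨n', hm, hm'⟩ := hq z H hH hz
      refine ⟨(D' : ℤ) * n + (D : ℤ) * n', ?_, ?_⟩
      · simp only [comp, map_add, coeff_add] at hn hm ⊢
        push_cast
        rw [hn, hm]; ring
      · push_cast
        refine (abs_add_le _ _).trans ?_
        rw [abs_mul, abs_mul, Nat.abs_cast, Nat.abs_cast, add_mul, mul_assoc, mul_assoc]
        gcongr

lemma exists_primitive {α : Type} [Fintype α] {v : α → ℚ} (hv : v ≠ 0) :
    ∃ c : ℚ, c ≠ 0 ∧ ∃ z : α → ℤ, Finset.univ.gcd z = 1 ∧ ∀ i, (z i : ℚ) = c * v i := by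
  classical
  obtain ⟨i0, hi0⟩ := Function.ne_iff.mp hv
  obtain ⟨⟨D, hD⟩, hint⟩ := IsLocalization.exist_integer_multiples_of_finite (nonZeroDivisors ℤ) v
  choose w hw using hint
  have hw' : ∀ i, (w i : ℚ) = (D : ℚ) * v i := fun i => by
    have := hw i
    simpa [Algebra.smul_def] using this
  have hD0 : (D : ℚ) ≠ 0 := by exact_mod_cast nonZeroDivisors.ne_zero hD
  have hne : w i0 ≠ 0 := fun e => hi0 (by simpa [e, hD0] using (hw' i0).symm)
  obtain ⟨z, hz, hg⟩ := Finset.extract_gcd w ⟨i0, Finset.mem_univ _⟩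
  have hgne : Finset.univ.gcd w ≠ 0 := fun e => hne (Finset.gcd_eq_zero_iff.mp e i0 (Finset.mem_univ _))
  refine ⟨(D : ℚ) / (Finset.univ.gcd w : ℤ), div_ne_zero hD0 (by exact_mod_cast hgne), z, hg,
    fun i => ?_⟩
  rw [div_mul_eq_mul_div, ← hw', hz i (Finset.mem_univ i), eq_div_iff (by exact_mod_cast hgne)]
  push_cast; ring

/-- The two-sided height estimate. -/
theorem height_estimate {E J : Type} [Fintype J] (P : E → MvPolynomial σv ℚ)
    (F : J → MvPolynomial σv ℚ) (d : κ → ℕ)
    (hP : ∀ x : σv → ℚ, (∀ e, aeval x (P e) = 0) → ∀ (s : κ → ℚ) (e : E),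
      aeval (fun v => s v.1 * x v) (P e) = 0)
    (hF : ∀ (x : σv → ℚ) (s : κ → ℚ) (j : J),
      aeval (fun v => s v.1 * x v) (F j) = (∏ k, s k ^ d k) * aeval x (F j))
    (hne : ∀ x : σv → Qb, (∀ e, aeval x (P e) = 0) → (∀ k, ∃ i, x ⟨k, i⟩ ≠ 0) →
      ∃ j, aeval x (F j) ≠ 0) :
    ∃ C : ℝ, ∀ z : (k : κ) → ι k → ℚ, (∀ e, aeval (fun v => z v.1 v.2) (P e) = 0) →
      (∀ k, z k ≠ 0) →
      |Height.logHeight (fun j => aeval (fun v => z v.1 v.2) (F j))
        - ∑ k, (d k : ℝ) * Height.logHeight (z k)| ≤ C := by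
  classical
  -- the identities
  let I : Ideal (MvPolynomial σv ℚ) := Ideal.span (Set.range P) ⊔ Ideal.span (Set.range F)
  have hrad : ∀ l : (k : κ) → ι k, ∃ M : ℕ, (∏ k, X (⟨k, l k⟩ : σv)) ^ M ∈ I := by
    intro l
    have hmem : (∏ k, X (⟨k, l k⟩ : σv)) ∈ vanishingIdeal ℚ (zeroLocus Qb I) := by
      rw [mem_vanishingIdeal_iff]
      intro x hx
      rw [map_prod]
      simp only [aeval_X]
      by_contra hne0
      obtain ⟨j, hj⟩ := hne x (fun e => hx _ (Ideal.mem_sup_left (Ideal.subset_span ⟨e, rfl⟩)))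
        fun k => ⟨l k, (Finset.prod_ne_zero_iff.mp hne0) k (Finset.mem_univ k)⟩
      exact hj (hx _ (Ideal.mem_sup_right (Ideal.subset_span ⟨j, rfl⟩)))
    rw [vanishingIdeal_zeroLocus_eq_radical] at hmem
    exact hmem
  choose M0 hM0 using hrad
  set M : ℕ := (∑ l, M0 l) + ∑ k, d k with hMdef
  have hpow : ∀ l : (k : κ) → ι k, (∏ k, X (⟨k, l k⟩ : σv)) ^ M ∈ I := fun l =>
    Ideal.pow_mem_of_pow_mem _ (hM0 l)
      ((Finset.single_le_sum (fun l _ => Nat.zero_le (M0 l)) (Finset.mem_univ l)).trans le_self_add)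
  have hdM : ∀ k, d k ≤ M := fun k =>
    (Finset.single_le_sum (fun k _ => Nat.zero_le (d k)) (Finset.mem_univ k)).trans le_add_self
  have hdec : ∀ l : (k : κ) → ι k, ∃ a ∈ Ideal.span (Set.range P), ∃ B : J → MvPolynomial σv ℚ,
      (∏ k, X (⟨k, l k⟩ : σv)) ^ M = a + ∑ j, B j * F j := by
    intro l
    obtain ⟨a, ha, b, hb, e⟩ := Submodule.mem_sup.mp (hpow l)
    obtain ⟨B, hB⟩ := Ideal.mem_span_range_iff_exists_fun.mp hb
    exact ⟨a, ha, B, by rw [hB, e]⟩
  choose a ha B hB using hdec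
  let e0 : κ →₀ ℕ := Finsupp.equivFunOnFinite.symm fun k => M - d k
  let ed : κ →₀ ℕ := Finsupp.equivFunOnFinite.symm d
  choose DB CB hDB hCB hboundB using fun (l : (k : κ) → ι k) (j : J) => exists_comp_bound e0 (B l j)
  choose DF CF hDF hCF hboundF using fun j : J => exists_comp_bound ed (F j)
  set DBall : ℕ := ∏ l, ∏ j, DB l j with hDBall
  set DFall : ℕ := ∏ j, DF j with hDFall
  have hDBall0 : 0 < DBall := Finset.prod_pos fun l _ => Finset.prod_pos fun j _ => hDB l j
  have hDFall0 : 0 < DFall := Finset.prod_pos fun j _ => hDF j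
  set U : ℝ := (DFall : ℝ) * ∑ j, CF j + 1 with hU
  set Lw : ℝ := (DBall : ℝ) * ∑ l, ∑ j, CB l j + 1 with hLw
  have hU0 : 0 < U := by have := Finset.sum_nonneg (s := Finset.univ) fun j _ => hCF j; positivity
  have hLw0 : 0 < Lw := by
    have := Finset.sum_nonneg (s := Finset.univ) fun l _ =>
      Finset.sum_nonneg (s := Finset.univ) fun j _ => hCB l j
    positivity
  refine ⟨|Real.log U| + |Real.log Lw| + Real.log ((DFall * DBall : ℕ) : ℝ),
    fun z hz hz0 => ?_⟩
  -- primitive representatives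
  choose c hc w hw hwc using fun k => exists_primitive (hz0 k)
  set wf : σv → ℤ := fun v => w v.1 v.2 with hwf
  set wq : σv → ℚ := fun v => (wf v : ℚ) with hwq
  have hwq' : wq = fun v => c v.1 * z v.1 v.2 := funext fun v => hwc v.1 v.2
  have hzero : ∀ e, aeval wq (P e) = 0 := fun e => hwq' ▸ hP _ hz c e
  have hhF : ∀ j, aeval wq (F j) = (∏ k, c k ^ d k) * aeval (fun v => z v.1 v.2) (F j) :=
    fun j => hwq' ▸ hF _ c j
  have hne' : ∀ k, Nonempty (ι k) := fun k => by
    obtain ⟨i, -⟩ := Function.ne_iff.mp (hz0 k); exact ⟨i⟩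
  set H : κ → ℤ := fun k => ⨆ i, |w k i| with hH
  have hHh : ∀ k, Height.logHeight (z k) = Real.log (H k : ℝ) := by
    intro k
    have e : (((↑) : ℤ → ℚ) ∘ w k) = c k • z k := funext fun i => hwc k i
    rw [← Height.logHeight_smul_eq_logHeight (z k) (hc k), ← e,
      Rat.logHeight_eq_max_abs_of_gcd_eq_one (hw k)]
  have hH1 : ∀ k, 1 ≤ H k := by
    intro k
    by_contra hlt
    push Not at hlt
    have h0 : ∀ i, w k i = 0 := fun i => by
      have := (Finite.le_ciSup (fun i => |w k i|) i).trans_lt hlt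
      have := abs_nonneg (w k i)
      exact abs_eq_zero.mp (by omega)
    have := hw k
    rw [Finset.gcd_eq_zero_iff.mpr fun i _ => h0 i] at this
    exact zero_ne_one this
  have hHb : ∀ v : σv, |(wf v : ℝ)| ≤ (H v.1 : ℝ) := fun v => by
    exact_mod_cast Finite.le_ciSup (fun i => |w v.1 i|) v.2
  -- components
  have hFc : ∀ j, comp ed (F j) wq = aeval wq (F j) := by
    intro j
    have : blockSubst wq (F j) = monomial ed (aeval wq (F j)) := by
      refine MvPolynomial.funext fun s => ?_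
      rw [eval_blockSubst, hF, eval_monomial, Finsupp.prod_fintype _ _ (fun k => pow_zero _)]
      simp [ed, mul_comm]
    rw [comp, this, coeff_monomial, if_pos rfl]
  have hid : ∀ l, (∏ k, wq ⟨k, l k⟩ ^ M) = ∑ j, comp e0 (B l j) wq * aeval wq (F j) := by
    intro l
    have hpoly : monomial (Finsupp.equivFunOnFinite.symm fun _ : κ => M) (∏ k, wq ⟨k, l k⟩ ^ M)
        = ∑ j, blockSubst wq (B l j) * monomial ed (aeval wq (F j)) := by
      refine MvPolynomial.funext fun s => ?_
      rw [map_sum]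
      simp only [map_mul, eval_monomial, eval_blockSubst,
        Finsupp.prod_fintype _ _ (fun k => pow_zero _), ed, Finsupp.equivFunOnFinite_symm_apply_apply]
      have h1 := congrArg (aeval fun v : σv => s v.1 * wq v) (hB l)
      have ha0 : ∀ p ∈ Ideal.span (Set.range P), aeval (fun v : σv => s v.1 * wq v) p = 0 := by
        intro p hp
        induction hp using Submodule.span_induction with
        | mem q hq => obtain ⟨e, rfl⟩ := hq; exact hP _ hzero s e
        | zero => simp
        | add q r _ _ hq hr => rw [map_add, hq, hr, add_zero]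
        | smul t q _ hq => rw [smul_eq_mul, map_mul, hq, mul_zero]
      simp only [map_add, map_sum, map_mul, map_pow, map_prod, aeval_X, ha0 _ (ha l), zero_add] at h1
      rw [mul_comm, ← Finset.prod_mul_distrib, ← Finset.prod_congr rfl fun k _ =>
        (mul_pow (s k) (wq ⟨k, l k⟩) M), Finset.prod_pow, h1]
      refine Finset.sum_congr rfl fun j _ => ?_
      rw [hF]; ring
    have h2 := congrArg (coeff (Finsupp.equivFunOnFinite.symm fun _ : κ => M)) hpoly
    rw [coeff_monomial, if_pos rfl, coeff_sum] at h2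
    rw [h2]
    refine Finset.sum_congr rfl fun j _ => ?_
    rw [coeff_mul_monomial', if_pos (show ed ≤ _ from fun k => by simpa [ed] using hdM k), comp]
    congr 2
    ext k
    simp [e0, ed]
  choose nF hnF hnFb using fun j => hboundF j wf (fun k => (H k : ℝ)) (fun k => by exact_mod_cast (zero_le_one.trans (hH1 k))) hHb
  choose nB hnB hnBb using fun l j => hboundB l j wf (fun k => (H k : ℝ)) (fun k => by exact_mod_cast (zero_le_one.trans (hH1 k))) hHb
  set Y : J → ℤ := fun j => ((∏ i ∈ Finset.univ.erase j, DF i : ℕ) : ℤ) * nF j with hY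
  have hYq : ∀ j, (Y j : ℚ) = DFall * aeval wq (F j) := by
    intro j
    rw [hY, hDFall, ← Finset.mul_prod_erase _ _ (Finset.mem_univ j), ← hFc]
    push_cast
    rw [hnF]; ring
  have hYb : ∀ j, |(Y j : ℝ)| ≤ U * ∏ k, (H k : ℝ) ^ d k := by
    intro j
    have h1 : ((∏ i ∈ Finset.univ.erase j, DF i : ℕ) : ℝ) ≤ DFall := by
      rw [hDFall, ← Finset.mul_prod_erase _ _ (Finset.mem_univ j)]
      exact_mod_cast Nat.le_mul_of_pos_left _ (hDF j)
    have h2 : CF j ≤ ∑ i, CF i := Finset.single_le_sum (fun i _ => hCF i) (Finset.mem_univ j)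
    have hp : 0 ≤ ∏ k, (H k : ℝ) ^ d k := Finset.prod_nonneg fun k _ =>
      pow_nonneg (by exact_mod_cast (zero_le_one.trans (hH1 k))) _
    rw [hY]
    push_cast
    rw [abs_mul, abs_of_nonneg (by positivity)]
    calc _ ≤ (DFall : ℝ) * ((∑ i, CF i) * ∏ k, (H k : ℝ) ^ d k) := by
          refine mul_le_mul (by exact_mod_cast h1) ((hnFb j).trans ?_) (abs_nonneg _) (by positivity)
          simp only [ed, Finsupp.equivFunOnFinite_symm_apply_apply]
          gcongr
      _ ≤ _ := by rw [hU, add_mul, mul_assoc]; linarith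
  let Z : ((k : κ) → ι k) → J → ℤ := fun l j =>
    ((∏ l' ∈ Finset.univ.erase l, ∏ i, DB l' i : ℕ) : ℤ) *
      ((∏ i ∈ Finset.univ.erase j, DB l i : ℕ) : ℤ) * nB l j
  have hZq : ∀ l j, (Z l j : ℚ) = DBall * comp e0 (B l j) wq := by
    intro l j
    rw [hDBall, ← Finset.mul_prod_erase _ _ (Finset.mem_univ l),
      ← Finset.mul_prod_erase _ (fun i => DB l i) (Finset.mem_univ j)]
    simp only [Z]
    push_cast
    rw [hnB]; ring
  have hint : ∀ l, ((DFall * DBall : ℕ) : ℤ) * ∏ k, w k (l k) ^ M = ∑ j, Z l j * Y j := by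
    intro l
    have : (((DFall * DBall : ℕ) : ℤ) * ∏ k, w k (l k) ^ M : ℚ) = ((∑ j, Z l j * Y j : ℤ) : ℚ) := by
      push_cast
      rw [show (∏ k, (w k (l k) : ℚ) ^ M) = ∏ k, wq ⟨k, l k⟩ ^ M from rfl, hid, Finset.mul_sum]
      refine Finset.sum_congr rfl fun j _ => ?_
      rw [hZq, hYq]; ring
    exact_mod_cast this
  set g := Finset.univ.gcd Y with hg
  have hgdvd : g ∣ ((DFall * DBall : ℕ) : ℤ) := by
    let K : Ideal ℤ :=
      { carrier := {t | g ∣ ((DFall * DBall : ℕ) : ℤ) * t}
        zero_mem' := by simp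
        add_mem' := fun h1 h2 => by simpa [mul_add] using dvd_add h1 h2
        smul_mem' := fun r t h1 => by
          simp only [Set.mem_ofPred_eq, smul_eq_mul] at h1 ⊢
          rw [mul_left_comm]; exact h1.mul_left r }
    have hspan : Ideal.span (Set.range fun l : (k : κ) → ι k => ∏ k, w k (l k)) = ⊤ := by
      rw [Ideal.eq_top_iff_one]
      choose f hf using fun k => Finset.gcd_eq_sum_mul Finset.univ (w k)
      have : (1 : ℤ) = ∑ l : (k : κ) → ι k, (∏ k, f k (l k)) * ∏ k, w k (l k) := by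
        have h1 : ∀ k, (1 : ℤ) = ∑ i, f k i * w k i := fun k => by
          rw [← hw k, hf k]; exact Finset.sum_congr rfl fun i _ => mul_comm _ _
        calc (1 : ℤ) = ∏ k, ∑ i, f k i * w k i :=
              (Finset.prod_eq_one fun k _ => (h1 k).symm).symm
          _ = _ := by
            rw [Finset.prod_univ_sum, ← Fintype.piFinset_univ]
            exact Finset.sum_congr rfl fun l _ => Finset.prod_mul_distrib
      rw [this]
      exact Ideal.sum_mem _ fun l _ => Ideal.mul_mem_left _ _ (Ideal.subset_span ⟨l, rfl⟩)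
    have hK : Ideal.span ((fun x => x ^ M) '' Set.range fun l : (k : κ) → ι k => ∏ k, w k (l k))
        ≤ K := by
      rw [Ideal.span_le]
      rintro _ ⟨_, ⟨l, rfl⟩, rfl⟩
      show g ∣ _ * (∏ k, w k (l k)) ^ M
      rw [← Finset.prod_pow, hint]
      exact Finset.dvd_sum fun j _ => (Finset.gcd_dvd (Finset.mem_univ j)).mul_left _
    rw [Ideal.span_pow_eq_top _ hspan M, top_le_iff] at hK
    have : (1 : ℤ) ∈ K := hK ▸ Submodule.mem_top
    simpa [K] using this
  obtain ⟨j0, hj0⟩ : ∃ j, aeval wq (F j) ≠ 0 := by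
    by_contra hall
    push Not at hall
    obtain ⟨l⟩ : Nonempty ((k : κ) → ι k) := by
      have := hne'; exact inferInstance
    choose i hi using fun k => exists_eq_ciSup_of_finite (f := fun i => |w k i|)
    have := hid i
    simp [hall] at this
    obtain ⟨k, -, hk⟩ := Finset.prod_eq_zero_iff.mp this
    have hwk : w k (i k) = 0 := by
      have h0 := (pow_eq_zero_iff'.mp hk).1
      simpa [wq, wf] using h0
    have := hi k
    have h1 := hH1 k
    rw [hH] at h1
    simp only at h1
    rw [← this, hwk] at h1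
    simp at h1
  have hY0 : Y j0 ≠ 0 := fun e => hj0 (by
    have := hYq j0; rw [e] at this
    simpa [hDFall0.ne'] using this.symm)
  have : Nonempty J := ⟨j0⟩
  obtain ⟨Y', hY', hgY'⟩ := Finset.extract_gcd Y ⟨j0, Finset.mem_univ _⟩
  have hgne : g ≠ 0 := fun e => hY0 (Finset.gcd_eq_zero_iff.mp e j0 (Finset.mem_univ _))
  have hgpos : 0 < g := lt_of_le_of_ne (Int.nonneg_of_normalize_eq_self Finset.normalize_gcd) hgne.symm
  have hheight : Height.logHeight (fun j => aeval (fun v => z v.1 v.2) (F j))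
      = Real.log ((⨆ j, |Y' j| : ℤ) : ℝ) := by
    rw [← Rat.logHeight_eq_max_abs_of_gcd_eq_one hgY']
    have hcp : (∏ k, c k ^ d k) ≠ 0 := Finset.prod_ne_zero_iff.mpr fun k _ => pow_ne_zero _ (hc k)
    have e : (((↑) : ℤ → ℚ) ∘ Y') =
        ((DFall : ℚ) * (∏ k, c k ^ d k) / (g : ℚ)) • fun j => aeval (fun v => z v.1 v.2) (F j) := by
      funext j
      have := hYq j
      rw [hY' j (Finset.mem_univ j), hhF] at this
      push_cast at this
      simp only [Function.comp_apply, Pi.smul_apply, smul_eq_mul]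
      field_simp
      rw [hg]
      linarith
    rw [e, Height.logHeight_smul_eq_logHeight _ (div_ne_zero (mul_ne_zero
      (by exact_mod_cast hDFall0.ne') hcp) (by exact_mod_cast hgne))]
  set MY : ℤ := ⨆ j, |Y' j| with hMY
  have hMYge : ∀ j, |Y' j| ≤ MY := fun j => Finite.le_ciSup (fun j => |Y' j|) j
  have hMYpos : 0 < MY := lt_of_lt_of_le (abs_pos.mpr fun e => hY0 (by
    rw [hY' j0 (Finset.mem_univ _), e, mul_zero])) (hMYge j0)
  set P0 : ℝ := ∏ k, (H k : ℝ) ^ d k with hP0
  have hHpos : ∀ k, (0 : ℝ) < H k := fun k => by exact_mod_cast (hH1 k)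
  have hP0pos : 0 < P0 := Finset.prod_pos fun k _ => pow_pos (hHpos k) _
  have hYY : ∀ j, |(Y j : ℝ)| = (g : ℝ) * |(Y' j : ℝ)| := fun j => by
    rw [hY' j (Finset.mem_univ j)]
    push_cast
    rw [abs_mul, abs_of_pos (by exact_mod_cast hgpos)]
  have hup : (g : ℝ) * MY ≤ U * P0 := by
    obtain ⟨j, hj⟩ := exists_eq_ciSup_of_finite (f := fun j => |Y' j|)
    have e : (MY : ℝ) = |(Y' j : ℝ)| := by rw [hMY, ← hj]; push_cast; rfl
    rw [e, ← hYY]
    exact hYb j
  have hlow : P0 ≤ Lw * ((g : ℝ) * MY) := by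
    choose i hi using fun k => exists_eq_ciSup_of_finite (f := fun i => |w k i|)
    have h1 : (((DFall * DBall : ℕ) : ℤ) * ∏ k, w k (i k) ^ M : ℝ) = ∑ j, (Z i j : ℝ) * Y j := by
      exact_mod_cast congrArg (fun t : ℤ => (t : ℝ)) (hint i)
    have h2 : |∏ k, (w k (i k) : ℝ) ^ M| = ∏ k, (H k : ℝ) ^ M := by
      rw [Finset.abs_prod]
      refine Finset.prod_congr rfl fun k _ => ?_
      rw [abs_pow]
      congr 1
      simp only [hH, ← hi k]
      push_cast; rfl
    have h3 : ∀ j, |(Z i j : ℝ) * Y j| ≤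
        DBall * CB i j * (∏ k, (H k : ℝ) ^ (M - d k)) * ((g : ℝ) * MY) := by
      intro j
      rw [abs_mul]
      refine mul_le_mul ?_ (by rw [hYY]; gcongr; exact_mod_cast hMYge j) (abs_nonneg _) ?_
      · have hq : (∏ l' ∈ Finset.univ.erase i, ∏ t, DB l' t) * (∏ t ∈ Finset.univ.erase j, DB i t)
            ≤ DBall := by
          rw [hDBall, ← Finset.mul_prod_erase _ _ (Finset.mem_univ i),
            ← Finset.mul_prod_erase _ (fun t => DB i t) (Finset.mem_univ j)]
          calc _ ≤ DB i j * ((∏ l' ∈ Finset.univ.erase i, ∏ t, DB l' t) *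
                (∏ t ∈ Finset.univ.erase j, DB i t)) := Nat.le_mul_of_pos_left _ (hDB i j)
            _ = _ := by ring
        simp only [Z]
        push_cast
        rw [abs_mul, abs_of_nonneg (by positivity), mul_assoc (DBall : ℝ)]
        refine mul_le_mul (by exact_mod_cast hq) ?_ (abs_nonneg _) (by positivity)
        simpa [e0] using hnBb i j
      · have := hCB i j
        have : 0 ≤ ∏ k, (H k : ℝ) ^ (M - d k) := Finset.prod_nonneg fun k _ =>
          pow_nonneg (hHpos k).le _
        positivity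
    have hsplit : (∏ k, (H k : ℝ) ^ M) = P0 * ∏ k, (H k : ℝ) ^ (M - d k) := by
      rw [hP0, ← Finset.prod_mul_distrib]
      exact Finset.prod_congr rfl fun k _ => by rw [← pow_add, Nat.add_sub_cancel' (hdM k)]
    have hR : 0 < ∏ k, (H k : ℝ) ^ (M - d k) := Finset.prod_pos fun k _ => pow_pos (hHpos k) _
    have h4 : (∏ k, (H k : ℝ) ^ M) ≤
        Lw * (∏ k, (H k : ℝ) ^ (M - d k)) * ((g : ℝ) * MY) := by
      calc (∏ k, (H k : ℝ) ^ M) ≤ ((DFall * DBall : ℕ) : ℝ) * |∏ k, (w k (i k) : ℝ) ^ M| := by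
            rw [h2]
            refine le_mul_of_one_le_left (Finset.prod_nonneg fun k _ => pow_nonneg (hHpos k).le _) ?_
            exact_mod_cast Nat.mul_pos hDFall0 hDBall0
        _ = |∑ j, (Z i j : ℝ) * Y j| := by
            rw [← h1]; push_cast
            rw [abs_mul, abs_of_nonneg (show (0 : ℝ) ≤ (DFall : ℝ) * DBall by positivity)]
        _ ≤ ∑ j, DBall * CB i j * (∏ k, (H k : ℝ) ^ (M - d k)) * ((g : ℝ) * MY) :=
            (Finset.abs_sum_le_sum_abs _ _).trans (Finset.sum_le_sum fun j _ => h3 j)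
        _ = (DBall * ∑ j, CB i j) * (∏ k, (H k : ℝ) ^ (M - d k)) * ((g : ℝ) * MY) := by
            rw [Finset.mul_sum, Finset.sum_mul, Finset.sum_mul]
        _ ≤ _ := by
            gcongr
            have := Finset.single_le_sum (f := fun l => ∑ j, CB l j)
              (fun l _ => Finset.sum_nonneg fun j _ => hCB l j) (Finset.mem_univ i)
            have h6 := mul_le_mul_of_nonneg_left this (Nat.cast_nonneg (α := ℝ) DBall)
            rw [hLw]; linarith
    rw [hsplit] at h4
    nlinarith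
  rw [hheight]
  have hlogP : Real.log P0 = ∑ k, (d k : ℝ) * Height.logHeight (z k) := by
    rw [hP0, Real.log_prod (fun k _ => (pow_pos (hHpos k) _).ne')]
    exact Finset.sum_congr rfl fun k _ => by rw [Real.log_pow, hHh]
  rw [← hlogP]
  have hMYr : (0 : ℝ) < MY := by exact_mod_cast hMYpos
  have hgr : (1 : ℝ) ≤ g := by exact_mod_cast hgpos
  have hgle : (g : ℝ) ≤ ((DFall * DBall : ℕ) : ℝ) := by
    have := Int.le_of_dvd (by exact_mod_cast Nat.mul_pos hDFall0 hDBall0) hgdvd
    exact_mod_cast this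
  have l1 := Real.log_le_log (by positivity) hup
  have l2 := Real.log_le_log hP0pos hlow
  rw [Real.log_mul (by positivity) hMYr.ne', Real.log_mul hU0.ne' hP0pos.ne'] at l1
  rw [Real.log_mul hLw0.ne' (by positivity), Real.log_mul (by positivity) hMYr.ne'] at l2
  have l3 := Real.log_le_log (by positivity) hgle
  have l4 := Real.log_nonneg hgr
  rw [abs_le]
  have a1 := le_abs_self (Real.log U)
  have a2 := le_abs_self (Real.log Lw)
  have a3 := abs_nonneg (Real.log U)
  have a4 := abs_nonneg (Real.log Lw)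
  constructor <;> linarith

/-- A system with no solution over `ℚ̄` has none modulo any place outside finitely many primes. -/
theorem no_zero_mod {E : Type} (P : E → MvPolynomial σv Qb)
    (hne : ∀ x : σv → Qb, (∀ e, aeval x (P e) = 0) → ∃ k, ∀ i, x ⟨k, i⟩ = 0) :
    ∃ M : ℕ, M ≠ 0 ∧ ∀ A : ValuationSubring Qb, (M : Qb) ∉ A.nonunits →
      ∀ z : σv → Qb, (∀ v, z v ∈ A) → (∀ k, ∃ i, z ⟨k, i⟩ ∉ A.nonunits) →
      ∃ e, aeval z (P e) ∉ A.nonunits := by
  classical
  have hrad : ∀ l : (k : κ) → ι k, ∃ n : ℕ, ∃ B : E →₀ MvPolynomial σv Qb,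
      (∏ k, X (⟨k, l k⟩ : σv)) ^ n = B.sum fun e b => b * P e := by
    intro l
    have hmem : (∏ k, X (⟨k, l k⟩ : σv)) ∈
        vanishingIdeal Qb (zeroLocus Qb (Ideal.span (Set.range P))) := by
      rw [mem_vanishingIdeal_iff]
      intro x hx
      rw [map_prod]
      obtain ⟨k, hk⟩ := hne x fun e => hx _ (Ideal.subset_span ⟨e, rfl⟩)
      exact Finset.prod_eq_zero (Finset.mem_univ k) (by simp [hk])
    rw [vanishingIdeal_zeroLocus_eq_radical] at hmem
    obtain ⟨n, hn⟩ := hmem
    obtain ⟨B, hB⟩ := Finsupp.mem_span_range_iff_exists_finsupp.mp hn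
    exact ⟨n, B, by simpa [smul_eq_mul] using hB.symm⟩
  choose n B hB using hrad
  have hden : ∀ c : Qb, ∃ d : ℕ, d ≠ 0 ∧ IsIntegral ℤ ((d : Qb) * c) := by
    intro c
    have : Algebra.IsAlgebraic ℚ Qb := AlgebraicClosure.isAlgebraic ℚ
    obtain ⟨y, hy0, hy⟩ := ((IsFractionRing.isAlgebraic_iff ℤ ℚ Qb).mpr
      (Algebra.IsAlgebraic.isAlgebraic (R := ℚ) c)).exists_integral_multiple
    refine ⟨y.natAbs, Int.natAbs_ne_zero.mpr hy0, ?_⟩
    rcases Int.natAbs_eq y with h | h
    · rw [← Int.cast_natCast (R := Qb), ← h, ← zsmul_eq_mul]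
      exact hy
    · rw [← Int.cast_natCast (R := Qb), show ((y.natAbs : ℤ)) = -y by omega, Int.cast_neg, neg_mul,
        ← zsmul_eq_mul]
      exact hy.neg
  choose den hden0 hdenI using hden
  let M : ℕ := ∏ l, ∏ e ∈ (B l).support, ∏ m ∈ (B l e).support, den (coeff m (B l e))
  refine ⟨M, Finset.prod_ne_zero_iff.mpr fun l _ => Finset.prod_ne_zero_iff.mpr fun e _ =>
    Finset.prod_ne_zero_iff.mpr fun m _ => hden0 _, fun A hA z hz hu => ?_⟩
  by_contra hall
  push Not at hall
  choose l hl using hu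
  have hcoef : ∀ e ∈ (B l).support, ∀ m ∈ (B l e).support, coeff m (B l e) ∈ A := by
    intro e he m hm
    set c := coeff m (B l e)
    have hd : den c ∣ M :=
      ((Finset.dvd_prod_of_mem (fun m => den (coeff m (B l e))) hm).trans (Finset.dvd_prod_of_mem
          (fun e => ∏ m ∈ (B l e).support, den (coeff m (B l e))) he)).trans
        (Finset.dvd_prod_of_mem (fun l' => ∏ e ∈ (B l').support, ∏ m ∈ (B l' e).support,
          den (coeff m (B l' e))) (Finset.mem_univ l))
    have hint : (den c : Qb) * c ∈ A := by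
      have hA' : IsIntegral A ((den c : Qb) * c) := (hdenI c).tower_top
      obtain ⟨y, hy⟩ := IsIntegrallyClosed.algebraMap_eq_of_integral hA'
      rw [← hy]; exact y.2
    obtain ⟨r, hr⟩ := hd
    have hval : A.valuation (den c : Qb) = 1 := by
      refine le_antisymm ((A.valuation_le_one_iff _).mpr (natCast_mem A _)) (not_lt.mp fun hlt => hA ?_)
      rw [ValuationSubring.mem_nonunits_iff, hr, Nat.cast_mul, map_mul]
      exact mul_lt_one_of_nonneg_of_lt_one_left zero_le hlt
        ((A.valuation_le_one_iff _).mpr (natCast_mem A _))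
    rw [← A.valuation_le_one_iff]
    have := (A.valuation_le_one_iff _).mpr hint
    rwa [map_mul, hval, one_mul] at this
  have heval : ∀ e ∈ (B l).support, aeval z (B l e) ∈ A := by
    intro e he
    rw [(B l e).as_sum, map_sum]
    refine sum_mem fun m hm => ?_
    rw [aeval_monomial]
    refine mul_mem (hcoef e he m hm) ?_
    rw [Finsupp.prod]
    exact prod_mem fun v _ => pow_mem (hz v) _
  have h := congrArg (aeval z) (hB l)
  rw [map_pow, map_prod, Finsupp.sum, map_sum] at h
  have hlt : A.valuation (∑ e ∈ (B l).support, aeval z (B l e * P e)) < 1 := by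
    refine A.valuation.map_sum_lt' zero_lt_one fun e he => ?_
    rw [map_mul, map_mul]
    exact mul_lt_one_of_nonneg_of_lt_one_right ((A.valuation_le_one_iff _).mpr (heval e he))
      zero_le ((ValuationSubring.mem_nonunits_iff _).mp (hall e))
  rw [← h] at hlt
  simp only [aeval_X, map_pow, map_prod] at hlt
  have hone : ∀ k, A.valuation (z ⟨k, l k⟩) = 1 := fun k =>
    le_antisymm ((A.valuation_le_one_iff _).mpr (hz _)) (not_lt.mp fun hh =>
      hl k ((ValuationSubring.mem_nonunits_iff _).mpr hh))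
  simp [hone] at hlt

end Fermat.Agent.MWJ0

end
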