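import Fermat.Agent.MWJ0.Classes
import Fermat.Agent.MWJ0.NSS
import Mathlib.FieldTheory.Galois.Infinite

/-!
# Heights of rational tensors and rational functions

A divisor fixed by all automorphisms of `ℚ̄` has rational tensors, and a fixed principal divisor
has a rational function; their heights do not depend on the choices.
-/

set_option autoImplicit false

noncomputable section

open AlgebraicCurve ModularCurve Module Function

namespace Fermat.Agent.MWJ0

local notation "Qb" => AlgebraicClosure ℚ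

/-- A rational vector as a vector over `ℚ̄`. -/
def ratC {ι : Type*} (q : ι → ℚ) : ι → Qb := fun i => algebraMap ℚ Qb (q i)

lemma ratC_ne_zero {ι : Type*} {q : ι → ℚ} : ratC q ≠ 0 ↔ q ≠ 0 := by
  simp only [Ne, funext_iff, ratC, Pi.zero_apply, map_eq_zero]

local instance isGaloisQbar_hb : IsGalois ℚ (AlgebraicClosure ℚ) :=
  have : Algebra.IsAlgebraic ℚ (AlgebraicClosure ℚ) := AlgebraicClosure.isAlgebraic ℚ
  have : IsAlgClosure ℚ (AlgebraicClosure ℚ) := ⟨inferInstance, inferInstance⟩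
  have : Normal ℚ (AlgebraicClosure ℚ) := IsAlgClosure.normal ℚ (AlgebraicClosure ℚ)
  IsGalois.mk

lemma exists_ratC_of_fixed {ι : Type*} {x : ι → Qb} (h : ∀ (σ : Qb ≃ₐ[ℚ] Qb) i, σ (x i) = x i) :
    ∃ q : ι → ℚ, ratC q = x := by
  choose q hq using fun i =>
    (InfiniteGalois.mem_range_algebraMap_iff_fixed (k := ℚ) (x i)).mpr fun σ => h σ i
  exact ⟨q, funext hq⟩

lemma eq_rat_smul {ι : Type*} {q q' : ι → ℚ} {c : Qb} (hq : q ≠ 0)
    (h : ∀ i, ratC q' i = c * ratC q i) (hc : c ≠ 0) : ∃ r : ℚ, r ≠ 0 ∧ q' = r • q := by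
  obtain ⟨i, hi⟩ := Function.ne_iff.mp hq
  have hcr : c = algebraMap ℚ Qb (q' i / q i) := by
    rw [map_div₀, eq_div_iff (by simpa using hi)]
    exact (h i).symm
  refine ⟨q' i / q i, fun h0 => hc (by rw [hcr, h0, map_zero]), funext fun j => ?_⟩
  refine (algebraMap ℚ Qb).injective ?_
  rw [Pi.smul_apply, smul_eq_mul, map_mul, ← hcr]
  exact h j

namespace Setup

variable (S : Setup)

local notation "FQ" => laurentBaseChange Qb S.F₀

/-- Fixed by all automorphisms of `ℚ̄`. -/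
def Fixed (D : Divisor Qb FQ) : Prop := ∀ σ : Qb ≃ₐ[ℚ] Qb, S.gal Qb σ • D = D

lemma Fixed.add {D D' : Divisor Qb FQ} (h : S.Fixed D) (h' : S.Fixed D') : S.Fixed (D + D') :=
  fun σ => by rw [smul_add, h σ, h' σ]

lemma fixed_zero : S.Fixed 0 := fun _ => smul_zero _

/-- A Galois-fixed effective divisor has a rational tensor. -/
theorem exists_rat_ten {d b : ℕ} {D : Divisor Qb FQ} (hD : 0 ≤ D) (hn : Divisor.degree D = d)
    (hb : 2 * S.g + d ≤ b) (hfix : S.Fixed D) :
    ∃ q : (Fin d → S.Idx b) → ℚ, S.IsTen b (ratC q) D := by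
  obtain ⟨e₀, he₀⟩ := S.exists_isTen hD hn hb
  obtain ⟨e, I, he, hI⟩ := S.exists_normalised he₀
  obtain ⟨q, rfl⟩ := exists_ratC_of_fixed (x := e) fun σ J => by
    have h1 := he.gal S σ hD hn hb
    rw [hfix σ] at h1
    exact congrFun (he.eq_of_apply_eq S h1 (I := I) hI (by simp [hI])) J
  exact ⟨q, he⟩

open Classical in
/-- The height of the rational tensor of `D` in level `b`. -/
def ht (d b : ℕ) (D : Divisor Qb FQ) : ℝ :=
  if h : ∃ q : (Fin d → S.Idx b) → ℚ, S.IsTen b (ratC q) D then Height.logHeight h.choose else 0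

lemma ht_eq {d b : ℕ} {D : Divisor Qb FQ} {q : (Fin d → S.Idx b) → ℚ}
    (h : S.IsTen b (ratC q) D) : S.ht d b D = Height.logHeight q := by
  have hex : ∃ q : (Fin d → S.Idx b) → ℚ, S.IsTen b (ratC q) D := ⟨q, h⟩
  rw [ht, dif_pos hex]
  obtain ⟨c, hc, hcq⟩ := h.unique hex.choose_spec
  obtain ⟨r, hr, e⟩ := eq_rat_smul (ratC_ne_zero.mp h.ne_zero) hcq hc
  rw [e, Height.logHeight_smul_eq_logHeight _ hr]

lemma ht_rank_zero (b : ℕ) (D : Divisor Qb FQ) : S.ht 0 b D = 0 := by
  rw [ht]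
  split_ifs
  · exact Height.logHeight_eq_zero_of_subsingleton _
  · rfl

/-- The function with coordinates `x` has divisor `X - p·∞`. -/
def IsFun (p : ℕ) (X : Divisor Qb FQ) (x : S.Idx p → Qb) : Prop :=
  x ≠ 0 ∧ ∀ v : Place Qb FQ, v.ord (S.realF Qb p x) = X v - S.binf Qb (p : ℤ) v

lemma IsFun.realF_ne_zero {p : ℕ} {X : Divisor Qb FQ} {x : S.Idx p → Qb} (h : S.IsFun p X x) :
    S.realF Qb p x ≠ 0 := fun e => h.1 (S.realF_injective Qb p (e.trans (map_zero _).symm))

lemma finrank_Lsp_zero : finrank Qb (riemannRochSpace (0 : Divisor Qb FQ)) = 1 := by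
  have := (S.rr Qb).finite (0 : Divisor Qb FQ)
  have h1 := (S.rr Qb).finrank_sub_single (0 : Divisor Qb FQ) (S.inf Qb)
  rw [(S.rr Qb).Lsp_eq_bot_of_degree_neg (D := 0 - Finsupp.single (S.inf Qb) 1) (by
    rw [map_sub, map_zero, (S.rr Qb).degree_single]; omega), finrank_bot] at h1
  have h2 : (1 : FQ) ∈ riemannRochSpace (0 : Divisor Qb FQ) := by
    rw [mem_Lsp]
    exact fun v => Or.inr (by simp [Place.ord_one])
  have h3 : riemannRochSpace (0 : Divisor Qb FQ) ≠ ⊥ := fun e => by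
    rw [e, Submodule.mem_bot] at h2
    exact one_ne_zero h2
  have h4 := mt Submodule.finrank_eq_zero.mp h3
  omega

lemma IsFun.exists_smul {p : ℕ} {X : Divisor Qb FQ} {x x' : S.Idx p → Qb} (h : S.IsFun p X x)
    (h' : S.IsFun p X x') : ∃ c : Qb, c ≠ 0 ∧ x' = c • x := by
  have hz : S.realF Qb p x ≠ 0 := h.realF_ne_zero S
  have hz' : S.realF Qb p x' ≠ 0 := h'.realF_ne_zero S
  have hq : S.realF Qb p x' / S.realF Qb p x ∈ riemannRochSpace (0 : Divisor Qb FQ) := by
    rw [mem_Lsp_of_ne_zero (div_ne_zero hz' hz)]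
    intro v
    rw [div_eq_mul_inv, v.ord_mul hz' (inv_ne_zero hz), v.ord_inv, h.2, h'.2]
    simp
  obtain ⟨c, hc⟩ := S.eq_algebraMap_of_finrank_one le_rfl S.finrank_Lsp_zero hq
  rw [div_eq_iff hz, ← Algebra.smul_def, ← map_smul] at hc
  have hcx := S.realF_injective Qb p hc
  exact ⟨c, fun h0 => h'.1 (by rw [hcx, h0, zero_smul]), hcx⟩

lemma IsFun.mul {p q r : ℕ} (hr : p + q = r) {X Y : Divisor Qb FQ} {x : S.Idx p → Qb}
    {y : S.Idx q → Qb} (hx : S.IsFun p X x) (hy : S.IsFun q Y y) :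
    S.IsFun r (X + Y) (S.mulv p q r x y) := by
  have e := S.realF_mulv Qb hr.le x y
  have h1 : S.realF Qb r (S.mulv p q r x y) ≠ 0 := by
    rw [e]; exact mul_ne_zero (hx.realF_ne_zero S) (hy.realF_ne_zero S)
  refine ⟨fun h0 => h1 (by rw [h0, map_zero]), fun v => ?_⟩
  rw [e, v.ord_mul (hx.realF_ne_zero S) (hy.realF_ne_zero S), hx.2, hy.2, Finsupp.add_apply, ← hr,
    binf, binf, binf, Nat.cast_add, Finsupp.single_add, Finsupp.add_apply]
  ring

/-- Coordinates of a function with divisor `X - p·∞`. -/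
theorem exists_fun {p : ℕ} {X : Divisor Qb FQ} (hX : 0 ≤ X)
    (hp : X - S.binf Qb (p : ℤ) ∈ Divisor.principal (K := Qb) (F := FQ)) :
    ∃ x : S.Idx p → Qb, S.IsFun p X x := by
  obtain ⟨F, hF0, hF⟩ := hp
  have hFm : F ∈ riemannRochSpace (S.binf Qb (p : ℤ)) := by
    rw [mem_Lsp_of_ne_zero hF0]
    intro v
    have h1 := hF v
    have h2 := hX v
    simp only [Finsupp.coe_zero, Pi.zero_apply, Finsupp.sub_apply] at *
    omega
  obtain ⟨x, rfl⟩ := S.exists_realF Qb hFm
  exact ⟨x, fun e => hF0 (by rw [e, map_zero]), fun v => by rw [← hF v, Finsupp.sub_apply]⟩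

/-- A Galois-fixed principal translate has rational coordinates. -/
theorem exists_rat_fun {p : ℕ} {X : Divisor Qb FQ} (hX : 0 ≤ X)
    (hp : X - S.binf Qb (p : ℤ) ∈ Divisor.principal (K := Qb) (F := FQ)) (hfix : S.Fixed X) :
    ∃ q : S.Idx p → ℚ, S.IsFun p X (ratC q) := by
  obtain ⟨x₀, hx₀⟩ := S.exists_fun hX hp
  obtain ⟨j, hj⟩ := Function.ne_iff.mp hx₀.1
  replace hj : x₀ j ≠ 0 := by simpa using hj
  set x := (x₀ j)⁻¹ • x₀ with hx
  have hxj : x j = 1 := by simp [hx, inv_mul_cancel₀ hj]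
  have hfun : S.IsFun p X x := by
    refine ⟨smul_ne_zero (inv_ne_zero hj) hx₀.1, fun v => ?_⟩
    rw [hx, map_smul, Algebra.smul_def,
      v.ord_mul ((map_ne_zero_iff _ (algebraMap Qb FQ).injective).mpr (inv_ne_zero hj))
        (hx₀.realF_ne_zero S), ord_algebraMap v (inv_ne_zero hj), zero_add, hx₀.2]
  obtain ⟨q, hq⟩ := exists_ratC_of_fixed (x := x) fun σ i => by
    have hσ : S.IsFun p X (fun i => σ (x i)) := by
      refine ⟨fun h0 => by simpa [hxj] using congrFun h0 j, fun v => ?_⟩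
      rw [← S.gal_realF σ p x]
      have h3 := SemilinearAut.ord_smul (S.gal Qb σ) ((S.gal Qb σ)⁻¹ • v) (S.realF Qb p x)
      rw [smul_inv_smul, hfun.2] at h3
      rw [h3, ← SemilinearAut.divisor_smul_apply, ← SemilinearAut.divisor_smul_apply, hfix σ,
        smul_binf]
    obtain ⟨c, -, hc⟩ := hfun.exists_smul S hσ
    have h1 := congrFun hc j
    have h2 := congrFun hc i
    simp only [hxj, map_one, Pi.smul_apply, smul_eq_mul, mul_one] at h1
    simpa [← h1] using h2
  exact ⟨q, hq ▸ hfun⟩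

open Classical in
/-- The height of the rational function with divisor `X - p·∞`. -/
def hfun (p : ℕ) (X : Divisor Qb FQ) : ℝ :=
  if h : ∃ q : S.Idx p → ℚ, S.IsFun p X (ratC q) then Height.logHeight h.choose else 0

lemma hfun_eq {p : ℕ} {X : Divisor Qb FQ} {q : S.Idx p → ℚ} (h : S.IsFun p X (ratC q)) :
    S.hfun p X = Height.logHeight q := by
  have hex : ∃ q : S.Idx p → ℚ, S.IsFun p X (ratC q) := ⟨q, h⟩
  rw [hfun, dif_pos hex]
  obtain ⟨c, hc, hcq⟩ := h.exists_smul S hex.choose_spec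
  obtain ⟨r, hr, e⟩ := eq_rat_smul (ratC_ne_zero.mp h.1) (fun i => congrFun hcq i) hc
  rw [e, Height.logHeight_smul_eq_logHeight _ hr]

lemma ratC_mulv {p q r : ℕ} (x : S.Idx p → ℚ) (y : S.Idx q → ℚ) :
    ratC (S.mulv p q r x y) = S.mulv p q r (ratC x) (ratC y) := by
  funext l
  exact S.map_mulv (Algebra.ofId ℚ Qb) p q r x y l

/-- The height of a product of two functions is the sum of the heights up to a constant. -/
theorem exists_height_mulv {p q r : ℕ} (hr : p + q = r) :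
    ∃ C : ℝ, ∀ (x : S.Idx p → ℚ) (y : S.Idx q → ℚ), x ≠ 0 → y ≠ 0 →
      |Height.logHeight (S.mulv p q r x y) - (Height.logHeight x + Height.logHeight y)| ≤ C := by
  classical
  let ι : Bool → Type := fun b =>
    Fin (bif b then finrank ℚ (S.V (p : ℤ)) else finrank ℚ (S.V (q : ℤ)))
  let F : S.Idx r → MvPolynomial (Σ b, ι b) ℚ := fun l =>
    S.mulv p q r (fun i => MvPolynomial.X ⟨true, i⟩) (fun j => MvPolynomial.X ⟨false, j⟩) l
  have hev : ∀ {A : Type} [CommRing A] [Algebra ℚ A] (z : (Σ b, ι b) → A) (l : S.Idx r),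
      MvPolynomial.aeval z (F l) = S.mulv p q r (fun i => z ⟨true, i⟩) (fun j => z ⟨false, j⟩) l := by
    intro A _ _ z l
    simp only [F, map_mulv, MvPolynomial.aeval_X]
  obtain ⟨C, hC⟩ := height_estimate (κ := Bool) (ι := ι) (E := Empty) (fun e => e.elim) F
    (fun _ => 1) (fun x _ s e => e.elim)
    (fun x s l => by
      rw [hev, hev]
      simp only [mulv, Fintype.prod_bool, pow_one, Finset.mul_sum]
      refine Finset.sum_congr rfl fun i _ => Finset.sum_congr rfl fun j _ => ?_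
      simp only [Algebra.smul_def]
      ring)
    (fun x _ hx => by
      by_contra hcon
      push Not at hcon
      have h0 : S.mulv p q r (fun i => x ⟨true, i⟩) (fun j => x ⟨false, j⟩) = 0 :=
        funext fun l => by rw [← hev]; exact hcon l
      have h1 := S.realF_mulv Qb hr.le (fun i => x ⟨true, i⟩) (fun j => x ⟨false, j⟩)
      rw [h0, map_zero] at h1
      obtain ⟨i, hi⟩ := hx true
      obtain ⟨j, hj⟩ := hx false
      rcases mul_eq_zero.mp h1.symm with h | h
      · exact hi (congrFun (S.realF_injective Qb p (h.trans (map_zero _).symm)) i)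
      · exact hj (congrFun (S.realF_injective Qb q (h.trans (map_zero _).symm)) j))
  refine ⟨C, fun x y hx hy => ?_⟩
  have h := hC (fun b => match b with | true => x | false => y) (fun e => e.elim)
    (fun b => by cases b <;> assumption)
  simpa [hev, Fintype.sum_bool] using h

end Setup

end Fermat.Agent.MWJ0

end
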