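import Fermat.Agent.MWJ0.HeightBasic
import Mathlib.LinearAlgebra.FreeModule.Finite.CardQuotient
import Mathlib.LinearAlgebra.FreeModule.PID
import Mathlib.LinearAlgebra.Matrix.Basis

/-!
# Short vectors in a subspace given by an integral Plücker tensor

A subspace of codimension `n` in `ℚ^ι` with integral Plücker tensor `z` contains a nonzero
integral vector `w` with `‖w‖ ^ k ≤ const · ‖z‖`, where `k = #ι - n`.
-/

set_option autoImplicit false

noncomputable section

open Function Module Matrix

namespace Fermat.Agent.MWJ0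

variable {ι : Type} [Fintype ι] [DecidableEq ι] {n : ℕ}

local notation "Qb" => AlgebraicClosure ℚ

/-- The slot map of an integral tensor at a multi-index. -/
def slotMap (z : (Fin n → ι) → ℤ) (I : Fin n → ι) : (ι → ℤ) →ₗ[ℤ] (Fin n → ℤ) where
  toFun v t := slot z I t v
  map_add' a b := by ext t; simp [slot, add_mul, Finset.sum_add_distrib]
  map_smul' c a := by ext t; simp [slot, Finset.mul_sum, mul_assoc]

/-- An integral tensor over `ℚ̄`. -/
def intC (z : (Fin n → ι) → ℤ) : (Fin n → ι) → Qb := fun I => (z I : Qb)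

omit [DecidableEq ι] in
lemma cast_slotMap (z : (Fin n → ι) → ℤ) (I : Fin n → ι) (v : ι → ℤ) (t : Fin n) :
    ((slotMap z I v t : ℤ) : Qb) = slot (intC z) I t fun j => (v j : Qb) := by
  simp [slotMap, slot, intC]

section

variable {z : (Fin n → ι) → ℤ} {W : Submodule Qb (ι → Qb)} (h : IsPl (intC z) W)
  {I : Fin n → ι} (hI : z I ≠ 0)
include h hI

lemma mem_of_slotMap_eq_zero {v : ι → ℤ} (hv : slotMap z I v = 0) :
    (fun j => (v j : Qb)) ∈ W := by
  have hI' : intC z I ≠ 0 := by simp [intC, hI]
  rw [eq_of_slot_eq_zero (intC z) hI' (w := fun j => (v j : Qb))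
    fun i => by rw [← cast_slotMap, hv]; simp]
  exact Submodule.sum_mem _ fun j _ => Submodule.smul_mem _ _ (h.cram_mem I j)

lemma slotMap_single (k : Fin n) :
    slotMap z I (Pi.single (I k) 1) = z I • Pi.single k 1 := by
  funext t
  show slot z I t _ = _
  rw [slot, Finset.sum_eq_single (I k) (fun j _ hj => by simp [hj]) (by simp)]
  rcases eq_or_ne t k with rfl | ht
  · simp
  · have := h.alt.eq_zero (I := update I t (I k)) ht (by simp [update_of_ne (Ne.symm ht)])
    simp only [intC, Int.cast_eq_zero] at this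
    simp [this, ht]

omit [DecidableEq ι] in
lemma injective_index : Injective I := by
  intro t t' e
  by_contra hne
  have := h.alt.eq_zero (I := I) hne e
  simp only [intC, Int.cast_eq_zero] at this
  exact hI this

/-- Cramer's identity. -/
theorem det_slotMap (v : Fin n → ι → ℤ) :
    z I * (Matrix.of fun s => slotMap z I (v s)).det = z I ^ n * ev z v := by
  let L : (ι → Qb) →ₗ[Qb] (Fin n → Qb) :=
    { toFun := fun w t => slot (intC z) I t w
      map_add' := fun a b => by ext t; simp [slot, add_mul, Finset.sum_add_distrib]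
      map_smul' := fun c a => by ext t; simp [slot, Finset.mul_sum, mul_assoc] }
  have hI' : intC z I ≠ 0 := by simp [intC, hI]
  have hk : LinearMap.ker L = W := by
    refine le_antisymm (fun w hw => ?_) fun w hw => funext fun t => h.le_ker hw I t
    rw [eq_of_slot_eq_zero (intC z) hI' fun t => congrFun (LinearMap.mem_ker.mp hw) t]
    exact Submodule.sum_mem _ fun j _ => Submodule.smul_mem _ _ (h.cram_mem I j)
  have hsingle : ∀ k, L (fun l => if l = I k then 1 else 0) = intC z I • Pi.single k 1 := by
    intro k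
    funext t
    have h1 := congrFun (slotMap_single h hI k) t
    have h2 := cast_slotMap z I (Pi.single (I k) 1) t
    rw [h1] at h2
    rcases eq_or_ne t k with rfl | ht
    · simpa [L, Pi.single_apply, intC] using h2.symm
    · simpa [L, Pi.single_apply, intC, ht] using h2.symm
  have hs : Surjective L := fun y => ⟨∑ k, ((intC z I)⁻¹ * y k) • (fun l => if l = I k then 1 else 0), by
    rw [map_sum]
    simp only [map_smul, hsingle, smul_smul]
    funext t
    simp [Finset.sum_apply, Pi.single_apply]
    field_simp⟩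
  obtain ⟨c, -, hc⟩ := h.ev_eq hs hk
  have hdiag : dform L (fun t l => if l = I t then (1 : Qb) else 0) = intC z I ^ n := by
    rw [dform, show (Matrix.of fun t => L (fun l => if l = I t then (1 : Qb) else 0))
      = Matrix.diagonal fun _ => intC z I from Matrix.ext fun t u => by
        rw [Matrix.of_apply, hsingle, Matrix.diagonal_apply]
        rcases eq_or_ne t u with rfl | hne
        · simp
        · simp [hne, Ne.symm hne], Matrix.det_diagonal, Finset.prod_const, Finset.card_univ,
      Fintype.card_fin]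
  have h1 := hc fun t l => if l = I t then (1 : Qb) else 0
  rw [ev_unit_eq, hdiag] at h1
  have h2 := hc fun s j => (v s j : Qb)
  have h3 : ev (intC z) (fun s j => (v s j : Qb)) = ((ev z v : ℤ) : Qb) := by
    simp [ev, intC]
  have h4 : dform L (fun s j => (v s j : Qb))
      = (((Matrix.of fun s => slotMap z I (v s)).det : ℤ) : Qb) := by
    rw [dform, show (((Matrix.of fun s => slotMap z I (v s)).det : ℤ) : Qb) =
      Int.castRingHom Qb (Matrix.of fun s => slotMap z I (v s)).det from rfl, RingHom.map_det]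
    congr 1
    ext s t
    exact (cast_slotMap z I (v s) t).symm
  rw [h3, h4] at h2
  refine Int.cast_injective (α := Qb) ?_
  rw [Int.cast_mul, Int.cast_mul, Int.cast_pow, show (z I : Qb) = intC z I from rfl, h2]
  linear_combination (((Matrix.of fun s => slotMap z I (v s)).det : ℤ) : Qb) * h1
where
  ev_unit_eq : ev (intC z) (fun t l => if l = I t then (1 : Qb) else 0) = intC z I := by
    rw [← ev_single (intC z) I]
    congr 1
    funext t l
    simp [Pi.single_apply]

/-- **Short vectors.** -/
theorem exists_short_vector {k : ℕ} (hk : n + k = Fintype.card ι) (hk0 : 0 < k)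
    (hmax : ∀ J, |z J| ≤ |z I|) :
    ∃ w : ι → ℤ, w ≠ 0 ∧ (fun j => (w j : Qb)) ∈ W ∧
      ∀ j, |w j| ^ k ≤ (Fintype.card ι : ℤ) ^ k * |z I| := by
  classical
  set E := (z I).natAbs with hEdef
  have hE : 0 < E := Int.natAbs_pos.mpr hI
  have : NeZero E := ⟨hE.ne'⟩
  let Q : Submodule ℤ (Fin n → ℤ) := LinearMap.range (slotMap z I)
  have hsingQ : ∀ t, z I • (Pi.single t 1 : Fin n → ℤ) ∈ Q := fun t =>
    ⟨_, slotMap_single h hI t⟩
  have hdivQ : ∀ y : Fin n → ℤ, (∀ t, z I ∣ y t) → y ∈ Q := by
    intro y hy
    choose c hc using hy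
    have : y = ∑ t, c t • (z I • (Pi.single t 1 : Fin n → ℤ)) := by
      funext t
      simp [Finset.sum_apply, Pi.single_apply, hc t, mul_comm]
    rw [this]
    exact Submodule.sum_mem _ fun t _ => Submodule.smul_mem _ _ (hsingQ t)
  -- the index of `Q`
  have hrank : finrank ℤ Q = n := by
    refine le_antisymm ((Submodule.finrank_le Q).trans_eq (by simp)) ?_
    let g : (Fin n → ℤ) →ₗ[ℤ] Q :=
      ((z I) • LinearMap.id).codRestrict Q fun y => hdivQ _ fun t => by simp
    have hg : Injective g := fun a b e => by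
      funext t
      have := congrFun (congrArg Subtype.val e) t
      exact mul_left_cancel₀ hI (by simpa [g] using this)
    simpa using LinearMap.finrank_le_finrank_of_injective hg
  let bQ := Module.finBasisOfFinrankEq ℤ Q hrank
  have hpre : ∀ s, ∃ v, slotMap z I v = (bQ s : Fin n → ℤ) := fun s => (bQ s).2
  choose v hv using hpre
  have hindex : Q.toAddSubgroup.index = ((Matrix.of fun s => slotMap z I (v s)).det).natAbs := by
    rw [AddSubgroup.index_eq_natAbs_det (Pi.basisFun ℤ (Fin n)) Q.toAddSubgroup bQ,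
      Pi.basisFun_det_apply]
    congr 2
    ext s t
    simp [hv]
  have hdet0 : (Matrix.of fun s => slotMap z I (v s)).det ≠ 0 := by
    intro h0
    have hnz := AddSubgroup.index_ne_zero_of_finite (H := Q.toAddSubgroup) (hH := by
      refine Finite.of_surjective (fun c : Fin n → Fin E =>
        (QuotientAddGroup.mk (fun t => ((c t : ℕ) : ℤ)) : (Fin n → ℤ) ⧸ Q.toAddSubgroup)) fun q => ?_
      obtain ⟨y, rfl⟩ := QuotientAddGroup.mk_surjective q
      refine ⟨fun t => ⟨((y t) % (E : ℤ)).toNat, by
        have h1 := Int.emod_lt_of_pos (y t) (by omega : (0 : ℤ) < E)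
        have h2 := Int.emod_nonneg (y t) (by omega : (E : ℤ) ≠ 0)
        omega⟩, ?_⟩
      refine (QuotientAddGroup.eq_iff_sub_mem).mpr (hdivQ _ fun t => ?_)
      show z I ∣ (((y t) % (E : ℤ)).toNat : ℤ) - y t
      rw [Int.toNat_of_nonneg (Int.emod_nonneg _ (by omega)), ← Int.natAbs_dvd, ← hEdef]
      exact Int.dvd_emod_sub_self)
    rw [hindex, h0] at hnz
    exact hnz rfl
  have hbig : E ^ n ≤ E * Q.toAddSubgroup.index := by
    have hid := det_slotMap h hI v
    have hev : ev z v ≠ 0 := fun e0 => by
      rw [e0, mul_zero] at hid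
      exact hdet0 ((mul_eq_zero.mp hid).resolve_left hI)
    have := congrArg Int.natAbs hid
    rw [Int.natAbs_mul, Int.natAbs_mul, Int.natAbs_pow, ← hindex, ← hEdef] at this
    rw [this]
    exact Nat.le_mul_of_pos_right _ (Int.natAbs_pos.mpr hev)
  -- the image modulo `E`
  let π : (Fin n → ℤ) →+ (Fin n → ZMod E) :=
    AddMonoidHom.pi fun t => (Int.castAddHom (ZMod E)).comp (Pi.evalAddMonoidHom _ t)
  have hπ : Surjective π := fun c => ⟨fun t => ((c t).val : ℤ), funext fun t => by simp [π]⟩
  have hker : π.ker ≤ Q.toAddSubgroup := by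
    intro y hy
    refine hdivQ y fun t => ?_
    have h1 := congrFun (AddMonoidHom.mem_ker.mp hy) t
    simp only [π, AddMonoidHom.pi_apply, AddMonoidHom.coe_comp, Function.comp_apply,
      Pi.evalAddMonoidHom_apply, Int.coe_castAddHom, Pi.zero_apply,
      ZMod.intCast_zmod_eq_zero_iff_dvd] at h1
    rwa [hEdef, Int.natAbs_dvd] at h1
  let G := Q.toAddSubgroup.map π
  have hcard : Nat.card G ≤ E := by
    have h1 := AddSubgroup.card_mul_index G
    rw [AddSubgroup.index_map_eq _ hπ hker, Nat.card_eq_fintype_card (α := Fin n → ZMod E),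
      Fintype.card_fun, ZMod.card, Fintype.card_fin] at h1
    have hpos : 0 < Q.toAddSubgroup.index := by
      rw [hindex]; exact Int.natAbs_pos.mpr hdet0
    refine Nat.le_of_mul_le_mul_right ?_ hpos
    exact h1.trans_le hbig
  -- pigeonhole
  have hinj := injective_index h hI
  let J := {j : ι // j ∉ Set.range I}
  have hJ : Fintype.card J = k := by
    have e := Fintype.card_subtype_compl (fun j => j ∈ Set.range I)
    simp only [J]
    rw [e, show Fintype.card {j // j ∈ Set.range I} = n from
      (Fintype.card_congr (Equiv.ofInjective I hinj)).symm.trans (Fintype.card_fin n)]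
    omega
  have hex : ∃ B, E < (B + 1) ^ k := ⟨E, Nat.lt_of_lt_of_le (Nat.lt_succ_self E)
    (Nat.le_self_pow hk0.ne' _)⟩
  set B := Nat.find hex with hB
  have hB1 : E < (B + 1) ^ k := Nat.find_spec hex
  have hB2 : B ^ k ≤ E := by
    rcases Nat.eq_zero_or_pos B with h0 | h0
    · rw [h0, zero_pow hk0.ne']; exact Nat.zero_le _
    · have := Nat.find_min hex (show B - 1 < B by omega)
      rw [Nat.sub_add_cancel h0] at this
      omega
  let ext : (J → Fin (B + 1)) → ι → ℤ := fun u j =>
    if hj : j ∉ Set.range I then ((u ⟨j, hj⟩ : ℕ) : ℤ) else 0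
  let f : (J → Fin (B + 1)) → G := fun u =>
    ⟨π (slotMap z I (ext u)), slotMap z I (ext u), ⟨_, rfl⟩, rfl⟩
  have : Fintype G := Fintype.ofFinite G
  obtain ⟨u, u', hne, heq⟩ := Fintype.exists_ne_map_eq_of_card_lt f (by
    rw [Fintype.card_fun, Fintype.card_fin, hJ, ← Nat.card_eq_fintype_card]
    exact hcard.trans_lt hB1)
  set d := ext u - ext u' with hd
  have hdvd : ∀ t, z I ∣ slotMap z I d t := by
    intro t
    have h1 := congrFun (congrArg Subtype.val heq) t
    simp only [f, π, AddMonoidHom.pi_apply, AddMonoidHom.coe_comp, Function.comp_apply,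
      Pi.evalAddMonoidHom_apply, Int.coe_castAddHom] at h1
    rw [← sub_eq_zero, ← Int.cast_sub, ZMod.intCast_zmod_eq_zero_iff_dvd, hEdef,
      Int.natAbs_dvd] at h1
    rw [hd, map_sub]
    exact h1
  choose y hy using hdvd
  have hdB : ∀ j, |d j| ≤ (B : ℤ) := by
    intro j
    simp only [hd, Pi.sub_apply, ext]
    by_cases hj : j ∈ Set.range I
    · rw [dif_neg (not_not.mpr hj), dif_neg (not_not.mpr hj)]; simp
    · rw [dif_pos hj, dif_pos hj]
      have := (u ⟨j, hj⟩).is_lt
      have := (u' ⟨j, hj⟩).is_lt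
      rw [abs_le]; constructor <;> omega
  set w := d - ∑ t, y t • (Pi.single (I t) 1 : ι → ℤ) with hw
  have hwj : ∀ j : J, w j.1 = d j.1 := by
    intro j
    simp only [hw, Pi.sub_apply, Finset.sum_apply, Pi.smul_apply, smul_eq_mul]
    rw [Finset.sum_eq_zero fun t _ => by
      rw [Pi.single_eq_of_ne (fun e => j.2 ⟨t, e.symm⟩), mul_zero], sub_zero]
  refine ⟨w, ?_, mem_of_slotMap_eq_zero h hI ?_, fun j => ?_⟩
  · intro h0
    obtain ⟨j, hj⟩ := Function.ne_iff.mp hne
    have h1 := congrFun h0 j.1
    rw [hwj] at h1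
    simp only [hd, Pi.sub_apply, ext, dif_pos j.2, Pi.zero_apply, sub_eq_zero,
      Nat.cast_inj] at h1
    exact hj (Fin.ext h1)
  · rw [hw, map_sub, map_sum]
    simp only [map_smul, slotMap_single h hI]
    funext t
    simp [Finset.sum_apply, Pi.single_apply, hy t, mul_comm]
  · have hbound : |w j| ≤ (Fintype.card ι : ℤ) * B := by
      have hc1 : (1 : ℤ) ≤ Fintype.card ι := by
        have : 0 < Fintype.card ι := by omega
        omega
      by_cases hj : j ∈ Set.range I
      · obtain ⟨t, rfl⟩ := hj
        have hdt : d (I t) = 0 := by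
          simp only [hd, Pi.sub_apply, ext]
          rw [dif_neg (not_not.mpr ⟨t, rfl⟩), dif_neg (not_not.mpr ⟨t, rfl⟩), sub_self]
        have hwt : w (I t) = -y t := by
          simp only [hw, Pi.sub_apply, Finset.sum_apply, Pi.smul_apply, smul_eq_mul, hdt, zero_sub]
          rw [Finset.sum_eq_single t (fun s _ hs => by
            rw [Pi.single_eq_of_ne (fun e => hs (hinj e).symm), mul_zero]) (by simp)]
          simp
        rw [hwt, abs_neg]
        refine le_of_mul_le_mul_left ?_ (abs_pos.mpr hI)
        rw [← abs_mul, ← hy t]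
        calc |slotMap z I d t| ≤ ∑ i, |d i * z (update I t i)| := Finset.abs_sum_le_sum_abs _ _
          _ ≤ ∑ _i : ι, (B : ℤ) * |z I| := Finset.sum_le_sum fun i _ => by
              rw [abs_mul]
              exact mul_le_mul (hdB i) (hmax _) (abs_nonneg _) (Int.natCast_nonneg _)
          _ = _ := by rw [Finset.sum_const, Finset.card_univ, nsmul_eq_mul]; ring
      · rw [hwj ⟨j, hj⟩]
        exact (hdB j).trans (le_mul_of_one_le_left (Int.natCast_nonneg _) hc1)
    calc |w j| ^ k ≤ ((Fintype.card ι : ℤ) * B) ^ k := pow_le_pow_left₀ (abs_nonneg _) hbound k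
      _ ≤ _ := by
        rw [mul_pow]
        refine mul_le_mul_of_nonneg_left ?_ (by positivity)
        rw [← Int.natCast_natAbs]
        exact_mod_cast hB2

end

end Fermat.Agent.MWJ0

end
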