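import Fermat.Agent.MWJ0.Quadratic
import Fermat.Agent.MWJ0.Lattice
import Mathlib.GroupTheory.Descent
import Mathlib.Data.Finsupp.Interval
import Mathlib.Data.Int.Interval

/-!
# The Mordell–Weil theorem for rational classes
-/

set_option autoImplicit false

noncomputable section

open AlgebraicCurve ModularCurve Module Function

namespace Fermat.Agent.MWJ0

/-- The height of an integral vector is at most the logarithm of a bound for its entries. -/
lemma logHeight_intCast_le {ι : Type} [Fintype ι] {w : ι → ℤ} (hw : w ≠ 0) {M : ℝ}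
    (hM : ∀ i, |(w i : ℝ)| ≤ M) : Height.logHeight (fun i => (w i : ℚ)) ≤ Real.log M := by
  classical
  obtain ⟨i₀, hi₀⟩ := Function.ne_iff.mp hw
  obtain ⟨w', hw', hg⟩ := Finset.extract_gcd w ⟨i₀, Finset.mem_univ _⟩
  have hgne : Finset.univ.gcd w ≠ 0 := fun e =>
    hi₀ (Finset.gcd_eq_zero_iff.mp e i₀ (Finset.mem_univ _))
  have e : (fun i => (w i : ℚ)) = ((Finset.univ.gcd w : ℤ) : ℚ) • (((↑) : ℤ → ℚ) ∘ w') := by
    funext i
    simp [hw' i (Finset.mem_univ i)]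
  have : Nonempty ι := ⟨i₀⟩
  rw [e, Height.logHeight_smul_eq_logHeight _ (by exact_mod_cast hgne),
    Rat.logHeight_eq_max_abs_of_gcd_eq_one hg]
  obtain ⟨i, hi⟩ := exists_eq_ciSup_of_finite (f := fun i => |w' i|)
  rw [← hi]
  have hg1 : (1 : ℤ) ≤ |Finset.univ.gcd w| := Int.one_le_abs hgne
  have hle : |w' i| ≤ |w i| := by
    rw [hw' i (Finset.mem_univ i), abs_mul]
    exact le_mul_of_one_le_left (abs_nonneg _) hg1
  have hpos : 0 < |w' i| := by
    have h1 := Finite.le_ciSup (fun i => |w' i|) i₀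
    rw [← hi] at h1
    have : w' i₀ ≠ 0 := fun h => hi₀ (by rw [hw' i₀ (Finset.mem_univ _), h, mul_zero]; rfl)
    exact (abs_pos.mpr this).trans_le h1
  refine Real.log_le_log (by exact_mod_cast hpos) (le_trans ?_ (hM i))
  exact_mod_cast hle

/-- Integral primitive vectors of bounded height are finite in number. -/
lemma finite_primitive_le {ι : Type} [Fintype ι] (B : ℝ) :
    {z : ι → ℤ | Finset.univ.gcd z = 1 ∧ Height.logHeight (((↑) : ℤ → ℚ) ∘ z) ≤ B}.Finite := by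
  classical
  obtain ⟨N, hN⟩ := exists_nat_ge (Real.exp B)
  refine (Set.Finite.pi (t := fun _ : ι => Set.Icc (-(N : ℤ)) N) fun _ => Set.finite_Icc _ _).subset ?_
  rintro z ⟨hg, hz⟩ i -
  have : Nonempty ι := ⟨i⟩
  rw [Rat.logHeight_eq_max_abs_of_gcd_eq_one hg] at hz
  have h1 : (|z i| : ℤ) ≤ ⨆ j, |z j| := Finite.le_ciSup (fun j => |z j|) i
  rw [Set.mem_Icc, ← abs_le]
  by_contra hlt
  push Not at hlt
  have h2 : (N : ℝ) < ((⨆ j, |z j| : ℤ) : ℝ) := by exact_mod_cast hlt.trans_le h1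
  have h3 := (Real.log_le_iff_le_exp (lt_of_le_of_lt (Nat.cast_nonneg N) h2)).mp hz
  linarith

namespace Setup

variable (S : Setup)

local notation "Qb" => AlgebraicClosure ℚ

local notation "FQ" => laurentBaseChange Qb S.F₀

/-- An integral short vector in the sections vanishing on a fixed divisor. -/
lemma exists_short_section {b : ℕ} (hb : 2 * S.g + S.n < b) {D : Divisor Qb FQ} (hD : 0 ≤ D)
    (hn : Divisor.degree D = S.n) (hf : S.Fixed D) :
    ∃ w : S.Idx b → ℚ, w ≠ 0 ∧ ratC w ∈ S.W Qb b D ∧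
      ((b : ℝ) + 1 - S.g - (S.n : ℕ)) * Height.logHeight w
        ≤ ((b : ℝ) + 1 - S.g - (S.n : ℕ)) * Real.log (Fintype.card (S.Idx b)) + S.ht S.n b D := by
  classical
  obtain ⟨q, hq⟩ := S.exists_rat_ten (b := b) hD hn (by omega) hf
  obtain ⟨c, hc, z, hz, hzq⟩ := exists_primitive (ratC_ne_zero.mp hq.ne_zero)
  have hpl : IsPl (intC z) (S.W Qb b D) := by
    have : intC z = fun J => algebraMap ℚ Qb c * ratC q J := funext fun J => by
      rw [ratC, ← map_mul, ← hzq]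
      simp [intC]
    rw [this]
    exact hq.smul S ((map_ne_zero_iff _ (algebraMap ℚ Qb).injective).mpr hc)
  obtain ⟨J₀, hJ₀⟩ := Function.ne_iff.mp hpl.ne_zero
  obtain ⟨I, -, hI⟩ := Finset.exists_max_image Finset.univ (fun J => |z J|) ⟨J₀, Finset.mem_univ _⟩
  have hI0 : z I ≠ 0 := fun h0 => hJ₀ (by
    have := hI J₀ (Finset.mem_univ _)
    rw [h0, abs_zero] at this
    simp [intC, abs_nonpos_iff.mp this])
  have hcard := S.card_Idx (b := b) (by omega)
  obtain ⟨k, hk⟩ : ∃ k, S.n + k = Fintype.card (S.Idx b) :=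
    ⟨Fintype.card (S.Idx b) - S.n, by omega⟩
  obtain ⟨w, hw0, hwW, hwb⟩ := exists_short_vector hpl hI0 hk (by omega)
    fun J => hI J (Finset.mem_univ _)
  have hw0' : (fun j => (w j : ℚ)) ≠ 0 := fun e => hw0 (funext fun j => by
    simpa using congrFun e j)
  refine ⟨fun j => (w j : ℚ), hw0', ?_, ?_⟩
  · convert hwW using 1
    funext j
    simp [ratC]
  · have hkR : (k : ℝ) = (b : ℝ) + 1 - S.g - (S.n : ℕ) := by
      have : (k : ℤ) = (b : ℤ) + 1 - S.g - S.n := by omega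
      exact_mod_cast this
    rw [← hkR, S.ht_eq hq]
    have hG : Height.logHeight q = Real.log (|z I| : ℤ) := by
      have e : (((↑) : ℤ → ℚ) ∘ z) = c • q := funext fun J => hzq J
      have : Nonempty (Fin S.n → S.Idx b) := ⟨I⟩
      rw [← Height.logHeight_smul_eq_logHeight q hc, ← e,
        Rat.logHeight_eq_max_abs_of_gcd_eq_one hz]
      congr 2
      exact le_antisymm (ciSup_le fun J => hI J (Finset.mem_univ _))
        (Finite.le_ciSup (fun J => |z J|) I)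
    rw [hG]
    have hN : (0 : ℝ) < (Fintype.card (S.Idx b) : ℝ) := by
      have : 0 < Fintype.card (S.Idx b) := by omega
      exact_mod_cast this
    have hzpos : (0 : ℝ) < ((|z I| : ℤ) : ℝ) := by exact_mod_cast abs_pos.mpr hI0
    have hk0 : 0 < k := by omega
    obtain ⟨j, -, hj⟩ := Finset.exists_max_image Finset.univ (fun j => |w j|)
      ⟨(Function.ne_iff.mp hw0).choose, Finset.mem_univ _⟩
    have hle : Height.logHeight (fun j => (w j : ℚ)) ≤ Real.log ((|w j| : ℤ) : ℝ) :=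
      logHeight_intCast_le hw0 fun i => by exact_mod_cast hj i (Finset.mem_univ _)
    have hwj : (0 : ℝ) < ((|w j| : ℤ) : ℝ) := by
      obtain ⟨i, hi⟩ := Function.ne_iff.mp hw0
      exact_mod_cast (abs_pos.mpr hi).trans_le (hj i (Finset.mem_univ _))
    have h1 : (((|w j| : ℤ) : ℝ)) ^ k
        ≤ (Fintype.card (S.Idx b) : ℝ) ^ k * ((|z I| : ℤ) : ℝ) := by exact_mod_cast hwb j
    have h2 := Real.log_le_log (pow_pos hwj k) h1
    rw [Real.log_pow, Real.log_mul (pow_pos hN k).ne' hzpos.ne', Real.log_pow] at h2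
    have h3 := mul_le_mul_of_nonneg_left hle (Nat.cast_nonneg (α := ℝ) k)
    linarith

/-- The classes that a function `z` can come from. -/
def cand (b s : ℕ) (z : S.Idx s → ℚ) : Set (Pic0 Qb FQ) :=
  {u | ∃ E : Divisor Qb FQ, 0 ≤ E ∧
    (∀ v, E v ≤ v.ord (S.realF Qb s (ratC z)) + S.binf Qb (s : ℤ) v) ∧
    u = -(S.mk0 (L := Qb) (E - S.binf Qb ((b : ℤ) - (S.n : ℕ))))}

lemma finite_cand (b s : ℕ) {z : S.Idx s → ℚ} (hz : z ≠ 0) : (S.cand b s z).Finite := by
  classical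
  have hz0 : S.realF Qb s (ratC z) ≠ 0 := fun e =>
    ratC_ne_zero.mpr hz (S.realF_injective Qb s (e.trans (map_zero _).symm))
  let Z : Divisor Qb FQ := (S.rr Qb).divisor hz0 + S.binf Qb (s : ℤ)
  refine ((Set.finite_Icc (0 : Divisor Qb FQ) Z).image fun E =>
    -(S.mk0 (L := Qb) (E - S.binf Qb ((b : ℤ) - (S.n : ℕ))))).subset ?_
  rintro _ ⟨E, hE, hEle, rfl⟩
  exact ⟨E, ⟨hE, fun v => by
    rw [Finsupp.add_apply, (S.rr Qb).divisor_apply hz0]; exact hEle v⟩, rfl⟩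

lemma mem_cand {b s r : ℕ} (hr : S.n + S.n + s = r) (hbr : b + b = r) (_hb : S.n ≤ b)
    {x : S.ratPts} {w w' : S.Idx b → ℚ} {f : S.Idx (S.n + S.n) → ℚ} {φ : S.Idx s → ℚ}
    (hw : ratC w ∈ S.W Qb b (S.rep x)) (hw0 : w ≠ 0) (hw' : ratC w' ∈ S.W Qb b (S.rep (-x)))
    (hw0' : w' ≠ 0) (hf : S.IsFun (S.n + S.n) (S.rep2 x) (ratC f)) (hφ : φ ≠ 0)
    (heq : S.mulv b b r (ratC w) (ratC w') = S.mulv (S.n + S.n) s r (ratC f) (ratC φ)) :
    x.1 ∈ S.cand b s φ := by
  have hne : ∀ {m : ℕ} {u : S.Idx m → ℚ}, u ≠ 0 → S.realF Qb m (ratC u) ≠ 0 := fun hu e =>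
    ratC_ne_zero.mpr hu (S.realF_injective Qb _ (e.trans (map_zero _).symm))
  have e := congrArg (S.realF Qb r) heq
  rw [S.realF_mulv Qb hbr.le, S.realF_mulv Qb hr.le] at e
  set E : Divisor Qb FQ := (S.rr Qb).divisor (hne hw0) + S.binf Qb (b : ℤ) - S.rep x with hE
  have hdiv : ∀ {u : S.Idx b → ℚ} (hu : u ≠ 0) {D : Divisor Qb FQ}
      (_hm : ratC u ∈ S.W Qb b D) (v : Place Qb FQ),
      D v ≤ v.ord (S.realF Qb b (ratC u)) + S.binf Qb (b : ℤ) v := fun hu D hm v => by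
    have h1 := (mem_Lsp_of_ne_zero (hne hu)).mp (S.mem_W.mp hm) v
    rw [Finsupp.sub_apply] at h1
    omega
  refine ⟨E, fun v => ?_, fun v => ?_, ?_⟩
  · have := hdiv hw0 hw v
    simp only [hE, Finsupp.coe_zero, Pi.zero_apply, Finsupp.sub_apply, Finsupp.add_apply,
      (S.rr Qb).divisor_apply (hne hw0)]
    omega
  · have h1 := hdiv hw0 hw v
    have h2 := hdiv hw0' hw' v
    have h3 := congrArg v.ord e
    rw [v.ord_mul (hne hw0) (hne hw0'), v.ord_mul (hne (ratC_ne_zero.mp hf.1)) (hne hφ),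
      hf.2 v] at h3
    have h4 : S.binf Qb (b : ℤ) v + S.binf Qb (b : ℤ) v
        = S.binf Qb ((S.n + S.n : ℕ) : ℤ) v + S.binf Qb (s : ℤ) v := by
      rw [← Finsupp.add_apply, ← Finsupp.add_apply, binf, binf, binf, ← Finsupp.single_add,
        ← Finsupp.single_add, ← Nat.cast_add, ← Nat.cast_add, hbr, hr]
    simp only [rep2, Finsupp.add_apply] at h3
    simp only [hE, Finsupp.sub_apply, Finsupp.add_apply, (S.rr Qb).divisor_apply (hne hw0)]
    omega
  · have hA : Divisor.degree (S.rep x - S.binf Qb ((S.n : ℕ) : ℤ)) = 0 := by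
      rw [map_sub, degree_binf, degree_rep, sub_self]
    have hsum : S.rep x - S.binf Qb ((S.n : ℕ) : ℤ) + (E - S.binf Qb ((b : ℤ) - (S.n : ℕ)))
        = (S.rr Qb).divisor (hne hw0) := by
      rw [hE, binf, binf, binf, Finsupp.single_sub]
      abel
    have hB : Divisor.degree (E - S.binf Qb ((b : ℤ) - (S.n : ℕ))) = 0 := by
      have := congrArg Divisor.degree hsum
      rw [map_add, hA, zero_add, (S.rr Qb).degree_divisor (hne hw0)] at this
      exact this
    have h0 : S.mk0 (S.rep x - S.binf Qb ((S.n : ℕ) : ℤ))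
        + S.mk0 (E - S.binf Qb ((b : ℤ) - (S.n : ℕ))) = 0 := by
      rw [← S.mk0_add hA hB, hsum, S.mk0_eq_zero_iff ((S.rr Qb).degree_divisor _)]
      exact (S.rr Qb).divisor_mem_principal _
    rw [← S.cls_rep x, cls]
    exact eq_neg_of_add_eq_zero_left h0

/-- The lower bound for the height. -/
theorem exists_lower {b s r : ℕ} (hr : S.n + S.n + s = r) (hbr : b + b = r)
    (hb : 2 * S.g + S.n < b) :
    ∃ K : ℝ, ∀ x : S.ratPts, ∃ φ : S.Idx s → ℤ, Finset.univ.gcd φ = 1 ∧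
      ((b : ℝ) + 1 - S.g - (S.n : ℕ)) * Height.logHeight (((↑) : ℤ → ℚ) ∘ φ) ≤ S.hR b x + K ∧
      x.1 ∈ S.cand b s (((↑) : ℤ → ℚ) ∘ φ) := by
  classical
  obtain ⟨K₁, hK₁⟩ := S.exists_height_mulv hr
  obtain ⟨K₂, hK₂⟩ := S.exists_height_mulv hbr
  set k : ℝ := (b : ℝ) + 1 - S.g - (S.n : ℕ) with hk
  have hk0 : 0 ≤ k := by
    have : ((S.g + S.n : ℕ) : ℝ) ≤ (b : ℝ) := Nat.cast_le.mpr (by omega)
    push_cast at this
    rw [hk]; linarith
  refine ⟨2 * (k * Real.log (Fintype.card (S.Idx b))) + k * (K₁ + K₂), fun x => ?_⟩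
  obtain ⟨w, hw0, hwW, hwh⟩ :=
    S.exists_short_section hb (S.rep_nonneg x) (S.degree_rep x) (S.fixed_rep x)
  obtain ⟨w', hw0', hwW', hwh'⟩ :=
    S.exists_short_section hb (S.rep_nonneg (-x)) (S.degree_rep _) (S.fixed_rep _)
  obtain ⟨hX1, hX2, hX3, hX4⟩ := S.prin_rep2 x
  obtain ⟨f, hf⟩ := S.exists_rat_fun hX1 hX4 hX3
  -- divide by `f`
  have hmap : (⊤ : Submodule Qb (S.Idx s → Qb)).map (S.mulL (r := r) (ratC f))
      = S.W Qb r (S.rep2 x) := by
    refine Submodule.eq_of_le_of_finrank_eq ?_ ?_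
    · rintro _ ⟨u, -, rfl⟩
      have hfW : ratC f ∈ S.W Qb (S.n + S.n) (S.rep2 x) := by
        rw [mem_W, mem_Lsp_of_ne_zero (hf.realF_ne_zero S)]
        intro v
        rw [hf.2 v, Finsupp.sub_apply]
        omega
      have := S.mulv_mem_W hr hfW (S.mem_W_zero u)
      rwa [add_zero] at this
    · rw [← (Submodule.equivMapOfInjective _ (S.mulL_injective hr.le hf.1) _).finrank_eq,
        finrank_top, Module.finrank_fintype_fun_eq_card]
      have h1 := S.finrank_W_add hX1 hX2 (b := r) (by omega)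
      have h2 := S.card_Idx (b := r) (by omega)
      have h3 := S.card_Idx (b := s) (by omega)
      omega
  obtain ⟨φ₀, -, hφ₀⟩ : S.mulv b b r (ratC w) (ratC w') ∈
      (⊤ : Submodule Qb (S.Idx s → Qb)).map (S.mulL (r := r) (ratC f)) := by
    rw [hmap, rep2]
    exact S.mulv_mem_W hbr hwW hwW'
  have hφ₀' : S.mulv (S.n + S.n) s r (ratC f) φ₀ = ratC (S.mulv b b r w w') := by
    rw [ratC_mulv]; exact hφ₀
  obtain ⟨φ, rfl⟩ := exists_ratC_of_fixed (x := φ₀) fun σ i => by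
    refine congrFun (S.mulL_injective (r := r) hr.le hf.1 (a₁ := fun i => σ (φ₀ i)) ?_) i
    show S.mulv (S.n + S.n) s r (ratC f) (fun i => σ (φ₀ i)) = S.mulv (S.n + S.n) s r (ratC f) φ₀
    funext l
    have h1 := S.map_mulv (σ : Qb →ₐ[ℚ] Qb) (S.n + S.n) s r (ratC f) φ₀ l
    have h2 := congrFun hφ₀' l
    rw [h2] at h1
    rw [h2]
    simp only [ratC, AlgEquiv.coe_toAlgHom, AlgEquiv.commutes] at h1
    exact h1.symm
  have hmul : S.mulv (S.n + S.n) s r f φ = S.mulv b b r w w' := by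
    funext l
    refine (algebraMap ℚ Qb).injective ?_
    have := congrFun hφ₀' l
    rw [← ratC_mulv] at this
    exact this
  have hf0 := ratC_ne_zero.mp hf.1
  have hww : S.mulv b b r w w' ≠ 0 := fun h0 => by
    have e := S.realF_mulv Qb hbr.le (ratC w) (ratC w')
    rw [← ratC_mulv, h0, show ratC (0 : S.Idx r → ℚ) = 0 from funext fun _ => map_zero _,
      map_zero] at e
    rcases mul_eq_zero.mp e.symm with h | h
    · exact ratC_ne_zero.mpr hw0 (S.realF_injective Qb b (h.trans (map_zero _).symm))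
    · exact ratC_ne_zero.mpr hw0' (S.realF_injective Qb b (h.trans (map_zero _).symm))
  have hφ0 : φ ≠ 0 := fun h0 => hww (by
    rw [← hmul, h0]; funext l; simp [mulv])
  obtain ⟨c, hc, z, hz, hzφ⟩ := exists_primitive hφ0
  have ez : (((↑) : ℤ → ℚ) ∘ z) = c • φ := funext fun i => hzφ i
  refine ⟨z, hz, ?_, ?_⟩
  · rw [ez, Height.logHeight_smul_eq_logHeight _ hc]
    have e1 := hK₁ f φ hf0 hφ0
    have e2 := hK₂ w w' hw0 hw0'
    rw [hmul] at e1
    rw [hR, ← hk, S.hfun_eq hf]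
    rw [abs_le] at e1 e2
    have e3 : Height.logHeight f + Height.logHeight φ
        ≤ Height.logHeight w + Height.logHeight w' + (K₁ + K₂) := by linarith
    have e4 := mul_le_mul_of_nonneg_left e3 hk0
    linarith
  · have h1 : x.1 ∈ S.cand b s φ := S.mem_cand hr hbr (by omega) hwW hw0 hwW' hw0' hf hφ0
      (by rw [← ratC_mulv, ← ratC_mulv, hmul])
    obtain ⟨E, hE, hEle, hu⟩ := h1
    refine ⟨E, hE, fun v => ?_, hu⟩
    have hcast : ratC (((↑) : ℤ → ℚ) ∘ z) = algebraMap ℚ Qb c • ratC φ := by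
      funext i
      rw [ez]
      simp [ratC]
    have hne : S.realF Qb s (ratC φ) ≠ 0 := fun e =>
      ratC_ne_zero.mpr hφ0 (S.realF_injective Qb s (e.trans (map_zero _).symm))
    have hc' : algebraMap ℚ Qb c ≠ 0 := (map_ne_zero_iff _ (algebraMap ℚ Qb).injective).mpr hc
    rw [hcast, map_smul, Algebra.smul_def,
      v.ord_mul ((map_ne_zero_iff _ (algebraMap Qb FQ).injective).mpr hc') hne,
      ord_algebraMap v hc', zero_add]
    exact hEle v

/-- **Mordell–Weil**: the rational classes form a finitely generated group. -/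
theorem fg_ratPts : AddGroup.FG S.ratPts := by
  classical
  rcases Nat.eq_zero_or_pos S.g with hg | hg
  · have : Subsingleton S.ratPts := by
      refine ⟨fun a b => Subtype.ext ?_⟩
      have h : ∀ x : S.ratPts, S.rep x = 0 := fun x =>
        (S.rr Qb).eq_zero_of_nonneg_of_degree_le (S.rep_nonneg x) (by simp [degree_rep, hg])
      rw [← S.cls_rep a, ← S.cls_rep b, h, h]
    exact AddGroup.fg_of_finite
  obtain ⟨b₄, hb₄⟩ : ∃ b₄, S.l2 - S.n = b₄ := ⟨_, rfl⟩
  obtain ⟨b₅, hb₅⟩ : ∃ b₅, S.l3 - S.n = b₅ := ⟨_, rfl⟩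
  obtain ⟨K₄, hK₄⟩ := S.exists_lower (b := b₄) (s := b₄ + b₄ - (S.n + S.n)) (r := b₄ + b₄)
    (by simp only [Setup.n, Setup.la, Setup.lc, Setup.l2] at *; omega) rfl
    (by simp only [Setup.n, Setup.la, Setup.lc, Setup.l2] at *; omega)
  obtain ⟨K₅, hK₅⟩ := S.exists_lower (b := b₅) (s := b₅ + b₅ - (S.n + S.n)) (r := b₅ + b₅)
    (by simp only [Setup.n, Setup.la, Setup.lc, Setup.l2, Setup.l3] at *; omega) rfl
    (by simp only [Setup.n, Setup.la, Setup.lc, Setup.l2, Setup.l3] at *; omega)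
  obtain ⟨K, hK⟩ := S.exists_parallelogram hg
  have hk : ∀ b, 2 * S.g + S.n < b → (1 : ℝ) ≤ (b : ℝ) + 1 - S.g - (S.n : ℕ) := fun b h => by
    have : ((S.g + S.n : ℕ) : ℝ) ≤ (b : ℝ) := Nat.cast_le.mpr (by omega)
    push_cast at this
    linarith
  have hk4 := hk b₄ (by simp only [Setup.n, Setup.la, Setup.lc, Setup.l2] at *; omega)
  have hk5 := hk b₅ (by simp only [Setup.n, Setup.la, Setup.lc, Setup.l2, Setup.l3] at *; omega)
  have hlow5 : ∀ x, -K₅ ≤ S.hR b₅ x := fun x => by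
    obtain ⟨φ, -, h, -⟩ := hK₅ x
    have := Height.logHeight_nonneg (((↑) : ℤ → ℚ) ∘ φ)
    nlinarith
  have hlow4 : ∀ x, -K₄ ≤ S.hR b₄ x := fun x => by
    obtain ⟨φ, -, h, -⟩ := hK₄ x
    have := Height.logHeight_nonneg (((↑) : ℤ → ℚ) ∘ φ)
    nlinarith
  let h : S.ratPts → ℝ := fun x => S.hQ x + (K₄ + K₅)
  have hQdef : ∀ x, S.hQ x = S.hR b₅ x + S.hR b₄ x := fun x => by rw [hQ, hb₄, hb₅]
  have : Northcott h := ⟨fun B => by
    refine (((finite_primitive_le (ι := S.Idx (b₅ + b₅ - (S.n + S.n))) (max B 0)).biUnion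
      (t := fun z => S.cand b₅ (b₅ + b₅ - (S.n + S.n)) (((↑) : ℤ → ℚ) ∘ z))
      fun z hz => S.finite_cand _ _ fun e => ?_).preimage Subtype.val_injective.injOn).subset
      fun x hx => ?_
    · have h1 : z = 0 := funext fun i => by simpa using congrFun e i
      have h2 := hz.1
      rw [h1, (Finset.gcd_eq_zero_iff (s := Finset.univ)
        (f := (0 : S.Idx (b₅ + b₅ - (S.n + S.n)) → ℤ))).mpr fun i _ => rfl] at h2
      exact zero_ne_one h2
    · obtain ⟨φ, hφ, hle, hmem⟩ := hK₅ x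
      refine Set.mem_iUnion₂.mpr ⟨φ, ⟨hφ, ?_⟩, hmem⟩
      have h0 := Height.logHeight_nonneg (((↑) : ℤ → ℚ) ∘ φ)
      have h1 := hlow4 x
      have h2 : S.hQ x + (K₄ + K₅) ≤ B := hx
      rw [hQdef] at h2
      refine le_trans ?_ (le_max_left _ _)
      nlinarith⟩
  refine AddCommGroup.fg_of_descent' (h := h) (C := K + 2 * |K₄ + K₅|) S.weak_mordell_weil
    (fun x => ?_) fun x y => ?_
  · show 0 ≤ S.hQ x + (K₄ + K₅)
    rw [hQdef]
    linarith [hlow4 x, hlow5 x]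
  · have h1 := hK x y
    show |S.hQ (x + y) + (K₄ + K₅) + (S.hQ (x - y) + (K₄ + K₅))
      - 2 * (S.hQ x + (K₄ + K₅) + (S.hQ y + (K₄ + K₅)))| ≤ _
    rw [abs_le] at h1 ⊢
    have := le_abs_self (K₄ + K₅)
    have := neg_abs_le (K₄ + K₅)
    constructor <;> linarith

end Setup

end Fermat.Agent.MWJ0

end
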