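import Fermat.Agent.MWJ0.DoublingSystem

/-!
# The polynomial system "a multiple of the class is the class of given points"

For `j ≤ k` the unknown divisors `D_j`, `E_j` have classes `(j + 1) y` and its negative.
-/

set_option autoImplicit false

noncomputable section

open AlgebraicCurve ModularCurve Module Function

namespace Fermat.Agent.MWJ0

namespace Setup

variable (S : Setup) (k : ℕ)

/-- The divisors, each by a small and a large tensor. -/
abbrev MKey : Type := (Fin (k + 1) × Bool) × Bool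

/-- The blocks of unknowns. -/
abbrev MBlk : MKey k → Type
  | (_, false) => Fin S.n → S.Idx S.la
  | (_, true) => Fin S.n → S.Idx (S.la + S.lc)

instance mulBlkFintype : ∀ c, Fintype (S.MBlk k c)
  | (_, false) => (inferInstance : Fintype (Fin S.n → S.Idx S.la))
  | (_, true) => (inferInstance : Fintype (Fin S.n → S.Idx (S.la + S.lc)))

/-- All unknowns. -/
abbrev MVar : Type := Σ c, S.MBlk k c

/-- The equations. -/
abbrev MEq : Type :=
  ((Fin (k + 1) × Bool) × S.PairIdx S.n S.la S.lc) ⊕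
  (Fin k × S.RelIdx (S.CIdx S.la × (S.CIdx S.la × S.CIdx (S.la + S.lc))) S.l3 (3 * S.n)) ⊕
  (Fin (k + 1) × S.RelIdx (S.CIdx S.la × S.CIdx (S.la + S.lc)) S.l2 (2 * S.n)) ⊕
  S.RelIdx (S.CIdx S.la × S.CIdx (S.la + S.lc)) S.l2 (2 * S.n)

section Ring

variable {R R' : Type*} [CommRing R] [Algebra ℚ R] [CommRing R'] [Algebra ℚ R']

/-- Small tensor of one of the divisors. -/
def mtenA (x : S.MVar k → R) (c : Fin (k + 1) × Bool) : S.Ten R S.la := fun I => x ⟨(c, false), I⟩

/-- Large tensor of one of the divisors. -/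
def mtenB (x : S.MVar k → R) (c : Fin (k + 1) × Bool) : S.Ten R (S.la + S.lc) :=
  fun I => x ⟨(c, true), I⟩

/-- The values of the equations. -/
def mulVal (r : S.PtVar → R) (x : S.MVar k → R) : S.MEq k → R
  | .inl (c, i) => S.pairEq S.la S.lc (S.mtenA k x c) (S.mtenB k x c) i
  | .inr (.inl (j, i)) => S.relEq S.l3 (3 * S.n)
      (S.prod3 (S.mtenA k x (0, false)) (S.mtenB k x (j.castSucc, false))
        (S.mtenA k x (j.succ, true))) i
  | .inr (.inr (.inl (j, i))) => S.relEq S.l2 (2 * S.n)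
      (S.prod2 (S.mtenA k x (j, true)) (S.mtenB k x (j, false))) i
  | .inr (.inr (.inr i)) => S.relEq S.l2 (2 * S.n)
      (S.prod2 (S.mtenA k x (Fin.last k, true)) (S.parTen r)) i

lemma map_mulVal (φ : R →ₐ[ℚ] R') (r : S.PtVar → R) (x : S.MVar k → R) (e : S.MEq k) :
    φ (S.mulVal k r x e) = S.mulVal k (fun p => φ (r p)) (fun v => φ (x v)) e := by
  have hpar : (fun I => φ (S.parTen r I)) = S.parTen (fun p => φ (r p)) := by
    funext I
    exact S.map_tupTen (φ : R →+* R') _ I
  rcases e with ⟨c, i⟩ | ⟨j, i⟩ | ⟨j, i⟩ | i <;>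
    simp only [mulVal, map_pairEq, map_relEq, map_prod2, map_prod3, hpar] <;> rfl

end Ring

/-- The system as polynomials with polynomial coefficients. -/
def mulPoly (e : S.MEq k) : MvPolynomial (S.MVar k) (MvPolynomial S.PtVar ℚ) :=
  S.mulVal k (fun p => MvPolynomial.C (MvPolynomial.X p)) MvPolynomial.X e

lemma eval_mulPoly {L : Type} [Field L] [Algebra ℚ L] (r : S.PtVar → L) (x : S.MVar k → L)
    (e : S.MEq k) :
    MvPolynomial.eval x (specialise (S.mulPoly k) r e) = S.mulVal k r x e := by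
  let ψ : MvPolynomial (S.MVar k) (MvPolynomial S.PtVar ℚ) →ₐ[ℚ] L :=
    { (MvPolynomial.eval x).comp (MvPolynomial.map
        (MvPolynomial.aeval r : MvPolynomial S.PtVar ℚ →ₐ[ℚ] L).toRingHom) with
      commutes' := fun q => by simp }
  show ψ (S.mulPoly k e) = _
  rw [mulPoly, map_mulVal]
  congr 1 <;> funext p <;> simp [ψ]

variable {L : Type} [Field L] [Algebra ℚ L] [IsAlgClosed L] [CharZero L]

local notation "FF" => laurentBaseChange L S.F₀

lemma mulVal_sound {Q : Fin S.n → Place L FF} (hi : Injective Q) (hQ : ∀ t, Q t ≠ S.inf L)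
    {x : S.MVar k → L} (hx : ∀ c, ∃ i, x ⟨c, i⟩ ≠ 0)
    (hz : ∀ e, S.mulVal k (S.ptsVal Q hQ) x e = 0) :
    ∃ y : Pic0 L FF, S.cls (S.tupDiv Q) = (k + 1) • y := by
  have hpair : ∀ c, S.IsPair S.la S.lc (S.mtenA k x c) (S.mtenB k x c) := fun c =>
    ⟨fun i => hz (.inl (c, i)),
      fun h => by obtain ⟨i, hi'⟩ := hx (c, false); exact hi' (congrFun h i),
      fun h => by obtain ⟨i, hi'⟩ := hx (c, true); exact hi' (congrFun h i)⟩
  choose D hD hDn tA tB using fun c => IsPair.exists_divisor S (hpair c)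
  have h2 : ∀ j, S.cls (D (j, true)) + S.cls (D (j, false)) = 0 := fun j =>
    (S.rel2_iff (hD _) (hDn _) (hD _) (hDn _) (tA (j, true)) (tB (j, false))).mp
      fun i => hz (.inr (.inr (.inl (j, i))))
  have h3 : ∀ j : Fin k, S.cls (D (0, false)) + S.cls (D (j.castSucc, false)) +
      S.cls (D (j.succ, true)) = 0 := fun j =>
    (S.rel3_iff (hD _) (hDn _) (hD _) (hDn _) (hD _) (hDn _) (tA (0, false))
      (tB (j.castSucc, false)) (tA (j.succ, true))).mp fun i => hz (.inr (.inl (j, i)))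
  have hlast := (S.rel2_iff (hD _) (hDn _) (S.tupDiv_nonneg Q) (S.degree_tupDiv Q)
    (tA (Fin.last k, true)) (S.isTen_parTen hi hQ)).mp fun i => hz (.inr (.inr (.inr i)))
  have hmul : ∀ j : Fin (k + 1), S.cls (D (j, false)) = ((j : ℕ) + 1) • S.cls (D (0, false)) := by
    intro j
    induction j using Fin.induction with
    | zero => rw [Fin.val_zero, zero_add, one_nsmul]
    | succ j ih =>
      rw [eq_neg_of_add_eq_zero_right (h2 j.succ), ← eq_neg_of_add_eq_zero_left (h3 j), ih,
        Fin.val_succ, Fin.val_castSucc, succ_nsmul' (S.cls (D (0, false))) ((j : ℕ) + 1)]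
  refine ⟨S.cls (D (0, false)), ?_⟩
  rw [eq_neg_of_add_eq_zero_right hlast, ← eq_neg_of_add_eq_zero_right (h2 (Fin.last k)), hmul,
    Fin.val_last]

lemma mulVal_complete {Q : Fin S.n → Place L FF} (hi : Injective Q) (hQ : ∀ t, Q t ≠ S.inf L)
    {y : Pic0 L FF} (hy : S.cls (S.tupDiv Q) = (k + 1) • y) :
    ∃ x : S.MVar k → L, (∀ c, ∃ i, x ⟨c, i⟩ ≠ 0) ∧
      ∀ (s : MKey k → L) (e : S.MEq k), (∀ c, s c ≠ 0) →
        S.mulVal k (S.ptsVal Q hQ) (fun v => s v.1 * x v) e = 0 := by
  choose D hD hDn hDc using fun c : Fin (k + 1) × Bool =>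
    S.exists_rep' (if c.2 then -(((c.1 : ℕ) + 1) • y) else ((c.1 : ℕ) + 1) • y)
  choose a a' ta ta' using fun c => S.exists_tens (hD c) (hDn c)
  refine ⟨fun v => match v with
    | ⟨(c, false), I⟩ => a c I
    | ⟨(c, true), I⟩ => a' c I, ?_, fun s e hs => ?_⟩
  · rintro ⟨c, _ | _⟩
    · exact Function.ne_iff.mp (ta c).ne_zero
    · exact Function.ne_iff.mp (ta' c).ne_zero
  · have A := fun c => (ta c).smul S (hs (c, false))
    have A' := fun c => (ta' c).smul S (hs (c, true))
    rcases e with ⟨c, i⟩ | ⟨j, i⟩ | ⟨j, i⟩ | i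
    · exact ((A c).isPair S (A' c)).eqs i
    · exact (S.rel3_iff (hD _) (hDn _) (hD _) (hDn _) (hD _) (hDn _) (A (0, false))
        (A' (j.castSucc, false)) (A (j.succ, true))).mpr (by
          simp only [hDc, Fin.val_zero, Fin.val_succ, Fin.val_castSucc, if_true, Bool.false_eq_true,
            if_false, zero_add, succ_nsmul]
          abel) i
    · exact (S.rel2_iff (hD _) (hDn _) (hD _) (hDn _) (A (j, true)) (A' (j, false))).mpr (by
          simp only [hDc, if_true, Bool.false_eq_true, if_false]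
          exact neg_add_cancel _) i
    · exact (S.rel2_iff (hD _) (hDn _) (S.tupDiv_nonneg Q) (S.degree_tupDiv Q)
        (A (Fin.last k, true)) (S.isTen_parTen hi hQ)).mpr (by
          simp only [hDc, if_true, Fin.val_last, hy]
          exact neg_add_cancel _) i

/-- A multiple of a generic class is generic. -/
theorem generic_mul {e : ℕ} (hfin : {t : Pic0 L FF | e • t = 0}.Finite)
    {P Q : Fin S.n → Place L FF} (ht : AlgebraicIndependent ℚ fun i => S.zv (P i))
    (hrel : S.cls (S.tupDiv Q) = e • S.cls (S.tupDiv P)) :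
    AlgebraicIndependent ℚ fun i => S.zv (Q i) := by
  classical
  set F := IntermediateField.adjoin ℚ (Set.range fun i => S.zv (Q i))
  set x := S.cls (S.tupDiv P)
  have hQfin := S.finite_orbit_tupDiv (k := F) (Q := Q) fun t =>
    isAlgebraic_algebraMap (⟨_, IntermediateField.subset_adjoin ℚ _ ⟨t, rfl⟩⟩ : F)
  have hxfin : (Set.range fun σ : L ≃ₐ[F] L => S.galK F σ • x).Finite := by
    have h2 : (Set.range fun σ : L ≃ₐ[F] L => e • (S.galK F σ • x)).Finite := by
      refine (hQfin.image S.cls).subset ?_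
      rintro _ ⟨σ, rfl⟩
      refine ⟨_, ⟨σ, rfl⟩, ?_⟩
      show S.cls _ = _
      rw [← smul_cls, hrel]
      exact map_nsmul (DistribSMul.toAddMonoidHom (Pic0 L FF) (S.galK F σ)) e x
    refine (h2.biUnion fun c _ => ?_ : Set.Finite (⋃ c ∈ _, {y | e • y = c})).subset ?_
    · rcases Set.eq_empty_or_nonempty {y : Pic0 L FF | e • y = c} with h | ⟨y0, hy0⟩
      · rw [h]; exact Set.finite_empty
      refine (hfin.image fun t => y0 + t).subset fun y hy => ?_
      refine ⟨y - y0, ?_, by simp⟩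
      show e • (y - y0) = 0
      rw [nsmul_sub, hy, hy0, sub_self]
    · rintro _ ⟨σ, rfl⟩
      exact Set.mem_biUnion ⟨σ, rfl⟩ rfl
  have hc := S.onlyConst_tupDiv le_rfl ht
  have hPfin : (Set.range fun σ : L ≃ₐ[F] L => S.galK F σ • S.tupDiv P).Finite := by
    have := hxfin.to_subtype
    refine (Set.finite_range fun y : Set.range (fun σ : L ≃ₐ[F] L => S.galK F σ • x) =>
      S.galK F y.2.choose • S.tupDiv P).subset ?_
    rintro _ ⟨σ, rfl⟩
    refine ⟨⟨_, σ, rfl⟩, ?_⟩
    have h := (⟨_, σ, rfl⟩ :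
      Set.range (fun σ : L ≃ₐ[F] L => S.galK F σ • x)).2.choose_spec
    simp only [x, galK, smul_cls] at h ⊢
    have h0 : ∀ τ : L ≃ₐ[ℚ] L, Divisor.degree (S.gal L τ • S.tupDiv P - S.binf L (S.n : ℤ)) = 0 :=
      fun τ => by rw [map_sub, SemilinearAut.degree_smul, S.degree_tupDiv, degree_binf, sub_self]
    simp only [cls] at h
    rw [S.mk0_eq_iff (h0 _) (h0 _), sub_sub_sub_cancel_right] at h
    exact S.eq_of_finrank_one (S.smul_nonneg_div _ (S.tupDiv_nonneg P))
      (S.smul_nonneg_div _ (S.tupDiv_nonneg P))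
      ((hc.gal S _).finrank_eq_one S (S.smul_nonneg_div _ (S.tupDiv_nonneg P))) h
  refine algebraicIndependent_of_isAlgebraic ht fun i => ?_
  refine S.isAlgebraic_zv_of_finite_orbit_div hPfin ?_
  have hle : Finsupp.single (P i) (1 : ℤ) ≤ S.tupDiv P :=
    Finset.single_le_sum (f := fun t => Finsupp.single (P t) (1 : ℤ))
      (fun u _ => Finsupp.single_nonneg.mpr zero_le_one) (Finset.mem_univ i)
  have := hle (P i)
  rw [Finsupp.single_eq_same] at this
  omega

end Setup

end Fermat.Agent.MWJ0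

end
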