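import Fermat.Agent.MWJ0.Classes

/-!
# Values at affine points and tensors of tuples of points
-/

set_option autoImplicit false

noncomputable section

open AlgebraicCurve ModularCurve Module Function

namespace Fermat.Agent.MWJ0

namespace Setup

variable (S : Setup)

/-- The tensor of a tuple of points from their coordinate vectors. -/
def tupTen {R : Type*} [CommRing R] {m b : ℕ} (u : Fin m → S.Idx b → R) :
    (Fin m → S.Idx b) → R :=
  fun I => Matrix.det (Matrix.of fun s t => u t (I s))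

lemma map_tupTen {R R' : Type*} [CommRing R] [CommRing R'] {m b : ℕ} (φ : R →+* R')
    (u : Fin m → S.Idx b → R) (I : Fin m → S.Idx b) :
    φ (S.tupTen u I) = S.tupTen (fun t j => φ (u t j)) I := by
  rw [tupTen, φ.map_det]
  rfl

open Classical in
/-- Coordinates of a rational function of level `b`. -/
def ratV {R : Type*} [CommRing R] [Algebra ℚ R] (b : ℕ) (f : LaurentSeries ℚ) : S.Idx b → R :=
  fun j => algebraMap ℚ R (if h : f ∈ S.V (b : ℤ) then (S.bas b).repr ⟨f, h⟩ j else 0)

variable {L : Type} [Field L] [Algebra ℚ L] [IsAlgClosed L] [CharZero L]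

local notation "FF" => laurentBaseChange L S.F₀

lemma realF_ratV {b : ℕ} {f : S.F₀} (hf : (f : LaurentSeries ℚ) ∈ S.V (b : ℤ)) :
    S.realF L b (S.ratV b (f : LaurentSeries ℚ)) = S.el L f := by
  refine S.val_injective L ?_
  rw [realF_apply, map_sum]
  simp only [map_smul, ratV, dif_pos hf]
  show ∑ j, _ • coeffEmb L _ = coeffEmb L _
  simp only [← coeffEmb_smul, ← map_sum]
  congr 1
  have h2 := congrArg (S.V (b : ℤ)).subtype ((S.bas b).sum_repr ⟨_, hf⟩)
  rw [map_sum] at h2
  exact (Finset.sum_congr rfl fun j _ => by rw [map_smul]; rfl).trans h2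

lemma algebraMap_residue_bijective (v : Place L FF) :
    Bijective (algebraMap L v.ResidueField) := by
  have h1 : finrank L v.ResidueField = 1 := (S.rr L).deg_one v
  have : Module.Free L v.ResidueField := Module.Free.of_divisionRing L _
  refine ⟨(algebraMap L v.ResidueField).injective, fun y => ?_⟩
  have hy : y ∈ (⊥ : Subalgebra L v.ResidueField) := by
    rw [Subalgebra.bot_eq_top_iff_finrank_eq_one.mpr h1]; trivial
  exact Algebra.mem_bot.mp hy

/-- The value at a point of a function regular there. -/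
def evalAt (v : Place L FF) : v.toValuationSubring →+* L :=
  ((RingEquiv.ofBijective (algebraMap L v.ResidueField)
    (S.algebraMap_residue_bijective v)).symm : v.ResidueField →+* L).comp (IsLocalRing.residue _)

lemma evalAt_algebraMap (v : Place L FF) (c : L) :
    S.evalAt v (algebraMap L v.toValuationSubring c) = c := by
  simp only [evalAt, RingHom.comp_apply, RingEquiv.coe_toRingHom]
  rw [RingEquiv.symm_apply_eq]
  rfl

lemma evalAt_eq_zero_iff (v : Place L FF) (f : v.toValuationSubring) :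
    S.evalAt v f = 0 ↔ (f : FF) = 0 ∨ 1 ≤ v.ord (f : FF) := by
  simp only [evalAt, RingHom.comp_apply, RingEquiv.coe_toRingHom]
  rw [map_eq_zero_iff _ (RingEquiv.injective _), IsLocalRing.residue_eq_zero_iff,
    IsLocalRing.mem_maximalIdeal, mem_nonunits_iff, ← v.adicValuation_coe_eq_one_iff]
  rcases eq_or_ne (f : FF) 0 with hf | hf
  · simp [hf]
  have h0 : 0 ≤ v.ord (f : FF) := (mem_valuationSubring_iff_ord.mp f.2).resolve_left hf
  rw [v.adicValuation_eq_exp_neg_ord hf, ← WithZero.exp_zero, WithZero.exp_inj, or_iff_right hf]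
  omega

/-- The maps fixing the constants and respecting maximal ideals respect values. -/
lemma evalAt_gal (σ : L ≃ₐ[ℚ] L) (v : Place L FF) (f : v.toValuationSubring)
    (hf : S.gal L σ • (f : FF) ∈ (S.gal L σ • v).toValuationSubring) :
    S.evalAt (S.gal L σ • v) ⟨_, hf⟩ = σ (S.evalAt v f) := by
  set c := S.evalAt v f
  have h0 : S.evalAt v (f - algebraMap L _ c) = 0 := by
    rw [map_sub, evalAt_algebraMap, sub_self]
  rw [evalAt_eq_zero_iff] at h0
  have e : ((⟨_, hf⟩ - algebraMap L _ (σ c) : (S.gal L σ • v).toValuationSubring) : FF)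
      = S.gal L σ • ((f - algebraMap L _ c : v.toValuationSubring) : FF) := by
    push_cast
    rw [smul_sub, Place.coe_algebraMap, Place.coe_algebraMap, Algebra.algebraMap_eq_smul_one,
      Algebra.algebraMap_eq_smul_one, gal_algebraMap_smul, smul_one]
  have h1 : S.evalAt (S.gal L σ • v) (⟨_, hf⟩ - algebraMap L _ (σ c)) = 0 := by
    rw [evalAt_eq_zero_iff, e]
    rcases h0 with h | h
    · exact Or.inl (by rw [h, smul_zero])
    · exact Or.inr (by rwa [SemilinearAut.ord_smul])
  rwa [map_sub, evalAt_algebraMap, sub_eq_zero] at h1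

lemma realF_mem_valuationSubring {v : Place L FF} (hv : v ≠ S.inf L) (b : ℕ) (x : S.Idx b → L) :
    S.realF L b x ∈ v.toValuationSubring := by
  rw [mem_valuationSubring_iff_ord]
  rcases eq_or_ne (S.realF L b x) 0 with h | h
  · exact Or.inl h
  · refine Or.inr ?_
    have := (mem_Lsp_of_ne_zero h).mp (S.realF_mem L b x) v
    rwa [binf, Finsupp.single_eq_of_ne hv, neg_zero] at this

/-- The value at an affine point of functions of level `b`. -/
def vl (v : Place L FF) (hv : v ≠ S.inf L) (b : ℕ) : (S.Idx b → L) →ₗ[L] L where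
  toFun x := S.evalAt v ⟨_, S.realF_mem_valuationSubring hv b x⟩
  map_add' x y := by
    rw [← map_add]
    exact congrArg _ (Subtype.ext (map_add _ _ _))
  map_smul' c x := by
    rw [RingHom.id_apply, smul_eq_mul]
    conv_rhs => rw [← S.evalAt_algebraMap v c, ← map_mul]
    refine congrArg _ (Subtype.ext ?_)
    push_cast
    rw [Place.coe_algebraMap, map_smul, Algebra.smul_def]

lemma vl_eq_zero_iff {v : Place L FF} (hv : v ≠ S.inf L) {b : ℕ} {x : S.Idx b → L} :
    S.vl v hv b x = 0 ↔ x ∈ S.W L b (Finsupp.single v 1) := by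
  simp only [vl, LinearMap.coe_mk, AddHom.coe_mk, evalAt_eq_zero_iff, mem_W]
  rcases eq_or_ne (S.realF L b x) 0 with h | h
  · simp [h]
  have hb := (mem_Lsp_of_ne_zero h).mp (S.realF_mem L b x)
  rw [or_iff_right h, mem_Lsp_of_ne_zero h]
  refine ⟨fun h1 u => ?_, fun h1 => ?_⟩
  · rcases eq_or_ne u v with rfl | hu
    · rw [Finsupp.sub_apply, binf, Finsupp.single_eq_of_ne hv, Finsupp.single_eq_same]
      omega
    · rw [Finsupp.sub_apply, Finsupp.single_eq_of_ne hu, sub_zero]
      exact hb u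
  · have := h1 v
    rw [Finsupp.sub_apply, binf, Finsupp.single_eq_of_ne hv, Finsupp.single_eq_same] at this
    omega

lemma vl_ratV_one {v : Place L FF} (hv : v ≠ S.inf L) (b : ℕ) :
    S.vl v hv b (S.ratV b ((1 : S.F₀) : LaurentSeries ℚ)) = 1 := by
  simp only [vl, LinearMap.coe_mk, AddHom.coe_mk]
  rw [← map_one (S.evalAt v)]
  refine congrArg _ (Subtype.ext ?_)
  show S.realF L b _ = (1 : FF)
  rw [S.realF_ratV (f := 1) (by exact_mod_cast S.one_mem_V (Int.natCast_nonneg b))]
  exact Subtype.ext (map_one (coeffEmb L))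

lemma smul_ne_inf (σ : L ≃ₐ[ℚ] L) {v : Place L FF} (hv : v ≠ S.inf L) :
    S.gal L σ • v ≠ S.inf L := fun h => hv (by
  conv_rhs at h => rw [← S.gal_smul_inf L σ]
  exact (MulAction.injective _) h)

lemma vl_gal (σ : L ≃ₐ[ℚ] L) {v : Place L FF} (hv : v ≠ S.inf L) (b : ℕ) (x : S.Idx b → L) :
    S.vl (S.gal L σ • v) (S.smul_ne_inf σ hv) b (fun i => σ (x i)) = σ (S.vl v hv b x) := by
  simp only [vl, LinearMap.coe_mk, AddHom.coe_mk]
  rw [← S.evalAt_gal σ v ⟨_, S.realF_mem_valuationSubring hv b x⟩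
    (by rw [gal_realF]; exact S.realF_mem_valuationSubring (S.smul_ne_inf σ hv) b _)]
  exact congrArg _ (Subtype.ext (S.gal_realF σ b x).symm)

/-- The coordinate vector of an affine point. -/
def ptv (v : Place L FF) (hv : v ≠ S.inf L) (b : ℕ) : S.Idx b → L :=
  fun j => S.vl v hv b (S.unitv j)

lemma vl_eq_sum {v : Place L FF} (hv : v ≠ S.inf L) {b : ℕ} (x : S.Idx b → L) :
    S.vl v hv b x = ∑ j, x j * S.ptv v hv b j := by
  conv_lhs => rw [show x = ∑ j, x j • (S.unitv j : S.Idx b → L) by funext i; simp [unitv]]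
  simp [map_sum, ptv]

lemma ptv_gal (σ : L ≃ₐ[ℚ] L) {v : Place L FF} (hv : v ≠ S.inf L) (b : ℕ) :
    S.ptv (S.gal L σ • v) (S.smul_ne_inf σ hv) b = fun j => σ (S.ptv v hv b j) := by
  funext j
  rw [ptv, ptv, ← S.vl_gal σ hv b]
  congr 1
  funext i
  simp [unitv, apply_ite σ]

/-- The divisor of a tuple. -/
def tupDiv {m : ℕ} (Q : Fin m → Place L FF) : Divisor L FF := ∑ t, Finsupp.single (Q t) 1

lemma tupDiv_nonneg {m : ℕ} (Q : Fin m → Place L FF) : 0 ≤ S.tupDiv Q :=
  Finset.sum_nonneg fun _ _ => Finsupp.single_nonneg.mpr zero_le_one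

lemma degree_tupDiv {m : ℕ} (Q : Fin m → Place L FF) : Divisor.degree (S.tupDiv Q) = m := by
  simp [tupDiv, map_sum, (S.rr L).degree_single]

lemma tupDiv_apply {m : ℕ} {Q : Fin m → Place L FF} (hQ : Injective Q) (t : Fin m) :
    S.tupDiv Q (Q t) = 1 := by
  rw [tupDiv, Finsupp.finsetSum_apply, Finset.sum_eq_single t
    (fun u _ hu => Finsupp.single_eq_of_ne fun e => hu (hQ e).symm)
    (fun h => absurd (Finset.mem_univ t) h), Finsupp.single_eq_same]

lemma tupDiv_apply_of_ne {m : ℕ} {Q : Fin m → Place L FF} {v : Place L FF}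
    (h : ∀ t, v ≠ Q t) : S.tupDiv Q v = 0 := by
  rw [tupDiv, Finsupp.finsetSum_apply]
  exact Finset.sum_eq_zero fun t _ => Finsupp.single_eq_of_ne (h t)

lemma ker_pi_vl {m : ℕ} {Q : Fin m → Place L FF} (hQ : Injective Q)
    (hav : ∀ t, Q t ≠ S.inf L) (b : ℕ) :
    LinearMap.ker (LinearMap.pi fun t => S.vl (Q t) (hav t) b) = S.W L b (S.tupDiv Q) := by
  ext x
  simp only [LinearMap.mem_ker, funext_iff, Pi.zero_apply, LinearMap.pi_apply,
    vl_eq_zero_iff, mem_W]
  rcases eq_or_ne (S.realF L b x) 0 with h | h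
  · simp [h]
  simp only [mem_Lsp_of_ne_zero h]
  have hb := (mem_Lsp_of_ne_zero h).mp (S.realF_mem L b x)
  refine ⟨fun hx v => ?_, fun hx t v => ?_⟩
  · by_cases hv : ∃ t, v = Q t
    · obtain ⟨t, rfl⟩ := hv
      have := hx t (Q t)
      rw [Finsupp.sub_apply, Finsupp.single_eq_same] at this
      rwa [Finsupp.sub_apply, S.tupDiv_apply hQ t]
    · push Not at hv
      rw [Finsupp.sub_apply, S.tupDiv_apply_of_ne hv, sub_zero]
      exact hb v
  · rcases eq_or_ne v (Q t) with rfl | hv
    · have := hx (Q t)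
      rw [Finsupp.sub_apply, S.tupDiv_apply hQ t] at this
      rwa [Finsupp.sub_apply, Finsupp.single_eq_same]
    · rw [Finsupp.sub_apply, Finsupp.single_eq_of_ne hv, sub_zero]
      exact hb v

lemma isTen_of_forms {m b : ℕ} {D : Divisor L FF} (φs : Fin m → (S.Idx b → L) →ₗ[L] L)
    (hker : LinearMap.ker (LinearMap.pi φs) = S.W L b D)
    (hfin : finrank L (S.W L b D) + m = Fintype.card (S.Idx b)) :
    S.IsTen b (S.tupTen fun t j => φs t (S.unitv j)) D := by
  have hsur : Surjective (LinearMap.pi φs) := by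
    rw [← LinearMap.range_eq_top]
    refine Submodule.eq_top_of_finrank_eq ?_
    have h1 := LinearMap.finrank_range_add_finrank_ker (LinearMap.pi φs)
    rw [hker, Module.finrank_fintype_fun_eq_card] at h1
    rw [Module.finrank_fintype_fun_eq_card, Fintype.card_fin]
    omega
  have h := (isPl_of_dform (e := S.tupTen fun t j => φs t (S.unitv j)) hsur one_ne_zero
    fun I => by
      rw [one_mul, tupTen, dform]
      congr 1
      ext s t
      show φs t (S.unitv (I s)) = φs t _
      congr 1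
      funext i
      simp [unitv, Pi.single_apply]).1
  rw [hker] at h
  exact h

/-- The tensor of distinct affine points. -/
theorem isTen_tupTen {m : ℕ} {Q : Fin m → Place L FF} (hQ : Injective Q)
    (hav : ∀ t, Q t ≠ S.inf L) {b : ℕ} (hb : 2 * S.g + m ≤ b) :
    S.IsTen b (S.tupTen fun t => S.ptv (Q t) (hav t) b) (S.tupDiv Q) :=
  S.isTen_of_forms (fun t => S.vl (Q t) (hav t) b) (S.ker_pi_vl hQ hav b)
    (S.finrank_W_add (S.tupDiv_nonneg Q) (S.degree_tupDiv Q) hb)

lemma eq_single_of_degree_one {D : Divisor L FF} (hD : 0 ≤ D) (hn : Divisor.degree D = 1) :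
    ∃ v, D = Finsupp.single v 1 := by
  have hne : D ≠ 0 := by rintro rfl; simp at hn
  obtain ⟨v, hv⟩ := Finsupp.support_nonempty_iff.mpr hne
  rw [Finsupp.mem_support_iff] at hv
  refine ⟨v, ?_⟩
  have hnn : 0 ≤ D - Finsupp.single v 1 := fun u => by
    have := hD u
    rcases eq_or_ne u v with rfl | hu
    · simp only [Finsupp.sub_apply, Finsupp.single_eq_same, Finsupp.coe_zero, Pi.zero_apply] at *
      omega
    · simpa [Finsupp.single_eq_of_ne hu] using this
  exact sub_eq_zero.mp ((S.rr L).eq_zero_of_nonneg_of_degree_le hnn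
    (by rw [map_sub, hn, (S.rr L).degree_single]; omega))

/-- Points transfer along embeddings of fields. -/
theorem exists_place_map {L' : Type} [Field L'] [Algebra ℚ L'] [IsAlgClosed L'] [CharZero L']
    (hg : 0 < S.g) (φ : L →ₐ[ℚ] L') {v : Place L FF} (hv : v ≠ S.inf L) :
    ∃ (w : Place L' (laurentBaseChange L' S.F₀)) (hw : w ≠ S.inf L'),
      (∀ j, S.ptv w hw S.la j = φ (S.ptv v hv S.la j)) ∧
        ∀ j, S.ptv w hw (S.la + S.lc) j = φ (S.ptv v hv (S.la + S.lc) j) := by
  have hQ : Injective (fun _ : Fin 1 => v) := fun a b _ => Subsingleton.elim a b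
  have ha : 2 * S.g + 1 < S.la := by simp only [Setup.la]; omega
  have h1 := S.isTen_tupTen hQ (fun _ => hv) (b := S.la) (by omega)
  have h2 := S.isTen_tupTen hQ (fun _ => hv) (b := S.la + S.lc) (by omega)
  obtain ⟨e1, e2, e3⟩ := IsPair.map S φ (h1.isPair S h2)
  have hpair : S.IsPair S.la S.lc (fun I => φ (S.tupTen (fun _ : Fin 1 => S.ptv v hv S.la) I))
      (fun I => φ (S.tupTen (fun _ : Fin 1 => S.ptv v hv (S.la + S.lc)) I)) :=
    { eqs := e1, ne := e2, ne' := e3 }
  obtain ⟨D, hD, hDn, t1, t2⟩ := hpair.exists_div S ha (by simp only [Setup.la, Setup.lc]; omega)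
  obtain ⟨w, rfl⟩ := S.eq_single_of_degree_one hD (by exact_mod_cast hDn)
  have hsum : ∀ b, ∑ j, (S.ratV b ((1 : S.F₀) : LaurentSeries ℚ) : S.Idx b → L') j
      * φ (S.ptv v hv b j) = 1 := by
    intro b
    have := congrArg φ (S.vl_eq_sum hv (S.ratV b ((1 : S.F₀) : LaurentSeries ℚ)))
    rw [vl_ratV_one, map_one, map_sum] at this
    simpa [ratV] using this.symm
  have hslot : ∀ b (w' : S.Idx b → L') (I : Fin 1 → S.Idx b),
      slot (fun I => φ (S.tupTen (fun _ : Fin 1 => S.ptv v hv b) I)) I 0 w'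
        = ∑ j, w' j * φ (S.ptv v hv b j) := by
    intro b w' I
    simp [slot, tupTen]
  have hw : w ≠ S.inf L' := by
    rintro rfl
    have hmem : (S.ratV S.la ((1 : S.F₀) : LaurentSeries ℚ) : S.Idx S.la → L')
        ∈ S.W L' S.la (Finsupp.single (S.inf L') 1) := by
      rw [mem_W, S.realF_ratV (f := 1) (by exact_mod_cast S.one_mem_V (Int.natCast_nonneg _)),
        show S.el L' (1 : S.F₀) = 1 from Subtype.ext (map_one (coeffEmb L')), mem_Lsp]
      intro u
      refine Or.inr ?_
      rw [Place.ord_one, Finsupp.sub_apply, binf]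
      rcases eq_or_ne u (S.inf L') with rfl | hu
      · simp only [Finsupp.single_eq_same]; omega
      · simp [Finsupp.single_eq_of_ne hu]
    obtain ⟨I, -⟩ := t1.exists_ne_zero
    have := t1.le_ker hmem I 0
    rw [hslot, hsum] at this
    exact one_ne_zero this
  have hmain : ∀ b (hb : 2 * S.g + 1 ≤ b),
      S.IsTen b (fun I => φ (S.tupTen (fun _ : Fin 1 => S.ptv v hv b) I)) (Finsupp.single w 1) →
      ∀ j, S.ptv w hw b j = φ (S.ptv v hv b j) := by
    intro b hb ht j
    have h3 := S.isTen_tupTen (Q := fun _ : Fin 1 => w)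
      (fun a b _ => Subsingleton.elim a b) (fun _ => hw) (b := b) hb
    rw [show S.tupDiv (fun _ : Fin 1 => w) = Finsupp.single w 1 by simp [tupDiv]] at h3
    obtain ⟨c, -, hc⟩ := ht.unique h3
    have hc' : ∀ j, S.ptv w hw b j = c * φ (S.ptv v hv b j) := fun j => by
      simpa [tupTen] using hc fun _ => j
    have h5 := S.vl_eq_sum hw (S.ratV b ((1 : S.F₀) : LaurentSeries ℚ))
    rw [vl_ratV_one, Finset.sum_congr rfl fun j _ => by rw [hc' j, mul_left_comm],
      ← Finset.mul_sum, hsum, mul_one] at h5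
    rw [hc' j, ← h5, one_mul]
  exact ⟨w, hw, hmain _ (by omega) t1, hmain _ (by omega) t2⟩

/-- The coordinate function `z`. -/
def zval (v : Place L FF) (hv : v ≠ S.inf L) : L :=
  S.vl v hv S.la (S.ratV S.la (S.zF : LaurentSeries ℚ))

lemma realF_ratV_z : S.realF L S.la (S.ratV S.la (S.zF : LaurentSeries ℚ)) = S.el L S.zF :=
  S.realF_ratV (S.V_mono (by simp only [Setup.la, Setup.m]; omega) S.z_mem)

lemma zval_gal (σ : L ≃ₐ[ℚ] L) {v : Place L FF} (hv : v ≠ S.inf L) :
    S.zval (S.gal L σ • v) (S.smul_ne_inf σ hv) = σ (S.zval v hv) := by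
  rw [zval, zval, ← S.vl_gal σ hv]
  congr 1
  funext i
  simp [ratV]

lemma el_z_sub_ne_zero (c : L) : S.el L S.zF - algebraMap L FF c ≠ 0 := by
  intro h
  rw [sub_eq_zero] at h
  have h1 := congrArg (fun f : FF => (f : LaurentSeries L).order) h
  simp only [el] at h1
  rw [order_coeffEmb, show ((algebraMap L FF c : FF) : LaurentSeries L) = algebraMap L _ c from rfl,
    order_algebraMap] at h1
  have := S.z_order
  simp only [zF, Setup.m] at *
  omega

/-- `z` takes every value at an affine point. -/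
theorem exists_zval (c : L) : ∃ (v : Place L FF) (hv : v ≠ S.inf L), S.zval v hv = c := by
  set f : FF := S.el L S.zF - algebraMap L FF c with hfdef
  have hf : f ≠ 0 := S.el_z_sub_ne_zero c
  have hinf : (S.rr L).divisor hf (S.inf L) < 0 := by
    rw [(S.rr L).divisor_apply hf, ord_inf S L hf]
    show ((f : FF) : LaurentSeries L).order < 0
    rw [hfdef, AddSubgroupClass.coe_sub,
      show ((algebraMap L FF c : FF) : LaurentSeries L) = algebraMap L _ c from rfl]
    have hz : (S.el L S.zF : LaurentSeries L).order = -(S.m : ℤ) := by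
      simp only [el]
      rw [order_coeffEmb]
      exact S.z_order
    have hm : 0 < S.m := by simp [Setup.m]
    have h2 : ((S.el L S.zF : LaurentSeries L) - algebraMap L _ c).coeff (-(S.m : ℤ)) ≠ 0 := by
      rw [HahnSeries.coeff_sub, algebraMap_laurentSeries_eq_single,
        HahnSeries.coeff_single_of_ne (by omega), sub_zero, ← hz]
      exact mt HahnSeries.coeff_order_eq_zero.mp
        (coe_ne_zero (S.el_ne_zero (f := S.zF) S.z_ne_zero))
    have := HahnSeries.order_le_of_coeff_ne_zero h2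
    omega
  obtain ⟨v, hv⟩ : ∃ v, 0 < (S.rr L).divisor hf v := by
    by_contra hcon
    push Not at hcon
    have h0 : 0 ≤ -(S.rr L).divisor hf := fun v => by
      simp only [Finsupp.coe_zero, Pi.zero_apply, Finsupp.neg_apply]; linarith [hcon v]
    have h1 := (S.rr L).eq_zero_of_nonneg_of_degree_le h0
      (by rw [map_neg, (S.rr L).degree_divisor hf, neg_zero])
    rw [neg_eq_zero] at h1
    rw [h1] at hinf
    simp at hinf
  have hvi : v ≠ S.inf L := by rintro rfl; omega
  refine ⟨v, hvi, ?_⟩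
  rw [(S.rr L).divisor_apply hf] at hv
  rw [zval, ← sub_eq_zero]
  simp only [vl, LinearMap.coe_mk, AddHom.coe_mk]
  conv_lhs => arg 2; rw [← S.evalAt_algebraMap v c]
  rw [← map_sub, evalAt_eq_zero_iff]
  refine Or.inr ?_
  push_cast
  rw [Place.coe_algebraMap, realF_ratV_z, ← hfdef]
  omega

/-- Only finitely many points share a value of `z`. -/
lemma finite_zval (c : L) :
    {v : Place L FF | ∃ hv : v ≠ S.inf L, S.zval v hv = c}.Finite := by
  set f : FF := S.el L S.zF - algebraMap L FF c with hfdef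
  have hf : f ≠ 0 := S.el_z_sub_ne_zero c
  refine ((S.rr L).divisor hf).support.finite_toSet.subset ?_
  rintro v ⟨hv, hvc⟩
  rw [zval, ← sub_eq_zero] at hvc
  simp only [vl, LinearMap.coe_mk, AddHom.coe_mk] at hvc
  conv_lhs at hvc => arg 2; rw [← S.evalAt_algebraMap v c]
  rw [← map_sub, evalAt_eq_zero_iff] at hvc
  push_cast at hvc
  rw [Place.coe_algebraMap, realF_ratV_z, ← hfdef] at hvc
  rw [Finset.mem_coe, Finsupp.mem_support_iff, (S.rr L).divisor_apply hf]
  have := hvc.resolve_left hf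
  omega

end Setup

end Fermat.Agent.MWJ0

end
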