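import Fermat.Agent.MWJ0.WeakMW
import Fermat.Agent.MWJ0.CubeHeight

/-!
# A quadratic height on rational classes
-/

set_option autoImplicit false

noncomputable section

open AlgebraicCurve ModularCurve Module Function

namespace Fermat.Agent.MWJ0

namespace Setup

variable (S : Setup)

local notation "Qb" => AlgebraicClosure ℚ

local notation "FQ" => laurentBaseChange Qb S.F₀

/-- The representative of a rational class. -/
def rep (x : S.ratPts) : Divisor Qb FQ := (S.exists_rep x.1).choose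

lemma rep_nonneg (x : S.ratPts) : 0 ≤ S.rep x := (S.exists_rep x.1).choose_spec.1

lemma degree_rep (x : S.ratPts) : Divisor.degree (S.rep x) = S.n :=
  (S.exists_rep x.1).choose_spec.2.1

lemma cls_rep (x : S.ratPts) : S.cls (S.rep x) = x.1 := (S.exists_rep x.1).choose_spec.2.2.1

lemma fixed_rep (x : S.ratPts) : S.Fixed (S.rep x) :=
  fun σ => (S.exists_rep x.1).choose_spec.2.2.2 σ (x.2 σ)

/-- Fixed effective divisors linearly equivalent to a multiple of the place at infinity. -/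
def Prin (p : ℕ) (X : Divisor Qb FQ) : Prop :=
  0 ≤ X ∧ Divisor.degree X = p ∧ S.Fixed X ∧
    X - S.binf Qb (p : ℤ) ∈ Divisor.principal (K := Qb) (F := FQ)

lemma Prin.add {p q r : ℕ} (hr : p + q = r) {X Y : Divisor Qb FQ} (hX : S.Prin p X)
    (hY : S.Prin q Y) : S.Prin r (X + Y) := by
  refine ⟨add_nonneg hX.1 hY.1, by rw [map_add, hX.2.1, hY.2.1, ← hr, Nat.cast_add],
    hX.2.2.1.add S hY.2.2.1, ?_⟩
  have h := add_mem hX.2.2.2 hY.2.2.2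
  have e : X + Y - S.binf Qb (r : ℤ) = X - S.binf Qb (p : ℤ) + (Y - S.binf Qb (q : ℤ)) := by
    rw [← hr, binf, binf, binf, Nat.cast_add, Finsupp.single_add]; abel
  rw [e]; exact h

/-- The divisor of a class and its negative. -/
def rep2 (x : S.ratPts) : Divisor Qb FQ := S.rep x + S.rep (-x)

lemma prin_rep2 (x : S.ratPts) : S.Prin (S.n + S.n) (S.rep2 x) := by
  refine ⟨add_nonneg (S.rep_nonneg _) (S.rep_nonneg _), ?_, (S.fixed_rep _).add S (S.fixed_rep _), ?_⟩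
  · rw [rep2, map_add, degree_rep, degree_rep, Nat.cast_add]
  · have h := (S.cls_add_eq_zero_iff (S.degree_rep x) (S.degree_rep (-x))).mp (by
      rw [cls_rep, cls_rep, AddSubgroup.coe_neg, add_neg_cancel])
    rwa [two_mul] at h

lemma prin_triple {x y z : S.ratPts} (h : x + y + z = 0) :
    S.Prin (S.n + S.n + S.n) (S.rep x + S.rep y + S.rep z) := by
  refine ⟨add_nonneg (add_nonneg (S.rep_nonneg _) (S.rep_nonneg _)) (S.rep_nonneg _), ?_,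
    ((S.fixed_rep _).add S (S.fixed_rep _)).add S (S.fixed_rep _), ?_⟩
  · simp only [map_add, degree_rep, Nat.cast_add]
  · have hc := (S.cls_add_add_eq_zero_iff (S.degree_rep x) (S.degree_rep y) (S.degree_rep z)).mp (by
      rw [cls_rep, cls_rep, cls_rep, ← AddSubgroup.coe_add, ← AddSubgroup.coe_add, h,
        AddSubgroup.coe_zero])
    rwa [show 3 * S.n = S.n + S.n + S.n by ring] at hc

/-- The height of a product. -/
theorem exists_hfun_add {p q r : ℕ} (hr : p + q = r) :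
    ∃ K : ℝ, ∀ X Y : Divisor Qb FQ, S.Prin p X → S.Prin q Y →
      |S.hfun r (X + Y) - (S.hfun p X + S.hfun q Y)| ≤ K := by
  obtain ⟨K, hK⟩ := S.exists_height_mulv hr
  refine ⟨K, fun X Y hX hY => ?_⟩
  obtain ⟨x, hx⟩ := S.exists_rat_fun hX.1 hX.2.2.2 hX.2.2.1
  obtain ⟨y, hy⟩ := S.exists_rat_fun hY.1 hY.2.2.2 hY.2.2.1
  have hxy := hx.mul S hr hy
  rw [← ratC_mulv] at hxy
  rw [S.hfun_eq hx, S.hfun_eq hy, S.hfun_eq hxy]
  exact hK x y (ratC_ne_zero.mp hx.1) (ratC_ne_zero.mp hy.1)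

/-- The symmetrised height of level `b`. -/
def hR (b : ℕ) (x : S.ratPts) : ℝ :=
  S.ht S.n b (S.rep x) + S.ht S.n b (S.rep (-x))
    - ((b : ℝ) + 1 - S.g - (S.n : ℕ)) * S.hfun (S.n + S.n) (S.rep2 x)

lemma hR_neg (b : ℕ) (x : S.ratPts) : S.hR b (-x) = S.hR b x := by
  simp only [hR, rep2, neg_neg, add_comm (S.rep (-x)) (S.rep x)]
  ring

/-- Sums of two representatives compute the height of the sum. -/
theorem exists_sum_estimate {b b' : ℕ} (hb : S.n + b' = b) (hb' : 2 * S.g + S.n < b') :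
    ∃ K : ℝ, ∀ x y : S.ratPts,
      |S.ht (S.n + S.n) b (S.rep x + S.rep y) + S.ht (S.n + S.n) b (S.rep (-x) + S.rep (-y))
        - ((b' : ℝ) + 1 - S.g - (S.n : ℕ))
          * (S.hfun (S.n + S.n) (S.rep2 x) + S.hfun (S.n + S.n) (S.rep2 y))
        - S.hR b' (x + y)| ≤ K := by
  obtain ⟨r, hr⟩ : ∃ r, S.n + S.n + b = r := ⟨_, rfl⟩
  obtain ⟨K₁, hK₁⟩ := S.exists_shift (d := S.n + S.n) (p := S.n + S.n) hr (by omega)
  obtain ⟨K₂, hK₂⟩ := S.exists_shift (d := S.n) (p := S.n + S.n + S.n) (b := b') (r := r)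
    (by omega) hb'
  obtain ⟨K₃, hK₃⟩ := S.exists_hfun_add (p := S.n + S.n + S.n) (q := S.n + S.n + S.n) rfl
  obtain ⟨K₄, hK₄⟩ := S.exists_hfun_add (p := S.n + S.n + (S.n + S.n)) (q := S.n + S.n)
    (r := S.n + S.n + S.n + (S.n + S.n + S.n)) (by omega)
  obtain ⟨K₅, hK₅⟩ := S.exists_hfun_add (p := S.n + S.n) (q := S.n + S.n) rfl
  refine ⟨2 * K₁ + 2 * K₂ + |((b' : ℝ) + 1 - S.g - (S.n : ℕ))| * (K₃ + K₄ + K₅), fun x y => ?_⟩
  set k : ℝ := (b' : ℝ) + 1 - S.g - (S.n : ℕ) with hk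
  have hkb : (b : ℝ) + 1 - S.g - ((S.n + S.n : ℕ) : ℝ) = k := by
    rw [hk, ← hb]; push_cast; ring
  set z := x + y with hz
  have deg2 : ∀ u v : S.ratPts, Divisor.degree (S.rep u + S.rep v) = ((S.n + S.n : ℕ) : ℤ) :=
    fun u v => by rw [map_add, degree_rep, degree_rep, Nat.cast_add]
  have fix2 : ∀ u v : S.ratPts, S.Fixed (S.rep u + S.rep v) :=
    fun u v => (S.fixed_rep u).add S (S.fixed_rep v)
  have nn2 : ∀ u v : S.ratPts, 0 ≤ S.rep u + S.rep v :=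
    fun u v => add_nonneg (S.rep_nonneg u) (S.rep_nonneg v)
  obtain ⟨hZ1, hZ2, hZ3, hZ4⟩ := S.prin_rep2 z
  have hφ := S.prin_triple (x := x) (y := y) (z := -z) (by rw [hz]; abel)
  have hψ := S.prin_triple (x := -x) (y := -y) (z := z) (by rw [hz]; abel)
  obtain ⟨hφ1, hφ2, hφ3, hφ4⟩ := hφ
  obtain ⟨hψ1, hψ2, hψ3, hψ4⟩ := hψ
  have e1 := hK₁ _ _ (nn2 x y) (deg2 x y) (fix2 x y) hZ1 hZ2 hZ3 hZ4
  have e2 := hK₁ _ _ (nn2 (-x) (-y)) (deg2 (-x) (-y)) (fix2 (-x) (-y)) hZ1 hZ2 hZ3 hZ4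
  have e3 := hK₂ _ _ (S.rep_nonneg z) (S.degree_rep z) (S.fixed_rep z) hφ1 hφ2 hφ3 hφ4
  have e4 := hK₂ _ _ (S.rep_nonneg (-z)) (S.degree_rep _) (S.fixed_rep _) hψ1 hψ2 hψ3 hψ4
  rw [show S.n + (S.n + S.n + S.n) = S.n + S.n + (S.n + S.n) by omega] at e3 e4
  rw [show S.rep z + (S.rep x + S.rep y + S.rep (-z)) = S.rep x + S.rep y + S.rep2 z by
    simp only [rep2]; abel] at e3
  rw [show S.rep (-z) + (S.rep (-x) + S.rep (-y) + S.rep z)
      = S.rep (-x) + S.rep (-y) + S.rep2 z by simp only [rep2]; abel] at e4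
  rw [hkb] at e1 e2
  have e5 := hK₃ _ _ ⟨hφ1, hφ2, hφ3, hφ4⟩ ⟨hψ1, hψ2, hψ3, hψ4⟩
  have e6 := hK₅ _ _ (S.prin_rep2 x) (S.prin_rep2 y)
  have e7 := hK₄ _ _ (Prin.add S rfl (S.prin_rep2 x) (S.prin_rep2 y)) (S.prin_rep2 z)
  rw [show S.rep x + S.rep y + S.rep (-z) + (S.rep (-x) + S.rep (-y) + S.rep z)
      = S.rep2 x + S.rep2 y + S.rep2 z by simp only [rep2]; abel] at e5
  set h1 := S.hfun (S.n + S.n + S.n) (S.rep x + S.rep y + S.rep (-z))
  set h2 := S.hfun (S.n + S.n + S.n) (S.rep (-x) + S.rep (-y) + S.rep z)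
  set H := h1 + h2 - (S.hfun (S.n + S.n) (S.rep2 x) + S.hfun (S.n + S.n) (S.rep2 y)
    + S.hfun (S.n + S.n) (S.rep2 z))
  have hH : |H| ≤ K₃ + K₄ + K₅ := by
    rw [abs_le] at e5 e6 e7 ⊢
    constructor <;> linarith
  have hkH : |k * H| ≤ |k| * (K₃ + K₄ + K₅) := by
    rw [abs_mul]; exact mul_le_mul_of_nonneg_left hH (abs_nonneg _)
  have hHdef : k * H = k * h1 + k * h2 - (k * S.hfun (S.n + S.n) (S.rep2 x)
      + k * S.hfun (S.n + S.n) (S.rep2 y) + k * S.hfun (S.n + S.n) (S.rep2 z)) := by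
    ring
  rw [hR, ← hk]
  rw [abs_le] at e1 e2 e3 e4 hkH ⊢
  constructor <;> linarith

/-- The relation coming from the theorem of the cube. -/
theorem exists_core (hg : 0 < S.g) {b₁ b₄ b₅ : ℕ} (h₁ : S.n + S.n + b₁ = S.l3)
    (h₄ : S.n + b₄ = S.l2) (h₅ : S.n + b₅ = S.l3) :
    ∃ K : ℝ, ∀ x y : S.ratPts, |S.hR b₅ (x + y) + S.hR b₄ (x - y)
      - (S.hR b₁ x + S.hR S.l2 x + S.hR S.l2 y + S.hR (S.la + S.lc) y)| ≤ K := by
  obtain ⟨K₁, hK₁⟩ := S.exists_cube hg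
  obtain ⟨b₀, hb₀⟩ : ∃ b₀, S.n + S.n + b₀ = S.l2 := ⟨S.l2 - (S.n + S.n), by
    simp only [Setup.n, Setup.la, Setup.lc, Setup.l2] at *; omega⟩
  obtain ⟨K₂, hK₂⟩ := S.exists_shift (d := S.n) (p := S.n + S.n) h₁ (by
    simp only [Setup.n, Setup.la, Setup.lc, Setup.l2, Setup.l3] at *; omega)
  obtain ⟨K₃, hK₃⟩ := S.exists_shift (d := 0) (p := S.n + S.n) hb₀ (by
    simp only [Setup.n, Setup.la, Setup.lc, Setup.l2] at *; omega)
  obtain ⟨K₄, hK₄⟩ := S.exists_sum_estimate h₅ (by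
    simp only [Setup.n, Setup.la, Setup.lc, Setup.l2, Setup.l3] at *; omega)
  obtain ⟨K₅, hK₅⟩ := S.exists_sum_estimate h₄ (by
    simp only [Setup.n, Setup.la, Setup.lc, Setup.l2, Setup.l3] at *; omega)
  refine ⟨2 * K₁ + 2 * K₂ + 2 * K₃ + K₄ + K₅, fun x y => ?_⟩
  have c1 := hK₁ _ _ _ (S.rep_nonneg x) (S.degree_rep x) (S.fixed_rep x) (S.rep_nonneg y)
    (S.degree_rep y) (S.fixed_rep y) (S.rep_nonneg (-y)) (S.degree_rep _) (S.fixed_rep _)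
  have c2 := hK₁ _ _ _ (S.rep_nonneg (-x)) (S.degree_rep _) (S.fixed_rep _) (S.rep_nonneg (-y))
    (S.degree_rep _) (S.fixed_rep _) (S.rep_nonneg y) (S.degree_rep y) (S.fixed_rep y)
  obtain ⟨hY1, hY2, hY3, hY4⟩ := S.prin_rep2 y
  have s1 := hK₂ _ _ (S.rep_nonneg x) (S.degree_rep x) (S.fixed_rep x) hY1 hY2 hY3 hY4
  have s2 := hK₂ _ _ (S.rep_nonneg (-x)) (S.degree_rep _) (S.fixed_rep _) hY1 hY2 hY3 hY4
  have s0 := hK₃ 0 _ le_rfl (by simp) S.fixed_zero hY1 hY2 hY3 hY4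
  rw [zero_add (S.rep2 y), zero_add (S.n + S.n), S.ht_rank_zero] at s0
  rw [show S.rep x + S.rep y + S.rep (-y) = S.rep x + S.rep2 y by simp only [rep2]; abel,
    show S.n + S.n + S.n = S.n + (S.n + S.n) by omega, show S.rep y + S.rep (-y) = S.rep2 y from rfl]
    at c1
  rw [show S.rep (-x) + S.rep (-y) + S.rep y = S.rep (-x) + S.rep2 y by simp only [rep2]; abel,
    show S.n + S.n + S.n = S.n + (S.n + S.n) by omega,
    show S.rep (-y) + S.rep y = S.rep2 y by simp only [rep2]; abel] at c2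
  have t1 := hK₄ x y
  have t2 := hK₅ x (-y)
  rw [neg_neg, show S.rep2 (-y) = S.rep2 y by simp only [rep2, neg_neg]; abel,
    ← sub_eq_add_neg] at t2
  have hb1 : (b₁ : ℝ) = (S.l3 : ℕ) - 2 * ((S.n : ℕ) : ℝ) := by rw [← h₁]; push_cast; ring
  have hb0 : (b₀ : ℝ) = (S.l2 : ℕ) - 2 * ((S.n : ℕ) : ℝ) := by rw [← hb₀]; push_cast; ring
  have hb4 : (b₄ : ℝ) = (S.l2 : ℕ) - ((S.n : ℕ) : ℝ) := by rw [← h₄]; push_cast; ring
  have hb5 : (b₅ : ℝ) = (S.l3 : ℕ) - ((S.n : ℕ) : ℝ) := by rw [← h₅]; push_cast; ring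
  have hlv : ((S.l3 : ℕ) : ℝ) + ((S.la + S.lc : ℕ) : ℝ) = 2 * ((S.l2 : ℕ) : ℝ) := by
    simp only [Setup.l3, Setup.l2]; push_cast; ring
  set Hx := S.hfun (S.n + S.n) (S.rep2 x)
  set Hy := S.hfun (S.n + S.n) (S.rep2 y)
  simp only [hR] at t1 t2 ⊢
  simp only [hb1, hb0, hb4, hb5, Nat.cast_zero, sub_zero] at *
  have hlvH : (((S.l3 : ℕ) : ℝ) + ((S.la + S.lc : ℕ) : ℝ) - 2 * ((S.l2 : ℕ) : ℝ)) * Hy = 0 := by
    rw [hlv, sub_self, zero_mul]
  rw [abs_le] at c1 c2 s1 s2 s0 t1 t2 ⊢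
  constructor <;> linarith

/-- The height on rational classes. -/
def hQ (x : S.ratPts) : ℝ := S.hR (S.l3 - S.n) x + S.hR (S.l2 - S.n) x

/-- **The parallelogram law.** -/
theorem exists_parallelogram (hg : 0 < S.g) :
    ∃ K : ℝ, ∀ x y : S.ratPts,
      |S.hQ (x + y) + S.hQ (x - y) - 2 * (S.hQ x + S.hQ y)| ≤ K := by
  obtain ⟨K, hK⟩ := S.exists_core hg (b₁ := S.l3 - (S.n + S.n)) (b₄ := S.l2 - S.n)
    (b₅ := S.l3 - S.n)
    (by simp only [Setup.n, Setup.la, Setup.lc, Setup.l2, Setup.l3] at *; omega)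
    (by simp only [Setup.n, Setup.la, Setup.lc, Setup.l2] at *; omega)
    (by simp only [Setup.n, Setup.la, Setup.lc, Setup.l2, Setup.l3] at *; omega)
  set R₁ := S.hR (S.l3 - (S.n + S.n)) with hR₁
  set R₂ := S.hR S.l2
  set R₃ := S.hR (S.la + S.lc)
  refine ⟨|2 * (R₁ 0 + R₂ 0)| + |2 * (R₂ 0 + R₃ 0)| + 6 * K, fun x y => ?_⟩
  have a1 := hK x y
  have a2 := hK x (-y)
  rw [show R₂ (-y) = R₂ y from S.hR_neg _ y, show R₃ (-y) = R₃ y from S.hR_neg _ y,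
    sub_neg_eq_add, ← sub_eq_add_neg] at a2
  have a3 := hK x 0
  rw [add_zero, sub_zero] at a3
  have a4 := hK 0 y
  rw [zero_add, zero_sub, S.hR_neg (S.l2 - S.n) y] at a4
  simp only [hQ]
  rw [abs_le] at a1 a2 a3 a4 ⊢
  have := le_abs_self (2 * (R₁ 0 + R₂ 0))
  have := neg_abs_le (2 * (R₁ 0 + R₂ 0))
  have := le_abs_self (2 * (R₂ 0 + R₃ 0))
  have := neg_abs_le (2 * (R₂ 0 + R₃ 0))
  constructor <;> linarith

end Setup

end Fermat.Agent.MWJ0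

end
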