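import Fermat.Prelude.Def_AlgebraicCurve_Repartitions
import Mathlib.LinearAlgebra.Dimension.Constructions
import Mathlib.FieldTheory.Finiteness
import Mathlib.GroupTheory.CosetCover

/-!
# Riemann–Roch spaces of a curve: pencils, products, base divisors

Everything here is formal consequence of `RRData`: deg-one places, degree zero principal
divisors and the Riemann–Roch formula in large degree.
-/

set_option autoImplicit false

noncomputable section

open AlgebraicCurve Module

namespace Fermat.Agent.MWJ0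

variable {K F : Type*} [Field K] [Field F] [Algebra K F]

local notation "Lsp" => riemannRochSpace (K := K) (F := F)

lemma ord_add_le {v : Place K F} {f g : F} {m : ℤ} (hf : f = 0 ∨ m ≤ v.ord f)
    (hg : g = 0 ∨ m ≤ v.ord g) : f + g = 0 ∨ m ≤ v.ord (f + g) := by
  rw [← neg_neg m] at hf hg ⊢
  rw [← v.adicValuation_le_exp_iff] at hf hg ⊢
  exact (Valuation.map_add _ _ _).trans (max_le hf hg)

lemma mem_valuationSubring_iff_ord {v : Place K F} {f : F} :
    f ∈ v.toValuationSubring ↔ f = 0 ∨ 0 ≤ v.ord f := by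
  refine ⟨fun h => v.adicValuation_le_one_iff.mp (v.adicValuation_le_one_of_mem h), fun h => ?_⟩
  rcases h with rfl | h
  · exact zero_mem _
  by_contra hn
  have hinv : f⁻¹ ∈ v.toValuationSubring := (v.toValuationSubring.mem_or_inv_mem f).resolve_left hn
  have h1 := v.adicValuation_le_one_iff.mp (v.adicValuation_le_one_of_mem hinv)
  rw [v.ord_inv] at h1
  rcases h1 with h1 | h1
  · simp at h1; exact hn (by rw [h1]; exact zero_mem _)
  · have h0 : v.ord f⁻¹ = 0 := by rw [v.ord_inv]; omega
    have : IsUnit (⟨f⁻¹, hinv⟩ : v.toValuationSubring) := by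
      rw [← v.adicValuation_coe_eq_one_iff]
      show v.adicValuation f⁻¹ = 1
      have hf0 : f⁻¹ ≠ 0 := inv_ne_zero fun hf => hn (by rw [hf]; exact zero_mem _)
      rw [v.adicValuation_eq_exp_neg_ord hf0, h0]; simp
    obtain ⟨u, hu⟩ := isUnit_iff_exists_inv.mp this
    have hu' : f⁻¹ * (u : F) = 1 := congrArg Subtype.val hu
    have : (u : F) = f := by
      rw [inv_mul_eq_one₀ (fun hf => hn (by rw [hf]; exact zero_mem _))] at hu'
      exact hu'.symm
    exact hn (this ▸ u.2)

lemma mem_Lsp {D : Divisor K F} {f : F} :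
    f ∈ Lsp D ↔ ∀ v : Place K F, f = 0 ∨ -D v ≤ v.ord f :=
  mem_riemannRochSpace_iff

lemma mem_Lsp_of_ne_zero {D : Divisor K F} {f : F} (hf : f ≠ 0) :
    f ∈ Lsp D ↔ ∀ v : Place K F, -D v ≤ v.ord f := by
  simp [mem_Lsp, hf]

lemma Lsp_mono {D D' : Divisor K F} (h : D ≤ D') : Lsp D ≤ Lsp D' := fun f hf => by
  rw [mem_Lsp] at hf ⊢
  exact fun v => (hf v).imp_right fun h' => (neg_le_neg (h v)).trans h'

lemma mul_mem_Lsp {A B : Divisor K F} {f g : F} (hf : f ∈ Lsp A) (hg : g ∈ Lsp B) :
    f * g ∈ Lsp (A + B) := by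
  rcases eq_or_ne f 0 with rfl | hf0
  · simp
  rcases eq_or_ne g 0 with rfl | hg0
  · simp
  rw [mem_Lsp_of_ne_zero (mul_ne_zero hf0 hg0)]
  rw [mem_Lsp_of_ne_zero hf0] at hf
  rw [mem_Lsp_of_ne_zero hg0] at hg
  intro v
  rw [v.ord_mul hf0 hg0, Finsupp.add_apply]
  linarith [hf v, hg v]

/-- A pencil without base point. -/
def IsPencil (A : Divisor K F) (w₁ w₂ : F) : Prop :=
  w₁ ∈ Lsp A ∧ w₂ ∈ Lsp A ∧ w₁ ≠ 0 ∧ w₂ ≠ 0 ∧
    ∀ v : Place K F, v.ord w₁ = -A v ∨ v.ord w₂ = -A v

/-- The facts about a curve used for Mordell–Weil. -/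
structure RRData (K F : Type*) [Field K] [Field F] [Algebra K F] where
  g : ℕ
  hasPrincipal : HasPrincipalDivisors K F
  deg_one : ∀ v : Place K F, v.deg = 1
  finite : ∀ D : Divisor K F, Module.Finite K (riemannRochSpace D)
  dim_eq : ∀ D : Divisor K F, 2 * (g : ℤ) ≤ Divisor.degree D →
    (finrank K (riemannRochSpace D) : ℤ) = Divisor.degree D + 1 - g

namespace RRData

variable (h : RRData K F)
include h

/-- The divisor of a nonzero function. -/
def divisor {f : F} (hf : f ≠ 0) : Divisor K F :=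
  (h.hasPrincipal.exists_divisor f hf).choose

lemma divisor_apply {f : F} (hf : f ≠ 0) (v : Place K F) : h.divisor hf v = v.ord f :=
  (h.hasPrincipal.exists_divisor f hf).choose_spec.1 v

lemma degree_divisor {f : F} (hf : f ≠ 0) : Divisor.degree (h.divisor hf) = 0 :=
  (h.hasPrincipal.exists_divisor f hf).choose_spec.2

lemma divisor_mem_principal {f : F} (hf : f ≠ 0) :
    h.divisor hf ∈ Divisor.principal (K := K) (F := F) :=
  ⟨f, hf, h.divisor_apply hf⟩

lemma degree_single (v : Place K F) (n : ℤ) : Divisor.degree (Finsupp.single v n) = n := by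
  simp [h.deg_one v]

lemma degree_eq_sum (D : Divisor K F) : Divisor.degree D = D.sum fun _ n => n := by
  induction D using Finsupp.induction with
  | zero => simp
  | single_add v n D hv hn ih =>
      rw [map_add, ih, h.degree_single, Finsupp.sum_add_index' (fun _ => rfl) (fun _ _ _ => rfl),
        Finsupp.sum_single_index rfl]

lemma degree_nonneg {D : Divisor K F} (hD : 0 ≤ D) : 0 ≤ Divisor.degree D := by
  rw [h.degree_eq_sum]
  exact Finset.sum_nonneg fun v _ => hD v

lemma eq_zero_of_nonneg_of_degree_le {D : Divisor K F} (hD : 0 ≤ D)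
    (hd : Divisor.degree D ≤ 0) : D = 0 := by
  rw [h.degree_eq_sum] at hd
  ext v
  by_contra hv
  have hv' : v ∈ D.support := Finsupp.mem_support_iff.mpr (by simpa using hv)
  have h1 : D v ≤ D.sum fun _ n => n :=
    Finset.single_le_sum (f := fun v => D v) (fun w _ => hD w) hv'
  have := hD v
  simp at this hv
  omega

/-- Effective divisor attached to a nonzero section. -/
lemma section_divisor {D : Divisor K F} {f : F} (hf : f ≠ 0) (hfD : f ∈ Lsp D) :
    0 ≤ h.divisor hf + D ∧ Divisor.degree (h.divisor hf + D) = Divisor.degree D := by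
  refine ⟨fun v => ?_, by rw [map_add, h.degree_divisor, zero_add]⟩
  rw [mem_Lsp_of_ne_zero hf] at hfD
  simp only [Finsupp.coe_zero, Pi.zero_apply, Finsupp.add_apply, h.divisor_apply hf]
  linarith [hfD v]

lemma Lsp_eq_bot_of_degree_neg {D : Divisor K F} (hD : Divisor.degree D < 0) : Lsp D = ⊥ := by
  rw [Submodule.eq_bot_iff]
  intro f hfD
  by_contra hf
  obtain ⟨h1, h2⟩ := h.section_divisor hf hfD
  have := h.degree_nonneg h1
  omega

lemma finrank_sub_single (D : Divisor K F) (v : Place K F) :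
    finrank K (Lsp D) ≤ finrank K (Lsp (D - Finsupp.single v 1)) + 1 := by
  have := h.finite D
  have : Module.Finite K v.ResidueField := Module.finite_of_finrank_pos (by
    show 0 < v.deg
    rw [h.deg_one]; exact one_pos)
  obtain ⟨π, hπ⟩ := IsDiscreteValuationRing.exists_irreducible v.toValuationSubring
  have hπ0 : (π : F) ≠ 0 := by simpa [ne_eq, ZeroMemClass.coe_eq_zero] using hπ.ne_zero
  have hord : ∀ n : ℤ, v.ord ((π : F) ^ n) = n := fun n => by
    rw [v.ord_zpow, v.ord_coe_irreducible hπ, mul_one]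
  have hmem : ∀ f : Lsp D, (f : F) * (π : F) ^ (D v) ∈ v.toValuationSubring := by
    intro f
    rw [mem_valuationSubring_iff_ord]
    rcases eq_or_ne (f : F) 0 with hf | hf
    · simp [hf]
    · refine Or.inr ?_
      rw [v.ord_mul hf (zpow_ne_zero _ hπ0), hord]
      have := (mem_Lsp_of_ne_zero hf).mp f.2 v
      omega
  let φ : Lsp D →ₗ[K] v.ResidueField :=
    { toFun := fun f => IsLocalRing.residue _ (⟨_, hmem f⟩ : v.toValuationSubring)
      map_add' := fun f g => by
        rw [← map_add]; congr 1; ext; simp [add_mul]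
      map_smul' := fun c f => by
        simp only [RingHom.id_apply, Algebra.smul_def]
        rw [IsScalarTower.algebraMap_apply K v.toValuationSubring v.ResidueField,
          IsLocalRing.ResidueField.algebraMap_eq, ← map_mul]
        congr 1; ext; simp [Algebra.smul_def, mul_assoc] }
  have hker : (LinearMap.ker φ).map (Lsp D).subtype ≤ Lsp (D - Finsupp.single v 1) := by
    rintro x ⟨f, hf, rfl⟩
    rw [mem_Lsp]
    intro w
    rcases eq_or_ne (f : F) 0 with hf0 | hf0
    · exact Or.inl hf0
    refine Or.inr ?_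
    have hw := (mem_Lsp_of_ne_zero hf0).mp f.2 w
    by_cases hwv : w = v
    · subst hwv
      simp only [Finsupp.sub_apply, Finsupp.single_eq_same, Submodule.subtype_apply]
      have hne : (f : F) * (π : F) ^ (D w) ≠ 0 := mul_ne_zero hf0 (zpow_ne_zero _ hπ0)
      by_contra hlt
      have h0 : w.ord ((f : F) * (π : F) ^ (D w)) = 0 := by
        rw [w.ord_mul hf0 (zpow_ne_zero _ hπ0), hord]; omega
      have hu : IsUnit (⟨_, hmem f⟩ : w.toValuationSubring) := by
        rw [← w.adicValuation_coe_eq_one_iff]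
        show w.adicValuation ((f : F) * (π : F) ^ (D w)) = 1
        rw [w.adicValuation_eq_exp_neg_ord hne, h0]; simp
      exact (IsLocalRing.residue_ne_zero_iff_isUnit _).mpr hu (LinearMap.mem_ker.mp hf)
    · simp only [Finsupp.sub_apply, Finsupp.single_eq_of_ne hwv, Submodule.subtype_apply,
        sub_zero]
      exact hw
  have := h.finite (D - Finsupp.single v 1)
  have h1 := φ.finrank_range_add_finrank_ker
  have h2 : finrank K (LinearMap.range φ) ≤ 1 := (Submodule.finrank_le _).trans (h.deg_one v).le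
  have h3 : finrank K (LinearMap.ker φ) ≤ finrank K (Lsp (D - Finsupp.single v 1)) := by
    have := Submodule.finrank_mono hker
    rwa [Submodule.finrank_map_subtype_eq] at this
  omega

lemma finrank_add_nsmul_single_le (D : Divisor K F) (v : Place K F) (n : ℕ) :
    finrank K (Lsp (D + Finsupp.single v (n : ℤ))) ≤ finrank K (Lsp D) + n := by
  induction n with
  | zero => rw [Nat.cast_zero, Finsupp.single_zero, add_zero, add_zero]
  | succ n ih =>
      have := h.finrank_sub_single (D + Finsupp.single v ((n + 1 : ℕ) : ℤ)) v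
      have e : D + Finsupp.single v ((n + 1 : ℕ) : ℤ) - Finsupp.single v 1
          = D + Finsupp.single v (n : ℤ) := by
        rw [Nat.cast_succ, Finsupp.single_add]; abel
      rw [e] at this
      omega

/-- Riemann's inequality. -/
lemma riemann_le (v : Place K F) (D : Divisor K F) :
    Divisor.degree D + 1 - h.g ≤ finrank K (Lsp D) := by
  set j := (2 * (h.g : ℤ) - Divisor.degree D).toNat
  have h1 := h.finrank_add_nsmul_single_le D v j
  have h2 := h.dim_eq (D + Finsupp.single v (j : ℤ)) (by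
    rw [map_add, h.degree_single]; omega)
  rw [map_add, h.degree_single] at h2
  omega

lemma finrank_le_of_degree_le (v : Place K F) {D : Divisor K F}
    (hD : Divisor.degree D ≤ 2 * h.g) : finrank K (Lsp D) ≤ h.g + 1 := by
  set j := (2 * (h.g : ℤ) - Divisor.degree D).toNat
  have hle : D ≤ D + Finsupp.single v (j : ℤ) := le_add_of_nonneg_right (by simp)
  have := h.finite (D + Finsupp.single v (j : ℤ))
  have h1 := Submodule.finrank_mono (Lsp_mono hle)
  have h2 := h.dim_eq (D + Finsupp.single v (j : ℤ)) (by rw [map_add, h.degree_single]; omega)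
  rw [map_add, h.degree_single] at h2
  omega

lemma Lsp_sub_single_ne (D : Divisor K F) (v : Place K F)
    (hD : 2 * (h.g : ℤ) < Divisor.degree D) : ¬ Lsp D ≤ Lsp (D - Finsupp.single v 1) := by
  intro hle
  have := h.finite (D - Finsupp.single v 1)
  have := Submodule.finrank_mono hle
  have h1 := h.dim_eq D hD.le
  have h2 := h.dim_eq (D - Finsupp.single v 1) (by rw [map_sub, h.degree_single]; omega)
  rw [map_sub, h.degree_single] at h2
  omega

/-- The base-point-free pencil trick. -/
lemma pencil_span {A B : Divisor K F} {w₁ w₂ : F} (hp : IsPencil A w₁ w₂)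
    (hB : Divisor.degree A + 2 * h.g ≤ Divisor.degree B) (hA : 0 ≤ Divisor.degree A) :
    (Lsp B).map (LinearMap.mulLeft K w₁) ⊔ (Lsp B).map (LinearMap.mulLeft K w₂)
      = Lsp (A + B) := by
  obtain ⟨h1, h2, n1, n2, hbp⟩ := hp
  have := h.finite (A + B)
  have := h.finite B
  have := h.finite (B - A)
  have hle : (Lsp B).map (LinearMap.mulLeft K w₁) ⊔ (Lsp B).map (LinearMap.mulLeft K w₂)
      ≤ Lsp (A + B) := by
    refine sup_le ?_ ?_ <;> rintro x ⟨b, hb, rfl⟩
    · exact mul_mem_Lsp h1 hb
    · exact mul_mem_Lsp h2 hb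
  refine Submodule.eq_of_le_of_finrank_le hle ?_
  set U := (Lsp B).map (LinearMap.mulLeft K w₁)
  set V := (Lsp B).map (LinearMap.mulLeft K w₂)
  have : Module.Finite K U := Module.Finite.map _ _
  have : Module.Finite K V := Module.Finite.map _ _
  have hU : finrank K U = finrank K (Lsp B) :=
    (Submodule.equivMapOfInjective _ (mul_right_injective₀ n1) _).finrank_eq.symm
  have hV : finrank K V = finrank K (Lsp B) :=
    (Submodule.equivMapOfInjective _ (mul_right_injective₀ n2) _).finrank_eq.symm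
  have hI : U ⊓ V ≤ (Lsp (B - A)).map (LinearMap.mulLeft K (w₁ * w₂)) := by
    rintro x ⟨⟨a, ha, hax⟩, ⟨b, hb, hbx⟩⟩
    simp only [LinearMap.mulLeft_apply] at hax hbx
    refine ⟨a / w₂, ?_, by rw [LinearMap.mulLeft_apply, ← hax]; field_simp⟩
    rcases eq_or_ne a 0 with rfl | ha0
    · simp
    have hb0 : b ≠ 0 := by rintro rfl; simp [← hax, n1, ha0] at hbx
    rw [SetLike.mem_coe, mem_Lsp_of_ne_zero (div_ne_zero ha0 n2)]
    intro v
    have hord : v.ord (a / w₂) = v.ord a - v.ord w₂ := by
      rw [div_eq_mul_inv, v.ord_mul ha0 (inv_ne_zero n2), v.ord_inv]; ring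
    have hsum : v.ord w₁ + v.ord a = v.ord w₂ + v.ord b := by
      rw [← v.ord_mul n1 ha0, ← v.ord_mul n2 hb0, hax, hbx]
    have ea := (mem_Lsp_of_ne_zero ha0).mp ha v
    have eb := (mem_Lsp_of_ne_zero hb0).mp hb v
    simp only [Finsupp.sub_apply]
    rcases hbp v with e | e <;> omega
  have : Module.Finite K ((Lsp (B - A)).map (LinearMap.mulLeft K (w₁ * w₂))) :=
    Module.Finite.map _ _
  have hIle := (Submodule.finrank_mono hI).trans (Submodule.finrank_map_le _ _)
  have hsum := Submodule.finrank_sup_add_finrank_inf_eq U V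
  have eB := h.dim_eq B (by omega)
  have eAB := h.dim_eq (A + B) (by rw [map_add]; omega)
  have eBA := h.dim_eq (B - A) (by rw [map_sub]; omega)
  rw [map_add] at eAB
  rw [map_sub] at eBA
  omega

omit h in
/-- A nonzero element of `W` of exact order `-A v` at each place of a finite set. -/
lemma exists_avoid [Infinite K] {A : Divisor K F} (W : Submodule K F)
    (hW : ∀ v : Place K F, ¬ W ≤ Lsp (A - Finsupp.single v 1)) (hWA : W ≤ Lsp A)
    (hne : W ≠ ⊥) (s : Finset (Place K F)) :
    ∃ w ∈ W, w ≠ 0 ∧ ∀ v ∈ s, v.ord w = -A v := by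
  classical
  let f : Option ↥s → Submodule K F := fun o =>
    o.elim ⊥ fun v => W ⊓ Lsp (A - Finsupp.single (v : Place K F) 1)
  have hf : ∀ o, ¬ W ≤ f o := by
    rintro (_ | v)
    · simpa [f] using hne
    · exact fun hle => hW v (hle.trans inf_le_right)
  obtain ⟨w, hwW, hw⟩ : ∃ w ∈ W, ∀ o, w ∉ f o := by
    by_contra hcon
    push Not at hcon
    obtain ⟨o, ho⟩ := Subspace.exists_eq_top_of_iUnion_eq_univ
      (p := fun o => (f o).comap W.subtype) (Set.eq_univ_of_forall fun w => by
        obtain ⟨o, ho⟩ := hcon (w : F) w.2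
        exact Set.mem_iUnion.mpr ⟨o, ho⟩)
    exact hf o fun x hx => by
      have : (⟨x, hx⟩ : W) ∈ (f o).comap W.subtype := ho ▸ Submodule.mem_top
      exact this
  have hw0 : w ≠ 0 := fun e => hw none (by simp [e])
  refine ⟨w, hwW, hw0, fun v hv => ?_⟩
  have hA := (mem_Lsp_of_ne_zero hw0).mp (hWA hwW)
  refine le_antisymm (not_lt.mp fun hlt => hw (some ⟨v, hv⟩) ⟨hwW, ?_⟩) (hA v)
  rw [SetLike.mem_coe, mem_Lsp_of_ne_zero hw0]
  intro u
  by_cases hu : u = v
  · subst hu; simp only [Finsupp.sub_apply, Finsupp.single_eq_same]; omega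
  · simp only [Finsupp.sub_apply, Finsupp.single_eq_of_ne hu, sub_zero]; exact hA u

/-- A base-point-free subspace contains a pencil. -/
lemma exists_pencil [Infinite K] {A : Divisor K F} (W : Submodule K F)
    (hW : ∀ v : Place K F, ¬ W ≤ Lsp (A - Finsupp.single v 1)) (hWA : W ≤ Lsp A)
    (hne : W ≠ ⊥) : ∃ w₁ ∈ W, ∃ w₂ ∈ W, IsPencil A w₁ w₂ := by
  classical
  obtain ⟨w₁, h1, n1, -⟩ := exists_avoid W hW hWA hne ∅
  obtain ⟨w₂, h2, n2, e2⟩ := exists_avoid W hW hWA hne (h.divisor n1 + A).support
  refine ⟨w₁, h1, w₂, h2, hWA h1, hWA h2, n1, n2, fun v => ?_⟩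
  by_cases hv : v ∈ (h.divisor n1 + A).support
  · exact Or.inr (e2 v hv)
  · refine Or.inl ?_
    rw [Finsupp.notMem_support_iff, Finsupp.add_apply, h.divisor_apply n1] at hv
    omega

/-- Products of two Riemann–Roch spaces span the Riemann–Roch space of the sum. -/
lemma mul_span [Infinite K] {A B : Divisor K F} (hA : 2 * (h.g : ℤ) < Divisor.degree A)
    (hB : Divisor.degree A + 2 * h.g ≤ Divisor.degree B) :
    Lsp A * Lsp B = Lsp (A + B) := by
  refine le_antisymm (Submodule.mul_le.mpr fun a ha b hb => mul_mem_Lsp ha hb) ?_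
  have hne : Lsp A ≠ ⊥ := fun e => by
    have := h.dim_eq A hA.le
    rw [e, finrank_bot] at this
    omega
  obtain ⟨w₁, h1, w₂, h2, hp⟩ :=
    h.exists_pencil (Lsp A) (fun v => h.Lsp_sub_single_ne A v hA) le_rfl hne
  rw [← h.pencil_span hp hB (by omega)]
  refine sup_le ?_ ?_ <;> rintro x ⟨b, hb, rfl⟩
  · exact Submodule.mul_mem_mul h1 hb
  · exact Submodule.mul_mem_mul h2 hb

/-- A subspace of `L(A)` of codimension `n` whose products with `L(C)` fill at most codimension `n`
in `L(A + C)` is cut out by an effective divisor of degree `n`. -/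
lemma exists_divisor_of_mul_le [Infinite K] {A C : Divisor K F} {n : ℕ} {W W' : Submodule K F}
    (hWA : W ≤ Lsp A) (hW'C : W' ≤ Lsp (A + C)) (hmul : W * Lsp C ≤ W')
    (hA : 2 * (h.g : ℤ) + n < Divisor.degree A)
    (hC : Divisor.degree A + 2 * h.g ≤ Divisor.degree C)
    (hW : (finrank K W : ℤ) = Divisor.degree A + 1 - h.g - n)
    (hW' : (finrank K W' : ℤ) = Divisor.degree A + Divisor.degree C + 1 - h.g - n) :
    ∃ D : Divisor K F, 0 ≤ D ∧ Divisor.degree D = n ∧
      W = Lsp (A - D) ∧ W' = Lsp (A + C - D) := by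
  classical
  have := h.finite A
  have := h.finite (A + C)
  have : Module.Finite K W := Submodule.finiteDimensional_of_le hWA
  have : Module.Finite K W' := Submodule.finiteDimensional_of_le hW'C
  have hne : W ≠ ⊥ := fun e => by rw [e, finrank_bot] at hW; omega
  obtain ⟨w0, hw0W, hw00⟩ := (Submodule.ne_bot_iff W).mp hne
  have hbnd : ∀ v : Place K F, ∃ m : ℕ, (∀ w ∈ W, w ≠ 0 → (m : ℤ) ≤ v.ord w + A v) ∧
      ∃ w ∈ W, w ≠ 0 ∧ v.ord w + A v = m := by
    intro v
    have hex : ∃ m : ℕ, ∃ w ∈ W, w ≠ 0 ∧ v.ord w + A v = m := by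
      have := (mem_Lsp_of_ne_zero hw00).mp (hWA hw0W) v
      exact ⟨(v.ord w0 + A v).toNat, w0, hw0W, hw00, by omega⟩
    refine ⟨Nat.find hex, fun w hw hw0 => ?_, Nat.find_spec hex⟩
    have hnn := (mem_Lsp_of_ne_zero hw0).mp (hWA hw) v
    have := Nat.find_min' hex (m := (v.ord w + A v).toNat) ⟨w, hw, hw0, by omega⟩
    omega
  choose m hm hmat using hbnd
  let D : Divisor K F := Finsupp.onFinset (h.divisor hw00 + A).support (fun v => (m v : ℤ))
    (fun v hv => by
      rw [Finsupp.mem_support_iff, Finsupp.add_apply, h.divisor_apply hw00]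
      have := hm v w0 hw0W hw00
      omega)
  have hDv : ∀ v, D v = m v := fun v => by simp [D]
  have hD0 : 0 ≤ D := fun v => by simp [hDv]
  have hWD : W ≤ Lsp (A - D) := fun w hw => by
    rcases eq_or_ne w 0 with rfl | hw0
    · simp
    rw [mem_Lsp_of_ne_zero hw0]
    intro v
    have := hm v w hw hw0
    simp only [Finsupp.sub_apply, hDv]
    omega
  have hbp : ∀ v : Place K F, ¬ W ≤ Lsp (A - D - Finsupp.single v 1) := by
    intro v hle
    obtain ⟨w, hw, hw0, e⟩ := hmat v
    have := (mem_Lsp_of_ne_zero hw0).mp (hle hw) v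
    simp only [Finsupp.sub_apply, Finsupp.single_eq_same, hDv] at this
    omega
  obtain ⟨w₁, h1, w₂, h2, hp⟩ := h.exists_pencil W hbp hWD hne
  have := h.finite (A - D)
  have hle := Submodule.finrank_mono hWD
  have hdeg : Divisor.degree D ≤ n := by
    by_contra hlt
    by_cases hbig : 2 * (h.g : ℤ) ≤ Divisor.degree (A - D)
    · have := h.dim_eq _ hbig
      rw [map_sub] at this
      omega
    · obtain ⟨v⟩ : Nonempty (Place K F) := by
        by_contra hne'
        rw [not_nonempty_iff] at hne'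
        have : D = 0 := Finsupp.ext fun v => (hne'.false v).elim
        simp [this] at hlt
      have := h.finrank_le_of_degree_le v (D := A - D) (by omega)
      omega
  have hd0 := h.degree_nonneg hD0
  have hspan := h.pencil_span hp (B := C) (by rw [map_sub]; omega) (by rw [map_sub]; omega)
  have hle' : Lsp (A + C - D) ≤ W' := by
    rw [show A + C - D = A - D + C by abel, ← hspan]
    refine sup_le ?_ ?_ <;> rintro x ⟨b, hb, rfl⟩
    · exact hmul (Submodule.mul_mem_mul h1 hb)
    · exact hmul (Submodule.mul_mem_mul h2 hb)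
  have h3 := Submodule.finrank_mono hle'
  have h4 := h.dim_eq (A + C - D) (by rw [map_sub, map_add]; omega)
  rw [map_sub, map_add] at h4
  have hDn : Divisor.degree D = n := by omega
  have h5 := h.dim_eq (A - D) (by rw [map_sub]; omega)
  rw [map_sub] at h5
  exact ⟨D, hD0, hDn, Submodule.eq_of_le_of_finrank_le hWD (by omega),
    (Submodule.eq_of_le_of_finrank_le hle' (by omega)).symm⟩

/-- Every degree zero class is represented by an effective divisor of degree `d ≤ g` with
one-dimensional Riemann–Roch space. -/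
lemma exists_reduced (P : Place K F) {D₀ : Divisor K F} (hD₀ : Divisor.degree D₀ = 0) :
    ∃ (d : ℕ) (D : Divisor K F), d ≤ h.g ∧ 0 ≤ D ∧ Divisor.degree D = d ∧
      D - Finsupp.single P (d : ℤ) - D₀ ∈ Divisor.principal (K := K) (F := F) ∧
      finrank K (Lsp (D₀ + Finsupp.single P (d : ℤ))) = 1 := by
  classical
  have hex : ∃ d : ℕ, 0 < finrank K (Lsp (D₀ + Finsupp.single P (d : ℤ))) := by
    refine ⟨h.g, ?_⟩
    have := h.riemann_le P (D₀ + Finsupp.single P (h.g : ℤ))
    rw [map_add, hD₀, h.degree_single] at this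
    omega
  have hdg : Nat.find hex ≤ h.g := Nat.find_min' hex (by
    have := h.riemann_le P (D₀ + Finsupp.single P (h.g : ℤ))
    rw [map_add, hD₀, h.degree_single] at this
    omega)
  set d := Nat.find hex with hd
  have hpos := Nat.find_spec hex
  have hone : finrank K (Lsp (D₀ + Finsupp.single P (d : ℤ))) = 1 := by
    refine le_antisymm ?_ hpos
    have h1 := h.finrank_sub_single (D₀ + Finsupp.single P (d : ℤ)) P
    rw [add_sub_assoc, ← Finsupp.single_sub] at h1
    rcases Nat.eq_zero_or_pos d with e | e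
    · have := h.finite (D₀ + Finsupp.single P ((d : ℤ) - 1))
      rw [h.Lsp_eq_bot_of_degree_neg (D := D₀ + Finsupp.single P ((d : ℤ) - 1))
        (by rw [map_add, hD₀, h.degree_single]; omega), finrank_bot] at h1
      exact h1
    · have h2 := Nat.find_min hex (m := d - 1) (by omega)
      rw [show ((d - 1 : ℕ) : ℤ) = (d : ℤ) - 1 by omega] at h2
      omega
  have := h.finite (D₀ + Finsupp.single P (d : ℤ))
  have hne : Lsp (D₀ + Finsupp.single P (d : ℤ)) ≠ ⊥ := fun e => by
    rw [e, finrank_bot] at hone; omega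
  obtain ⟨f, hf, hf0⟩ := (Submodule.ne_bot_iff _).mp hne
  obtain ⟨hnn, hdeg⟩ := h.section_divisor hf0 hf
  rw [map_add (Divisor.degree) D₀, hD₀, h.degree_single, zero_add] at hdeg
  refine ⟨d, _, hdg, hnn, hdeg, ?_, hone⟩
  convert h.divisor_mem_principal hf0 using 1
  abel

end RRData

end Fermat.Agent.MWJ0

end
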