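import Mathlib.LinearAlgebra.Matrix.NonsingularInverse
import Mathlib.LinearAlgebra.Matrix.ToLin
import Mathlib.LinearAlgebra.Matrix.Rank
import Mathlib.LinearAlgebra.Dimension.StrongRankCondition
import Mathlib.LinearAlgebra.FiniteDimensional.Lemmas

/-!
# Dimensions of spans as vanishing of minors
-/

set_option autoImplicit false

noncomputable section

open Module

namespace Fermat.Agent.MWJ0

variable {R R' : Type*} [CommRing R] [CommRing R'] {ι κ : Type*}

/-- The minors of size `r` of a family of vectors. -/
def minor {r : ℕ} (v : κ → ι → R) (i : (Fin r → ι) × (Fin r → κ)) : R :=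
  Matrix.det (Matrix.of fun a b => v (i.2 b) (i.1 a))

lemma map_minor {r : ℕ} (φ : R →+* R') (v : κ → ι → R) (i : (Fin r → ι) × (Fin r → κ)) :
    φ (minor v i) = minor (fun k l => φ (v k l)) i := by
  rw [minor, φ.map_det]
  rfl

variable {K : Type*} [Field K] [Fintype ι]

/-- All minors of size `r` vanish exactly when the span has dimension less than `r`. -/
theorem forall_minor_eq_zero_iff {r : ℕ} (v : κ → ι → K) :
    (∀ i : (Fin r → ι) × (Fin r → κ), minor v i = 0) ↔
      finrank K (Submodule.span K (Set.range v)) < r := by
  classical
  constructor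
  · intro h
    by_contra hle
    push Not at hle
    obtain ⟨f, hf, -, hli⟩ := Submodule.exists_fun_fin_finrank_span_eq K (Set.range v)
    choose c hc using hf
    have hc' : LinearIndependent K fun b : Fin r => v (c (Fin.castLE hle b)) := by
      simp only [hc]
      exact hli.comp _ (Fin.castLE_injective hle)
    let M : Matrix ι (Fin r) K := Matrix.of fun a b => v (c (Fin.castLE hle b)) a
    have hM : M.rank = r := by
      rw [M.rank_eq_finrank_span_cols]
      exact (finrank_span_eq_card hc').trans (Fintype.card_fin r)
    rw [M.rank_eq_finrank_span_row] at hM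
    obtain ⟨g, hg, -, hgli⟩ := Submodule.exists_fun_fin_finrank_span_eq K (Set.range M.row)
    choose a ha using hg
    have h2 : LinearIndependent K fun s : Fin r => M (a (Fin.cast hM.symm s)) := by
      show LinearIndependent K fun s : Fin r => M.row (a (Fin.cast hM.symm s))
      simp only [ha]
      exact hgli.comp _ (Fin.cast_injective _)
    exact ((Matrix.linearIndependent_rows_iff_isUnit
      (A := Matrix.of fun s b => v (c (Fin.castLE hle b)) (a (Fin.cast hM.symm s)))).mp
        h2 |> (Matrix.isUnit_iff_isUnit_det _).mp).ne_zero
      (h (fun s => a (Fin.cast hM.symm s), fun b => c (Fin.castLE hle b)))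
  · intro h i
    by_contra hne
    have hu : IsUnit (Matrix.of fun a b => v (i.2 b) (i.1 a)) :=
      (Matrix.isUnit_iff_isUnit_det _).mpr (isUnit_iff_ne_zero.mpr hne)
    have hcols := Matrix.linearIndependent_cols_iff_isUnit.mpr hu
    have hv : LinearIndependent K fun b => v (i.2 b) :=
      LinearIndependent.of_comp (LinearMap.funLeft K K i.1) hcols
    have := Submodule.finrank_mono (R := K) (Submodule.span_mono
      (Set.range_comp_subset_range i.2 v))
    rw [show v ∘ i.2 = fun b => v (i.2 b) from rfl, finrank_span_eq_card hv, Fintype.card_fin] at this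
    omega

end Fermat.Agent.MWJ0

end
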