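import Fermat.Agent.MWJ0.Setup

/-!
# Rational series in the base change, and the spaces `V b`
-/

set_option autoImplicit false

noncomputable section

open AlgebraicCurve ModularCurve Module HahnSeries

namespace Fermat.Agent.MWJ0

section General

variable {R : Type*} [CommRing R]

lemma ls_smul_mul (c : R) (x y : LaurentSeries R) : (c • x) * y = c • (x * y) := by
  rw [← HahnSeries.single_zero_mul_eq_smul, ← HahnSeries.single_zero_mul_eq_smul, mul_assoc]

lemma ls_mul_smul (c : R) (x y : LaurentSeries R) : x * (c • y) = c • (x * y) := by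
  rw [mul_comm, ls_smul_mul, mul_comm]

lemma ls_algebraMap_mul {L : Type*} [Field L] (c : L) (x : LaurentSeries L) :
    algebraMap L (LaurentSeries L) c * x = c • x := by
  rw [algebraMap_laurentSeries_eq_single, HahnSeries.single_zero_mul_eq_smul]

lemma ls_smul_one (c : R) : c • (1 : LaurentSeries R) = HahnSeries.single 0 c := by
  rw [← HahnSeries.single_zero_mul_eq_smul, mul_one]

end General

namespace Setup

variable (S : Setup)

local notation "Qb" => AlgebraicClosure ℚ

/-- The genus. -/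
def g : ℕ := (S.rr Qb).g

/-- The rational space `L(b·∞)`, computed over `ℚ̄`. -/
def V (b : ℤ) : Submodule ℚ (LaurentSeries ℚ) := S.S0 Qb b

variable (L : Type) [Field L] [Algebra ℚ L] [IsAlgClosed L]

local notation "FF" => laurentBaseChange L S.F₀

lemma coeffEmb_smul (c : ℚ) (f : LaurentSeries ℚ) :
    coeffEmb L (c • f) = algebraMap ℚ L c • coeffEmb L f := by
  ext k
  rw [coeffEmb_coeff, HahnSeries.coeff_smul, HahnSeries.coeff_smul, coeffEmb_coeff, smul_eq_mul,
    smul_eq_mul, map_mul]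

lemma coeffEmb_single (c : ℚ) :
    coeffEmb L (HahnSeries.single 0 c) = HahnSeries.single 0 (algebraMap ℚ L c) := by
  rw [coeffEmb, coeffMap_single]

lemma mem_Sb_of_order {a b : ℤ} {s : LaurentSeries L} (hs : s ∈ S.Sb L b)
    (h : s = 0 ∨ -a ≤ s.order) : s ∈ S.Sb L a := by
  obtain ⟨f, hf, rfl⟩ := S.exists_of_mem_Sb L hs
  rcases eq_or_ne f 0 with rfl | hf0
  · simp
  rw [mem_Sb, mem_Lsp_of_ne_zero hf0]
  intro v
  rcases eq_or_ne v (S.inf L) with rfl | hv
  · rw [binf, Finsupp.single_eq_same, ord_inf S L hf0]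
    exact h.resolve_left (coe_ne_zero hf0)
  · have := (mem_Lsp_of_ne_zero hf0).mp hf v
    rw [binf, Finsupp.single_eq_of_ne hv] at this ⊢
    exact this

lemma eq_C_of_mem_Sb_zero {s : LaurentSeries L} (hs : s ∈ S.Sb L 0) :
    s = HahnSeries.single 0 (s.coeff 0) := by
  rw [← ls_smul_one]
  refine sub_eq_zero.mp (S.eq_zero_of_window L
    (sub_mem hs (Submodule.smul_mem _ _ (S.one_mem_Sb L le_rfl))) fun k hk => ?_)
  obtain rfl : k = 0 := by simpa using hk
  simp

/-- Linearly independent rational series stay independent. -/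
lemma linearIndependent_coeffEmb {ι : Type*} {a : ι → LaurentSeries ℚ}
    (ha : LinearIndependent ℚ a) : LinearIndependent L fun i => coeffEmb L (a i) := by
  classical
  rw [linearIndependent_iff'] at ha ⊢
  intro t c hc i hi
  by_contra hne
  obtain ⟨π, hπ⟩ := exists_functional L hne
  have := ha t (fun j => π (c j)) (by
    have h2 := congrArg (retr L π) hc
    simpa [map_sum, retr_smul_coeffEmb] using h2) i hi
  rw [hπ] at this
  exact one_ne_zero this

lemma span_coeffEmb_eq_range {ι : Type*} [Fintype ι] (T : Submodule ℚ (LaurentSeries ℚ))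
    (bas : Basis ι ℚ T) :
    Submodule.span L (Set.range fun i => coeffEmb L (bas i : LaurentSeries ℚ))
      = Submodule.span L (coeffEmb L '' (T : Set _)) := by
  refine le_antisymm (Submodule.span_mono ?_) (Submodule.span_le.mpr ?_)
  · rintro _ ⟨i, rfl⟩; exact ⟨_, (bas i).2, rfl⟩
  · rintro _ ⟨t, ht, rfl⟩
    have h2 : t = ∑ i, bas.repr ⟨t, ht⟩ i • (bas i : LaurentSeries ℚ) := by
      have h1 := congrArg T.subtype (bas.sum_repr ⟨t, ht⟩)
      rw [map_sum] at h1
      exact h1.symm.trans (Finset.sum_congr rfl fun i _ => by rw [map_smul]; rfl)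
    rw [SetLike.mem_coe, h2, map_sum]
    refine Submodule.sum_mem _ fun i _ => ?_
    rw [coeffEmb_smul]
    exact Submodule.smul_mem _ _ (Submodule.subset_span ⟨i, rfl⟩)

lemma finite_span_coeffEmb (T : Submodule ℚ (LaurentSeries ℚ)) [Module.Finite ℚ T] :
    Module.Finite L (Submodule.span L (coeffEmb L '' (T : Set _))) := by
  rw [← span_coeffEmb_eq_range L T (Module.finBasis ℚ T)]
  exact Module.Finite.span_of_finite L (Set.finite_range _)

lemma finrank_span_coeffEmb (T : Submodule ℚ (LaurentSeries ℚ)) [Module.Finite ℚ T] :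
    finrank L (Submodule.span L (coeffEmb L '' (T : Set _))) = finrank ℚ T := by
  have hli : LinearIndependent L fun i => coeffEmb L (Module.finBasis ℚ T i : LaurentSeries ℚ) :=
    linearIndependent_coeffEmb L
      ((Module.finBasis ℚ T).linearIndependent.map' T.subtype T.ker_subtype)
  rw [← span_coeffEmb_eq_range L T (Module.finBasis ℚ T), finrank_span_eq_card hli,
    Fintype.card_fin]

instance finite_S0 (b : ℤ) : Module.Finite ℚ (S.S0 L b) := by
  let w : S.S0 L b →ₗ[ℚ] (Finset.Icc (-b) 0 → ℚ) :=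
    { toFun := fun f k => (f : LaurentSeries ℚ).coeff k
      map_add' := fun f g => by ext k; simp
      map_smul' := fun c f => by ext k; simp }
  refine Module.Finite.of_injective w fun f g h => sub_eq_zero.mp (Subtype.ext ?_)
  apply coeffEmb_injective L
  rw [ZeroMemClass.coe_zero, map_zero]
  refine S.eq_zero_of_window L (b := b) (f - g).2 fun k hk => ?_
  have := congrFun h ⟨k, hk⟩
  simp [w] at this
  simp [this]

lemma finrank_S0 (b : ℤ) : finrank ℚ (S.S0 L b) = finrank L (S.Sb L b) := by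
  rw [S.Sb_eq_span L b, finrank_span_coeffEmb]

lemma retr_coeffEmb_mul (π : L →ₗ[ℚ] ℚ) (a : LaurentSeries ℚ) {s : LaurentSeries L}
    {T : Set (LaurentSeries ℚ)} (hs : s ∈ Submodule.span L (coeffEmb L '' T)) :
    retr L π (coeffEmb L a * s) = a * retr L π s := by
  suffices h : ∀ c : L, retr L π (coeffEmb L a * (c • s)) = a * retr L π (c • s) by
    simpa using h 1
  induction hs using Submodule.span_induction with
  | mem y hy =>
      obtain ⟨t, -, rfl⟩ := hy
      intro c
      rw [ls_mul_smul, ← map_mul, retr_smul_coeffEmb, retr_smul_coeffEmb, ls_mul_smul]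
  | zero => simp
  | add y z _ _ hy hz => intro c; rw [smul_add, mul_add, map_add, map_add, hy, hz, mul_add]
  | smul d y _ hy => intro c; rw [smul_smul]; exact hy _

lemma span_mul_mem {A B C : Set (LaurentSeries ℚ)} (hABC : ∀ a ∈ A, ∀ b ∈ B, a * b ∈ C)
    {s t : LaurentSeries L} (hs : s ∈ Submodule.span L (coeffEmb L '' A))
    (ht : t ∈ Submodule.span L (coeffEmb L '' B)) :
    s * t ∈ Submodule.span L (coeffEmb L '' C) := by
  induction hs using Submodule.span_induction with
  | mem y hy =>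
      obtain ⟨a, ha, rfl⟩ := hy
      induction ht using Submodule.span_induction with
      | mem z hz =>
          obtain ⟨b, hb, rfl⟩ := hz
          exact Submodule.subset_span ⟨a * b, hABC a ha b hb, map_mul _ _ _⟩
      | zero => simp
      | add z w _ _ hz hw => rw [mul_add]; exact add_mem hz hw
      | smul d z _ hz => rw [ls_mul_smul]; exact Submodule.smul_mem _ _ hz
  | zero => simp
  | add y z _ _ hy hz => rw [add_mul]; exact add_mem hy hz
  | smul d y _ hy => rw [ls_smul_mul]; exact Submodule.smul_mem _ _ hy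

/-- Elements of the base change are quotients of combinations of elements of `F₀`. -/
lemma exists_div_of_mem_FF {s : LaurentSeries L} (hs : s ∈ FF) :
    ∃ P ∈ Submodule.span L (coeffEmb L '' (S.F₀ : Set _)),
      ∃ Q ∈ Submodule.span L (coeffEmb L '' (S.F₀ : Set _)), Q ≠ 0 ∧ s * Q = P := by
  have hmul : ∀ a ∈ (S.F₀ : Set (LaurentSeries ℚ)), ∀ b ∈ (S.F₀ : Set _), a * b ∈ (S.F₀ : Set _) :=
    fun a ha b hb => mul_mem ha hb
  have hone : (1 : LaurentSeries L) ∈ Submodule.span L (coeffEmb L '' (S.F₀ : Set _)) :=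
    Submodule.subset_span ⟨1, one_mem S.F₀, map_one _⟩
  induction hs using IntermediateField.adjoin_induction with
  | mem s hs => exact ⟨s, Submodule.subset_span hs, 1, hone, one_ne_zero, mul_one s⟩
  | algebraMap c =>
      exact ⟨_, Submodule.smul_mem _ c hone, 1, hone, one_ne_zero, ls_algebraMap_mul c 1⟩
  | add a b _ _ ha hb =>
      obtain ⟨P, hP, Q, hQ, hQ0, e⟩ := ha
      obtain ⟨P', hP', Q', hQ', hQ0', e'⟩ := hb
      exact ⟨_, add_mem (span_mul_mem L hmul hP hQ') (span_mul_mem L hmul hP' hQ), _,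
        span_mul_mem L hmul hQ hQ', mul_ne_zero hQ0 hQ0', by rw [← e, ← e']; ring⟩
  | inv a _ ha =>
      obtain ⟨P, hP, Q, hQ, hQ0, e⟩ := ha
      rcases eq_or_ne a 0 with rfl | ha0
      · exact ⟨0, zero_mem _, 1, hone, one_ne_zero, by simp⟩
      · exact ⟨Q, hQ, P, hP, e ▸ mul_ne_zero ha0 hQ0, by rw [← e, inv_mul_cancel_left₀ ha0]⟩
  | mul a b _ _ ha hb =>
      obtain ⟨P, hP, Q, hQ, hQ0, e⟩ := ha
      obtain ⟨P', hP', Q', hQ', hQ0', e'⟩ := hb
      exact ⟨_, span_mul_mem L hmul hP hP', _, span_mul_mem L hmul hQ hQ', mul_ne_zero hQ0 hQ0',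
        by rw [← e, ← e']; ring⟩

lemma exists_retr_ne_zero {s : LaurentSeries L} (hs : s ≠ 0) :
    ∃ π : L →ₗ[ℚ] ℚ, retr L π s ≠ 0 := by
  obtain ⟨π, hπ⟩ := exists_functional L (mt coeff_order_eq_zero.mp hs)
  refine ⟨π, fun e => ?_⟩
  have := congrArg (fun t : LaurentSeries ℚ => t.coeff s.order) e
  simp [hπ] at this

/-- `F₀` as a `ℚ`-subspace of Laurent series. -/
def F₀sub : Submodule ℚ (LaurentSeries ℚ) where
  carrier := S.F₀
  zero_mem' := zero_mem _
  add_mem' := add_mem
  smul_mem' c f hf := by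
    show c • f ∈ S.F₀
    rw [← ls_algebraMap_mul]
    exact mul_mem (S.F₀.algebraMap_mem c) hf

/-- A rational series lies in the base change only if it lies in `F₀`. -/
lemma coeffEmb_mem_iff {f : LaurentSeries ℚ} : coeffEmb L f ∈ FF ↔ f ∈ S.F₀ := by
  refine ⟨fun hf => ?_, coeffEmb_mem_laurentBaseChange L⟩
  obtain ⟨P, hP, Q, hQ, hQ0, e⟩ := S.exists_div_of_mem_FF L hf
  obtain ⟨π, hπ⟩ := exists_retr_ne_zero L hQ0
  have hQ' : retr L π Q ∈ S.F₀ := retr_mem_of_mem_span L π (T := S.F₀sub) hQ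
  have hP' : retr L π P ∈ S.F₀ := retr_mem_of_mem_span L π (T := S.F₀sub) hP
  rw [← e, retr_coeffEmb_mul L π f hQ] at hP'
  have := div_mem hP' hQ'
  rwa [mul_div_assoc, div_self hπ, mul_one] at this

lemma mem_F₀_of_mem_S0 {b : ℤ} {f : LaurentSeries ℚ} (hf : f ∈ S.S0 L b) : f ∈ S.F₀ := by
  obtain ⟨e, -, he⟩ := S.exists_of_mem_Sb L hf
  exact (S.coeffEmb_mem_iff L).mp (he ▸ e.2)

lemma mem_F₀_of_mem_V {b : ℤ} {f : LaurentSeries ℚ} (hf : f ∈ S.V b) : f ∈ S.F₀ :=
  S.mem_F₀_of_mem_S0 _ hf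

lemma V_mono {a b : ℤ} (h : a ≤ b) : S.V a ≤ S.V b := fun _ hf => S.Sb_mono Qb h hf

lemma mul_mem_V {a b : ℤ} {f g : LaurentSeries ℚ} (hf : f ∈ S.V a) (hg : g ∈ S.V b) :
    f * g ∈ S.V (a + b) := by
  rw [V, mem_S0, map_mul]
  exact S.mul_mem_Sb Qb hf hg

lemma one_mem_V {b : ℤ} (hb : 0 ≤ b) : (1 : LaurentSeries ℚ) ∈ S.V b := by
  rw [V, mem_S0, map_one]
  exact S.one_mem_Sb Qb hb

lemma pow_mem_V {b : ℤ} {f : LaurentSeries ℚ} (hf : f ∈ S.V b) (k : ℕ) :
    f ^ k ∈ S.V (k * b) := by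
  induction k with
  | zero => simpa using S.one_mem_V le_rfl
  | succ k ih =>
      have := S.mul_mem_V ih hf
      rw [← pow_succ] at this
      simpa [add_mul] using this

lemma order_mem_V {b : ℤ} {f : LaurentSeries ℚ} (hf : f ∈ S.V b) (h0 : f ≠ 0) :
    -b ≤ f.order ∧ f.order ≤ 0 := by
  have h0' : coeffEmb Qb f ≠ 0 := (map_ne_zero_iff _ (coeffEmb_injective Qb)).mpr h0
  refine ⟨order_coeffEmb Qb f ▸ S.neg_le_order_of_mem_Sb Qb hf h0', ?_⟩
  by_contra hlt
  exact h0' (S.eq_zero_of_window Qb hf fun k hk => coeff_eq_zero_of_lt_order (by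
    rw [order_coeffEmb]; have := (Finset.mem_Icc.mp hk).2; omega))

lemma mem_V_of_order {a b : ℤ} {f : LaurentSeries ℚ} (hf : f ∈ S.V b)
    (h : f = 0 ∨ -a ≤ f.order) : f ∈ S.V a :=
  S.mem_Sb_of_order Qb hf (h.imp (fun e => by simp [e]) fun h => by rwa [order_coeffEmb])

/-- Cancel the leading coefficient. -/
lemma mem_V_pred {n : ℤ} {f u : LaurentSeries ℚ} (hf : f ∈ S.V n) (hu : u ∈ S.V n) (hu0 : u ≠ 0)
    (huo : u.order = -n) : f - (f.coeff (-n) / u.coeff (-n)) • u ∈ S.V (n - 1) := by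
  have hm : f - (f.coeff (-n) / u.coeff (-n)) • u ∈ S.V n := sub_mem hf (Submodule.smul_mem _ _ hu)
  refine S.mem_V_of_order hm ?_
  rcases eq_or_ne (f - (f.coeff (-n) / u.coeff (-n)) • u) 0 with h | h
  · exact Or.inl h
  refine Or.inr ?_
  have h1 := (S.order_mem_V hm h).1
  have h2 : (f - (f.coeff (-n) / u.coeff (-n)) • u).order ≠ -n := fun e' => by
    apply mt coeff_order_eq_zero.mp h
    rw [e', HahnSeries.coeff_sub, HahnSeries.coeff_smul, smul_eq_mul,
      div_mul_cancel₀ _ (huo ▸ mt coeff_order_eq_zero.mp hu0), sub_self]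
  omega

lemma exists_exact {n : ℤ} (hn : 2 * (S.g : ℤ) + 1 ≤ n) :
    ∃ u ∈ S.V n, u ≠ 0 ∧ u.order = -n := by
  by_contra hcon
  push Not at hcon
  have hle : S.S0 Qb n ≤ S.S0 Qb (n - 1) := fun u hu => S.mem_V_of_order hu (by
    rcases eq_or_ne u 0 with h | h
    · exact Or.inl h
    · have := (S.order_mem_V hu h).1
      have := hcon u hu h
      exact Or.inr (by omega))
  have h1 := Submodule.finrank_mono hle
  rw [finrank_S0, finrank_S0] at h1
  have h2 := S.finrank_Sb Qb (b := n) (by show 2 * (S.g : ℤ) ≤ n; omega)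
  have h3 := S.finrank_Sb Qb (b := n - 1) (by show 2 * (S.g : ℤ) ≤ n - 1; omega)
  omega

/-- `m := 2g + 1`. -/
def m : ℕ := 2 * S.g + 1

lemma exists_z : ∃ u ∈ S.V (S.m : ℤ), u ≠ 0 ∧ u.order = -(S.m : ℤ) :=
  S.exists_exact (n := (S.m : ℤ)) (by simp [m])

/-- A rational function with one pole, of order `m`, at infinity. -/
def z : LaurentSeries ℚ := S.exists_z.choose

lemma z_mem : S.z ∈ S.V (S.m : ℤ) := S.exists_z.choose_spec.1

lemma z_ne_zero : S.z ≠ 0 := S.exists_z.choose_spec.2.1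

lemma z_order : S.z.order = -(S.m : ℤ) := S.exists_z.choose_spec.2.2

/-- A rational function as an element of the base change. -/
def el (f : S.F₀) : FF := ⟨coeffEmb L f, coeffEmb_mem_laurentBaseChange L f.2⟩

/-- A rational constant. -/
def cst (c : ℚ) : S.F₀ :=
  ⟨HahnSeries.single 0 c, by rw [← algebraMap_apply_eq_single]; exact S.F₀.algebraMap_mem c⟩

variable {L}

lemma el_ne_zero {f : S.F₀} (hf : (f : LaurentSeries ℚ) ≠ 0) : S.el L f ≠ 0 := fun e =>
  (map_ne_zero_iff _ (coeffEmb_injective L)).mpr hf (congrArg Subtype.val e)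

lemma el_zero {f : S.F₀} (hf : (f : LaurentSeries ℚ) = 0) : S.el L f = 0 :=
  Subtype.ext (by simp [el, hf])

lemma el_add (f g : S.F₀) : S.el L (f + g) = S.el L f + S.el L g := Subtype.ext (map_add _ _ _)

lemma el_mul (f g : S.F₀) : S.el L (f * g) = S.el L f * S.el L g := Subtype.ext (map_mul _ _ _)

lemma el_pow (f : S.F₀) (k : ℕ) : S.el L (f ^ k) = S.el L f ^ k := Subtype.ext (map_pow _ _ _)

lemma el_cst (c : ℚ) : S.el L (S.cst c) = algebraMap L FF (algebraMap ℚ L c) := by
  refine Subtype.ext ?_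
  show coeffEmb L (HahnSeries.single 0 c) = algebraMap L (LaurentSeries L) _
  rw [algebraMap_laurentSeries_eq_single, coeffEmb_single]

lemma coe_cst_mul (c : ℚ) (f : S.F₀) :
    ((S.cst c * f : S.F₀) : LaurentSeries ℚ) = c • (f : LaurentSeries ℚ) := by
  show HahnSeries.single 0 c * _ = _
  rw [HahnSeries.single_zero_mul_eq_smul]

end Setup

end Fermat.Agent.MWJ0

end
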