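import Fermat.Agent.MWJ0.Rational

/-!
# The spaces `V b` stay regular away from infinity over every algebraically closed field
-/

set_option autoImplicit false

noncomputable section

open AlgebraicCurve ModularCurve Module HahnSeries

namespace Fermat.Agent.MWJ0

section General

variable {K F : Type*} [Field K] [Field F] [Algebra K F]

/-- Lower bound for the order, with zero allowed. -/
def LowerBd (v : Place K F) (f : F) (k : ℤ) : Prop := f = 0 ∨ k ≤ v.ord f

lemma LowerBd.mono {v : Place K F} {f : F} {k l : ℤ} (h : LowerBd v f k) (hl : l ≤ k) :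
    LowerBd v f l := h.imp_right hl.trans

lemma LowerBd.add {v : Place K F} {f g : F} {k : ℤ} (hf : LowerBd v f k) (hg : LowerBd v g k) :
    LowerBd v (f + g) k := ord_add_le hf hg

lemma LowerBd.mul {v : Place K F} {f g : F} {k l : ℤ} (hf : LowerBd v f k) (hg : LowerBd v g l) :
    LowerBd v (f * g) (k + l) := by
  rcases eq_or_ne f 0 with rfl | hf0
  · exact Or.inl (zero_mul g)
  rcases eq_or_ne g 0 with rfl | hg0
  · exact Or.inl (mul_zero f)
  have := hf.resolve_left hf0
  have := hg.resolve_left hg0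
  exact Or.inr (by rw [v.ord_mul hf0 hg0]; omega)

lemma lowerBd_algebraMap (v : Place K F) (c : K) : LowerBd v (algebraMap K F c) 0 :=
  mem_valuationSubring_iff_ord.mp (v.algebraMap_mem' c)

lemma ord_algebraMap (v : Place K F) {c : K} (hc : c ≠ 0) : v.ord (algebraMap K F c) = 0 := by
  have hc' : algebraMap K F c ≠ 0 := (map_ne_zero_iff _ (algebraMap K F).injective).mpr hc
  have h1 := (lowerBd_algebraMap v c).resolve_left hc'
  have h2 := (lowerBd_algebraMap v c⁻¹).resolve_left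
    ((map_ne_zero_iff _ (algebraMap K F).injective).mpr (inv_ne_zero hc))
  rw [map_inv₀, v.ord_inv] at h2
  omega

lemma ord_add_eq {v : Place K F} {f g : F} (hf : f ≠ 0) (hg : g = 0 ∨ v.ord f < v.ord g) :
    f + g ≠ 0 ∧ v.ord (f + g) = v.ord f := by
  rcases eq_or_ne g 0 with rfl | hg0
  · exact ⟨by simpa using hf, by simp⟩
  have hlt : v.adicValuation g < v.adicValuation f := by
    rw [v.adicValuation_eq_exp_neg_ord hf, v.adicValuation_eq_exp_neg_ord hg0, WithZero.exp_lt_exp]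
    have := hg.resolve_left hg0
    omega
  have h := v.adicValuation.map_add_eq_of_lt_left hlt
  have hne : f + g ≠ 0 := fun e => by
    rw [e, map_zero] at h
    exact v.adicValuation_ne_zero hf h.symm
  refine ⟨hne, ?_⟩
  rw [v.adicValuation_eq_exp_neg_ord hf, v.adicValuation_eq_exp_neg_ord hne] at h
  have := WithZero.exp_injective h
  omega

lemma ord_pow (v : Place K F) (f : F) (n : ℕ) : v.ord (f ^ n) = n * v.ord f := by
  have := v.ord_zpow f (n : ℤ)
  simpa using this

end General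

namespace Setup

variable (S : Setup) {L : Type} [Field L] [Algebra ℚ L] [IsAlgClosed L]

local notation "Qb" => AlgebraicClosure ℚ
local notation "FF" => laurentBaseChange L S.F₀

/-- `z` as an element of `F₀`. -/
def zF : S.F₀ := ⟨S.z, S.mem_F₀_of_mem_V S.z_mem⟩

lemma exists_finite_bound (v : Place L FF) (b : ℤ) :
    ∃ C : ℕ, ∀ f : S.F₀, (f : LaurentSeries ℚ) ∈ S.V b → LowerBd v (S.el L f) (-(C : ℤ)) := by
  classical
  have : Module.Finite ℚ (S.V b) := S.finite_S0 Qb _
  let bas := Module.finBasis ℚ (S.V b)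
  let a : Fin (finrank ℚ (S.V b)) → S.F₀ := fun i => ⟨bas i, S.mem_F₀_of_mem_V (bas i).2⟩
  let C : ℕ := ∑ i, (v.ord (S.el L (a i))).natAbs
  refine ⟨C, fun f hf => ?_⟩
  have hf' : f = ∑ i, S.cst (bas.repr ⟨f, hf⟩ i) * a i := by
    refine Subtype.ext ?_
    have h1 := congrArg (S.V b).subtype (bas.sum_repr ⟨f, hf⟩)
    rw [map_sum] at h1
    rw [AddSubmonoidClass.coe_finsetSum]
    refine h1.symm.trans (Finset.sum_congr rfl fun i _ => ?_)
    rw [map_smul, coe_cst_mul]
    rfl
  rw [hf']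
  have hterm : ∀ i, LowerBd v (S.el L (S.cst (bas.repr ⟨f, hf⟩ i) * a i)) (-(C : ℤ)) := by
    intro i
    have h1 : LowerBd v (S.el L (a i)) (-(C : ℤ)) := by
      refine Or.inr ?_
      have : (v.ord (S.el L (a i))).natAbs ≤ C :=
        Finset.single_le_sum (f := fun i => (v.ord (S.el L (a i))).natAbs)
          (fun j _ => Nat.zero_le _) (Finset.mem_univ i)
      omega
    rw [el_mul, el_cst]
    exact ((lowerBd_algebraMap v _).mul h1).mono (le_of_eq (zero_add _).symm)
  generalize hy : (fun i => S.cst (bas.repr ⟨f, hf⟩ i) * a i) = y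
  have hy' : ∀ i, LowerBd v (S.el L (y i)) (-(C : ℤ)) := fun i => by rw [← hy]; exact hterm i
  clear hy hterm hf'
  induction (Finset.univ : Finset (Fin (finrank ℚ (S.V b)))) using Finset.induction with
  | empty => exact Or.inl (S.el_zero rfl)
  | insert i t hi ih =>
      rw [Finset.sum_insert hi, el_add]
      exact (hy' i).add ih

lemma pole_bound_weak (v : Place L FF) {e : ℤ} (he : 0 ≤ e)
    (hz : LowerBd v (S.el L S.zF) (-e)) :
    ∃ C : ℕ, ∀ n : ℕ, ∀ f : S.F₀, (f : LaurentSeries ℚ) ∈ S.V n → (f : LaurentSeries ℚ) ≠ 0 →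
      -(e * n + S.m * C) ≤ S.m * v.ord (S.el L f) := by
  obtain ⟨C, hC⟩ := S.exists_finite_bound v (2 * S.m : ℕ)
  refine ⟨C, fun n => ?_⟩
  have hm : (1 : ℤ) ≤ S.m := by simp [m]
  induction n using Nat.strong_induction_on with
  | _ n ih =>
    intro f hf hf0
    by_cases hn : n ≤ 2 * S.m
    · have := (hC f (S.V_mono (by exact_mod_cast hn) hf)).resolve_left (S.el_ne_zero hf0)
      have h2 : (S.m : ℤ) * -(C : ℤ) ≤ S.m * v.ord (S.el L f) :=
        mul_le_mul_of_nonneg_left this (by omega)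
      have h3 : 0 ≤ e * n := mul_nonneg he (Int.natCast_nonneg n)
      linarith
    have hk : 2 * (S.g : ℤ) + 1 ≤ ((n - S.m : ℕ) : ℤ) := by simp [m] at hn ⊢; omega
    obtain ⟨u, hu, hu0, huo⟩ := S.exists_exact hk
    let uF : S.F₀ := ⟨u, S.mem_F₀_of_mem_V hu⟩
    have hzu : (S.z * u).order = -(n : ℤ) := by
      rw [order_mul S.z_ne_zero hu0, S.z_order, huo]; omega
    have hzu0 : S.z * u ≠ 0 := mul_ne_zero S.z_ne_zero hu0
    have hzum : S.z * u ∈ S.V n := by
      have := S.mul_mem_V S.z_mem hu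
      rwa [show (S.m : ℤ) + ((n - S.m : ℕ) : ℤ) = n by omega] at this
    obtain ⟨c, hc⟩ : ∃ c : ℚ, (f : LaurentSeries ℚ) - c • (S.z * u) ∈ S.V ((n : ℤ) - 1) :=
      ⟨_, S.mem_V_pred hf hzum hzu0 hzu⟩
    let f' : S.F₀ := f - S.cst c * (S.zF * uF)
    have hf'eq : (f' : LaurentSeries ℚ) = f - c • (S.z * u) := by
      show (f : LaurentSeries ℚ) - ((S.cst c * (S.zF * uF) : S.F₀) : LaurentSeries ℚ) = _
      rw [coe_cst_mul]; rfl
    have hf'lt : (f' : LaurentSeries ℚ) ∈ S.V (n - 1 : ℕ) := by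
      rw [hf'eq, show ((n - 1 : ℕ) : ℤ) = (n : ℤ) - 1 by omega]; exact hc
    have hsum : f = f' + S.cst c * (S.zF * uF) := by simp [f']
    by_contra hlt
    push Not at hlt
    have b1 : LowerBd v (S.el L f') (v.ord (S.el L f) + 1) := by
      rcases eq_or_ne (f' : LaurentSeries ℚ) 0 with h | h
      · exact Or.inl (S.el_zero h)
      · refine Or.inr ?_
        have h1 := ih (n - 1) (by omega) f' hf'lt h
        have h2 : e * ((n - 1 : ℕ) : ℤ) ≤ e * n := mul_le_mul_of_nonneg_left (by omega) he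
        by_contra h3
        have h4 : (S.m : ℤ) * v.ord (S.el L f') ≤ S.m * v.ord (S.el L f) :=
          mul_le_mul_of_nonneg_left (by omega) (by omega)
        linarith
    have b2 : LowerBd v (S.el L (S.cst c * (S.zF * uF))) (v.ord (S.el L f) + 1) := by
      rw [el_mul, el_mul, el_cst]
      have h1 := ih (n - S.m) (by omega) uF hu hu0
      have h0 : LowerBd v (S.el L S.zF * S.el L uF) (-e + v.ord (S.el L uF)) :=
        hz.mul (Or.inr le_rfl)
      refine ((lowerBd_algebraMap v _).mul h0).mono ?_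
      by_contra h3
      have h4 : (S.m : ℤ) * (-e + v.ord (S.el L uF)) ≤ S.m * v.ord (S.el L f) :=
        mul_le_mul_of_nonneg_left (by omega) (by omega)
      have h5 : e * (((n - S.m : ℕ) : ℤ)) = e * n - e * S.m := by
        rw [Nat.cast_sub (by omega)]; ring
      linarith
    have hb := b1.add b2
    rw [← el_add, ← hsum] at hb
    have := hb.resolve_left (S.el_ne_zero hf0)
    omega

lemma pole_bound (v : Place L FF) {e : ℤ} (he : 0 ≤ e) (hz : LowerBd v (S.el L S.zF) (-e))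
    {n : ℕ} (f : S.F₀) (hf : (f : LaurentSeries ℚ) ∈ S.V n) (hf0 : (f : LaurentSeries ℚ) ≠ 0) :
    -(e * n) ≤ S.m * v.ord (S.el L f) := by
  obtain ⟨C, hC⟩ := S.pole_bound_weak v he hz
  by_contra hlt
  push Not at hlt
  obtain ⟨k, hk⟩ : ∃ k : ℕ, (k : ℤ) = S.m * C + 1 := ⟨S.m * C + 1, by push_cast; ring⟩
  have h1 := hC (k * n) (f ^ k) (by
    have := S.pow_mem_V hf k
    simpa [SubmonoidClass.coe_pow] using this)
    (by simpa [SubmonoidClass.coe_pow] using pow_ne_zero k hf0)
  rw [el_pow, ord_pow] at h1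
  push_cast at h1
  have h2 : (k : ℤ) * (S.m * v.ord (S.el L f) + e * n) ≤ (k : ℤ) * (-1) :=
    mul_le_mul_of_nonneg_left (by omega) (Int.natCast_nonneg k)
  have e1 : (k : ℤ) * (S.m * v.ord (S.el L f) + e * n) =
      S.m * ((k : ℤ) * v.ord (S.el L f)) + e * ((k : ℤ) * n) := by ring
  linarith

lemma pole_exact (v : Place L FF) {e : ℤ} (hez : v.ord (S.el L S.zF) = -e) (hpos : 0 < e)
    {k : ℕ} (u : S.F₀) (hu : (u : LaurentSeries ℚ) ∈ S.V k) (hu0 : (u : LaurentSeries ℚ) ≠ 0) :
    (S.m : ℤ) * v.ord (S.el L u) = e * (u : LaurentSeries ℚ).order := by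
  have hz : LowerBd v (S.el L S.zF) (-e) := Or.inr hez.ge
  have hm : (1 : ℤ) ≤ S.m := by simp [m]
  obtain ⟨n, hn⟩ : ∃ n : ℕ, (u : LaurentSeries ℚ).order = -(n : ℤ) :=
    ⟨(-(u : LaurentSeries ℚ).order).toNat, by have := (S.order_mem_V hu hu0).2; omega⟩
  have hun : (u : LaurentSeries ℚ) ∈ S.V n := S.mem_V_of_order hu (Or.inr (by omega))
  rw [hn]
  rcases Nat.eq_zero_or_pos n with rfl | hnpos
  · have hc : u = S.cst ((u : LaurentSeries ℚ).coeff 0) := by
      refine Subtype.ext ?_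
      apply coeffEmb_injective Qb
      have h1 := S.eq_C_of_mem_Sb_zero Qb (s := coeffEmb Qb (u : LaurentSeries ℚ)) hun
      rw [h1, coeffEmb_coeff]
      exact (coeffEmb_single Qb _).symm
    have hc0 : algebraMap ℚ L ((u : LaurentSeries ℚ).coeff 0) ≠ 0 := by
      rw [map_ne_zero_iff _ (algebraMap ℚ L).injective]
      intro e'
      apply hu0
      rw [hc, e']
      simp [cst]
    rw [hc, el_cst, ord_algebraMap v hc0]; simp
  set N : ℕ := S.m * n with hN
  have hzo : (S.z ^ n).order = -(N : ℤ) := by rw [order_pow, S.z_order, hN]; push_cast; ring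
  have hzn0 : S.z ^ n ≠ 0 := pow_ne_zero _ S.z_ne_zero
  have humem : (u : LaurentSeries ℚ) ^ S.m ∈ S.V N := by
    have := S.pow_mem_V hun S.m; simpa [N] using this
  have hzmem : S.z ^ n ∈ S.V N := by
    have := S.pow_mem_V S.z_mem n
    rwa [show (n : ℤ) * (S.m : ℤ) = (N : ℤ) by rw [hN]; push_cast; ring] at this
  have huo : ((u : LaurentSeries ℚ) ^ S.m).order = -(N : ℤ) := by
    rw [order_pow, hn, hN]; push_cast; ring
  set c : ℚ := ((u : LaurentSeries ℚ) ^ S.m).coeff (-(N : ℤ)) / (S.z ^ n).coeff (-(N : ℤ)) with hcd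
  have hzc : (S.z ^ n).coeff (-(N : ℤ)) ≠ 0 := hzo ▸ mt coeff_order_eq_zero.mp hzn0
  have hc : c ≠ 0 :=
    div_ne_zero (huo ▸ mt coeff_order_eq_zero.mp (pow_ne_zero _ hu0)) hzc
  let r : S.F₀ := u ^ S.m - S.cst c * S.zF ^ n
  have hreq : (r : LaurentSeries ℚ) = (u : LaurentSeries ℚ) ^ S.m - c • S.z ^ n := by
    show ((u ^ S.m : S.F₀) : LaurentSeries ℚ) - ((S.cst c * S.zF ^ n : S.F₀) : LaurentSeries ℚ) = _
    rw [coe_cst_mul]; rfl
  have hcL : algebraMap ℚ L c ≠ 0 := (map_ne_zero_iff _ (algebraMap ℚ L).injective).mpr hc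
  have hcz : S.el L (S.cst c * S.zF ^ n) ≠ 0 := by
    refine S.el_ne_zero ?_
    rw [coe_cst_mul]
    exact smul_ne_zero hc hzn0
  have hocz : v.ord (S.el L (S.cst c * S.zF ^ n)) = -(e * n) := by
    rw [el_mul, el_cst, el_pow, v.ord_mul
      ((map_ne_zero_iff _ (algebraMap L FF).injective).mpr hcL)
      (pow_ne_zero _ (S.el_ne_zero S.z_ne_zero)), ord_algebraMap v hcL, ord_pow, hez]
    ring
  have hr : S.el L r = 0 ∨ v.ord (S.el L (S.cst c * S.zF ^ n)) < v.ord (S.el L r) := by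
    rcases eq_or_ne (r : LaurentSeries ℚ) 0 with h | h
    · exact Or.inl (S.el_zero h)
    refine Or.inr ?_
    have hN1 : 1 ≤ N := Nat.one_le_iff_ne_zero.mpr (Nat.mul_ne_zero (by simp [m]) hnpos.ne')
    have hlt : (r : LaurentSeries ℚ) ∈ S.V (N - 1 : ℕ) := by
      rw [hreq, show ((N - 1 : ℕ) : ℤ) = (N : ℤ) - 1 by omega, hcd]
      exact S.mem_V_pred humem hzmem hzn0 hzo
    have hb := S.pole_bound v hpos.le hz r hlt h
    rw [hocz]
    by_contra hle
    have h4 : (S.m : ℤ) * v.ord (S.el L r) ≤ S.m * (-(e * n)) :=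
      mul_le_mul_of_nonneg_left (by omega) (by omega)
    have h5 : e * ((N - 1 : ℕ) : ℤ) = S.m * (e * n) - e := by
      rw [Nat.cast_sub hN1, hN]; push_cast; ring
    linarith
  obtain ⟨-, ho⟩ := ord_add_eq hcz hr
  rw [← el_add, show S.cst c * S.zF ^ n + r = u ^ S.m by simp [r], el_pow, ord_pow, hocz] at ho
  linarith

lemma combination_exact (v : Place L FF) {e : ℤ} (hez : v.ord (S.el L S.zF) = -e) (hpos : 0 < e) :
    ∀ N : ℕ, ∀ s ∈ Submodule.span L (coeffEmb L '' (S.V N : Set _)),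
      ∃ hs : s ∈ FF, (s = 0 ∨ -(N : ℤ) ≤ s.order) ∧
        ((⟨s, hs⟩ : FF) ≠ 0 → (S.m : ℤ) * v.ord ⟨s, hs⟩ = e * S.oinf L ⟨s, hs⟩) := by
  have hm : (1 : ℤ) ≤ S.m := by simp [m]
  intro N
  induction N with
  | zero =>
      intro s hs
      have hle : Submodule.span L (coeffEmb L '' (S.V (0 : ℕ) : Set _)) ≤
          Submodule.span L ({1} : Set (LaurentSeries L)) := by
        rw [Submodule.span_le]
        rintro _ ⟨t, ht, rfl⟩
        refine Submodule.mem_span_singleton.mpr ⟨algebraMap ℚ L (t.coeff 0), ?_⟩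
        have h1 := S.eq_C_of_mem_Sb_zero Qb (s := coeffEmb Qb t) (by simpa [V, mem_S0] using ht)
        rw [coeffEmb_coeff, ← coeffEmb_single] at h1
        rw [ls_smul_one, ← coeffEmb_single, ← coeffEmb_injective Qb h1]
      obtain ⟨c, rfl⟩ := Submodule.mem_span_singleton.mp (hle hs)
      have hc : c • (1 : LaurentSeries L) = algebraMap L (LaurentSeries L) c := by
        rw [← ls_algebraMap_mul, mul_one]
      refine ⟨hc ▸ IntermediateField.algebraMap_mem _ c, ?_, fun hne => ?_⟩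
      · rw [hc]; exact Or.inr (by simp [order_algebraMap])
      · have hx : (⟨c • (1 : LaurentSeries L), hc ▸ IntermediateField.algebraMap_mem _ c⟩ : FF)
            = algebraMap L FF c := Subtype.ext hc
        rw [hx] at hne ⊢
        rw [ord_algebraMap v (fun e0 => hne (by rw [e0, map_zero]))]
        show (S.m : ℤ) * 0 = e * (algebraMap L (LaurentSeries L) c).order
        rw [order_algebraMap]; ring
  | succ N ih =>
      intro s hs
      by_cases hex : ∃ u ∈ S.V (N + 1 : ℕ), u ≠ 0 ∧ u.order = -((N + 1 : ℕ) : ℤ)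
      · obtain ⟨u, hu, hu0, huo⟩ := hex
        have hle : Submodule.span L (coeffEmb L '' (S.V (N + 1 : ℕ) : Set _)) ≤
            Submodule.span L (coeffEmb L '' (S.V N : Set _)) ⊔ L ∙ coeffEmb L u := by
          rw [Submodule.span_le]
          rintro _ ⟨t, ht, rfl⟩
          have ht' := S.mem_V_pred ht hu hu0 huo
          rw [show ((N + 1 : ℕ) : ℤ) - 1 = N by omega] at ht'
          set c : ℚ := t.coeff (-((N + 1 : ℕ) : ℤ)) / u.coeff (-((N + 1 : ℕ) : ℤ))
          rw [SetLike.mem_coe, ← sub_add_cancel t (c • u), map_add, coeffEmb_smul]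
          exact Submodule.add_mem_sup (Submodule.subset_span ⟨_, ht', rfl⟩)
            (Submodule.smul_mem _ _ (Submodule.mem_span_singleton_self _))
        obtain ⟨s', hs', w, hw, rfl⟩ := Submodule.mem_sup.mp (hle hs)
        obtain ⟨c, rfl⟩ := Submodule.mem_span_singleton.mp hw
        obtain ⟨hF, hord, hgood⟩ := ih s' hs'
        rcases eq_or_ne c 0 with rfl | hc
        · simp only [zero_smul, add_zero]
          exact ⟨hF, hord.imp_right fun h => by omega, hgood⟩
        let uF : S.F₀ := ⟨u, S.mem_F₀_of_mem_V hu⟩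
        let xu : FF := algebraMap L FF c * S.el L uF
        have hxu : (xu : LaurentSeries L) = c • coeffEmb L u := ls_algebraMap_mul c _
        have hcF : algebraMap L FF c ≠ 0 := (map_ne_zero_iff _ (algebraMap L FF).injective).mpr hc
        have hxu0 : xu ≠ 0 := mul_ne_zero hcF (S.el_ne_zero hu0)
        have hoxu : S.oinf L xu = -((N + 1 : ℕ) : ℤ) := by
          rw [S.oinf_mul hcF (S.el_ne_zero hu0)]
          show (algebraMap L (LaurentSeries L) c).order + (coeffEmb L u).order = _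
          rw [order_algebraMap, order_coeffEmb, huo, zero_add]
        have hvxu : (S.m : ℤ) * v.ord xu = e * S.oinf L xu := by
          rw [v.ord_mul hcF (S.el_ne_zero hu0), ord_algebraMap v hc, zero_add,
            S.pole_exact v hez hpos uF hu hu0, hoxu, huo]
        set x' : FF := ⟨s', hF⟩
        have hd1 : x' = 0 ∨ (S.inf L).ord xu < (S.inf L).ord x' := by
          rcases eq_or_ne x' 0 with h | h
          · exact Or.inl h
          refine Or.inr ?_
          rw [ord_inf S L hxu0, ord_inf S L h, hoxu]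
          have := hord.resolve_left (coe_ne_zero h)
          show -((N + 1 : ℕ) : ℤ) < s'.order
          omega
        have hd2 : x' = 0 ∨ v.ord xu < v.ord x' := by
          rcases eq_or_ne x' 0 with h | h
          · exact Or.inl h
          refine Or.inr ?_
          have h1 := hgood h
          have h2 : -(N : ℤ) ≤ S.oinf L x' := hord.resolve_left (coe_ne_zero h)
          by_contra h3
          have h4 : (S.m : ℤ) * v.ord x' ≤ S.m * v.ord xu :=
            mul_le_mul_of_nonneg_left (by omega) (by omega)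
          have h5 : e * -(N : ℤ) ≤ e * S.oinf L x' := mul_le_mul_of_nonneg_left h2 hpos.le
          rw [h1, hvxu, hoxu] at h4
          push_cast at h4
          linarith
        obtain ⟨hne, ho1⟩ := ord_add_eq hxu0 hd1
        obtain ⟨-, ho2⟩ := ord_add_eq hxu0 hd2
        have hval : ((xu + x' : FF) : LaurentSeries L) = s' + c • coeffEmb L u := by
          rw [AddMemClass.coe_add, hxu, add_comm]
        rw [ord_inf S L hne, ord_inf S L hxu0, hoxu] at ho1
        refine ⟨hval ▸ (xu + x').2, Or.inr ?_, fun _ => ?_⟩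
        · rw [← hval]; exact ho1.ge
        · have hx : (⟨s' + c • coeffEmb L u, hval ▸ (xu + x').2⟩ : FF) = xu + x' :=
            Subtype.ext hval.symm
          rw [hx, ho2, ho1, hvxu, hoxu]
      · push Not at hex
        have hle : S.V (N + 1 : ℕ) ≤ S.V N := fun t ht => S.mem_V_of_order ht (by
          rcases eq_or_ne t 0 with h | h
          · exact Or.inl h
          · have := (S.order_mem_V ht h).1
            have := hex t ht h
            exact Or.inr (by omega))
        obtain ⟨hF, hord, hgood⟩ := ih s (Submodule.span_mono (Set.image_mono hle) hs)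
        exact ⟨hF, hord.imp_right fun h => by omega, hgood⟩

lemma exists_rational_denominator (f : S.F₀) :
    ∃ N : ℕ, ∃ q ∈ S.V N, q ≠ 0 ∧ (f : LaurentSeries ℚ) * q ∈ S.V N := by
  classical
  rcases eq_or_ne (f : LaurentSeries ℚ) 0 with hf | hf
  · exact ⟨0, 1, S.one_mem_V le_rfl, one_ne_zero, by simp [hf]⟩
  let h := S.rr Qb
  set fe := S.el Qb f
  have hfe : fe ≠ 0 := S.el_ne_zero hf
  let D' : Divisor Qb (laurentBaseChange Qb S.F₀) :=
    (-(h.divisor hfe)).mapRange (fun t => max t 0) (max_self 0)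
  have hD'0 : 0 ≤ D' := fun v => by simp [D']
  have hfD' : fe ∈ riemannRochSpace D' := by
    rw [mem_Lsp_of_ne_zero hfe]
    intro v
    simp only [D', Finsupp.mapRange_apply, Finsupp.neg_apply, h.divisor_apply]
    omega
  set N : ℕ := (Divisor.degree D' + 2 * h.g).toNat
  have hd := h.degree_nonneg hD'0
  have hdim := h.dim_eq (S.binf Qb N - D') (by rw [map_sub, degree_binf]; omega)
  have := h.finite (S.binf Qb N - D')
  have hne : riemannRochSpace (S.binf Qb N - D') ≠ ⊥ := fun e => by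
    rw [e, finrank_bot, map_sub, degree_binf] at hdim
    omega
  obtain ⟨Q, hQ, hQ0⟩ := (Submodule.ne_bot_iff _).mp hne
  have hQN : (Q : LaurentSeries Qb) ∈ S.Sb Qb N :=
    (S.mem_Sb Qb).mpr (Lsp_mono (sub_le_self _ hD'0) hQ)
  have hfQ : coeffEmb Qb (f : LaurentSeries ℚ) * (Q : LaurentSeries Qb) ∈ S.Sb Qb N := by
    have := mul_mem_Lsp hfD' hQ
    rw [add_sub_cancel] at this
    exact (S.mem_Sb Qb).mpr this
  rw [S.Sb_eq_span Qb] at hQN hfQ
  obtain ⟨π, hπ⟩ := exists_retr_ne_zero Qb (coe_ne_zero hQ0)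
  refine ⟨N, _, retr_mem_of_mem_span Qb π hQN, hπ, ?_⟩
  have := retr_mem_of_mem_span Qb π hfQ
  rwa [retr_coeffEmb_mul Qb π _ hQN] at this

lemma exists_frac {s : LaurentSeries L} (hs : s ∈ FF) :
    ∃ N : ℕ, ∃ Q ∈ Submodule.span L (coeffEmb L '' (S.V N : Set _)), Q ≠ 0 ∧
      s * Q ∈ Submodule.span L (coeffEmb L '' (S.V N : Set _)) := by
  have hmul : ∀ {a b : ℕ} {s t : LaurentSeries L},
      s ∈ Submodule.span L (coeffEmb L '' (S.V a : Set _)) →
      t ∈ Submodule.span L (coeffEmb L '' (S.V b : Set _)) →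
      s * t ∈ Submodule.span L (coeffEmb L '' (S.V (a + b : ℕ) : Set _)) := fun hs ht =>
    span_mul_mem L (fun p hp q hq => by push_cast; exact S.mul_mem_V hp hq) hs ht
  have hone : (1 : LaurentSeries L) ∈ Submodule.span L (coeffEmb L '' (S.V (0 : ℕ) : Set _)) :=
    Submodule.subset_span ⟨1, S.one_mem_V (by simp), map_one _⟩
  induction hs using IntermediateField.adjoin_induction with
  | mem s hs =>
      obtain ⟨a, ha, rfl⟩ := hs
      obtain ⟨N, q, hq, hq0, hfq⟩ := S.exists_rational_denominator ⟨a, ha⟩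
      exact ⟨N, coeffEmb L q, Submodule.subset_span ⟨q, hq, rfl⟩,
        (map_ne_zero_iff _ (coeffEmb_injective L)).mpr hq0,
        Submodule.subset_span ⟨a * q, hfq, map_mul _ _ _⟩⟩
  | algebraMap c =>
      refine ⟨0, 1, hone, one_ne_zero, ?_⟩
      rw [ls_algebraMap_mul]
      exact Submodule.smul_mem _ _ hone
  | add a b _ _ ha hb =>
      obtain ⟨N, Q, hQ, hQ0, haQ⟩ := ha
      obtain ⟨M, R, hR, hR0, hbR⟩ := hb
      refine ⟨N + M, Q * R, hmul hQ hR, mul_ne_zero hQ0 hR0, ?_⟩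
      rw [show (a + b) * (Q * R) = a * Q * R + Q * (b * R) by ring]
      exact add_mem (hmul haQ hR) (hmul hQ hbR)
  | inv a _ ha =>
      obtain ⟨N, Q, hQ, hQ0, haQ⟩ := ha
      rcases eq_or_ne a 0 with rfl | ha0
      · exact ⟨N, Q, hQ, hQ0, by simp⟩
      · exact ⟨N, a * Q, haQ, mul_ne_zero ha0 hQ0,
          by rwa [← mul_assoc, inv_mul_cancel₀ ha0, one_mul]⟩
  | mul a b _ _ ha hb =>
      obtain ⟨N, Q, hQ, hQ0, haQ⟩ := ha
      obtain ⟨M, R, hR, hR0, hbR⟩ := hb
      refine ⟨N + M, Q * R, hmul hQ hR, mul_ne_zero hQ0 hR0, ?_⟩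
      rw [show a * b * (Q * R) = a * Q * (b * R) by ring]
      exact hmul haQ hbR

/-- Elements of `V` are regular away from infinity in every base change. -/
theorem ord_el_nonneg (f : S.F₀) {n : ℕ} (hf : (f : LaurentSeries ℚ) ∈ S.V n)
    (hf0 : (f : LaurentSeries ℚ) ≠ 0) (v : Place L FF) (hv : v ≠ S.inf L) :
    0 ≤ v.ord (S.el L f) := by
  have hm : (1 : ℤ) ≤ S.m := by simp [m]
  by_cases hz0 : 0 ≤ v.ord (S.el L S.zF)
  · have := S.pole_bound v le_rfl (e := 0) (Or.inr (by simpa using hz0)) f hf hf0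
    by_contra hlt
    have : (S.m : ℤ) * v.ord (S.el L f) ≤ 1 * v.ord (S.el L f) :=
      mul_le_mul_of_nonpos_right hm (by omega)
    omega
  exfalso
  obtain ⟨e, hez, hpos⟩ : ∃ e : ℤ, v.ord (S.el L S.zF) = -e ∧ 0 < e :=
    ⟨-v.ord (S.el L S.zF), by ring, by omega⟩
  have hall : ∀ x : FF, x ≠ 0 → (S.m : ℤ) * v.ord x = e * S.oinf L x := by
    intro x hx
    obtain ⟨N, Q, hQ, hQ0, hxQ⟩ := S.exists_frac x.2
    obtain ⟨hQF, -, hQg⟩ := S.combination_exact v hez hpos N Q hQ
    obtain ⟨hPF, -, hPg⟩ := S.combination_exact v hez hpos N _ hxQ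
    have hxQ0 : (⟨Q, hQF⟩ : FF) ≠ 0 := fun e' => hQ0 (congrArg Subtype.val e')
    have h1 := hQg hxQ0
    have he : (⟨(x : LaurentSeries L) * Q, hPF⟩ : FF) = x * ⟨Q, hQF⟩ := rfl
    rw [he] at hPg
    have h2 := hPg (mul_ne_zero hx hxQ0)
    rw [v.ord_mul hx hxQ0, S.oinf_mul hx hxQ0] at h2
    linarith
  apply hv
  refine Place.ext (SetLike.ext fun x => ?_)
  show x ∈ v.toValuationSubring ↔ x ∈ S.infSubring L
  rw [mem_valuationSubring_iff_ord, mem_infSubring]
  rcases eq_or_ne x 0 with rfl | hx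
  · simp
  simp only [hx, false_or]
  have := hall x hx
  constructor <;> intro h
  · by_contra hlt; nlinarith
  · by_contra hlt; nlinarith

variable (L)

lemma coeffEmb_mem_Sb_of_mem_V {b : ℤ} {f : LaurentSeries ℚ} (hf : f ∈ S.V b) :
    coeffEmb L f ∈ S.Sb L b := by
  rcases eq_or_ne f 0 with rfl | hf0
  · simp
  have ho := S.order_mem_V hf hf0
  obtain ⟨n, rfl⟩ : ∃ n : ℕ, b = n := ⟨b.toNat, by omega⟩
  let fF : S.F₀ := ⟨f, S.mem_F₀_of_mem_V hf⟩
  show ((S.el L fF : FF) : LaurentSeries L) ∈ _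
  rw [mem_Sb, mem_Lsp_of_ne_zero (S.el_ne_zero (f := fF) hf0)]
  intro v
  rcases eq_or_ne v (S.inf L) with rfl | hv
  · rw [binf, Finsupp.single_eq_same, ord_inf S L (S.el_ne_zero (f := fF) hf0)]
    show -(n : ℤ) ≤ (coeffEmb L f).order
    rw [order_coeffEmb]
    exact ho.1
  · rw [binf, Finsupp.single_eq_of_ne hv, neg_zero]
    exact S.ord_el_nonneg fF hf hf0 v hv

lemma V_le_S0 (b : ℤ) : S.V b ≤ S.S0 L b := fun _ hf => S.coeffEmb_mem_Sb_of_mem_V L hf

end Setup

end Fermat.Agent.MWJ0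

end
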