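import Fermat.Agent.MWJ0.GaloisCoord
import Fermat.Agent.MWJ0.Rank

/-!
# Linear equivalence as the vanishing of minors

For effective divisors with tensors `e`, products of Cramer vectors span the functions vanishing on
the sum, and "`X` is linearly equivalent to `m·∞`" becomes a rank condition.
-/

set_option autoImplicit false

noncomputable section

open AlgebraicCurve ModularCurve Module Function

namespace Fermat.Agent.MWJ0

namespace Setup

variable (S : Setup)

/-- The degree of the representatives. -/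
abbrev n : ℕ := S.g

/-- The small level. -/
abbrev la : ℕ := 3 * S.g + 1

/-- The level increment. -/
abbrev lc : ℕ := 8 * S.g + 3

/-- Tensors at the small level. -/
abbrev Ten (R : Type*) (b : ℕ) : Type _ := (Fin S.n → S.Idx b) → R

section Ring

variable {R R' : Type*} [CommRing R] [Algebra ℚ R] [CommRing R'] [Algebra ℚ R']

/-- Indices of Cramer vectors. -/
abbrev CIdx (b : ℕ) : Type := (Fin S.n → S.Idx b) × S.Idx b

/-- The Cramer vectors of a tensor. -/
def crams {b : ℕ} (e : S.Ten R b) (k : S.CIdx b) : S.Idx b → R := cram e k.1 k.2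

/-- Level of pairwise products. -/
abbrev l2 : ℕ := S.la + (S.la + S.lc)

/-- Level of triple products. -/
abbrev l3 : ℕ := S.la + S.l2

/-- Products spanning the functions vanishing on a sum of two divisors. -/
def prod2 (eA : S.Ten R S.la) (eB : S.Ten R (S.la + S.lc))
    (k : S.CIdx S.la × S.CIdx (S.la + S.lc)) : S.Idx S.l2 → R :=
  S.mulv S.la (S.la + S.lc) S.l2 (S.crams eA k.1) (S.crams eB k.2)

/-- Products spanning the functions vanishing on a sum of three divisors. -/
def prod3 (eA : S.Ten R S.la) (eB : S.Ten R (S.la + S.lc)) (eC : S.Ten R S.la)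
    (k : S.CIdx S.la × (S.CIdx S.la × S.CIdx (S.la + S.lc))) : S.Idx S.l3 → R :=
  S.mulv S.la S.l2 S.l3 (S.crams eC k.1) (S.prod2 eA eB k.2)

/-- The family whose rank detects `X ~ m·∞`, for a family spanning the functions vanishing on
`X`. -/
def relFam {κ : Type} (r m : ℕ) (p : κ → S.Idx r → R) :
    (S.Idx (r - m) × κ) ⊕ S.Idx m → S.Idx (r - m) × S.Idx r → R
  | .inl (l, k), (l', i) => if l' = l then p k i else 0
  | .inr j, (l', i) => S.mulv m (r - m) r (S.unitv j) (S.unitv l') i

/-- The critical rank. -/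
def relRank (r m : ℕ) : ℕ :=
  Fintype.card (S.Idx (r - m)) * (Fintype.card (S.Idx r) - m) + Fintype.card (S.Idx m)

/-- Indices of the linear equivalence equations. -/
abbrev RelIdx (κ : Type) (r m : ℕ) : Type :=
  (Fin (S.relRank r m) → S.Idx (r - m) × S.Idx r) ×
    (Fin (S.relRank r m) → (S.Idx (r - m) × κ) ⊕ S.Idx m)

/-- The linear equivalence equations. -/
def relEq {κ : Type} (r m : ℕ) (p : κ → S.Idx r → R) (i : S.RelIdx κ r m) : R :=
  minor (S.relFam r m p) i

lemma map_crams (φ : R →ₐ[ℚ] R') {b : ℕ} (e : S.Ten R b) (k : S.CIdx b) (l : S.Idx b) :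
    φ (S.crams e k l) = S.crams (fun I => φ (e I)) k l :=
  map_cram (φ : R →+* R') e k.1 k.2 l

lemma map_prod2 (φ : R →ₐ[ℚ] R') (eA : S.Ten R S.la) (eB : S.Ten R (S.la + S.lc))
    (k : S.CIdx S.la × S.CIdx (S.la + S.lc)) (l : S.Idx S.l2) :
    φ (S.prod2 eA eB k l) = S.prod2 (fun I => φ (eA I)) (fun I => φ (eB I)) k l := by
  rw [prod2, map_mulv]
  simp only [map_crams]
  rfl

lemma map_prod3 (φ : R →ₐ[ℚ] R') (eA : S.Ten R S.la) (eB : S.Ten R (S.la + S.lc))
    (eC : S.Ten R S.la) (k : S.CIdx S.la × (S.CIdx S.la × S.CIdx (S.la + S.lc)))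
    (l : S.Idx S.l3) :
    φ (S.prod3 eA eB eC k l)
      = S.prod3 (fun I => φ (eA I)) (fun I => φ (eB I)) (fun I => φ (eC I)) k l := by
  rw [prod3, map_mulv]
  simp only [map_crams, map_prod2]
  rfl

lemma map_relEq (φ : R →ₐ[ℚ] R') {κ : Type} (r m : ℕ) (p : κ → S.Idx r → R)
    (i : S.RelIdx κ r m) : φ (S.relEq r m p i) = S.relEq r m (fun k l => φ (p k l)) i := by
  rw [relEq, ← AlgHom.coe_toRingHom, map_minor, relEq]
  congr 1
  funext k v
  rcases k with ⟨l, k⟩ | j
  · simp [relFam, apply_ite φ]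
  · simp [relFam, map_mulv, unitv, apply_ite φ]
    rfl

end Ring

variable {L : Type} [Field L] [Algebra ℚ L] [IsAlgClosed L] [CharZero L]

local notation "FF" => laurentBaseChange L S.F₀

open Classical in
/-- The class of a degree zero divisor, extended by zero. -/
def mk0 (D : Divisor L FF) : Pic0 L FF :=
  if h : D ∈ Divisor.degZero (K := L) (F := FF) then Pic0.mk ⟨D, h⟩ else 0

lemma mk0_add {D D' : Divisor L FF} (h : Divisor.degree D = 0) (h' : Divisor.degree D' = 0) :
    S.mk0 (D + D') = S.mk0 D + S.mk0 D' := by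
  rw [mk0, mk0, mk0, dif_pos (Divisor.mem_degZero.mpr h), dif_pos (Divisor.mem_degZero.mpr h'),
    dif_pos (Divisor.mem_degZero.mpr (by rw [map_add, h, h', add_zero])), ← Pic0.mk_add]
  rfl

lemma mk0_eq_zero_iff {D : Divisor L FF} (h : Divisor.degree D = 0) :
    S.mk0 D = 0 ↔ D ∈ Divisor.principal (K := L) (F := FF) := by
  rw [mk0, dif_pos (Divisor.mem_degZero.mpr h)]
  exact (QuotientAddGroup.eq_zero_iff _).trans AddSubgroup.mem_addSubgroupOf

lemma smul_mk0 (σ : L ≃ₐ[ℚ] L) (D : Divisor L FF) :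
    S.gal L σ • S.mk0 D = S.mk0 (S.gal L σ • D) := by
  by_cases h : D ∈ Divisor.degZero (K := L) (F := FF)
  · rw [mk0, dif_pos h, mk0, dif_pos (by rwa [Divisor.mem_degZero, SemilinearAut.degree_smul])]
    rfl
  · rw [mk0, dif_neg h, mk0, dif_neg (fun h' => h (by
      rwa [Divisor.mem_degZero, SemilinearAut.degree_smul] at h'))]
    exact smul_zero (A := Pic0 L FF) (S.gal L σ)

/-- The class of `D - n·∞`. -/
def cls (D : Divisor L FF) : Pic0 L FF := S.mk0 (D - S.binf L (S.n : ℤ))

lemma smul_cls (σ : L ≃ₐ[ℚ] L) (D : Divisor L FF) :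
    S.gal L σ • S.cls D = S.cls (S.gal L σ • D) := by
  rw [cls, smul_mk0, smul_sub, smul_binf, cls]

lemma cls_add_eq_zero_iff {A B : Divisor L FF} (hA : Divisor.degree A = S.n)
    (hB : Divisor.degree B = S.n) :
    S.cls A + S.cls B = 0 ↔
      A + B - S.binf L ((2 * S.n : ℕ) : ℤ) ∈ Divisor.principal (K := L) (F := FF) := by
  have e : A - S.binf L (S.n : ℤ) + (B - S.binf L (S.n : ℤ))
      = A + B - S.binf L ((2 * S.n : ℕ) : ℤ) := by
    rw [binf, binf, Nat.cast_mul, Nat.cast_ofNat, two_mul, Finsupp.single_add]; abel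
  rw [cls, cls, ← mk0_add, mk0_eq_zero_iff, e]
  all_goals simp [map_sub, map_add, hA, hB]

lemma cls_add_add_eq_zero_iff {A B C : Divisor L FF} (hA : Divisor.degree A = S.n)
    (hB : Divisor.degree B = S.n) (hC : Divisor.degree C = S.n) :
    S.cls A + S.cls B + S.cls C = 0 ↔
      A + B + C - S.binf L ((3 * S.n : ℕ) : ℤ) ∈ Divisor.principal (K := L) (F := FF) := by
  have e : A - S.binf L (S.n : ℤ) + (B - S.binf L (S.n : ℤ)) + (C - S.binf L (S.n : ℤ))
      = A + B + C - S.binf L ((3 * S.n : ℕ) : ℤ) := by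
    rw [binf, binf, Nat.cast_mul, Nat.cast_ofNat, show (3 : ℤ) * (S.n : ℤ) = S.n + S.n + S.n by ring,
      Finsupp.single_add, Finsupp.single_add]; abel
  rw [cls, cls, cls, ← mk0_add, ← mk0_add, mk0_eq_zero_iff, e]
  all_goals simp [map_sub, map_add, hA, hB, hC]

lemma span_range_mulv {p q r : ℕ} (h : p + q = r) {D D' : Divisor L FF} (hD : 0 ≤ D)
    (hD' : 0 ≤ D') {ι ι' : Type} {u : ι → S.Idx p → L} {v : ι' → S.Idx q → L}
    (hu : Submodule.span L (Set.range u) = S.W L p D)
    (hv : Submodule.span L (Set.range v) = S.W L q D')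
    (hp : 2 * (S.g : ℤ) < p - Divisor.degree D)
    (hq : p - Divisor.degree D + 2 * (S.g : ℤ) ≤ q - Divisor.degree D') :
    Submodule.span L (Set.range fun k : ι × ι' => S.mulv p q r (u k.1) (v k.2))
      = S.W L r (D + D') := by
  refine Submodule.map_injective_of_injective (S.realF_injective L r) ?_
  rw [S.map_W (add_nonneg hD hD'), Submodule.map_span, ← Set.range_comp]
  have e1 : S.binf L (r : ℤ) - (D + D')
      = S.binf L (p : ℤ) - D + (S.binf L (q : ℤ) - D') := by
    rw [← h, binf, binf, binf, Nat.cast_add, Finsupp.single_add]; abel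
  rw [e1, ← (S.rr L).mul_span (by rw [map_sub, degree_binf, S.g_eq L]; exact hp)
    (by rw [map_sub, degree_binf, map_sub, degree_binf, S.g_eq L]; exact hq),
    ← S.map_W hD, ← S.map_W hD', ← hu, ← hv, Submodule.map_span, Submodule.map_span,
    Submodule.span_mul_span, ← Set.range_comp, ← Set.range_comp]
  congr 1
  ext f
  simp only [Set.mem_range, Function.comp_apply, Set.mem_mul, Prod.exists]
  constructor
  · rintro ⟨i, j, rfl⟩
    exact ⟨_, ⟨i, rfl⟩, _, ⟨j, rfl⟩, (S.realF_mulv L h.le _ _).symm⟩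
  · rintro ⟨_, ⟨i, rfl⟩, _, ⟨j, rfl⟩, rfl⟩
    exact ⟨i, j, S.realF_mulv L h.le _ _⟩

lemma span_crams {b : ℕ} {e : S.Ten L b} {D : Divisor L FF} (he : S.IsTen b e D) :
    Submodule.span L (Set.range (S.crams e)) = S.W L b D := by
  refine le_antisymm (Submodule.span_le.mpr ?_) ?_
  · rintro _ ⟨k, rfl⟩
    exact he.cram_mem k.1 k.2
  · obtain ⟨I, hI⟩ := he.exists_ne_zero
    rw [← he.span_cram hI]
    refine Submodule.span_mono ?_
    rintro _ ⟨j, rfl⟩
    exact ⟨(I, j), rfl⟩

lemma span_prod2 {eA : S.Ten L S.la} {eB : S.Ten L (S.la + S.lc)} {A B : Divisor L FF}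
    (hA : 0 ≤ A) (hA' : Divisor.degree A = S.n) (hB : 0 ≤ B) (hB' : Divisor.degree B = S.n)
    (tA : S.IsTen S.la eA A) (tB : S.IsTen (S.la + S.lc) eB B) :
    Submodule.span L (Set.range (S.prod2 eA eB)) = S.W L S.l2 (A + B) :=
  S.span_range_mulv rfl hA hB (S.span_crams tA) (S.span_crams tB) (by rw [hA']; simp only [Setup.n, Setup.la, Setup.lc] at *; omega)
    (by rw [hA', hB']; simp only [Setup.n, Setup.la, Setup.lc] at *; omega)

lemma span_prod3 {eA : S.Ten L S.la} {eB : S.Ten L (S.la + S.lc)} {eC : S.Ten L S.la}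
    {A B C : Divisor L FF} (hA : 0 ≤ A) (hA' : Divisor.degree A = S.n) (hB : 0 ≤ B)
    (hB' : Divisor.degree B = S.n) (hC : 0 ≤ C) (hC' : Divisor.degree C = S.n)
    (tA : S.IsTen S.la eA A) (tB : S.IsTen (S.la + S.lc) eB B) (tC : S.IsTen S.la eC C) :
    Submodule.span L (Set.range (S.prod3 eA eB eC)) = S.W L S.l3 (C + (A + B)) :=
  S.span_range_mulv rfl hC (add_nonneg hA hB) (S.span_crams tC)
    (S.span_prod2 hA hA' hB hB' tA tB) (by rw [hC']; simp only [Setup.n, Setup.la, Setup.lc] at *; omega)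
    (by rw [hC', map_add, hA', hB']; simp only [Setup.n, Setup.la, Setup.lc, Setup.l2] at *; omega)

/-- The rank criterion for `X ~ m·∞`. -/
theorem relEq_eq_zero_iff {κ : Type} {r m : ℕ} {p : κ → S.Idx r → L} {X : Divisor L FF}
    (hX : 0 ≤ X) (hm : Divisor.degree X = m) (hr : m + 2 * S.g + 1 ≤ r)
    (hp : Submodule.span L (Set.range p) = S.W L r X) :
    (∀ i, S.relEq r m p i = 0) ↔ X - S.binf L (m : ℤ) ∈ Divisor.principal (K := L) (F := FF) := by
  classical
  let Ψ : (S.Idx (r - m) → S.W L r X) →ₗ[L] (S.Idx (r - m) × S.Idx r → L) :=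
    { toFun := fun w k => (w k.1 : S.Idx r → L) k.2
      map_add' := fun _ _ => rfl
      map_smul' := fun _ _ => rfl }
  let τ : (S.Idx m → L) →ₗ[L] (S.Idx (r - m) × S.Idx r → L) :=
    { toFun := fun f k => S.mulv m (r - m) r f (S.unitv k.1) k.2
      map_add' := fun f f' => by
        funext k
        simp only [mulv, add_mul, Pi.add_apply]
        simp_rw [Algebra.smul_def, mul_add, Finset.sum_add_distrib]
      map_smul' := fun c f => by
        funext k
        simp [mulv, Finset.mul_sum, mul_assoc] }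
  have hΨ : Injective Ψ := fun w w' e => funext fun l => Subtype.ext <| funext fun i =>
    congrFun e (l, i)
  have hτmul : ∀ f l, S.realF L r (fun i => τ f (l, i))
      = S.realF L m f * S.el L (S.bF (r - m) l) := fun f l => by
    rw [← S.realF_unitv L l, ← S.realF_mulv L (show m + (r - m) ≤ r by omega)]
    rfl
  obtain ⟨l0⟩ : Nonempty (S.Idx (r - m)) := by
    rw [← Fintype.card_pos_iff]
    have := S.card_Idx (b := r - m) (by omega)
    omega
  have hτ : Injective τ := by
    refine (injective_iff_map_eq_zero τ).mpr fun f hf => ?_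
    refine S.realF_injective L m ?_
    rw [map_zero]
    have h0 : S.realF L m f * S.el L (S.bF (r - m) l0) = 0 := by
      rw [← hτmul f l0, hf]
      exact map_zero _
    exact (mul_eq_zero.mp h0).resolve_right
      fun e => (S.bas (r - m)).ne_zero l0 (Subtype.ext (coeffEmb_injective L (by
        rw [ZeroMemClass.coe_zero, map_zero]; exact congrArg Subtype.val e)))
  have hspan : Submodule.span L (Set.range (S.relFam r m p))
      = LinearMap.range Ψ ⊔ LinearMap.range τ := by
    refine le_antisymm (Submodule.span_le.mpr ?_) (sup_le ?_ ?_)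
    · rintro _ ⟨⟨l, k⟩ | j, rfl⟩
      · refine Submodule.mem_sup_left ⟨fun l' => if l' = l then ⟨p k,
          hp.le (Submodule.subset_span ⟨k, rfl⟩)⟩ else 0, funext fun li => ?_⟩
        show ((if li.1 = l then _ else _ : S.W L r X) : S.Idx r → L) li.2 = _
        simp only [relFam]
        split_ifs <;> rfl
      · exact Submodule.mem_sup_right ⟨S.unitv j, rfl⟩
    · rintro _ ⟨w, rfl⟩
      have : Ψ w = ∑ l, Ψ (Pi.single l (w l)) := by
        rw [← map_sum, Finset.univ_sum_single]
      rw [this]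
      refine Submodule.sum_mem _ fun l _ => ?_
      suffices h : ∀ x ∈ Submodule.span L (Set.range p), (fun li : S.Idx (r - m) × S.Idx r =>
          if li.1 = l then x li.2 else 0) ∈ Submodule.span L (Set.range (S.relFam r m p)) by
        convert h _ (hp.symm.le (w l).2) using 1
        funext li
        show (((Pi.single l (w l) : S.Idx (r - m) → S.W L r X) li.1) : S.Idx r → L) li.2 = _
        rcases eq_or_ne li.1 l with e | e
        · simp [e]
        · simp [e]
      intro x hx
      induction hx using Submodule.span_induction with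
      | mem y hy =>
          obtain ⟨k, rfl⟩ := hy
          exact Submodule.subset_span ⟨.inl (l, k), rfl⟩
      | zero => simp only [Pi.zero_apply, ite_self]; exact zero_mem _
      | add y z _ _ hy hz =>
          convert add_mem hy hz using 1
          funext li; simp only [Pi.add_apply]; split_ifs <;> simp
      | smul c y _ hy =>
          convert Submodule.smul_mem _ c hy using 1
          funext li; simp only [Pi.smul_apply]; split_ifs <;> simp
    · rintro _ ⟨f, rfl⟩
      have : f = ∑ j, f j • (S.unitv j : S.Idx m → L) := by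
        funext j; simp [unitv]
      rw [this, map_sum]
      refine Submodule.sum_mem _ fun j _ => ?_
      rw [map_smul]
      exact Submodule.smul_mem _ _ (Submodule.subset_span ⟨.inr j, rfl⟩)
  have hdim : finrank L (LinearMap.range Ψ) + finrank L (LinearMap.range τ) = S.relRank r m := by
    rw [LinearMap.finrank_range_of_inj hΨ, LinearMap.finrank_range_of_inj hτ,
      Module.finrank_pi_fintype, Finset.sum_const, Finset.card_univ, smul_eq_mul,
      Module.finrank_fintype_fun_eq_card, relRank]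
    have := S.finrank_W_add hX hm (b := r) (by omega)
    rw [show Fintype.card (S.Idx r) - m = finrank L (S.W L r X) by omega]
  simp only [relEq]
  rw [forall_minor_eq_zero_iff, hspan]
  have hsum := Submodule.finrank_sup_add_finrank_inf_eq (LinearMap.range Ψ) (LinearMap.range τ)
  constructor
  · intro hlt
    have : LinearMap.range Ψ ⊓ LinearMap.range τ ≠ ⊥ := fun e => by
      rw [e, finrank_bot] at hsum; omega
    obtain ⟨z, hz, hz0⟩ := (Submodule.ne_bot_iff _).mp this
    obtain ⟨⟨w, hw⟩, f, hf⟩ := Submodule.mem_inf.mp hz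
    set F := S.realF L m f
    have hf0 : F ≠ 0 := fun e => hz0 (by
      rw [← hf, show f = 0 from S.realF_injective L m (e.trans (map_zero _).symm), map_zero])
    refine ⟨F, hf0, fun v => ?_⟩
    have hmain : ∀ v, X v - S.binf L (m : ℤ) v ≤ v.ord F := by
      intro v
      have hnot := (S.rr L).Lsp_sub_single_ne (S.binf L ((r - m : ℕ) : ℤ)) v (by
        rw [degree_binf, S.g_eq L]; omega)
      obtain ⟨u, hu, hun⟩ := SetLike.not_le_iff_exists.mp hnot
      obtain ⟨y, rfl⟩ := S.exists_realF L hu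
      have hy0 : S.realF L (r - m) y ≠ 0 := fun e => hun (e ▸ zero_mem _)
      have hprod : F * S.realF L (r - m) y ∈ riemannRochSpace (S.binf L (r : ℤ) - X) := by
        rw [realF_apply S L (r - m), Finset.mul_sum]
        refine Submodule.sum_mem _ fun l _ => ?_
        rw [mul_smul_comm]
        refine Submodule.smul_mem _ _ ?_
        rw [← hτmul f l, hf, ← hw]
        exact S.mem_W.mp (w l).2
      have h1 := (mem_Lsp_of_ne_zero (mul_ne_zero hf0 hy0)).mp hprod v
      rw [v.ord_mul hf0 hy0] at h1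
      have h2 := (mem_Lsp_of_ne_zero hy0).mp hu
      by_contra hlt'
      refine hun ?_
      rw [mem_Lsp_of_ne_zero hy0]
      intro u'
      have h2' := h2 u'
      rcases eq_or_ne u' v with rfl | hne
      · have e : S.binf L (r : ℤ) u' = S.binf L ((r - m : ℕ) : ℤ) u' + S.binf L (m : ℤ) u' := by
          rw [← Finsupp.add_apply, binf, binf, binf, ← Finsupp.single_add,
            ← Nat.cast_add, Nat.sub_add_cancel (by omega)]
        simp only [Finsupp.sub_apply, Finsupp.single_eq_same] at *
        omega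
      · simp only [Finsupp.sub_apply, Finsupp.single_eq_of_ne hne, sub_zero]
        exact h2'
    have hd := (S.rr L).eq_zero_of_nonneg_of_degree_le
      (D := (S.rr L).divisor hf0 - (X - S.binf L (m : ℤ))) (fun u => by
        simp only [Finsupp.coe_zero, Pi.zero_apply, Finsupp.sub_apply,
          (S.rr L).divisor_apply hf0]
        have := hmain u
        omega) (by rw [map_sub, (S.rr L).degree_divisor hf0, map_sub, degree_binf, hm]; omega)
    rw [sub_eq_zero] at hd
    rw [← hd, (S.rr L).divisor_apply hf0]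
  · rintro ⟨F, hF0, hF⟩
    have hFm : F ∈ riemannRochSpace (S.binf L (m : ℤ)) := by
      rw [mem_Lsp_of_ne_zero hF0]
      intro v
      have := hF v
      have := hX v
      simp only [Finsupp.coe_zero, Pi.zero_apply, Finsupp.sub_apply] at *
      omega
    obtain ⟨f, rfl⟩ := S.exists_realF L hFm
    have hne : f ≠ 0 := fun e => hF0 (by rw [e, map_zero])
    have hmem : τ f ∈ LinearMap.range Ψ := by
      refine ⟨fun l => ⟨fun i => τ f (l, i), ?_⟩, rfl⟩
      rw [mem_W, hτmul]
      have h1 : S.realF L m f ∈ riemannRochSpace (S.binf L (m : ℤ) - X) := by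
        rw [mem_Lsp_of_ne_zero hF0]
        intro v
        have := hF v
        simp only [Finsupp.sub_apply] at *
        omega
      have h2 : S.el L (S.bF (r - m) l) ∈ riemannRochSpace (S.binf L ((r - m : ℕ) : ℤ)) :=
        S.realF_unitv L l ▸ S.realF_mem L (r - m) _
      convert mul_mem_Lsp h1 h2 using 2
      rw [binf, binf, binf, sub_add_eq_add_sub, ← Finsupp.single_add, ← Nat.cast_add,
        Nat.add_sub_cancel' (by omega)]
    have hz0 : τ f ≠ 0 := fun e => hne (hτ (e.trans (map_zero τ).symm))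
    have : LinearMap.range Ψ ⊓ LinearMap.range τ ≠ ⊥ :=
      (Submodule.ne_bot_iff _).mpr ⟨τ f, Submodule.mem_inf.mpr ⟨hmem, f, rfl⟩, hz0⟩
    have hpos : finrank L (LinearMap.range Ψ ⊓ LinearMap.range τ : Submodule L _) ≠ 0 :=
      fun e => this (Submodule.finrank_eq_zero.mp e)
    omega

/-- `[A] + [B] = 0` is a polynomial condition. -/
theorem rel2_iff {eA : S.Ten L S.la} {eB : S.Ten L (S.la + S.lc)} {A B : Divisor L FF}
    (hA : 0 ≤ A) (hA' : Divisor.degree A = S.n) (hB : 0 ≤ B) (hB' : Divisor.degree B = S.n)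
    (tA : S.IsTen S.la eA A) (tB : S.IsTen (S.la + S.lc) eB B) :
    (∀ i, S.relEq S.l2 (2 * S.n) (S.prod2 eA eB) i = 0) ↔ S.cls A + S.cls B = 0 := by
  rw [S.relEq_eq_zero_iff (add_nonneg hA hB) (by rw [map_add, hA', hB']; push_cast; ring)
    (by simp only [Setup.n, Setup.la, Setup.lc, Setup.l2] at *; omega) (S.span_prod2 hA hA' hB hB' tA tB), S.cls_add_eq_zero_iff hA' hB']

/-- `[A] + [B] + [C] = 0` is a polynomial condition. -/
theorem rel3_iff {eA : S.Ten L S.la} {eB : S.Ten L (S.la + S.lc)} {eC : S.Ten L S.la}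
    {A B C : Divisor L FF} (hA : 0 ≤ A) (hA' : Divisor.degree A = S.n) (hB : 0 ≤ B)
    (hB' : Divisor.degree B = S.n) (hC : 0 ≤ C) (hC' : Divisor.degree C = S.n)
    (tA : S.IsTen S.la eA A) (tB : S.IsTen (S.la + S.lc) eB B) (tC : S.IsTen S.la eC C) :
    (∀ i, S.relEq S.l3 (3 * S.n) (S.prod3 eA eB eC) i = 0) ↔
      S.cls A + S.cls B + S.cls C = 0 := by
  rw [S.relEq_eq_zero_iff (add_nonneg hC (add_nonneg hA hB))
    (by rw [map_add, map_add, hA', hB', hC']; push_cast; ring)
    (by simp only [Setup.n, Setup.la, Setup.lc, Setup.l2, Setup.l3] at *; omega) (S.span_prod3 hA hA' hB hB' hC hC' tA tB tC), S.cls_add_add_eq_zero_iff hA' hB' hC',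
    show C + (A + B) = A + B + C by abel]

end Setup

end Fermat.Agent.MWJ0

end
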