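import Fermat.Agent.MWJ0.DoublingSystem
import Fermat.Agent.MWJ0.NSS

/-!
# An automorphism acting trivially modulo a good place does not translate classes by a fixed
nonzero class

For a nonzero class `t` the conditions "`[D] + [D⁻] = 0`, `[D'] + [D⁻] = t`, `D' = D`" have no
solution, hence none modulo a place outside finitely many primes.
-/

set_option autoImplicit false

noncomputable section

open AlgebraicCurve ModularCurve Module Function

namespace Fermat.Agent.MWJ0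

namespace Setup

variable (S : Setup)

local notation "Qb" => AlgebraicClosure ℚ

local notation "FQ" => laurentBaseChange Qb S.F₀

/-- The blocks: two tensors for `D` and `D⁻` and one for `D'`. -/
abbrev SepIdx : Option (Bool × Bool) → Type
  | none => Fin S.n → S.Idx S.la
  | some k => S.BlkIdx k

instance sepFintype : ∀ k, Fintype (S.SepIdx k)
  | none => (inferInstance : Fintype (Fin S.n → S.Idx S.la))
  | some k => S.blkFintype k

/-- All unknowns. -/
abbrev SepVar : Type := Σ k, S.SepIdx k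

/-- The equations. -/
abbrev SepEq : Type :=
  S.PairIdx S.n S.la S.lc ⊕ S.PairIdx S.n S.la S.lc ⊕
  ((Fin S.n → S.Idx S.la) × (Fin S.n → S.Idx S.la)) ⊕
  S.RelIdx (S.CIdx S.la × S.CIdx (S.la + S.lc)) S.l2 (2 * S.n) ⊕
  S.RelIdx (S.CIdx S.la × (S.CIdx S.la × S.CIdx (S.la + S.lc))) S.l3 (3 * S.n)

section Ring

variable {R R' : Type*} [CommRing R] [Algebra ℚ R] [CommRing R'] [Algebra ℚ R']

/-- The blocks as a point of the doubling variables. -/
def sepRestrict (x : S.SepVar → R) : S.DVar → R := fun v => x ⟨some v.1, v.2⟩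

/-- The extra tensor. -/
def sepExtra (x : S.SepVar → R) : S.Ten R S.la := fun I => x ⟨none, I⟩

/-- The values of the equations. -/
def sepVal (E : S.Ten R S.la) (x : S.SepVar → R) : S.SepEq → R
  | .inl i => S.pairEq S.la S.lc (S.tenA (S.sepRestrict x) false) (S.tenB (S.sepRestrict x) false) i
  | .inr (.inl i) =>
      S.pairEq S.la S.lc (S.tenA (S.sepRestrict x) true) (S.tenB (S.sepRestrict x) true) i
  | .inr (.inr (.inl i)) => S.tenA (S.sepRestrict x) false i.1 * S.sepExtra x i.2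
      - S.tenA (S.sepRestrict x) false i.2 * S.sepExtra x i.1
  | .inr (.inr (.inr (.inl i))) => S.relEq S.l2 (2 * S.n)
      (S.prod2 (S.tenA (S.sepRestrict x) false) (S.tenB (S.sepRestrict x) true)) i
  | .inr (.inr (.inr (.inr i))) => S.relEq S.l3 (3 * S.n)
      (S.prod3 (S.sepExtra x) (S.tenB (S.sepRestrict x) true) E) i

lemma map_sepVal (φ : R →ₐ[ℚ] R') (E : S.Ten R S.la) (x : S.SepVar → R) (e : S.SepEq) :
    φ (S.sepVal E x e) = S.sepVal (fun I => φ (E I)) (fun v => φ (x v)) e := by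
  rcases e with i | i | i | i | i <;>
    simp only [sepVal, map_pairEq, map_relEq, map_prod2, map_prod3, map_sub, map_mul] <;> rfl

end Ring

lemma not_sepVal_zero {t : Pic0 Qb FQ} (ht : t ≠ 0) {E : Divisor Qb FQ} (hE : 0 ≤ E)
    (hEn : Divisor.degree E = S.n) (hEc : S.cls E = -t) {eE : S.Ten Qb S.la}
    (tE : S.IsTen S.la eE E) (x : S.SepVar → Qb) (hz : ∀ e, S.sepVal eE x e = 0) :
    ∃ k, ∀ i, x ⟨k, i⟩ = 0 := by
  by_contra hdeg
  push Not at hdeg
  set r := S.sepRestrict x with hr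
  have hne : ∀ b, S.tenA r b ≠ 0 ∧ S.tenB r b ≠ 0 := fun b =>
    ⟨fun h => by obtain ⟨i, hi⟩ := hdeg (some (b, false)); exact hi (congrFun h i),
      fun h => by obtain ⟨i, hi⟩ := hdeg (some (b, true)); exact hi (congrFun h i)⟩
  obtain ⟨D, hD, hDn, tA, -⟩ := IsPair.exists_divisor S
    (⟨fun i => hz (.inl i), (hne false).1, (hne false).2⟩ :
      S.IsPair S.la S.lc (S.tenA r false) (S.tenB r false))
  obtain ⟨F, hF, hFn, -, uB⟩ := IsPair.exists_divisor S
    (⟨fun i => hz (.inr (.inl i)), (hne true).1, (hne true).2⟩ :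
      S.IsPair S.la S.lc (S.tenA r true) (S.tenB r true))
  obtain ⟨I₀, hI₀⟩ := tA.exists_ne_zero
  obtain ⟨I₁, hI₁⟩ := hdeg none
  have hprop : ∀ J, S.tenA r false I₀ * S.sepExtra x J = S.tenA r false J * S.sepExtra x I₀ :=
    fun J => sub_eq_zero.mp (hz (.inr (.inr (.inl (I₀, J)))))
  have hc : S.sepExtra x I₀ ≠ 0 := by
    intro h0
    have := hprop I₁
    rw [h0, mul_zero, mul_eq_zero] at this
    exact hI₁ (this.resolve_left hI₀)
  have hext : S.sepExtra x = fun J => (S.sepExtra x I₀ / S.tenA r false I₀) * S.tenA r false J := by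
    funext J
    rw [div_mul_eq_mul_div, eq_div_iff hI₀, mul_comm, hprop, mul_comm]
  have tA' : S.IsTen S.la (S.sepExtra x) D := hext ▸ tA.smul S (div_ne_zero hc hI₀)
  have h2 := (S.rel2_iff hD hDn hF hFn tA uB).mp fun i => hz (.inr (.inr (.inr (.inl i))))
  have h3 := (S.rel3_iff hD hDn hF hFn hE hEn tA' uB tE).mp
    fun i => hz (.inr (.inr (.inr (.inr i))))
  rw [h2, zero_add, hEc, neg_eq_zero] at h3
  exact ht h3

lemma exists_primitive_at (A : ValuationSubring Qb) {ι : Type} [Fintype ι] (z : ι → Qb)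
    (hz : z ≠ 0) :
    ∃ c : Qb, c ≠ 0 ∧ (∀ i, c * z i ∈ A) ∧ ∃ i, c * z i ∉ A.nonunits := by
  obtain ⟨i0, hi0⟩ := Function.ne_iff.mp hz
  obtain ⟨i, -, hi⟩ := Finset.exists_max_image Finset.univ (fun j => A.valuation (z j))
    ⟨i0, Finset.mem_univ _⟩
  have hne : z i ≠ 0 := fun e => hi0 (by
    have := hi i0 (Finset.mem_univ _)
    simp only [e, map_zero, le_zero_iff, map_eq_zero] at this
    simpa using this)
  refine ⟨(z i)⁻¹, inv_ne_zero hne, fun j => ?_, i, ?_⟩
  · rw [← A.valuation_le_one_iff, map_mul, map_inv₀, mul_comm, ← div_eq_mul_inv]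
    exact div_le_one_of_le₀ (hi j (Finset.mem_univ _)) zero_le
  · rw [inv_mul_cancel₀ hne, ValuationSubring.mem_nonunits_iff, map_one]
    exact lt_irrefl 1

/-- For a fixed `t ≠ 0`, at a place outside finitely many primes, inertia never translates a
class by `t`. -/
theorem exists_bad_primes_one {t : Pic0 Qb FQ} (ht : t ≠ 0) :
    ∃ M : ℕ, M ≠ 0 ∧ ∀ (y : Pic0 Qb FQ) (σ : Qb ≃ₐ[ℚ] Qb) (A : ValuationSubring Qb),
      (M : Qb) ∉ A.nonunits → (∀ a ∈ A, σ a - a ∈ A.nonunits) → S.gal Qb σ • y ≠ y + t := by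
  classical
  obtain ⟨E, hE, hEn, hEc⟩ := S.exists_rep' (-t)
  obtain ⟨eE, -, tE, -⟩ := S.exists_tens hE hEn
  let R := MvPolynomial S.SepVar Qb
  let P : S.SepEq → R := fun e =>
    S.sepVal (fun I => MvPolynomial.C (eE I)) (fun v => MvPolynomial.X v) e
  have hev : ∀ (z : S.SepVar → Qb) (e : S.SepEq),
      MvPolynomial.aeval z (P e) = S.sepVal eE z e := by
    intro z e
    show ((MvPolynomial.aeval z : R →ₐ[Qb] Qb).restrictScalars ℚ) (P e) = _
    simp only [P, map_sepVal]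
    congr 1 <;> funext i <;> simp
  obtain ⟨M, hM0, hM⟩ := no_zero_mod (ι := S.SepIdx) P fun x hx =>
    S.not_sepVal_zero ht hE hEn hEc tE x fun e => by rw [← hev]; exact hx e
  refine ⟨M, hM0, fun y σ A hA hin hy => ?_⟩
  obtain ⟨D, hD, hDn, hDc⟩ := S.exists_rep' y
  obtain ⟨F, hF, hFn, hFc⟩ := S.exists_rep' (-y)
  obtain ⟨a₀, b₀, ta₀, tb₀⟩ := S.exists_tens hD hDn
  obtain ⟨c₀, d₀, tc₀, td₀⟩ := S.exists_tens hF hFn
  obtain ⟨ka, hka, haA, Ia, hIa⟩ := exists_primitive_at A a₀ ta₀.ne_zero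
  obtain ⟨kb, hkb, hbA, Ib, hIb⟩ := exists_primitive_at A b₀ tb₀.ne_zero
  obtain ⟨kc, hkc, hcA, Ic, hIc⟩ := exists_primitive_at A c₀ tc₀.ne_zero
  obtain ⟨kd, hkd, hdA, Id, hId⟩ := exists_primitive_at A d₀ td₀.ne_zero
  have ta := ta₀.smul S hka
  have tb := tb₀.smul S hkb
  have tc := tc₀.smul S hkc
  have td := td₀.smul S hkd
  have ta' := ta.gal S σ hD hDn (by simp only [Setup.n, Setup.la] at *; omega)
  let z : S.SepVar → Qb := fun v => match v with
    | ⟨none, I⟩ => σ (ka * a₀ I)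
    | ⟨some (false, false), I⟩ => ka * a₀ I
    | ⟨some (false, true), I⟩ => kb * b₀ I
    | ⟨some (true, false), I⟩ => kc * c₀ I
    | ⟨some (true, true), I⟩ => kd * d₀ I
  have hmem : ∀ x ∈ A, σ x ∈ A := fun x hx => by
    simpa using add_mem (A.nonunits_subset (hin x hx)) hx
  obtain ⟨e, he⟩ := hM A hA z (by
      rintro ⟨_ | ⟨_ | _, _ | _⟩, I⟩
      exacts [hmem _ (haA I), haA I, hbA I, hcA I, hdA I])
    (by
      rintro (_ | ⟨_ | _, _ | _⟩)
      · refine ⟨Ia, fun h => hIa ?_⟩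
        have h1 := hin _ (haA Ia)
        rw [ValuationSubring.mem_nonunits_iff] at h h1 ⊢
        have := A.valuation.map_sub_lt h h1
        simpa [z] using this
      exacts [⟨Ia, hIa⟩, ⟨Ib, hIb⟩, ⟨Ic, hIc⟩, ⟨Id, hId⟩])
  refine he ?_
  rw [hev]
  have h0 : (0 : Qb) ∈ A.nonunits := by simp
  rcases e with i | i | i | i | i
  · convert h0; exact (ta.isPair S tb).eqs i
  · convert h0; exact (tc.isPair S td).eqs i
  · have h1 := hin _ (haA i.1)
    have h2 := hin _ (haA i.2)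
    rw [ValuationSubring.mem_nonunits_iff] at h1 h2 ⊢
    have e : S.sepVal eE z (.inr (.inr (.inl i))) = ka * a₀ i.1 * (σ (ka * a₀ i.2) - ka * a₀ i.2)
        - ka * a₀ i.2 * (σ (ka * a₀ i.1) - ka * a₀ i.1) := by
      show ka * a₀ i.1 * σ (ka * a₀ i.2) - ka * a₀ i.2 * σ (ka * a₀ i.1) = _
      ring
    rw [e]
    refine A.valuation.map_sub_lt ?_ ?_ <;> rw [map_mul]
    · exact mul_lt_one_of_nonneg_of_lt_one_right ((A.valuation_le_one_iff _).mpr (haA _)) zero_le h2
    · exact mul_lt_one_of_nonneg_of_lt_one_right ((A.valuation_le_one_iff _).mpr (haA _)) zero_le h1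
  · convert h0
    exact (S.rel2_iff hD hDn hF hFn ta td).mpr (by rw [hDc, hFc, add_neg_cancel]) i
  · convert h0
    refine (S.rel3_iff (S.smul_nonneg_div σ hD) (by rw [SemilinearAut.degree_smul]; exact hDn)
      hF hFn hE hEn ta' td tE).mpr ?_ i
    rw [← S.smul_cls, hDc, hFc, hEc, hy]
    abel

/-- Halves of rational classes are unramified outside finitely many primes. -/
theorem exists_bad_primes : ∃ M : ℕ, M ≠ 0 ∧ ∀ (y : Pic0 Qb FQ) (σ : Qb ≃ₐ[ℚ] Qb)
    (A : ValuationSubring Qb), (∀ τ : Qb ≃ₐ[ℚ] Qb, S.gal Qb τ • (y + y) = y + y) →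
      (M : Qb) ∉ A.nonunits → (∀ a ∈ A, σ a - a ∈ A.nonunits) → S.gal Qb σ • y = y := by
  classical
  set T := S.finite_torsion_Qb.toFinset.erase 0 with hT
  choose M hM0 hM using fun t : T => S.exists_bad_primes_one (t := t.1) (Finset.ne_of_mem_erase t.2)
  refine ⟨∏ t, M t, Finset.prod_ne_zero_iff.mpr fun t _ => hM0 t, fun y σ A hy hA hin => ?_⟩
  by_contra hne
  set t := S.gal Qb σ • y - y with htdef
  have ht : t ∈ T := by
    rw [hT, Finset.mem_erase, Set.Finite.mem_toFinset]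
    refine ⟨sub_ne_zero.mpr hne, ?_⟩
    show t + t = 0
    have h2 := hy σ
    rw [smul_add] at h2
    rw [htdef, sub_add_sub_comm, h2, sub_self]
  refine hM ⟨t, ht⟩ y σ A (fun h => hA ?_) hin (show _ = y + (S.gal Qb σ • y - y) by abel)
  obtain ⟨r, hr⟩ := Finset.dvd_prod_of_mem M (Finset.mem_univ (⟨t, ht⟩ : T))
  rw [ValuationSubring.mem_nonunits_iff] at h ⊢
  rw [hr, Nat.cast_mul, map_mul]
  exact mul_lt_one_of_nonneg_of_lt_one_left zero_le h
    ((A.valuation_le_one_iff _).mpr (natCast_mem A _))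

end Setup

end Fermat.Agent.MWJ0

end
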