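import Fermat.Agent.MWJ0.RR
import Fermat.Agent.MWJ0.Aut
import Fermat.Prelude.Def_ModularCurve_ArithmeticGalois

/-!
# The place at infinity, rationality of `L(b·∞)` and coefficientwise retractions
-/

set_option autoImplicit false

noncomputable section

open AlgebraicCurve ModularCurve Module HahnSeries

namespace Fermat.Agent.MWJ0

/-- Data for Mordell–Weil: a function field over `ℚ` inside `ℚ((q))` containing a simple pole. -/
structure Setup where
  F₀ : IntermediateField ℚ (LaurentSeries ℚ)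
  x₀ : LaurentSeries ℚ
  x₀_mem : x₀ ∈ F₀
  x₀_order : x₀.order = -1
  rr : ∀ (L : Type) [Field L] [Algebra ℚ L] [IsAlgClosed L], RRData L (laurentBaseChange L F₀)

section Shortcuts

-- instance search through `LaurentSeries` takes seconds at each occurrence otherwise
variable {L : Type} [Field L] [Algebra ℚ L] (S : Setup)

instance instAlgebraBaseChange : Algebra L (laurentBaseChange L S.F₀) := inferInstance

instance instModuleBaseChange : Module L (laurentBaseChange L S.F₀) := inferInstance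

end Shortcuts

namespace Setup

variable (S : Setup) (L : Type) [Field L] [Algebra ℚ L] [IsAlgClosed L]

local notation "FF" => laurentBaseChange L S.F₀

lemma coeffEmb_injective : Function.Injective (coeffEmb L) := (coeffEmb L).injective

lemma order_coeffEmb (f : LaurentSeries ℚ) : (coeffEmb L f).order = f.order := by
  rcases eq_or_ne f 0 with rfl | hf
  · simp
  have hf' : coeffEmb L f ≠ 0 := (map_ne_zero_iff _ (coeffEmb_injective L)).mpr hf
  refine le_antisymm (order_le_of_coeff_ne_zero ?_) ?_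
  · rw [coeffEmb_coeff, map_ne_zero_iff _ (algebraMap ℚ L).injective]
    exact mt coeff_order_eq_zero.mp hf
  · rw [le_order_iff_forall hf']
    intro j hj
    rw [coeffEmb_coeff, coeff_eq_zero_of_lt_order hj, map_zero]

omit [Algebra ℚ L] in
lemma order_algebraMap (c : L) : (algebraMap L (LaurentSeries L) c).order = 0 := by
  rw [algebraMap_laurentSeries_eq_single]
  rcases eq_or_ne c 0 with rfl | hc
  · simp
  · exact order_single hc

/-- Order at infinity. -/
def oinf (f : FF) : ℤ := (f : LaurentSeries L).order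

variable {S L}

lemma coe_ne_zero {f : FF} (hf : f ≠ 0) : (f : LaurentSeries L) ≠ 0 := by
  simpa [ne_eq, ZeroMemClass.coe_eq_zero] using hf

lemma oinf_mul {f g : FF} (hf : f ≠ 0) (hg : g ≠ 0) : S.oinf L (f * g) = S.oinf L f + S.oinf L g := by
  simp only [oinf, MulMemClass.coe_mul]
  exact order_mul (coe_ne_zero hf) (coe_ne_zero hg)

lemma oinf_one : S.oinf L (1 : FF) = 0 := by
  simp only [oinf, OneMemClass.coe_one]
  exact order_one

lemma oinf_inv {f : FF} (hf : f ≠ 0) : S.oinf L f⁻¹ = -S.oinf L f := by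
  have := S.oinf_mul (L := L) hf (inv_ne_zero hf)
  rw [mul_inv_cancel₀ hf, oinf_one] at this
  omega

lemma oinf_add {f g : FF} (h : f + g ≠ 0) :
    min (S.oinf L f) (S.oinf L g) ≤ S.oinf L (f + g) := by
  simp only [oinf, AddMemClass.coe_add]
  exact min_order_le_order_add (coe_ne_zero (f := f + g) h)

variable (S L)

/-- `x₀` in the base-changed field. -/
def x : FF := ⟨coeffEmb L S.x₀, coeffEmb_mem_laurentBaseChange L S.x₀_mem⟩

lemma oinf_x : S.oinf L (S.x L) = -1 := by
  simp only [oinf, x, order_coeffEmb, S.x₀_order]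

lemma x_ne_zero : S.x L ≠ 0 := fun h => by
  have := S.oinf_x L
  simp [h, oinf] at this

/-- The valuation subring at infinity. -/
def infSubring : ValuationSubring FF where
  carrier := {f | f = 0 ∨ 0 ≤ S.oinf L f}
  zero_mem' := Or.inl rfl
  one_mem' := Or.inr S.oinf_one.ge
  add_mem' := by
    intro f g hf hg
    rcases eq_or_ne (f + g) 0 with h | h
    · exact Or.inl h
    rcases eq_or_ne f 0 with rfl | hf0
    · simpa using hg
    rcases eq_or_ne g 0 with rfl | hg0
    · simpa using hf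
    have := S.oinf_add (L := L) h
    have := hf.resolve_left hf0
    have := hg.resolve_left hg0
    exact Or.inr (by omega)
  mul_mem' := by
    intro f g hf hg
    rcases eq_or_ne f 0 with rfl | hf0
    · exact Or.inl (zero_mul g)
    rcases eq_or_ne g 0 with rfl | hg0
    · exact Or.inl (mul_zero f)
    have := hf.resolve_left hf0
    have := hg.resolve_left hg0
    exact Or.inr (by rw [S.oinf_mul hf0 hg0]; omega)
  neg_mem' := by
    intro f hf
    rcases hf with rfl | hf
    · exact Or.inl neg_zero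
    · refine Or.inr ?_
      simp only [oinf, NegMemClass.coe_neg, order_neg]
      exact hf
  mem_or_inv_mem' := by
    intro f
    rcases eq_or_ne f 0 with rfl | hf
    · exact Or.inl (Or.inl rfl)
    · rcases le_total 0 (S.oinf L f) with h | h
      · exact Or.inl (Or.inr h)
      · exact Or.inr (Or.inr (by rw [S.oinf_inv hf]; omega))

lemma mem_infSubring {f : FF} : f ∈ S.infSubring L ↔ f = 0 ∨ 0 ≤ S.oinf L f := Iff.rfl

lemma infSubring_isPrincipal : IsPrincipalIdealRing (S.infSubring L) := by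
  classical
  refine ⟨fun I => ?_⟩
  rcases eq_or_ne I ⊥ with rfl | hI
  · exact ⟨⟨0, by simp⟩⟩
  obtain ⟨a0, ha0, hne⟩ := (Submodule.ne_bot_iff I).mp hI
  have hnn : ∀ a : S.infSubring L, 0 ≤ S.oinf L (a : FF) := fun a => by
    rcases (a.2 : (a : FF) = 0 ∨ _) with h | h
    · simp [h, oinf]
    · exact h
  have hex : ∃ m : ℕ, ∃ a ∈ I, a ≠ 0 ∧ S.oinf L (a : FF) = m :=
    ⟨(S.oinf L (a0 : FF)).toNat, a0, ha0, hne, (Int.toNat_of_nonneg (hnn a0)).symm⟩
  obtain ⟨a, ha, hane, hao⟩ := Nat.find_spec hex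
  refine ⟨⟨a, le_antisymm (fun b hb => ?_) (by simpa [Submodule.span_le] using ha)⟩⟩
  rcases eq_or_ne b 0 with rfl | hb0
  · exact zero_mem _
  have hae : (a : FF) ≠ 0 := by simpa [ne_eq, ZeroMemClass.coe_eq_zero] using hane
  have hbe : (b : FF) ≠ 0 := by simpa [ne_eq, ZeroMemClass.coe_eq_zero] using hb0
  have hmin := Nat.find_min' hex (m := (S.oinf L (b : FF)).toNat)
    ⟨b, hb, hb0, (Int.toNat_of_nonneg (hnn b)).symm⟩
  have hq : (b : FF) / (a : FF) ∈ S.infSubring L := by
    refine Or.inr ?_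
    rw [div_eq_mul_inv, S.oinf_mul hbe (inv_ne_zero hae), S.oinf_inv hae]
    have := hnn b
    omega
  refine Submodule.mem_span_singleton.mpr ⟨⟨_, hq⟩, Subtype.ext ?_⟩
  show (b : FF) / (a : FF) * (a : FF) = b
  field_simp

/-- The place at infinity. -/
def inf : Place L FF where
  toValuationSubring := S.infSubring L
  algebraMap_mem' c := Or.inr (by
    simp only [oinf]
    rw [show ((algebraMap L FF c : FF) : LaurentSeries L) = algebraMap L _ c from rfl,
      order_algebraMap])
  ne_top' h := by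
    have hx : S.x L ∈ S.infSubring L := h ▸ ValuationSubring.mem_top _
    rcases hx with hx | hx
    · exact S.x_ne_zero L hx
    · rw [S.oinf_x] at hx; omega
  isPrincipalIdealRing' := S.infSubring_isPrincipal L

lemma ord_inf {f : FF} (hf : f ≠ 0) : (S.inf L).ord f = S.oinf L f := by
  set v := S.inf L
  have hunit : ∀ g : FF, g ≠ 0 → S.oinf L g = 0 → v.ord g = 0 := by
    intro g hg h0
    have h1 : g ∈ v.toValuationSubring := (S.mem_infSubring L).mpr (Or.inr h0.ge)
    have h2 : g⁻¹ ∈ v.toValuationSubring :=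
      (S.mem_infSubring L).mpr (Or.inr (by rw [S.oinf_inv hg]; omega))
    exact v.ord_coe_unit ⟨⟨g, h1⟩, ⟨g⁻¹, h2⟩, Subtype.ext (mul_inv_cancel₀ hg),
      Subtype.ext (inv_mul_cancel₀ hg)⟩
  have hxn := S.x_ne_zero L
  have hoz : ∀ n : ℤ, S.oinf L (S.x L ^ n) = -n := by
    intro n
    induction n using Int.induction_on with
    | zero => simpa using S.oinf_one (L := L)
    | succ n ih => rw [zpow_add_one₀ hxn, S.oinf_mul (zpow_ne_zero _ hxn) hxn, ih, oinf_x]; omega
    | pred n ih =>
        rw [zpow_sub_one₀ hxn, S.oinf_mul (zpow_ne_zero _ hxn) (inv_ne_zero hxn), ih,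
          S.oinf_inv hxn, oinf_x]
        omega
  have key : v.ord f = -(S.oinf L f) * v.ord (S.x L) := by
    have h0 : v.ord (f * S.x L ^ S.oinf L f) = 0 :=
      hunit _ (mul_ne_zero hf (zpow_ne_zero _ hxn))
        (by rw [S.oinf_mul hf (zpow_ne_zero _ hxn), hoz]; omega)
    rw [v.ord_mul hf (zpow_ne_zero _ hxn), v.ord_zpow] at h0
    linarith
  obtain ⟨π, hπ⟩ := IsDiscreteValuationRing.exists_irreducible v.toValuationSubring
  have hπ0 : (π : FF) ≠ 0 := by simpa [ne_eq, ZeroMemClass.coe_eq_zero] using hπ.ne_zero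
  have hπ1 : 1 = -(S.oinf L (π : FF)) * v.ord (S.x L) := by
    rw [← v.ord_coe_irreducible hπ]
    have h0 : v.ord ((π : FF) * S.x L ^ S.oinf L (π : FF)) = 0 :=
      hunit _ (mul_ne_zero hπ0 (zpow_ne_zero _ hxn))
        (by rw [S.oinf_mul hπ0 (zpow_ne_zero _ hxn), hoz]; omega)
    rw [v.ord_mul hπ0 (zpow_ne_zero _ hxn), v.ord_zpow] at h0
    linarith
  have hnn : 0 ≤ S.oinf L (π : FF) := (π.2 : (π : FF) = 0 ∨ _).resolve_left hπ0
  rcases Int.eq_one_or_neg_one_of_mul_eq_one hπ1.symm with h | h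
  · omega
  · rw [h] at hπ1
    rw [key, show v.ord (S.x L) = -1 by omega]
    ring

/-- `b·∞`. -/
def binf (b : ℤ) : Divisor L FF := Finsupp.single (S.inf L) b

@[simp] lemma degree_binf (b : ℤ) : Divisor.degree (S.binf L b) = b :=
  (S.rr L).degree_single _ _

/-- The inclusion as a linear map. -/
def val : FF →ₗ[L] LaurentSeries L where
  toFun f := (f : LaurentSeries L)
  map_add' _ _ := rfl
  map_smul' c f := by
    rw [RingHom.id_apply, Algebra.smul_def c f, MulMemClass.coe_mul]
    show algebraMap L (LaurentSeries L) c * _ = _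
    rw [algebraMap_laurentSeries_eq_single, HahnSeries.single_zero_mul_eq_smul]

lemma val_injective : Function.Injective (S.val L) := fun _ _ h => Subtype.ext h

/-- `L(b·∞)` as a space of Laurent series. -/
def Sb (b : ℤ) : Submodule L (LaurentSeries L) :=
  (riemannRochSpace (S.binf L b)).map (S.val L)

lemma mem_Sb {b : ℤ} {f : FF} :
    (f : LaurentSeries L) ∈ S.Sb L b ↔ f ∈ riemannRochSpace (S.binf L b) :=
  ⟨fun ⟨g, hg, e⟩ => (Subtype.ext e : g = f) ▸ hg, fun h => ⟨f, h, rfl⟩⟩

lemma exists_of_mem_Sb {b : ℤ} {s : LaurentSeries L} (h : s ∈ S.Sb L b) :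
    ∃ f : FF, f ∈ riemannRochSpace (S.binf L b) ∧ (f : LaurentSeries L) = s := h

instance finite_Sb (b : ℤ) : Module.Finite L (S.Sb L b) :=
  haveI := (S.rr L).finite (S.binf L b)
  Module.Finite.map _ _

lemma Sb_mono {a b : ℤ} (h : a ≤ b) : S.Sb L a ≤ S.Sb L b :=
  Submodule.map_mono (Lsp_mono (Finsupp.single_le_single.mpr h))

lemma finrank_Sb {b : ℤ} (hb : 2 * ((S.rr L).g : ℤ) ≤ b) :
    (finrank L (S.Sb L b) : ℤ) = b + 1 - (S.rr L).g := by
  rw [Sb, ← (Submodule.equivMapOfInjective _ (S.val_injective L) _).finrank_eq,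
    (S.rr L).dim_eq _ (by rw [degree_binf]; exact hb), degree_binf]

lemma mul_mem_Sb {a b : ℤ} {s t : LaurentSeries L} (hs : s ∈ S.Sb L a) (ht : t ∈ S.Sb L b) :
    s * t ∈ S.Sb L (a + b) := by
  obtain ⟨f, hf, rfl⟩ := S.exists_of_mem_Sb L hs
  obtain ⟨g, hg, rfl⟩ := S.exists_of_mem_Sb L ht
  rw [← MulMemClass.coe_mul, mem_Sb, binf, Finsupp.single_add]
  exact mul_mem_Lsp hf hg

lemma one_mem_Sb {b : ℤ} (hb : 0 ≤ b) : (1 : LaurentSeries L) ∈ S.Sb L b := by
  rw [← OneMemClass.coe_one (FF), mem_Sb, mem_Lsp]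
  classical
  refine fun v => Or.inr ?_
  rw [Place.ord_one, binf, Finsupp.single_apply]
  split <;> omega

lemma neg_le_order_of_mem_Sb {b : ℤ} {s : LaurentSeries L} (hs : s ∈ S.Sb L b) (h0 : s ≠ 0) :
    -b ≤ s.order := by
  obtain ⟨f, hf, rfl⟩ := S.exists_of_mem_Sb L hs
  have hf0 : f ≠ 0 := fun e => h0 (by simp [e])
  have := (mem_Lsp_of_ne_zero hf0).mp hf (S.inf L)
  rw [binf, Finsupp.single_eq_same, ord_inf S L hf0] at this
  exact this

lemma eq_zero_of_window {b : ℤ} {s : LaurentSeries L} (hs : s ∈ S.Sb L b)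
    (h : ∀ k ∈ Finset.Icc (-b) 0, s.coeff k = 0) : s = 0 := by
  by_contra h0
  have hlo := S.neg_le_order_of_mem_Sb L hs h0
  have hpos : 1 ≤ s.order := by
    by_contra hlt
    exact mt coeff_order_eq_zero.mp h0 (h _ (Finset.mem_Icc.mpr ⟨hlo, by omega⟩))
  obtain ⟨f, hf, rfl⟩ := S.exists_of_mem_Sb L hs
  have hf0 : f ≠ 0 := fun e => h0 (by simp [e])
  have : f ∈ riemannRochSpace (S.binf L (-1)) := by
    rw [mem_Lsp_of_ne_zero hf0]
    intro v
    rcases eq_or_ne v (S.inf L) with rfl | hv
    · rw [binf, Finsupp.single_eq_same, ord_inf S L hf0]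
      show -(-1 : ℤ) ≤ (f : LaurentSeries L).order
      omega
    · have := (mem_Lsp_of_ne_zero hf0).mp hf v
      rw [binf, Finsupp.single_eq_of_ne hv] at this ⊢
      exact this
  rw [(S.rr L).Lsp_eq_bot_of_degree_neg (by rw [degree_binf]; omega)] at this
  exact hf0 (by simpa using this)

/-- The semilinear action of a field automorphism. -/
abbrev gal (σ : L ≃ₐ[ℚ] L) : SemilinearAut L FF := arithmeticGalois S.F₀ σ

lemma oinf_gal (σ : L ≃ₐ[ℚ] L) (f : FF) : S.oinf L (S.gal L σ • f) = S.oinf L f := by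
  simp only [oinf]
  rw [coe_arithmeticGalois_smul]
  rcases eq_or_ne (f : LaurentSeries L) 0 with hf | hf
  · simp [hf]
  have hne : coeffMap (σ : L →+* L) (f : LaurentSeries L) ≠ 0 :=
    (map_ne_zero_iff _ (coeffMap (σ : L →+* L)).injective).mpr hf
  refine le_antisymm (order_le_of_coeff_ne_zero ?_) ?_
  · rw [coeffMap_coeff]; simpa using mt coeff_order_eq_zero.mp hf
  · rw [le_order_iff_forall hne]
    intro j hj
    rw [coeffMap_coeff, coeff_eq_zero_of_lt_order hj, map_zero]

lemma gal_smul_inf (σ : L ≃ₐ[ℚ] L) : S.gal L σ • S.inf L = S.inf L := by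
  refine Place.ext (SetLike.ext fun f => ?_)
  rw [SemilinearAut.smul_toValuationSubring, ValuationSubring.mem_pointwise_smul_iff_inv_smul_mem,
    ← map_inv]
  show (_ = 0 ∨ _) ↔ (_ = 0 ∨ _)
  constructor <;> rintro (h | h)
  · exact Or.inl ((smul_eq_zero_iff_eq _).mp h)
  · exact Or.inr (by rwa [oinf_gal] at h)
  · exact Or.inl (by rw [h, smul_zero])
  · exact Or.inr (by rwa [oinf_gal])

lemma coeffMap_mem_Sb (σ : L ≃ₐ[ℚ] L) {b : ℤ} {s : LaurentSeries L} (hs : s ∈ S.Sb L b) :
    coeffMap (σ : L →+* L) s ∈ S.Sb L b := by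
  obtain ⟨f, hf, rfl⟩ := S.exists_of_mem_Sb L hs
  rw [← coe_arithmeticGalois_smul, mem_Sb, mem_Lsp]
  intro v
  rcases eq_or_ne f 0 with rfl | hf0
  · exact Or.inl (smul_zero _)
  refine Or.inr ?_
  have h1 := (mem_Lsp_of_ne_zero hf0).mp hf ((S.gal L σ)⁻¹ • v)
  have h2 := SemilinearAut.ord_smul (S.gal L σ) ((S.gal L σ)⁻¹ • v) f
  rw [smul_inv_smul] at h2
  rw [h2]
  refine le_trans (le_of_eq ?_) h1
  rw [binf]
  rcases eq_or_ne v (S.inf L) with rfl | hv
  · rw [Finsupp.single_eq_same, inv_smul_eq_iff.mpr (S.gal_smul_inf L σ).symm,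
      Finsupp.single_eq_same]
  · rw [Finsupp.single_eq_of_ne hv, Finsupp.single_eq_of_ne (fun e => hv ?_)]
    rw [inv_smul_eq_iff, gal_smul_inf] at e
    exact e

/-- Rational series in `L(b·∞)`. -/
def S0 (b : ℤ) : Submodule ℚ (LaurentSeries ℚ) where
  carrier := {f | coeffEmb L f ∈ S.Sb L b}
  zero_mem' := by simp
  add_mem' hf hg := by simp only [Set.mem_ofPred_eq, map_add]; exact add_mem hf hg
  smul_mem' c f hf := by
    simp only [Set.mem_ofPred_eq] at hf ⊢
    have : coeffEmb L (c • f) = algebraMap ℚ L c • coeffEmb L f := by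
      ext k; rw [coeffEmb_coeff, HahnSeries.coeff_smul, HahnSeries.coeff_smul, coeffEmb_coeff, smul_eq_mul, smul_eq_mul, map_mul]
    rw [this]
    exact Submodule.smul_mem _ _ hf

lemma mem_S0 {b : ℤ} {f : LaurentSeries ℚ} : f ∈ S.S0 L b ↔ coeffEmb L f ∈ S.Sb L b := Iff.rfl

/-- Galois descent: `L(b·∞)` is spanned by rational series. -/
theorem Sb_eq_span (b : ℤ) : S.Sb L b = Submodule.span L (coeffEmb L '' (S.S0 L b : Set _)) := by
  classical
  have : CharZero L := charZero_of_injective_algebraMap (algebraMap ℚ L).injective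
  refine le_antisymm ?_ (Submodule.span_le.mpr (by rintro _ ⟨f, hf, rfl⟩; exact hf))
  let supp : LaurentSeries L → Finset ℤ := fun s =>
    (Finset.Icc (-b) 0).filter fun k => s.coeff k ≠ 0
  suffices H : ∀ n (s : LaurentSeries L), s ∈ S.Sb L b → (supp s).card ≤ n →
      s ∈ Submodule.span L (coeffEmb L '' (S.S0 L b : Set _)) from
    fun s hs => H _ s hs le_rfl
  have hz : ∀ s, s ∈ S.Sb L b → supp s = ∅ → s = 0 := fun s hs he =>
    S.eq_zero_of_window L hs fun k hk => by
      by_contra hne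
      have : k ∈ supp s := Finset.mem_filter.mpr ⟨hk, hne⟩
      simp [he] at this
  intro n
  induction n with
  | zero =>
      intro s hs hc
      rw [hz s hs (Finset.card_eq_zero.mp (Nat.le_zero.mp hc))]
      exact zero_mem _
  | succ n ih =>
      intro s hs hc
      rcases Nat.lt_or_ge (supp s).card (n + 1) with hlt | hge
      · exact ih s hs (by omega)
      have hs0 : s ≠ 0 := by rintro rfl; simp [supp] at hge
      have hex : ∃ m, ∃ g ∈ S.Sb L b, g ≠ 0 ∧ supp g ⊆ supp s ∧ (supp g).card = m :=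
        ⟨_, s, hs, hs0, subset_rfl, rfl⟩
      obtain ⟨g, hg, hg0, hsub, hcard⟩ := Nat.find_spec hex
      obtain ⟨i, hi⟩ := Finset.nonempty_iff_ne_empty.mpr fun e => hg0 (hz g hg e)
      have hgi : g.coeff i ≠ 0 := (Finset.mem_filter.mp hi).2
      set g' := (g.coeff i)⁻¹ • g with hg'
      have hg'mem : g' ∈ S.Sb L b := Submodule.smul_mem _ _ hg
      have hg'i : g'.coeff i = 1 := by simp [hg', inv_mul_cancel₀ hgi]
      have hg'0 : ∀ k, g.coeff k = 0 → g'.coeff k = 0 := fun k hk => by simp [hg', hk]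
      have hfix : ∀ σ : L ≃ₐ[ℚ] L, coeffMap (σ : L →+* L) g' = g' := by
        intro σ
        by_contra hne
        have hd : coeffMap (σ : L →+* L) g' - g' ∈ S.Sb L b :=
          sub_mem (S.coeffMap_mem_Sb L σ hg'mem) hg'mem
        have hss : supp (coeffMap (σ : L →+* L) g' - g') ⊆ (supp g).erase i := by
          intro k hk
          obtain ⟨hk1, hk2⟩ := Finset.mem_filter.mp hk
          refine Finset.mem_erase.mpr ⟨fun e => hk2 (by subst e; simp [hg'i]),
            Finset.mem_filter.mpr ⟨hk1, fun e => hk2 (by simp [hg'0 k e])⟩⟩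
        have h1 := Nat.find_min' hex
          ⟨_, hd, sub_ne_zero.mpr hne, hss.trans ((Finset.erase_subset _ _).trans hsub), rfl⟩
        have h2 := Finset.card_le_card hss
        have h3 := Finset.card_erase_lt_of_mem hi
        omega
      have hrat : ∀ k, ∃ c : ℚ, algebraMap ℚ L c = g'.coeff k := fun k =>
        mem_range_of_forall_algEquiv_fixed fun σ => by
          have := congrArg (fun t : LaurentSeries L => t.coeff k) (hfix σ)
          simpa using this
      let f0 : LaurentSeries ℚ :=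
        ⟨fun k => (hrat k).choose, g'.isPWO_support.mono fun k hk => by
          simp only [Function.mem_support] at hk ⊢
          intro e
          exact hk ((algebraMap ℚ L).injective (by rw [(hrat k).choose_spec, e, map_zero]))⟩
      have hf0 : coeffEmb L f0 = g' := by
        ext k; rw [coeffEmb_coeff]; exact (hrat k).choose_spec
      have hmemspan : g' ∈ Submodule.span L (coeffEmb L '' (S.S0 L b : Set _)) :=
        Submodule.subset_span ⟨f0, by rw [SetLike.mem_coe, mem_S0, hf0]; exact hg'mem, hf0⟩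
      have hrest : s - s.coeff i • g' ∈ Submodule.span L (coeffEmb L '' (S.S0 L b : Set _)) := by
        refine ih _ (sub_mem hs (Submodule.smul_mem _ _ hg'mem)) ?_
        have hss : supp (s - s.coeff i • g') ⊆ (supp s).erase i := by
          intro k hk
          obtain ⟨hk1, hk2⟩ := Finset.mem_filter.mp hk
          refine Finset.mem_erase.mpr ⟨fun e => hk2 (by subst e; simp [hg'i]),
            Finset.mem_filter.mpr ⟨hk1, fun e => hk2 ?_⟩⟩
          have : g.coeff k = 0 := by
            by_contra hne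
            exact (Finset.mem_filter.mp (hsub (Finset.mem_filter.mpr ⟨hk1, hne⟩))).2 e
          simp [e, hg'0 k this]
        have h2 := Finset.card_le_card hss
        have h3 := Finset.card_erase_lt_of_mem (hsub hi)
        omega
      have := Submodule.add_mem _ hrest (Submodule.smul_mem _ (s.coeff i) hmemspan)
      simpa using this

/-- Coefficientwise application of a `ℚ`-linear functional. -/
def retr (π : L →ₗ[ℚ] ℚ) : LaurentSeries L →+ LaurentSeries ℚ where
  toFun s := s.map π
  map_zero' := by ext; simp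
  map_add' s t := by ext; simp

@[simp] lemma retr_coeff (π : L →ₗ[ℚ] ℚ) (s : LaurentSeries L) (k : ℤ) :
    (retr L π s).coeff k = π (s.coeff k) := rfl

lemma retr_smul_coeffEmb (π : L →ₗ[ℚ] ℚ) (c : L) (a : LaurentSeries ℚ) :
    retr L π (c • coeffEmb L a) = π c • a := by
  ext k
  rw [retr_coeff, HahnSeries.coeff_smul, coeffEmb_coeff, HahnSeries.coeff_smul, smul_eq_mul,
    smul_eq_mul, mul_comm, ← Algebra.smul_def, map_smul, smul_eq_mul, mul_comm]

lemma retr_mem_of_mem_span (π : L →ₗ[ℚ] ℚ) {T : Submodule ℚ (LaurentSeries ℚ)}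
    {s : LaurentSeries L} (hs : s ∈ Submodule.span L (coeffEmb L '' (T : Set _))) :
    retr L π s ∈ T := by
  suffices h : ∀ c : L, retr L π (c • s) ∈ T by simpa using h 1
  induction hs using Submodule.span_induction with
  | mem y hy =>
      obtain ⟨a, ha, rfl⟩ := hy
      intro c
      rw [retr_smul_coeffEmb]
      exact T.smul_mem _ ha
  | zero => simp
  | add y z _ _ hy hz => intro c; rw [smul_add, map_add]; exact add_mem (hy c) (hz c)
  | smul d y _ hy => intro c; rw [smul_smul]; exact hy _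

lemma exists_functional {c : L} (hc : c ≠ 0) : ∃ π : L →ₗ[ℚ] ℚ, π c = 1 := by
  obtain ⟨φ, hφ⟩ := Module.Projective.exists_dual_ne_zero ℚ hc
  exact ⟨(φ c)⁻¹ • φ, by simp [inv_mul_cancel₀ hφ]⟩

end Setup

end Fermat.Agent.MWJ0

end
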