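import Fermat.Agent.MWJ0.HeightBasic
import Fermat.Agent.MWJ0.Factor

/-!
# Heights and principal translates

If `div f = X - p·∞` then the height of `D + X` in level `p + b` is the height of `D` in level
`b` plus a multiple of the height of `f`.
-/

set_option autoImplicit false

noncomputable section

open AlgebraicCurve ModularCurve Module Function

namespace Fermat.Agent.MWJ0

local notation "Qb" => AlgebraicClosure ℚ

lemma ev_unit {K : Type*} [Field K] {ι : Type*} [Fintype ι] [DecidableEq ι] {m : ℕ}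
    (e : (Fin m → ι) → K) (I : Fin m → ι) :
    ev e (fun t l => if l = I t then (1 : K) else 0) = e I := by
  rw [← ev_single e I]
  congr 1
  funext t l
  simp [Pi.single_apply]

namespace Setup

variable (S : Setup)

local notation "FQ" => laurentBaseChange Qb S.F₀

lemma pairEq_smul_eq_zero {R : Type*} [CommRing R] [Algebra ℚ R] {m a c : ℕ}
    {e : (Fin m → S.Idx a) → R} {e' : (Fin m → S.Idx (a + c)) → R}
    (h : ∀ i, S.pairEq a c e e' i = 0) (u u' : R) (i : S.PairIdx m a c) :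
    S.pairEq a c (fun I => u * e I) (fun I => u' * e' I) i = 0 := by
  have hi := h i
  rcases i with ⟨I, t, t'⟩ | ⟨I, t, t'⟩ | ⟨I, j, J, t⟩ | ⟨I, j, J, t⟩ | ⟨I, j, l, J, t⟩ <;>
    simp only [pairEq] at hi ⊢
  · split_ifs at hi ⊢ with ht
    · rfl
    · rw [← mul_add, hi, mul_zero]
  · split_ifs at hi ⊢ with ht
    · rfl
    · rw [← mul_add, hi, mul_zero]
  · rw [cram_smul_left, slot_smul, slot_smul_left, hi, mul_zero, mul_zero]
  · rw [cram_smul_left, slot_smul, slot_smul_left, hi, mul_zero, mul_zero]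
  · have e2 : S.mulv a c (a + c) (cram (fun I => u * e I) I j) (S.unitv l)
        = fun k => u * S.mulv a c (a + c) (cram e I j) (S.unitv l) k := by
      funext k
      simp only [mulv, cram_smul_left, Finset.mul_sum]
      refine Finset.sum_congr rfl fun i _ => Finset.sum_congr rfl fun i' _ => ?_
      simp only [Algebra.smul_def]
      ring
    rw [e2, slot_smul, slot_smul_left, hi, mul_zero, mul_zero]

lemma span_cram_all {L : Type} [Field L] [Algebra ℚ L] [IsAlgClosed L] [CharZero L] {m b : ℕ}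
    {e : (Fin m → S.Idx b) → L} {D : Divisor L (laurentBaseChange L S.F₀)} (he : S.IsTen b e D) :
    Submodule.span L (Set.range fun k : (Fin m → S.Idx b) × S.Idx b => cram e k.1 k.2)
      = S.W L b D := by
  refine le_antisymm (Submodule.span_le.mpr ?_) ?_
  · rintro _ ⟨k, rfl⟩
    exact he.cram_mem k.1 k.2
  · obtain ⟨I, hI⟩ := he.exists_ne_zero
    rw [← he.span_cram hI]
    exact Submodule.span_mono (by rintro _ ⟨j, rfl⟩; exact ⟨(I, j), rfl⟩)

section Vec

variable {d p k b r : ℕ} (c : Fin (d + p + k) ≃ S.Idx r)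

/-- Indices of `shiftVec`. -/
abbrev ShiftIdx (d p k b r : ℕ) : Type :=
  (Fin (d + p) → S.Idx r) × (Fin k → (Fin d → S.Idx b) × S.Idx b)

/-- The determinants of the unit vectors and of the products of `x` with Cramer vectors. -/
def shiftVec {R : Type*} [CommRing R] [Algebra ℚ R] (x : S.Idx p → R)
    (e : (Fin d → S.Idx b) → R) (a : S.ShiftIdx d p k b r) : R :=
  Matrix.det (Matrix.of fun i j => Fin.append (fun t => (S.unitv (a.1 t) : S.Idx r → R))
    (fun s => S.mulv p b r x (cram e (a.2 s).1 (a.2 s).2)) i (c j))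

lemma map_shiftVec {R R' : Type*} [CommRing R] [Algebra ℚ R] [CommRing R'] [Algebra ℚ R']
    (φ : R →ₐ[ℚ] R') (x : S.Idx p → R) (e : (Fin d → S.Idx b) → R) (a : S.ShiftIdx d p k b r) :
    φ (S.shiftVec c x e a) = S.shiftVec c (fun i => φ (x i)) (fun I => φ (e I)) a := by
  rw [shiftVec, shiftVec, AlgHom.map_det]
  congr 1
  ext i j
  simp only [AlgHom.mapMatrix_apply, Matrix.map_apply, Matrix.of_apply]
  induction i using Fin.addCases with
  | left t => simp [unitv, apply_ite φ]
  | right s =>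
      simp only [Fin.append_right, map_mulv]
      congr 1
      funext l
      exact map_cram (φ : R →+* R') e _ _ l

lemma shiftVec_smul {R : Type*} [CommRing R] [Algebra ℚ R] (u u' : R) (x : S.Idx p → R)
    (e : (Fin d → S.Idx b) → R) (a : S.ShiftIdx d p k b r) :
    S.shiftVec c (fun i => u * x i) (fun I => u' * e I) a = (u * u') ^ k * S.shiftVec c x e a := by
  have h : (u * u') ^ k = ∏ i : Fin (d + p + k),
      Fin.append (fun _ : Fin (d + p) => (1 : R)) (fun _ : Fin k => u * u') i := by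
    rw [Fin.prod_univ_add]; simp
  rw [shiftVec, shiftVec, h, ← Matrix.det_mul_column]
  congr 1
  ext i j
  simp only [Matrix.of_apply]
  induction i using Fin.addCases with
  | left t => simp
  | right s =>
      simp only [Fin.append_right, cram_smul_left, mulv, Finset.mul_sum]
      refine Finset.sum_congr rfl fun l _ => Finset.sum_congr rfl fun l' _ => ?_
      simp only [Algebra.smul_def]
      ring

/-- Multiplication by `x` in coordinates, as a linear map. -/
def mulL (x : S.Idx p → Qb) : (S.Idx b → Qb) →ₗ[Qb] (S.Idx r → Qb) where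
  toFun y := S.mulv p b r x y
  map_add' y y' := by
    funext l
    simp [mulv, mul_add, Finset.sum_add_distrib]
  map_smul' u y := by
    funext l
    simp only [mulv, Pi.smul_apply, smul_eq_mul, RingHom.id_apply, Finset.mul_sum]
    refine Finset.sum_congr rfl fun i _ => Finset.sum_congr rfl fun j _ => ?_
    simp only [Algebra.smul_def]
    ring

lemma mulL_injective (hr : p + b ≤ r) {x : S.Idx p → Qb} (hx : x ≠ 0) :
    Injective (S.mulL (b := b) (r := r) x) := by
  refine (injective_iff_map_eq_zero _).mpr fun y hy => ?_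
  have h := S.realF_mulv Qb hr x y
  rw [show S.mulv p b r x y = 0 from hy, map_zero] at h
  refine S.realF_injective Qb b ?_
  rw [map_zero]
  exact (mul_eq_zero.mp h.symm).resolve_left fun h0 =>
    hx (S.realF_injective Qb p (h0.trans (map_zero _).symm))

/-- `shiftVec` is a product of two determinant forms. -/
theorem exists_shift_forms (hr : p + b ≤ r) (hb : 2 * S.g + d ≤ b)
    (hk : Fintype.card (S.Idx b) = d + k)
    {D : Divisor Qb FQ} (hD : 0 ≤ D) (hn : Divisor.degree D = d)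
    {e : (Fin d → S.Idx b) → Qb} (he : S.IsTen b e D) {x : S.Idx p → Qb} (hx : x ≠ 0) :
    ∃ (Λ₁ : (S.Idx r → Qb) →ₗ[Qb] (Fin (d + p) → Qb))
      (Λb : S.W Qb b D →ₗ[Qb] (Fin k → Qb)) (κ : Qb),
      Surjective Λ₁ ∧ LinearMap.ker Λ₁ = (S.W Qb b D).map (S.mulL x) ∧ κ ≠ 0 ∧ Surjective Λb ∧
      Injective Λb ∧ ∀ a : S.ShiftIdx d p k b r, S.shiftVec c x e a =
        κ * dform Λ₁ (fun t => S.unitv (a.1 t))
          * dform Λb (fun s => ⟨cram e (a.2 s).1 (a.2 s).2, he.cram_mem _ _⟩) := by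
  classical
  have hM := S.mulL_injective (b := b) (r := r) hr hx
  have hfin : finrank Qb ((S.W Qb b D).map (S.mulL (r := r) x)) + (d + p)
      = Fintype.card (S.Idx r) := by
    rw [← (Submodule.equivMapOfInjective _ hM _).finrank_eq, ← Fintype.card_congr c,
      Fintype.card_fin]
    have := S.finrank_W_add hD hn hb
    omega
  obtain ⟨Λ₁, hs₁, hk₁⟩ := exists_surjective_ker_eq hfin
  let Λ : (S.Idx r → Qb) ≃ₗ[Qb] (Fin (d + p + k) → Qb) := LinearEquiv.funCongrLeft Qb Qb c
  obtain ⟨Λ₂, hs₂, hk₂, κ, hκ, hdet⟩ := exists_factor (Λ := Λ.toLinearMap) Λ.surjective hs₁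
    (by rw [LinearEquiv.ker]; exact bot_le)
  let M₀ : S.W Qb b D →ₗ[Qb] LinearMap.ker Λ₁ :=
    ((S.mulL x) ∘ₗ (S.W Qb b D).subtype).codRestrict _ fun z => by
      rw [hk₁]; exact ⟨z.1, z.2, rfl⟩
  refine ⟨Λ₁, Λ₂ ∘ₗ M₀, κ, hs₁, hk₁, hκ, ?_, ?_, fun a => ?_⟩
  · intro y
    obtain ⟨⟨w, hw⟩, rfl⟩ := hs₂ y
    obtain ⟨z, hz, rfl⟩ : w ∈ (S.W Qb b D).map (S.mulL x) := hk₁ ▸ hw
    exact ⟨⟨z, hz⟩, rfl⟩
  · refine (injective_iff_map_eq_zero _).mpr fun z hz => ?_
    have h1 := (hk₂ (M₀ z)).mp hz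
    rw [LinearEquiv.coe_coe, map_eq_zero_iff Λ Λ.injective] at h1
    exact Subtype.ext (hM (h1.trans (map_zero _).symm))
  · have h := hdet (fun t => S.unitv (a.1 t))
      (fun s => M₀ ⟨cram e (a.2 s).1 (a.2 s).2, he.cram_mem _ _⟩)
    have e (z : Fin k → S.W Qb b D) :
        dform (Λ₂ ∘ₗ M₀) z = dform Λ₂ fun s => M₀ (z s) := congrArg Matrix.det rfl
    rw [e, ← h, shiftVec, dform]
    refine congrArg Matrix.det (Matrix.ext fun i j => ?_)
    induction i using Fin.addCases <;> simp [Λ, M₀, mulL]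

lemma span_unitv (b : ℕ) :
    Submodule.span Qb (Set.range fun j : S.Idx b => (S.unitv j : S.Idx b → Qb)) = ⊤ := by
  have h : (fun j : S.Idx b => (S.unitv j : S.Idx b → Qb)) = Pi.basisFun Qb (S.Idx b) := by
    funext j l
    simp [unitv, Pi.single_apply]
  rw [h]
  exact (Pi.basisFun Qb (S.Idx b)).span_eq

/-- `shiftVec` does not vanish identically. -/
theorem exists_shiftVec_ne_zero (hr : p + b ≤ r) (hb : 2 * S.g + d ≤ b)
    (hk : Fintype.card (S.Idx b) = d + k)
    {D : Divisor Qb FQ} (hD : 0 ≤ D) (hn : Divisor.degree D = d)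
    {e : (Fin d → S.Idx b) → Qb} (he : S.IsTen b e D) {x : S.Idx p → Qb} (hx : x ≠ 0) :
    ∃ a : S.ShiftIdx d p k b r, S.shiftVec c x e a ≠ 0 := by
  obtain ⟨Λ₁, Λb, κ, hs₁, -, hκ, hsb, -, hev⟩ :=
    S.exists_shift_forms c hr hb hk hD hn he hx
  obtain ⟨v, hv⟩ := exists_dform_ne_zero_of_span (fun j => S.unitv j) hs₁ (S.span_unitv r)
  obtain ⟨ls, hls⟩ := exists_dform_ne_zero_of_span (fun l : (Fin d → S.Idx b) × S.Idx b =>
      (⟨cram e l.1 l.2, he.cram_mem l.1 l.2⟩ : S.W Qb b D)) hsb (by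
    refine Submodule.map_injective_of_injective (S.W Qb b D).injective_subtype ?_
    rw [Submodule.map_span, ← Set.range_comp, Submodule.map_top, Submodule.range_subtype]
    exact S.span_cram_all he)
  exact ⟨(v, ls), by rw [hev]; exact mul_ne_zero (mul_ne_zero hκ hv) hls⟩

end Vec

/-- The blocks: a function and a pair of tensors. -/
abbrev ShiftBlk (d p b : ℕ) : Option Bool → Type
  | none => S.Idx p
  | some false => Fin d → S.Idx b
  | some true => Fin d → S.Idx (b + (b + 2 * S.g))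

instance shiftFintype (d p b : ℕ) : ∀ j, Fintype (S.ShiftBlk d p b j)
  | none => (inferInstance : Fintype (S.Idx p))
  | some false => (inferInstance : Fintype (Fin d → S.Idx b))
  | some true => (inferInstance : Fintype (Fin d → S.Idx (b + (b + 2 * S.g))))

/-- The height of `shiftVec`. -/
theorem exists_shiftVec_estimate {d p k b r : ℕ} (c : Fin (d + p + k) ≃ S.Idx r) (hr : p + b ≤ r)
    (hb : 2 * S.g + d < b) (hk : Fintype.card (S.Idx b) = d + k) :
    ∃ C : ℝ, ∀ (D : Divisor Qb FQ) (q : (Fin d → S.Idx b) → ℚ) (x : S.Idx p → ℚ), 0 ≤ D →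
      Divisor.degree D = d → S.Fixed D → S.IsTen b (ratC q) D → x ≠ 0 →
      |Height.logHeight (S.shiftVec c x q) -
        (k * Height.logHeight x + k * Height.logHeight q)| ≤ C := by
  classical
  let ι := S.ShiftBlk d p b
  let P : S.PairIdx d b (b + 2 * S.g) → MvPolynomial (Σ j, ι j) ℚ := fun i =>
    S.pairEq b (b + 2 * S.g) (fun I => MvPolynomial.X ⟨some false, I⟩)
      (fun I => MvPolynomial.X ⟨some true, I⟩) i
  let F : S.ShiftIdx d p k b r → MvPolynomial (Σ j, ι j) ℚ := fun a =>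
    S.shiftVec c (fun i => MvPolynomial.X ⟨none, i⟩) (fun I => MvPolynomial.X ⟨some false, I⟩) a
  have hP : ∀ {A : Type} [CommRing A] [Algebra ℚ A] (z : (Σ j, ι j) → A) i,
      MvPolynomial.aeval z (P i) = S.pairEq b (b + 2 * S.g) (fun I => z ⟨some false, I⟩)
        (fun I => z ⟨some true, I⟩) i := by
    intro A _ _ z i
    simp only [P, map_pairEq, MvPolynomial.aeval_X]
  have hF : ∀ {A : Type} [CommRing A] [Algebra ℚ A] (z : (Σ j, ι j) → A) a,
      MvPolynomial.aeval z (F a) = S.shiftVec c (fun i => z ⟨none, i⟩)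
        (fun I => z ⟨some false, I⟩) a := by
    intro A _ _ z a
    simp only [F, map_shiftVec, MvPolynomial.aeval_X]
  obtain ⟨C, hC⟩ := height_estimate P F (fun j => if j = some true then 0 else k)
    (fun x hx s i => by
      rw [hP]
      exact S.pairEq_smul_eq_zero (e := fun I => x ⟨some false, I⟩)
        (e' := fun I => x ⟨some true, I⟩) (fun i => by rw [← hP]; exact hx i)
        (s (some false)) (s (some true)) i)
    (fun x s a => by
      rw [hF, hF]
      refine (S.shiftVec_smul c (s none) (s (some false)) (fun i => x ⟨none, i⟩)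
        (fun I => x ⟨some false, I⟩) a).trans ?_
      congr 1
      simp [Fintype.prod_option, mul_pow])
    (fun x hz hx => by
      have hpair : S.IsPair b (b + 2 * S.g) (fun I => x ⟨some false, I⟩)
          (fun I => x ⟨some true, I⟩) := by
        refine ⟨fun i => by rw [← hP]; exact hz i, fun h => ?_, fun h => ?_⟩
        · obtain ⟨i, hi⟩ := hx (some false); exact hi (congrFun h i)
        · obtain ⟨i, hi⟩ := hx (some true); exact hi (congrFun h i)
      obtain ⟨D, hD, hn, he, -⟩ := hpair.exists_div S hb le_rfl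
      have hx0 : (fun i => x ⟨none, i⟩) ≠ 0 := fun h => by
        obtain ⟨i, hi⟩ := hx none; exact hi (congrFun h i)
      obtain ⟨a, ha⟩ := S.exists_shiftVec_ne_zero c hr hb.le hk hD hn he hx0
      exact ⟨a, by rw [hF]; exact ha⟩)
  refine ⟨C, fun D q x hD hn hfix hq hx => ?_⟩
  obtain ⟨q', hq'⟩ := S.exists_rat_ten (b := b + (b + 2 * S.g)) hD hn (by omega) hfix
  let z : (j : Option Bool) → ι j → ℚ := fun j => match j with
    | none => x
    | some false => q
    | some true => q'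
  have h := hC z (fun i => by
      rw [hP]
      refine (algebraMap ℚ Qb).injective ?_
      rw [map_zero]
      exact (S.map_pairEq (Algebra.ofId ℚ Qb) b (b + 2 * S.g) q q' i).trans
        ((hq.isPair S hq').eqs i))
    (fun j => by
      rcases j with _ | _ | _
      exacts [hx, ratC_ne_zero.mp hq.ne_zero, ratC_ne_zero.mp hq'.ne_zero])
  simpa [hF, z, Fintype.sum_option, Fintype.sum_bool] using h

/-- **Translation by a principal divisor.** -/
theorem exists_shift {d p b r : ℕ} (hr : p + b = r) (hb : 2 * S.g + d < b) :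
    ∃ C : ℝ, ∀ D X : Divisor Qb FQ, 0 ≤ D → Divisor.degree D = d → S.Fixed D → 0 ≤ X →
      Divisor.degree X = p → S.Fixed X →
      X - S.binf Qb (p : ℤ) ∈ Divisor.principal (K := Qb) (F := FQ) →
      |S.ht (d + p) r (D + X) - S.ht d b D - ((b : ℝ) + 1 - S.g - d) * S.hfun p X| ≤ C := by
  classical
  have ecb := S.card_Idx (b := b) (by omega)
  have ecr := S.card_Idx (b := r) (by omega)
  obtain ⟨k, hk⟩ : ∃ k, Fintype.card (S.Idx b) = d + k :=
    ⟨Fintype.card (S.Idx b) - d, by omega⟩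
  let c : Fin (d + p + k) ≃ S.Idx r := (Fintype.equivFinOfCardEq (by omega)).symm
  let c₀ : Fin (d + 0 + k) ≃ S.Idx b := (Fintype.equivFinOfCardEq (by omega)).symm
  obtain ⟨one, hone⟩ := S.exists_rat_fun (p := 0) (X := 0) le_rfl
    (by simp [binf]) S.fixed_zero
  have hone0 : one ≠ 0 := ratC_ne_zero.mp hone.1
  obtain ⟨C, hC⟩ := S.exists_shiftVec_estimate c (by omega) hb hk
  obtain ⟨C₀, hC₀⟩ := S.exists_shiftVec_estimate c₀ (by omega) hb hk
  refine ⟨C + C₀ + |(k : ℝ) * Height.logHeight one|, fun D X hD hn hfix hX hXn hXfix hXp => ?_⟩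
  obtain ⟨q, hq⟩ := S.exists_rat_ten (b := b) hD hn (by omega) hfix
  obtain ⟨x, hx⟩ := S.exists_rat_fun hX hXp hXfix
  have hx0 : x ≠ 0 := ratC_ne_zero.mp hx.1
  obtain ⟨q', hq'⟩ := S.exists_rat_ten (d := d + p) (b := r) (add_nonneg hD hX)
    (by rw [map_add, hn, hXn]; push_cast; ring) (by omega) (hfix.add S hXfix)
  rw [S.ht_eq hq, S.ht_eq hq', S.hfun_eq hx]
  obtain ⟨Λ₁, Λb, κ, hs₁, hk₁, hκ, hsb, hib, hev⟩ :=
    S.exists_shift_forms c hr.le hb.le hk hD hn hq hx.1
  obtain ⟨Λ₁', Λb', κ', hs₁', hk₁', hκ', hsb', hib', hev'⟩ :=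
    S.exists_shift_forms c₀ (by omega) hb.le hk hD hn hq hone.1
  -- the kernels
  have hker : LinearMap.ker Λ₁ = S.W Qb r (D + X) := by
    rw [hk₁]
    refine Submodule.eq_of_le_of_finrank_eq ?_ ?_
    · rintro _ ⟨z, hz, rfl⟩
      have hxW : ratC x ∈ S.W Qb p X := by
        rw [mem_W, mem_Lsp_of_ne_zero (hx.realF_ne_zero S)]
        intro v
        rw [hx.2 v, Finsupp.sub_apply]
        omega
      rw [add_comm D X]
      exact S.mulv_mem_W hr hxW hz
    · rw [← (Submodule.equivMapOfInjective _ (S.mulL_injective hr.le hx.1) _).finrank_eq]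
      have h1 := S.finrank_W_add (n := d + p) (b := r) (add_nonneg hD hX)
        (by rw [map_add, hn, hXn]; push_cast; ring) (by omega)
      have h2 := S.finrank_W_add (b := b) hD hn (by omega)
      omega
  have hker' : LinearMap.ker Λ₁' = S.W Qb b D := by
    rw [hk₁']
    refine Submodule.eq_of_le_of_finrank_eq ?_
      (Submodule.equivMapOfInjective _ (S.mulL_injective (by omega) hone.1) _).finrank_eq.symm
    rintro _ ⟨z, hz, rfl⟩
    have h1W : ratC one ∈ S.W Qb 0 0 := S.mem_W_zero _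
    have := S.mulv_mem_W (zero_add b) h1W hz
    rwa [zero_add] at this
  obtain ⟨u, hu, hev1⟩ := IsPl.ev_eq hq' hs₁ hker
  obtain ⟨u', hu', hev1'⟩ := IsPl.ev_eq hq hs₁' hker'
  obtain ⟨a, ha, hab⟩ := exists_dform_eq_mul (f := Λb) hsb' (fun z hz => by
    rw [LinearMap.mem_ker] at hz ⊢
    rw [hib' (hz.trans (map_zero _).symm), map_zero])
  have ha0 : a ≠ 0 := ha.mpr hsb
  -- the identity
  set K : Qb := κ / u * (a / κ') * u' with hK
  have hK0 : K ≠ 0 := mul_ne_zero (mul_ne_zero (div_ne_zero hκ hu) (div_ne_zero ha0 hκ')) hu'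
  have hid : ∀ (v : Fin (d + p) → S.Idx r) (ls : Fin k → (Fin d → S.Idx b) × S.Idx b)
      (v₀ : Fin (d + 0) → S.Idx b),
      algebraMap ℚ Qb (S.shiftVec c x q (v, ls) * q v₀) =
        K * algebraMap ℚ Qb (q' v * S.shiftVec c₀ one q (v₀, ls)) := by
    intro v ls v₀
    rw [map_mul, map_mul]
    have e1 := (S.map_shiftVec c (Algebra.ofId ℚ Qb) x q (v, ls)).trans (hev (v, ls))
    have e2 := (S.map_shiftVec c₀ (Algebra.ofId ℚ Qb) one q (v₀, ls)).trans (hev' (v₀, ls))
    have e3 : ratC q' v = u * dform Λ₁ (fun t => S.unitv (v t)) := by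
      rw [← hev1, ← ev_unit (ratC q') v]
      rfl
    have e4 : ratC q v₀ = u' * dform Λ₁' (fun t => S.unitv (v₀ t)) := by
      rw [← hev1']
      exact (ev_unit (ratC q) v₀).symm
    rw [Algebra.ofId_apply] at e1 e2
    rw [e1, e2, show algebraMap ℚ Qb (q v₀) = ratC q v₀ from rfl,
      show algebraMap ℚ Qb (q' v) = ratC q' v from rfl, e3, e4, hab, hK]
    field_simp
  have hF0 : S.shiftVec c₀ one q ≠ 0 := by
    intro h0
    obtain ⟨a, ha⟩ := S.exists_shiftVec_ne_zero c₀ (by omega) hb.le hk hD hn hq hone.1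
    refine ha ?_
    have e2 := S.map_shiftVec c₀ (Algebra.ofId ℚ Qb) one q a
    rw [h0, Pi.zero_apply, map_zero] at e2
    exact e2.symm
  have hFx : S.shiftVec c x q ≠ 0 := by
    intro h0
    obtain ⟨a, ha⟩ := S.exists_shiftVec_ne_zero c hr.le hb.le hk hD hn hq hx.1
    refine ha ?_
    have e2 := S.map_shiftVec c (Algebra.ofId ℚ Qb) x q a
    rw [h0, Pi.zero_apply, map_zero] at e2
    exact e2.symm
  obtain ⟨Kr, hKr0, hidq⟩ : ∃ Kr : ℚ, Kr ≠ 0 ∧ (fun z : S.ShiftIdx d p k b r ×
      (Fin d → S.Idx b) => S.shiftVec c x q z.1 * q z.2) = Kr • fun z : S.ShiftIdx d p k b r ×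
      (Fin d → S.Idx b) => q' z.1.1 * S.shiftVec c₀ one q (z.2, z.1.2) := by
    refine eq_rat_smul ?_ (fun z => hid z.1.1 z.1.2 z.2) hK0
    obtain ⟨I, hI⟩ := Function.ne_iff.mp (ratC_ne_zero.mp hq'.ne_zero)
    obtain ⟨⟨J, ls⟩, hJ⟩ := Function.ne_iff.mp hF0
    exact Function.ne_iff.mpr ⟨((I, ls), J), mul_ne_zero hI hJ⟩
  have hh := congrArg Height.logHeight hidq
  rw [Height.logHeight_smul_eq_logHeight _ hKr0] at hh
  have hq0 := ratC_ne_zero.mp hq.ne_zero
  have hq'0 := ratC_ne_zero.mp hq'.ne_zero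
  have hperm : Height.logHeight (fun z : S.ShiftIdx d p k b r × (Fin d → S.Idx b) =>
      q' z.1.1 * S.shiftVec c₀ one q (z.2, z.1.2))
      = Height.logHeight (fun z : (Fin (d + p) → S.Idx r) × S.ShiftIdx d 0 k b b =>
        q' z.1 * S.shiftVec c₀ one q z.2) := by
    exact Height.logHeight_comp_equiv
      (⟨fun z => (z.1.1, (z.2, z.1.2)), fun z => ((z.1, z.2.2), z.2.1), fun _ => rfl,
        fun _ => rfl⟩ : S.ShiftIdx d p k b r × (Fin d → S.Idx b) ≃
          (Fin (d + p) → S.Idx r) × S.ShiftIdx d 0 k b b)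
      (fun z => q' z.1 * S.shiftVec c₀ one q z.2)
  have e5 := hC D q x hD hn hfix hq hx0
  have e6 := hC₀ D q one hD hn hfix hq hone0
  rw [Height.logHeight_fun_mul_eq hFx hq0, hperm, Height.logHeight_fun_mul_eq hq'0 hF0] at hh
  have hkk : (k : ℝ) = (b : ℝ) + 1 - S.g - d := by
    have : (k : ℤ) = (b : ℤ) + 1 - S.g - d := by omega
    exact_mod_cast this
  rw [← hkk]
  rw [abs_le] at e5 e6 ⊢
  have := neg_abs_le ((k : ℝ) * Height.logHeight one)
  have := le_abs_self ((k : ℝ) * Height.logHeight one)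
  constructor <;> nlinarith [hh]

end Setup

end Fermat.Agent.MWJ0

end
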