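import Fermat.Agent.MWJ0.Separation
import Fermat.Agent.MWJ0.Divisible
import Fermat.Agent.Deform.Hermite

/-!
# The weak Mordell–Weil theorem

The halves of a rational class form a finite Galois set, unramified outside finitely many primes,
so by Hermite–Minkowski only finitely many such sets occur.
-/

set_option autoImplicit false

noncomputable section

open AlgebraicCurve ModularCurve Module Function

namespace Fermat.Agent.MWJ0

namespace Setup

variable (S : Setup)

local notation "Qb" => AlgebraicClosure ℚ

local notation "FQ" => laurentBaseChange Qb S.F₀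

local notation "Γ" => (AlgebraicClosure ℚ ≃ₐ[ℚ] AlgebraicClosure ℚ)

local instance isGaloisQbar_mw : IsGalois ℚ (AlgebraicClosure ℚ) :=
  have : Algebra.IsAlgebraic ℚ (AlgebraicClosure ℚ) := AlgebraicClosure.isAlgebraic ℚ
  have : IsAlgClosure ℚ (AlgebraicClosure ℚ) := ⟨inferInstance, inferInstance⟩
  have : Normal ℚ (AlgebraicClosure ℚ) := IsAlgClosure.normal ℚ (AlgebraicClosure ℚ)
  IsGalois.mk

/-- The rational classes. -/
abbrev ratPts : AddSubgroup (Pic0 Qb FQ) := FixedPoints.addSubgroup Γ (Pic0 Qb FQ)

/-- Every class is fixed by the automorphisms fixing some number field. -/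
lemma exists_field_fixing (y : Pic0 Qb FQ) : ∃ F : IntermediateField ℚ Qb,
    FiniteDimensional ℚ F ∧ ∀ σ ∈ F.fixingSubgroup, σ • y = y := by
  obtain ⟨D, hD, hDn, rfl⟩ := S.exists_rep' y
  obtain ⟨e, -, te, -⟩ := S.exists_tens hD hDn
  refine ⟨IntermediateField.adjoin ℚ (Set.range e), ?_, fun σ hσ => ?_⟩
  · have : Finite (Set.range e) := (Set.finite_range e).to_subtype
    refine IntermediateField.finiteDimensional_adjoin fun a _ => ?_
    have : Algebra.IsAlgebraic ℚ Qb := AlgebraicClosure.isAlgebraic ℚ
    exact Algebra.IsIntegral.isIntegral a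
  · have he : (fun I => σ (e I)) = e := funext fun I =>
      (IntermediateField.mem_fixingSubgroup_iff _ σ).mp hσ _
        (IntermediateField.subset_adjoin ℚ _ ⟨I, rfl⟩)
    have hb : 2 * S.g + S.n < S.la := by simp only [Setup.n, Setup.la] at *; omega
    have tσ := te.gal S σ hD hDn hb.le
    rw [he] at tσ
    show S.gal Qb σ • S.cls D = S.cls D
    rw [S.smul_cls, IsTen.eq S tσ te (S.smul_nonneg_div σ hD) hD
      (by rw [SemilinearAut.degree_smul]; exact hDn) hDn hb]

/-- The two-torsion classes. -/
abbrev Tor2 : Type := {t : Pic0 Qb FQ // t + t = 0}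

/-- A half of a rational class. -/
def half (x : S.ratPts) : Pic0 Qb FQ := (S.exists_half x.1).choose

lemma half_add_half (x : S.ratPts) : S.half x + S.half x = x.1 :=
  (S.exists_half x.1).choose_spec.symm

/-- The permutation of the halves of a rational class. -/
def fibreHom (x : S.ratPts) : Γ →* Function.End S.Tor2 where
  toFun σ t := ⟨σ • (S.half x + t.1) - S.half x, by
    have h : σ • (x.1 : Pic0 Qb FQ) = x.1 := x.2 σ
    have h2 := smul_add σ (S.half x + t.1) (S.half x + t.1)
    rw [add_add_add_comm, t.2, add_zero, S.half_add_half, h] at h2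
    rw [sub_add_sub_comm, ← h2, S.half_add_half, sub_self]⟩
  map_one' := funext fun t => Subtype.ext (by simp [Function.End.one_def])
  map_mul' σ τ := funext fun t => Subtype.ext (by
    show (σ * τ) • (S.half x + t.1) - S.half x
      = σ • (S.half x + (τ • (S.half x + t.1) - S.half x)) - S.half x
    rw [add_sub_cancel, mul_smul])

lemma fibreHom_eq_one {x : S.ratPts} {σ : Γ}
    (h : ∀ t : S.Tor2, σ • (S.half x + t.1) = S.half x + t.1) : S.fibreHom x σ = 1 :=
  funext fun t => Subtype.ext (by
    show σ • (S.half x + t.1) - S.half x = t.1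
    rw [h, add_sub_cancel_left])

lemma exists_level : ∃ U : Subgroup Γ, U.FiniteIndex ∧
    ∀ (x : S.ratPts) (s : Γ), s ∈ U → S.fibreHom x s = 1 := by
  classical
  have : Finite S.Tor2 := S.finite_torsion_Qb.to_subtype
  have : Finite (Function.End S.Tor2) := inferInstanceAs (Finite (S.Tor2 → S.Tor2))
  obtain ⟨M, hM0, hM⟩ := S.exists_bad_primes
  let Ps : Finset Nat.Primes := M.primeFactors.subtype Nat.Prime
  obtain ⟨U, hU, hUN⟩ := Deform.exists_level_forall_hom Ps (Function.End S.Tor2)
  refine ⟨U, (GalCoh.levelsS Ps).finiteIndex hU, fun x s hs => ?_⟩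
  refine hUN (S.fibreHom x) ?_ s hs
  -- the kernel is open
  choose F hF hFfix using fun t : S.Tor2 => S.exists_field_fixing (S.half x + t.1)
  have := hF
  have := Fintype.ofFinite S.Tor2
  let F₀ : IntermediateField ℚ Qb := ⨆ t, F t
  have : FiniteDimensional ℚ F₀ := IntermediateField.finiteDimensional_iSup_of_finite
  set H := (S.fibreHom x).ker with hH
  have hle : F₀.fixingSubgroup ≤ H := fun σ hσ => S.fibreHom_eq_one fun t =>
    hFfix t σ (IntermediateField.fixingSubgroup_antitone (le_iSup F t) hσ)
  have hopen : IsOpen (H : Set Γ) := Subgroup.isOpen_mono hle F₀.fixingSubgroup_isOpen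
  let F' := IntermediateField.fixedField H
  have hfix : F'.fixingSubgroup = H :=
    InfiniteGalois.fixingSubgroup_fixedField ⟨H, H.isClosed_of_isOpen hopen⟩
  have hFle : F' ≤ F₀ := by
    rw [← InfiniteGalois.fixedField_fixingSubgroup F₀]
    exact IntermediateField.fixedField_antitone hle
  have : FiniteDimensional ℚ F' :=
    FiniteDimensional.of_injective (IntermediateField.inclusion hFle).toLinearMap
      (IntermediateField.inclusion_injective hFle)
  refine ⟨F'.fixingSubgroup, ⟨F', ⟨inferInstance, fun q hq A hA τ hτ => ?_⟩, le_rfl⟩,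
    fun σ hσ => by rw [hfix] at hσ; exact hσ⟩
  rw [hfix]
  refine S.fibreHom_eq_one fun t => hM _ τ A (fun ρ => ?_) ?_
    (FreyReducible.mem_inertiaSubgroupIn_iff A τ |>.mp hτ).2
  · show ρ • (S.half x + t.1 + (S.half x + t.1)) = _
    rw [add_add_add_comm, t.2, add_zero, S.half_add_half]
    exact x.2 ρ
  · intro hMA
    have hqM : ¬ (q : ℕ) ∣ M := fun h => hq (Finset.mem_subtype.mpr
      (Nat.mem_primeFactors.mpr ⟨q.2, h, hM0⟩))
    obtain ⟨u, v, huv⟩ := Nat.Coprime.isCoprime ((q.2.coprime_iff_not_dvd).mpr hqM)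
    rw [ValuationSubring.mem_nonunits_iff] at hMA
    have hq1 := (ValuationSubring.mem_nonunits_iff _).mp hA
    have h1 : A.valuation ((u : Qb) * (q : ℕ) + (v : Qb) * (M : Qb)) < 1 := by
      refine A.valuation.map_add_lt ?_ ?_ <;> rw [map_mul]
      · exact mul_lt_one_of_nonneg_of_lt_one_right
          ((A.valuation_le_one_iff _).mpr (intCast_mem A u)) zero_le hq1
      · exact mul_lt_one_of_nonneg_of_lt_one_right
          ((A.valuation_le_one_iff _).mpr (intCast_mem A v)) zero_le hMA
    have : ((u : Qb) * (q : ℕ) + (v : Qb) * (M : Qb)) = 1 := by exact_mod_cast huv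
    rw [this, map_one] at h1
    exact lt_irrefl _ h1

/-- **Weak Mordell–Weil**: rational classes modulo doubles are finite. -/
theorem weak_mordell_weil :
    (nsmulAddMonoidHom (α := S.ratPts) 2).range.FiniteIndex := by
  classical
  have : Finite S.Tor2 := S.finite_torsion_Qb.to_subtype
  have : Finite (Function.End S.Tor2) := inferInstanceAs (Finite (S.Tor2 → S.Tor2))
  obtain ⟨U, hUfin, hU⟩ := S.exists_level
  have := hUfin
  refine ⟨?_⟩
  set R := (nsmulAddMonoidHom (α := S.ratPts) 2).range
  have : Finite (S.ratPts ⧸ R) := by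
    refine Finite.of_injective (β := Γ ⧸ U → Function.End S.Tor2)
      (fun c q => S.fibreHom (Quotient.out c) q.out) fun c c' h => ?_
    set x := Quotient.out c
    set x' := Quotient.out c'
    have key : ∀ σ : Γ, S.fibreHom x σ = S.fibreHom x' σ := by
      intro σ
      obtain ⟨s, hs⟩ := QuotientGroup.mk_out_eq_mul U σ
      have h1 := congrFun h (QuotientGroup.mk σ)
      simp only at h1
      rw [hs, map_mul, map_mul, hU x s s.2, hU x' s s.2, mul_one, mul_one] at h1
      exact h1
    have hfix : ∀ σ : Γ, σ • (S.half x - S.half x') = S.half x - S.half x' := by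
      intro σ
      have h1 := congrArg Subtype.val (congrFun (key σ) ⟨0, add_zero 0⟩)
      change σ • (S.half x + 0) - S.half x = σ • (S.half x' + 0) - S.half x' at h1
      rw [add_zero, add_zero, sub_eq_sub_iff_sub_eq_sub] at h1
      exact (smul_sub σ (S.half x) (S.half x')).trans h1
    rw [← QuotientAddGroup.out_eq' c, ← QuotientAddGroup.out_eq' c', QuotientAddGroup.eq_iff_sub_mem]
    refine ⟨⟨S.half x - S.half x', hfix⟩, Subtype.ext ?_⟩
    rw [nsmulAddMonoidHom_apply, two_nsmul]
    show S.half x - S.half x' + (S.half x - S.half x') = x.1 - x'.1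
    rw [sub_add_sub_comm, S.half_add_half, S.half_add_half]
  exact AddSubgroup.index_ne_zero_of_finite

end Setup

end Fermat.Agent.MWJ0

end
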